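import Fermat.Agent.TW.TQEquiv
import Fermat.Agent.TWDeg.BaseTW

/-!
The modules of level `Γ₀(n)`: finiteness, relations, the change of excluded primes.
-/

set_option autoImplicit false
set_option linter.unusedSectionVars false

noncomputable section

namespace Fermat.Agent.TW

open IsLocalRing Module Matrix Fermat.Agent.DefRing Polynomial Fermat.Agent.TWDeg
open CongruenceSubgroup

/-- the module of level `Γ₀(n)` -/
abbrev HG (m n : ℕ) (hn : n ∣ m) (O : Type) [CommRing O] : Type :=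
  (Stg.gamma0 n hn (one_dvd m)).H (triv 1 O O)

section Transport

variable {D : Type} [CommGroup D] {W : TWD D} {m : ℕ} (hM : W.M ∣ m) {O : Type} [CommRing O]

theorem exists_baseTW {k : ℕ} (hk : k = W.N * W.dd) (hkm : k ∣ m) :
    Nonempty ((XF hM).H (funRep (M := W.M) O O W.Y0) ≃ₗ[TPoly m O] HG m k hkm O) := by
  subst hk
  exact ⟨baseTW W hM O O⟩

include hM in
theorem HG.finite' [IsNoetherianRing O] {k : ℕ} (hk : k = W.N * W.dd) (hkm : k ∣ m) :
    Module.Finite O (HG m k hkm O) := by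
  obtain ⟨e⟩ := exists_baseTW hM (O := O) hk hkm
  have : Fintype W.Y0 := Fintype.ofFinite _
  have h1 := finite_H hM (Y := W.Y0) O (O := O)
  exact Module.Finite.of_surjective (e.restrictScalars O).toLinearMap
    (e.restrictScalars O).surjective

include hM in
/-- relations, up to an Eisenstein factor -/
theorem HG.kill' [IsDomain O] [CharZero O] {k : ℕ} [NeZero k] (hk : k = W.N * W.dd) (hkm : k ∣ m)
    (hnm : ∀ q : ℕ, q.Prime → q ∣ k → q ∣ m) (hES : HeckeHom.ES k) (P : TPoly m ℤ)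
    (hP : polyHecke (n := k) hnm P = 0) (l : Pr m) (hl : ((l : ℕ) : ZMod W.M) = 1)
    (x : HG m k hkm O) : (eis O l * (TWD.Shap.pz m O P * eis O l)) • x = 0 := by
  obtain ⟨e⟩ := exists_baseTW hM (O := O) hk hkm
  subst hk
  let E := AlgebraicClosure (FractionRing O)
  have : CharZero E := charZero_of_injective_algebraMap
    (algebraMap (FractionRing O) E).injective
  have hinj : Function.Injective (algebraMap O E) := by
    rw [IsScalarTower.algebraMap_eq O (FractionRing O) E]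
    exact (algebraMap (FractionRing O) E).injective.comp (IsFractionRing.injective O _)
  have h1 := W.shap_bor.kill_E hM hnm O E hES P hP l hl
  have h3 := kill_coef (M := W.M) hM hinj _ h1 l hl
  obtain ⟨y, rfl⟩ := e.surjective x
  have h4 := h3 y
  rw [← map_smul, h4, map_zero]

end Transport

/-- the datum without Taylor–Wiles primes -/
def W0 (n : ℕ) (hn : n ≠ 0) : TWD Unit where
  N := n
  Q := ∅
  χ _ := 1
  tws := ⟨hn, fun _ h => absurd h (Finset.notMem_empty _), fun _ h =>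
    absurd h (Finset.notMem_empty _)⟩
  surj _ h := absurd h (Finset.notMem_empty _)
  odd := by simp

theorem W0_M (n : ℕ) (hn : n ≠ 0) : (W0 n hn).M = n := by
  change n * ∏ q ∈ (∅ : Finset ℕ), q = n
  rw [Finset.prod_empty, mul_one]

theorem W0_lev (n : ℕ) (hn : n ≠ 0) : n = (W0 n hn).N * (W0 n hn).dd := by
  change n = n * ∏ q ∈ (∅ : Finset ℕ), q
  rw [Finset.prod_empty, mul_one]

section HG

variable {m n : ℕ} (hn0 : n ≠ 0) (hn : n ∣ m) {O : Type} [CommRing O]

theorem W0_dvd (hn : n ∣ m) : (W0 n hn0).M ∣ m := by rw [W0_M]; exact hn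

include hn0 in
theorem HG.finite [IsNoetherianRing O] : Module.Finite O (HG m n hn O) :=
  HG.finite' (W0_dvd hn0 hn) (W0_lev n hn0) hn

theorem HG.kill [IsDomain O] [CharZero O] [NeZero n]
    (hnm : ∀ q : ℕ, q.Prime → q ∣ n → q ∣ m) (hES : HeckeHom.ES n) (P : TPoly m ℤ)
    (hP : polyHecke (n := n) hnm P = 0) (l : Pr m) (hl : ((l : ℕ) : ZMod n) = 1)
    (x : HG m n hn O) : (eis O l * (TWD.Shap.pz m O P * eis O l)) • x = 0 := by
  have hn0 : n ≠ 0 := NeZero.ne n
  refine HG.kill' (W0_dvd hn0 hn) (W0_lev n hn0) hn hnm hES P hP l ?_ x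
  have h1 := W0_M n hn0
  obtain ⟨k, hk⟩ : ∃ k, (W0 n hn0).M = k := ⟨_, rfl⟩
  rw [hk] at h1 ⊢
  subst h1
  exact hl

/-- `H¹` with trivial coefficients -/
def z2h {Γ 𝒢 : Type} [Group Γ] [Group 𝒢] (ι : Γ →* 𝒢) (A : Type) [AddCommGroup A] [Module O A] :
    Z1 ι (1 : Representation O 𝒢 A) →ₗ[O] (Additive Γ →+ A) where
  toFun f :=
    { toFun := fun γ => f.1 (Additive.toMul γ)
      map_zero' := Z1.one f
      map_add' := fun a b => by
        change f.1 (Additive.toMul a * Additive.toMul b) = _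
        rw [Z1.mul]
        rfl }
  map_add' _ _ := rfl
  map_smul' _ _ := rfl

/-- the module of level `Γ₀(n)` has no torsion -/
theorem HG.smul_eq_zero [IsDomain O] (a : O) (x : HG m n hn O) (ha : a ≠ 0) (hx : a • x = 0) :
    x = 0 := by
  obtain ⟨f, hf⟩ : ∃ f : Z1 ((Lvl.gamma0 n).ι 1) (triv 1 O O),
      (H1.mk ((Lvl.gamma0 n).ι 1) (triv 1 O O) f : H1 ((Lvl.gamma0 n).ι 1) (triv 1 O O)) = x :=
    (Stg.gamma0 n hn (one_dvd m)).mk_surj x
  have h1 : (H1.mk ((Lvl.gamma0 n).ι 1) (triv 1 O O) (a • f)) = 0 := by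
    rw [map_smul, hf]; exact hx
  rw [H1.mk_eq_zero] at h1
  obtain ⟨v, hv⟩ := h1
  have h2 : f = 0 := by
    apply Subtype.ext
    funext γ
    have h3 := congrArg (fun z : Z1 ((Lvl.gamma0 n).ι 1) (triv 1 O O) => z.1 γ) hv
    change (triv 1 O O ((Lvl.gamma0 n).ι 1 γ)) v - v = a * f.1 γ at h3
    rw [triv_apply, Module.End.one_apply, sub_self] at h3
    rcases mul_eq_zero.mp h3.symm with h4 | h4
    · exact absurd h4 ha
    · exact h4
  rw [← hf, h2]
  exact map_zero (H1.mk ((Lvl.gamma0 n).ι 1) (triv 1 O O))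

/-- torsion-freeness of the localisation -/
theorem Loc.smul_eq_zero' {m : ℕ} {𝔪 : Ideal (TPoly m O)} [𝔪.IsPrime] {N : Type} [AddCommGroup N]
    [Module (TPoly m O) N] [Module O N] [IsScalarTower O (TPoly m O) N]
    (h : ∀ (a : O) (x : N), a ≠ 0 → a • x = 0 → x = 0) (a : O) (x : Loc 𝔪 N) (ha : a ≠ 0)
    (hx : a • x = 0) : x = 0 := by
  obtain ⟨s, hs, n, hn⟩ := Loc.exists_smul x
  have h1 : Loc.mk 𝔪 N (a • n) = 0 := by
    rw [Loc.mk_smul, ← hn, smul_comm, hx, smul_zero]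
  obtain ⟨t, ht, h2⟩ := Loc.mk_eq_zero.mp h1
  rw [smul_comm] at h2
  have h3 := h a _ ha h2
  have h4 : Loc.mk 𝔪 N n = 0 := Loc.mk_eq_zero.mpr ⟨t, ht, h3⟩
  exact Loc.eq_zero_of_smul hs (hn.trans h4)

/-- relations on the localisation -/
theorem HG.rel [IsDomain O] [CharZero O] [NeZero n] {𝔪 : Ideal (TPoly m O)} [𝔪.IsPrime]
    (hnm : ∀ q : ℕ, q.Prime → q ∣ n → q ∣ m) (hES : HeckeHom.ES n) (h𝔪 : NonEis n 𝔪)
    (P : TPoly m ℤ) (hP : polyHecke (n := n) hnm P = 0) (x : Loc 𝔪 (HG m n hn O)) :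
    TWD.Shap.pz m O P • x = 0 := by
  obtain ⟨l, hl, hl𝔪⟩ := h𝔪
  refine kill_loc 𝔪 l hl𝔪 2 _ (fun x => ?_) x
  have h4 := HG.kill hn hnm hES P hP l hl x
  have h5 : eis O l * (TWD.Shap.pz m O P * eis O l) = eis O l ^ 2 * TWD.Shap.pz m O P := by ring
  rw [h5] at h4
  exact h4

end HG

section Change

variable {m m' n : ℕ} (hmm : m ∣ m') (hn : n ∣ m) {O : Type} [CommRing O]

/-- change of the excluded primes -/
def hgE : HG m' n (hn.trans hmm) O ≃+ HG m n hn O :=
  (AddEquiv.refl (H1 ((Lvl.gamma0 n).ι 1) (triv 1 O O)) :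
    H1 ((Lvl.gamma0 n).ι 1) (triv 1 O O) ≃+ H1 ((Lvl.gamma0 n).ι 1) (triv 1 O O))

theorem hgE_smul (P : TPoly m' O) (x : HG m' n (hn.trans hmm) O) :
    hgE hmm hn (P • x) = inc hmm O P • hgE hmm hn x := by
  induction P using MvPolynomial.induction_on generalizing x with
  | C a =>
    rw [Stg.C_smul, inc_C, Stg.C_smul]
    rfl
  | add P Q hP hQ => rw [add_smul, map_add, map_add, add_smul, hP, hQ]
  | mul_X P l hP =>
    rw [mul_smul, hP, map_mul, mul_smul, inc_X, Stg.X_smul, Stg.X_smul]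
    rfl

/-- the Hecke operator at a prime which is excluded for `m'` but not for `m` -/
theorem hgE_Tg (l : Pr m) (x : HG m' n (hn.trans hmm) O) :
    hgE hmm hn (Tg (one_dvd m') (triv 1 O O) n (hn.trans hmm) l.2.1 (l.coprime hn)
      (l.coprime (one_dvd m)) x) = (MvPolynomial.X l : TPoly m O) • hgE hmm hn x := by
  rw [Stg.X_smul, Tg_apply]
  rfl

end Change

end Fermat.Agent.TW

end
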