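import Fermat.Agent.TW.Par
import Fermat.Agent.HeckeHom.Theta

/-!
Relations in the Hecke algebra of level `Γ₀(e·d)` hold on the cohomology of Taylor-Wiles level.
-/

set_option autoImplicit false
set_option linter.unusedSectionVars false

noncomputable section

namespace Fermat.Agent.TW

open scoped MatrixGroups
open CongruenceSubgroup ModularCurve.Period HeckeHom

/-- the excluded set of primes -/
def SS (m : ℕ) : Set ℕ := {q | q ∣ m}

section Poly

variable {m n : ℕ} [NeZero n] (hnm : ∀ q : ℕ, q.Prime → q ∣ n → q ∣ m)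

/-- the free algebra maps to the polynomial ring. -/
def frP : FreeAlgebra ℤ (Idx n (SS m)) →ₐ[ℤ] TPoly m ℤ :=
  FreeAlgebra.lift ℤ fun i => MvPolynomial.X ⟨i.1, i.2.1, i.2.2.2⟩

include hnm in
theorem frP_surjective : Function.Surjective (frP (m := m) (n := n)) := by
  rw [← AlgHom.range_eq_top, eq_top_iff, ← MvPolynomial.adjoin_range_X, Algebra.adjoin_le_iff]
  rintro _ ⟨l, rfl⟩
  have hl : l.1 ∉ SS m := l.2.2
  refine ⟨FreeAlgebra.ι ℤ ⟨l.1, l.2.1, fun h => l.2.2 (hnm _ l.2.1 h), hl⟩, ?_⟩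
  exact FreeAlgebra.lift_ι_apply _ _

/-- the polynomial ring maps onto the Hecke algebra. -/
def polyHecke : TPoly m ℤ →ₐ[ℤ] CuspForm.heckeAlgebra n 2 (SS m) :=
  MvPolynomial.aeval fun l => CuspForm.heckeAlgebra.T l.2.1 (fun h => l.2.2 (hnm _ l.2.1 h)) l.2.2

theorem polyHecke_X (l : Pr m) : polyHecke hnm (MvPolynomial.X l) =
    CuspForm.heckeAlgebra.T l.2.1 (fun h => l.2.2 (hnm _ l.2.1 h)) l.2.2 := by
  rw [polyHecke, MvPolynomial.aeval_X]

include hnm in
theorem hS_of : ∀ q : ℕ, q.Prime → q ∣ n → q ∈ SS m := fun q hq h => hnm q hq h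

theorem polyHecke_frP (x : FreeAlgebra ℤ (Idx n (SS m))) :
    polyHecke hnm (frP x) = toHecke (hS_of hnm) x := by
  have : (polyHecke hnm).comp frP = toHecke (hS_of hnm) := by
    ext i
    simp only [Function.comp_apply, AlgHom.comp_apply]
    rw [frP, FreeAlgebra.lift_ι_apply, polyHecke_X, toHecke_ι (hS_of hnm) i.2.1 i.2.2.1 i.2.2.2]
  exact DFunLike.congr_fun this x

theorem polyHecke_surjective : Function.Surjective (polyHecke hnm) := by
  intro T
  obtain ⟨x, rfl⟩ := toHecke_surjective (hS_of hnm) T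
  exact ⟨frP x, polyHecke_frP hnm x⟩

end Poly

namespace TWD.Shap

variable {D : Type} [CommGroup D] {W : TWD D} {t : ℕ → LT} {e : ℕ} (S : W.Shap t e)
  {m : ℕ} (hM : W.M ∣ m) (hnm : ∀ q : ℕ, q.Prime → q ∣ e * W.dd → q ∣ m)

/-- extension of scalars of polynomials -/
abbrev pz (m : ℕ) (R : Type) [CommRing R] : TPoly m ℤ →+* TPoly m R :=
  MvPolynomial.map (Int.castRingHom R)

section

variable (R E : Type) [CommRing R] [CommRing E] [Algebra R E] [NeZero (e * W.dd)]

include hnm in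
/-- compatibility of the polynomial action with `actPar` -/
theorem equiv_frP (x : FreeAlgebra ℤ (Idx (e * W.dd) (SS m))) :
    ∀ (z : (XF hM).H (funRep (M := W.M) R E (W.Yt t)))
      (ψ : parabolicHoms E (Gamma0 (e * W.dd)) E),
      (ψ : Additive (Gamma0 (e * W.dd)) →+ E) = S.equiv hM R E z →
      (actPar (e * W.dd) (SS m) E E x ψ : Additive (Gamma0 (e * W.dd)) →+ E) =
        S.equiv hM R E (pz m R (frP x) • z) := by
  induction x using FreeAlgebra.induction with
  | grade0 n =>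
    intro z ψ h
    rw [AlgHom.commutes, AlgHom.commutes, Module.algebraMap_end_apply]
    have e1 : ((n • ψ : parabolicHoms E (Gamma0 (e * W.dd)) E) :
        Additive (Gamma0 (e * W.dd)) →+ E) = n • (ψ : Additive (Gamma0 (e * W.dd)) →+ E) := rfl
    rw [e1, h]
    have e2 : pz m R (algebraMap ℤ (TPoly m ℤ) n) • z = n • z := by
      rw [MvPolynomial.algebraMap_eq, MvPolynomial.map_C, Stg.C_smul]
      change ((n : ℤ) : R) • z = n • z
      rw [Int.cast_smul_eq_zsmul]
    rw [e2, map_zsmul]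
  | grade1 i =>
    intro z ψ h
    rw [actPar, FreeAlgebra.lift_ι_apply, coe_parHecke, h, frP, FreeAlgebra.lift_ι_apply,
      MvPolynomial.map_X, Stg.X_smul]
    exact (S.equiv_T hM R E ⟨i.1, i.2.1, i.2.2.2⟩ i.2.2.1 z).symm
  | mul x y hx hy =>
    intro z ψ h
    rw [map_mul, map_mul, map_mul, mul_smul]
    exact hx _ _ (hy _ _ h)
  | add x y hx hy =>
    intro z ψ h
    rw [map_add, map_add, map_add, add_smul, map_add, LinearMap.add_apply, Submodule.coe_add,
      hx _ _ h, hy _ _ h]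

variable [CharZero E] [IsAddTorsionFree E]

include S in
/-- a polynomial vanishing in the Hecke algebra of `Γ₀(n)`, times an Eisenstein factor,
kills `H¹(Fun(Y_t, E))`. -/
theorem kill_E (hES : ES (e * W.dd)) (p : TPoly m ℤ) (hp : polyHecke hnm p = 0) (l : Pr m)
    (hl : ((l : ℕ) : ZMod W.M) = 1) (x : (XF hM).H (funRep (M := W.M) R E (W.Yt t))) :
    (pz m R p * (MvPolynomial.X l - MvPolynomial.C (((l : ℕ) : R) + 1))) • x = 0 := by
  obtain ⟨z, rfl⟩ := frP_surjective hnm p
  rw [polyHecke_frP, toHecke_eq_zero_iff hES (hS_of hnm) E] at hp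
  have hpar := S.parabolic hM R E (fun n a hn h => by
    have h1 := IsAddTorsionFree.nsmul_right_injective (M := E) hn
    exact h1 (by simpa using h)) l hl x
  have h1 : (MvPolynomial.X l - MvPolynomial.C (((l : ℕ) : R) + 1) : TPoly m R) • x =
      (XF hM).T _ l x - ((l : ℕ) + 1) • x := by
    rw [sub_smul, Stg.X_smul, Stg.C_smul, ← Nat.cast_succ, Nat.cast_smul_eq_nsmul]
  rw [mul_smul, h1]
  apply (S.equiv hM R E).injective
  rw [← S.equiv_frP hM hnm R E z ((XF hM).T _ l x - ((l : ℕ) + 1) • x) ⟨_, hpar⟩ rfl, hp, map_zero]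
  rfl

end

end TWD.Shap

theorem kill_congr {m M : ℕ} (hM : M ∣ m) (R E : Type) [CommRing R] [AddCommGroup E] [Module R E]
    {K K' : Subgroup (GL (Fin 2) (ZMod M))} (h : K = K') (p : TPoly m R)
    (hp : ∀ x : (XF hM).H (funRep (M := M) R E (GL (Fin 2) (ZMod M) ⧸ K)), p • x = 0) :
    ∀ x : (XF hM).H (funRep (M := M) R E (GL (Fin 2) (ZMod M) ⧸ K')), p • x = 0 := by
  subst h
  exact hp

section Iter

variable {D : Type} [CommGroup D] [Fintype D] (W : TWD D) {m : ℕ} (hM : W.M ∣ m)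
  (R E : Type) [CommRing R] [Field E] [Algebra R E] [CharZero E] [IsAlgClosed E]

/-- the Eisenstein factor -/
abbrev eis (l : Pr m) : TPoly m R := MvPolynomial.X l - MvPolynomial.C (((l : ℕ) : R) + 1)

/-- mixed types -/
def mixT (C : Finset ℕ) (q : ℕ) : LT := if q ∈ C then .chi else .tor

theorem mixT_empty : mixT ∅ = fun _ => LT.tor := by
  funext q
  rw [mixT, if_neg (Finset.notMem_empty q)]

theorem mixT_insert (C : Finset ℕ) (q : ℕ) :
    mixT (insert q C) = Function.update (mixT C) q .chi := by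
  funext q'
  by_cases h : q' = q
  · subst h
    rw [Function.update_self, mixT, if_pos (Finset.mem_insert_self _ _)]
  · rw [Function.update_of_ne h, mixT, mixT]
    simp only [Finset.mem_insert, h, false_or]

theorem mixT_update (C : Finset ℕ) {q : ℕ} (hq : q ∉ C) :
    Function.update (mixT C) q .tor = mixT C := by
  funext q'
  by_cases h : q' = q
  · subst h
    rw [Function.update_self, mixT, if_neg hq]
  · rw [Function.update_of_ne h]

theorem kill_mix (p : TPoly m R)
    (hp : ∀ x : (XF hM).H (funRep (M := W.M) R E (W.Yt fun _ => .tor)), p • x = 0)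
    (l : Pr m) (hl : ((l : ℕ) : ZMod W.M) = 1) (C : Finset ℕ) (hC : C ⊆ W.Q) :
    ∀ x : (XF hM).H (funRep (M := W.M) R E (W.Yt (mixT C))), (eis R l ^ C.card * p) • x = 0 := by
  classical
  induction C using Finset.induction_on with
  | empty =>
    rw [mixT_empty, Finset.card_empty, pow_zero, one_mul]
    exact hp
  | insert q C hq ih =>
    have hqQ : q ∈ W.Q := hC (Finset.mem_insert_self _ _)
    have : Fact q.Prime := ⟨W.tws.prime q hqQ⟩
    have ih' := ih fun x hx => hC (Finset.mem_insert_of_mem hx)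
    let TD := mkTwist (t := mixT C) (χ := W.χ) W.tws hqQ (W.surj q hqQ)
    have h1 := TD.kill R (E := E) hM W.odd (W.surj q hqQ) (eis R l ^ C.card * p) (by
      rw [mixT_update C hq]
      exact ih') l hl
    rw [mixT_insert, Finset.card_insert_of_notMem hq]
    intro x
    rw [pow_succ', mul_assoc]
    exact h1 x

theorem Yt_congr {t t' : ℕ → LT} (h : ∀ q ∈ W.Q, t q = t' q) : W.K t = W.K t' := by
  apply le_antisymm
  · exact lvl_mono fun q hq => by rw [h q hq]
  · exact lvl_mono fun q hq => by rw [h q hq]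

theorem kill_chi (p : TPoly m R)
    (hp : ∀ x : (XF hM).H (funRep (M := W.M) R E (W.Yt fun _ => .tor)), p • x = 0)
    (l : Pr m) (hl : ((l : ℕ) : ZMod W.M) = 1)
    (x : (XF hM).H (funRep (M := W.M) R E W.YQ)) : (eis R l ^ W.Q.card * p) • x = 0 := by
  have h1 := kill_mix W hM R E p hp l hl W.Q (Finset.Subset.refl _)
  have h2 : W.K (mixT W.Q) = W.K fun _ => .chi := Yt_congr W fun q hq => by
    rw [mixT, if_pos hq]
  exact kill_congr hM R E h2 _ h1 x

end Iter

section Coef

variable {M m : ℕ} (hM : M ∣ m) {R E Y : Type} [CommRing R] [CommRing E] [Algebra R E]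
  [MulAction (GL (Fin 2) (ZMod M)) Y]

/-- descent of the coefficients -/
theorem kill_coef (hRE : Function.Injective (algebraMap R E)) (p : TPoly m R)
    (hp : ∀ x : (XF hM).H (funRep (M := M) R E Y), p • x = 0)
    (l : Pr m) (hl : ((l : ℕ) : ZMod M) = 1) (x : (XF hM).H (funRep (M := M) R R Y)) :
    (eis R l * p) • x = 0 := by
  have h1 : (XF hM).map (coef (M := M) Y (Algebra.linearMap R E)) (p • x) = 0 := by
    rw [map_smul, hp]
  rw [mul_smul, sub_smul, Stg.X_smul, Stg.C_smul,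
    (XF hM).eisenstein infl_funRep _ (fun F F' h => funext fun y => hRE (congrFun h y))
      ⟨ModularGroup.T, rfl⟩ l hl _ h1, ← Nat.cast_succ, Nat.cast_smul_eq_nsmul, sub_self]

/-- localisation at a non-Eisenstein ideal -/
theorem kill_loc (𝔪 : Ideal (TPoly m R)) [𝔪.IsPrime] {N : Type} [AddCommGroup N]
    [Module (TPoly m R) N] (l : Pr m) (hl : eis R l ∉ 𝔪) (k : ℕ) (p : TPoly m R)
    (hp : ∀ x : N, (eis R l ^ k * p) • x = 0) (x : Loc 𝔪 N) : p • x = 0 := by
  obtain ⟨s, hs, n, hn⟩ := Loc.exists_smul x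
  have hk : eis R l ^ k ∉ 𝔪 := fun h => hl ((inferInstance : 𝔪.IsPrime).mem_of_pow_mem _ h)
  apply Loc.eq_zero_of_smul hk
  apply Loc.eq_zero_of_smul hs
  have h1 : s • eis R l ^ k • p • x = (eis R l ^ k * p) • (s • x) := by
    rw [← mul_smul, ← mul_smul, ← mul_smul]
    congr 1
    ring
  rw [h1, hn, ← map_smul, hp, map_zero]

end Coef

section Main

variable {D : Type} [CommGroup D] [Fintype D] (W : TWD D) {m : ℕ} (hM : W.M ∣ m)
  (hnm : ∀ q : ℕ, q.Prime → q ∣ W.N * W.dd * W.dd → q ∣ m)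
  {O : Type} [CommRing O] [IsDomain O] [CharZero O] (𝔪 : Ideal (TPoly m O)) [𝔪.IsPrime]

/-- **Relations in the Hecke algebra of level `Γ₀(N ∏ q²)` hold on the Taylor–Wiles module.** -/
theorem TWD.rel_YQ [NeZero (W.N * W.dd * W.dd)] (hES : HeckeHom.ES (W.N * W.dd * W.dd))
    (h𝔪 : NonEis W.M 𝔪) (p : TPoly m ℤ) (hp : polyHecke hnm p = 0)
    (x : Loc 𝔪 ((XF hM).H (funRep (M := W.M) O O W.YQ))) : TWD.Shap.pz m O p • x = 0 := by
  let E := AlgebraicClosure (FractionRing O)
  have : CharZero E := charZero_of_injective_algebraMap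
    (algebraMap (FractionRing O) E).injective
  obtain ⟨l, hl, hl𝔪⟩ := h𝔪
  have hinj : Function.Injective (algebraMap O E) := by
    rw [IsScalarTower.algebraMap_eq O (FractionRing O) E]
    exact (algebraMap (FractionRing O) E).injective.comp (IsFractionRing.injective O _)
  have h1 := W.shap_tor.kill_E hM hnm O E hES p hp l hl
  have h2 := kill_chi W hM O E _ h1 l hl
  have h3 := kill_coef (M := W.M) hM hinj _ h2 l hl
  refine kill_loc 𝔪 l hl𝔪 (W.Q.card + 2) _ (fun x => ?_) x
  have h4 := h3 x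
  have h5 : eis O l * (eis O l ^ W.Q.card * (TWD.Shap.pz m O p *
    (MvPolynomial.X l - MvPolynomial.C (((l : ℕ) : O) + 1)))) =
    eis O l ^ (W.Q.card + 2) * TWD.Shap.pz m O p := by ring
  rw [h5] at h4
  exact h4

/-- **Relations in the Hecke algebra of level `Γ₀(e d)` hold on `H¹(Fun(Y_t, O))_𝔪`.** -/
theorem TWD.Shap.rel {W : TWD D} {t : ℕ → LT} {e : ℕ} (S : W.Shap t e) (hM : W.M ∣ m)
    (hnm : ∀ q : ℕ, q.Prime → q ∣ e * W.dd → q ∣ m) [NeZero (e * W.dd)]
    (hES : HeckeHom.ES (e * W.dd))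
    (h𝔪 : NonEis W.M 𝔪) (p : TPoly m ℤ) (hp : polyHecke hnm p = 0)
    (x : Loc 𝔪 ((XF hM).H (funRep (M := W.M) O O (W.Yt t)))) : TWD.Shap.pz m O p • x = 0 := by
  let E := AlgebraicClosure (FractionRing O)
  have : CharZero E := charZero_of_injective_algebraMap
    (algebraMap (FractionRing O) E).injective
  obtain ⟨l, hl, hl𝔪⟩ := h𝔪
  have hinj : Function.Injective (algebraMap O E) := by
    rw [IsScalarTower.algebraMap_eq O (FractionRing O) E]
    exact (algebraMap (FractionRing O) E).injective.comp (IsFractionRing.injective O _)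
  have h1 := S.kill_E hM hnm O E hES p hp l hl
  have h3 := kill_coef (M := W.M) hM hinj _ h1 l hl
  refine kill_loc 𝔪 l hl𝔪 2 _ (fun x => ?_) x
  have h4 := h3 x
  have h5 : eis O l * (TWD.Shap.pz m O p *
    (MvPolynomial.X l - MvPolynomial.C (((l : ℕ) : O) + 1))) =
    eis O l ^ 2 * TWD.Shap.pz m O p := by ring
  rw [h5] at h4
  exact h4

end Main

end Fermat.Agent.TW

end
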