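import Fermat.Agent.TW.OPt

/-!
Quotients of Hecke algebras are reduced.
-/

set_option autoImplicit false
set_option linter.unusedSectionVars false

noncomputable section

open scoped TensorProduct
open IsLocalRing

namespace Fermat.Agent.TW

/-- base change of a reduced finite torsion-free ring to a field of characteristic zero -/
theorem formallyUnramified_base (h : Type) [CommRing h] [Module.Finite ℤ h] [IsAddTorsionFree h]
    [IsReduced h] (K : Type) [Field K] [CharZero K] :
    Algebra.FormallyUnramified K (K ⊗[ℤ] h) := by
  have hB : IsReduced (ℚ ⊗[ℤ] h) := HeckeGal.isReduced_rat_tensor h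
  have hBu : Algebra.FormallyUnramified ℚ (ℚ ⊗[ℤ] h) :=
    HeckeGal.formallyUnramified_of_isReduced ℚ _
  have hCu : Algebra.FormallyUnramified K (K ⊗[ℚ] (ℚ ⊗[ℤ] h)) := inferInstance
  exact Algebra.FormallyUnramified.of_equiv
    (Algebra.TensorProduct.cancelBaseChange ℤ ℚ K K h)

theorem isReduced_of_adjoin (K : Type) [Field K] [CharZero K] (C : Type) [CommRing C]
    [Algebra K C] [Module.Finite K C] (h : Type) [CommRing h] [Module.Finite ℤ h]
    [IsAddTorsionFree h] [IsReduced h] (g : h →+* C)
    (hadj : Algebra.adjoin K (Set.range g) = ⊤) : IsReduced C := by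
  have hu := formallyUnramified_base h K
  let f : K ⊗[ℤ] h →ₐ[K] C :=
    Algebra.TensorProduct.lift (Algebra.ofId K C) g.toIntAlgHom fun _ _ => Commute.all _ _
  have hf : ∀ x : h, f (1 ⊗ₜ x) = g x := by
    intro x
    change Algebra.TensorProduct.lift _ _ _ (1 ⊗ₜ x) = _
    rw [Algebra.TensorProduct.lift_tmul, map_one, one_mul]
    rfl
  have hsurj : Function.Surjective f := by
    rw [← AlgHom.range_eq_top, eq_top_iff, ← hadj, Algebra.adjoin_le_iff]
    rintro _ ⟨x, rfl⟩
    exact ⟨_, hf x⟩
  have hu' : Algebra.FormallyUnramified K C := Algebra.FormallyUnramified.of_surjective f hsurj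
  exact HeckeGal.isReduced_of_formallyUnramified K _

/-- **Reducedness.** -/
theorem isReduced_of_hecke (O : Type) [CommRing O] [IsDomain O] [CharZero O] (T : Type) [CommRing T]
    [Algebra O T] [Module.Finite O T] [Module.Free O T] (h : Type) [CommRing h] [Module.Finite ℤ h]
    [IsAddTorsionFree h] [IsReduced h] (π : h →+* T)
    (hadj : Algebra.adjoin O (Set.range π) = ⊤) : IsReduced T := by
  have hK : CharZero (FractionRing O) :=
    charZero_of_injective_algebraMap (IsFractionRing.injective O (FractionRing O))
  let ι : T →ₐ[O] FractionRing O ⊗[O] T := Algebra.TensorProduct.includeRight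
  have h1 : ∀ t : T, ι t ∈ Algebra.adjoin (FractionRing O)
      (Set.range ((ι : T →+* FractionRing O ⊗[O] T).comp π)) := by
    intro t
    have ht : t ∈ Algebra.adjoin O (Set.range π) := by rw [hadj]; trivial
    induction ht using Algebra.adjoin_induction with
    | mem x hx =>
      obtain ⟨x, rfl⟩ := hx
      exact Algebra.subset_adjoin ⟨x, rfl⟩
    | algebraMap o =>
      rw [AlgHom.commutes, IsScalarTower.algebraMap_apply O (FractionRing O)]
      exact Subalgebra.algebraMap_mem _ _
    | add x y _ _ hx hy => rw [map_add]; exact add_mem hx hy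
    | mul x y _ _ hx hy => rw [map_mul]; exact mul_mem hx hy
  have hred : IsReduced (FractionRing O ⊗[O] T) := by
    refine isReduced_of_adjoin (FractionRing O) (FractionRing O ⊗[O] T) h
      ((ι : T →+* FractionRing O ⊗[O] T).comp π) ?_
    rw [eq_top_iff]
    intro x _
    induction x using TensorProduct.induction_on with
    | zero => exact zero_mem _
    | tmul a t =>
      have h2 : a ⊗ₜ[O] t = a • ι t := by
        change _ = a • ((1 : FractionRing O) ⊗ₜ[O] t)
        rw [TensorProduct.smul_tmul', smul_eq_mul, mul_one]
      rw [h2]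
      exact Subalgebra.smul_mem _ (h1 t) a
    | add x y hx hy => exact add_mem (hx trivial) (hy trivial)
  exact isReduced_of_injective (ι : T →+* FractionRing O ⊗[O] T) (frac_inj O T)

end Fermat.Agent.TW

end
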