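import Fermat.Agent.TW.GlueT
import Fermat.Agent.TW.RedHecke
import Fermat.Agent.TW.Alg
import Fermat.Agent.RT8.Sys

/-!
Hecke algebras of Hecke modules.
-/

set_option autoImplicit false
set_option linter.unusedSectionVars false

noncomputable section

namespace Fermat.Agent.TW

open IsLocalRing Module Matrix Fermat.Agent.DefRing Polynomial

section Alg

variable {m : ℕ} {O : Type} [CommRing O] {M : Type} [AddCommGroup M] [Module (TPoly m O) M]
  [Module O M] [IsScalarTower O (TPoly m O) M]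

variable (m O M) in
/-- the Hecke algebra of a Hecke module -/
abbrev TH : Type := TPoly m O ⧸ Module.annihilator (TPoly m O) M

theorem TH.mk_eq_zero {P : TPoly m O} :
    (Ideal.Quotient.mk _ P : TH m O M) = 0 ↔ ∀ x : M, P • x = 0 := by
  rw [Ideal.Quotient.eq_zero_iff_mem, Module.mem_annihilator]

theorem TH.finite [IsNoetherianRing O] [Module.Finite O M] : Module.Finite O (TH m O M) := by
  let f : TH m O M →ₗ[O] Module.End O M := ((Module.annihilator (TPoly m O) M).restrictScalars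
    O).liftQ (Algebra.lsmul O O M : TPoly m O →ₐ[O] Module.End O M).toLinearMap (by
      intro b hb
      rw [LinearMap.mem_ker]
      refine LinearMap.ext fun x => ?_
      exact Module.mem_annihilator.mp hb x)
  have hf : Function.Injective f := by
    rw [← LinearMap.ker_eq_bot, LinearMap.ker_eq_bot']
    intro b hb
    obtain ⟨b, rfl⟩ := Ideal.Quotient.mk_surjective b
    refine Ideal.Quotient.eq_zero_iff_mem.mpr (Module.mem_annihilator.mpr fun x => ?_)
    exact DFunLike.congr_fun hb x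
  exact Module.Finite.of_injective f hf

theorem TH.smul_eq_zero_of (htf : ∀ (a : O) (x : M), a ≠ 0 → a • x = 0 → x = 0) (a : O)
    (t : TH m O M) (ha : a ≠ 0) (h : a • t = 0) : t = 0 := by
  obtain ⟨P, rfl⟩ := Ideal.Quotient.mk_surjective t
  have h1 : (Ideal.Quotient.mk _ (a • P) : TH m O M) = 0 := h
  rw [TH.mk_eq_zero] at h1 ⊢
  intro x
  have h2 := h1 x
  rw [smul_assoc] at h2
  exact htf a _ ha h2

theorem TH.free [IsDomain O] [IsPrincipalIdealRing O] [Module.Finite O M]
    (htf : ∀ (a : O) (x : M), a ≠ 0 → a • x = 0 → x = 0) : Module.Free O (TH m O M) := by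
  have h1 := TH.finite (m := m) (O := O) (M := M)
  have h2 : Module.IsTorsionFree O (TH m O M) := ⟨fun r hr x y hxy => by
    have h3 : r • (x - y) = 0 := by
      rw [smul_sub, sub_eq_zero]
      exact hxy
    exact sub_eq_zero.mp (TH.smul_eq_zero_of htf r _ hr.ne_zero h3)⟩
  exact Module.free_of_finite_type_torsion_free'

variable {𝔪 : Ideal (TPoly m O)} [𝔪.IsMaximal]
  (hbij : ∀ s ∉ 𝔪, Function.Bijective (fun x : M => s • x))

include hbij in
theorem ann_le [Nontrivial M] : Module.annihilator (TPoly m O) M ≤ 𝔪 := by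
  intro s hs
  by_contra h
  obtain ⟨x, hx⟩ := exists_ne (0 : M)
  rw [Module.mem_annihilator] at hs
  exact hx ((hbij s h).1 ((hs x).trans (hs 0).symm))

include hbij in
theorem TH.isUnit_of [Module.Finite O M] {s : TPoly m O} (hs : s ∉ 𝔪) :
    IsUnit (Ideal.Quotient.mk _ s : TH m O M) := by
  by_contra h
  obtain ⟨𝔫', hmax, hmem⟩ := exists_max_ideal_of_mem_nonunits h
  have hmax' : (𝔫'.comap (Ideal.Quotient.mk (Module.annihilator (TPoly m O) M))).IsMaximal :=
    Ideal.comap_isMaximal_of_surjective _ Ideal.Quotient.mk_surjective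
  obtain ⟨𝔫, h𝔫⟩ : ∃ 𝔫, 𝔫'.comap (Ideal.Quotient.mk (Module.annihilator (TPoly m O) M)) = 𝔫 :=
    ⟨_, rfl⟩
  rw [h𝔫] at hmax'
  have hann : Module.annihilator (TPoly m O) M ≤ 𝔫 := by
    rw [← h𝔫]
    intro x hx
    rw [Ideal.mem_comap, Ideal.Quotient.eq_zero_iff_mem.mpr hx]
    exact zero_mem _
  have hs𝔫 : s ∈ 𝔫 := by rw [← h𝔫]; exact hmem
  have hfin : Module.Finite (TPoly m O) M := Module.Finite.of_restrictScalars_finite O _ M
  obtain ⟨r, hr, hr0⟩ := Submodule.exists_sub_one_mem_and_smul_eq_zero_of_fg_of_le_smul 𝔫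
    (⊤ : Submodule (TPoly m O) M) hfin.fg_top (by
      intro x _
      obtain ⟨y, rfl⟩ := (hbij s hs).2 x
      exact Submodule.smul_mem_smul hs𝔫 trivial)
  have h1 : r ∈ 𝔫 := hann (Module.mem_annihilator.mpr fun x => hr0 x trivial)
  have h2 := 𝔫.sub_mem h1 hr
  rw [sub_sub_cancel] at h2
  exact hmax'.ne_top (𝔫.eq_top_of_isUnit_mem h2 isUnit_one)

include hbij in
theorem TH.not_isUnit [Nontrivial M] {s : TPoly m O} (hs : s ∈ 𝔪) :
    ¬ IsUnit (Ideal.Quotient.mk _ s : TH m O M) := by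
  intro h
  obtain ⟨t, ht⟩ := h.exists_left_inv
  obtain ⟨t, rfl⟩ := Ideal.Quotient.mk_surjective t
  rw [← map_mul, ← map_one (Ideal.Quotient.mk _), Ideal.Quotient.eq] at ht
  have h1 := ann_le hbij ht
  have h2 := 𝔪.sub_mem (𝔪.mul_mem_left t hs) h1
  rw [sub_sub_cancel] at h2
  exact (inferInstance : 𝔪.IsMaximal).ne_top (𝔪.eq_top_of_isUnit_mem h2 isUnit_one)

include hbij in
theorem TH.isLocalRing [Nontrivial M] [Module.Finite O M] : IsLocalRing (TH m O M) := by
  have hnt : Nontrivial (TH m O M) := Ideal.Quotient.nontrivial_iff.mpr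
    (ne_top_of_le_ne_top (inferInstance : 𝔪.IsMaximal).ne_top (ann_le hbij))
  refine IsLocalRing.of_isUnit_or_isUnit_one_sub_self fun t => ?_
  obtain ⟨s, rfl⟩ := Ideal.Quotient.mk_surjective t
  by_cases hs : s ∈ 𝔪
  · right
    rw [← map_one (Ideal.Quotient.mk _), ← map_sub]
    refine TH.isUnit_of hbij fun h => ?_
    have h2 := 𝔪.add_mem h hs
    rw [sub_add_cancel] at h2
    exact (inferInstance : 𝔪.IsMaximal).ne_top (𝔪.eq_top_of_isUnit_mem h2 isUnit_one)
  · left
    exact TH.isUnit_of hbij hs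

end Alg

section Res

variable {m : ℕ} {O : Type} [CommRing O] [IsLocalRing O]

/-- the maximal ideal corresponding to a residual representation -/
structure ResId (rbar : GQ →* M2 (ResidueField O)) (𝔪 : Ideal (TPoly m O)) : Prop where
  cmem : ∀ a ∈ maximalIdeal O, (MvPolynomial.C a : TPoly m O) ∈ 𝔪
  tmem : ∀ (l : Pr m) (B : ValuationSubring (AlgebraicClosure ℚ)), B.LiesOverPrime l →
    ∀ τ : GQ, B.IsFrobeniusAt τ l → ∀ o : O, residue O o = (rbar τ).trace →
      (MvPolynomial.X l - MvPolynomial.C o : TPoly m O) ∈ 𝔪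

end Res

section PolyHecke

variable {m n : ℕ} [NeZero n] (hnm : ∀ q : ℕ, q.Prime → q ∣ n → q ∣ m)

/-- the map to the Hecke algebra, for a finite set of excluded primes -/
theorem exists_polyHecke (S : Set ℕ) (hS : S = SS m) : ∃ f : TPoly m ℤ →ₐ[ℤ]
    CuspForm.heckeAlgebra n 2 S, Function.Surjective f ∧
      (∀ (l : ℕ) (hl : l.Prime) (hlN : ¬ l ∣ n) (hlS : l ∉ S) (hlm : ¬ l ∣ m),
        f (MvPolynomial.X ⟨l, hl, hlm⟩) = CuspForm.heckeAlgebra.T hl hlN hlS) ∧
      ∀ P, f P = 0 ↔ polyHecke hnm P = 0 := by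
  subst hS
  exact ⟨polyHecke hnm, polyHecke_surjective hnm, fun l hl hlN hlS hlm => polyHecke_X hnm _,
    fun P => Iff.rfl⟩

theorem coe_divisors (hm : m ≠ 0) : ((m.divisors : Finset ℕ) : Set ℕ) = SS m := by
  ext q
  simp [SS, hm]

end PolyHecke

section Main

variable (h30 : HeckeGal.S30Statement) {p n m : ℕ} [Fact p.Prime] [NeZero n] (hm : m ≠ 0)
  (hpm : p ∣ m) (hnm : ∀ q : ℕ, q.Prime → q ∣ n → q ∣ m)
  {O : Type} [CommRing O] [IsDomain O] [IsDiscreteValuationRing O]
  [IsAdicComplete (maximalIdeal O) O] [Finite (ResidueField O)] [CharZero O]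
  (hpO : (p : O) ∈ maximalIdeal O) {rbar : GQ →* M2 (ResidueField O)} (sd : SliceData rbar)
  (hspan : Submodule.span (ResidueField O) (Set.range rbar) = ⊤)
  (hrbar : ∃ L : IntermediateField ℚ (AlgebraicClosure ℚ), FiniteDimensional ℚ L ∧
      ∀ σ : GQ, (∀ x ∈ L, σ x = x) → rbar σ = 1)
  {M : Type} [AddCommGroup M] [Module (TPoly m O) M] [Module O M] [IsScalarTower O (TPoly m O) M]
  [Module.Finite O M] [Nontrivial M] {𝔪 : Ideal (TPoly m O)} [𝔪.IsMaximal]

/-- The Hecke algebra of a module, with its Galois representation. -/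
structure HRep (p n : ℕ) {m : ℕ} {O : Type} [CommRing O] [IsLocalRing O]
    {rbar : GQ →* M2 (ResidueField O)} (sd : SliceData rbar) (M : Type) [AddCommGroup M]
    [Module (TPoly m O) M] [Module O M] where
  /-- the ring and the representation -/
  C : RT8.Cpt sd
  /-- the action -/
  φ : TPoly m O →ₐ[O] C.T
  surj : Function.Surjective φ
  ker : ∀ P, φ P = 0 ↔ ∀ x : M, P • x = 0
  tr : ∀ (l : Pr m) (B : ValuationSubring (AlgebraicClosure ℚ)), B.LiesOverPrime l →
    ∀ τ : GQ, B.IsFrobeniusAt τ l → (C.r τ).trace = φ (MvPolynomial.X l) ∧ (C.r τ).det = (l : ℕ)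
  unr : UnrNp p n C.r
  adj : Algebra.adjoin O {x : C.T | ∃ σ i j, x = C.r σ i j} = ⊤
  free : Module.Free O C.T
  red : IsReduced C.T
  /-- the relations in the Hecke algebra -/
  rel : ∀ (hnm : ∀ q : ℕ, q.Prime → q ∣ n → q ∣ m) [NeZero n] (P : TPoly m ℤ),
    polyHecke (n := n) hnm P = 0 → φ (TWD.Shap.pz m O P) = 0

include h30 hm hpm hnm hpO hspan hrbar in
/-- **The Hecke algebra of a Hecke module and its Galois representation.** -/
theorem exists_hrep (hbij : ∀ s ∉ 𝔪, Function.Bijective (fun x : M => s • x))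
    (h𝔪 : ResId rbar 𝔪) (htf : ∀ (a : O) (x : M), a ≠ 0 → a • x = 0 → x = 0)
    (hrel : ∀ P : TPoly m ℤ, polyHecke (n := n) hnm P = 0 →
      ∀ x : M, TWD.Shap.pz m O P • x = 0) :
    Nonempty (HRep (m := m) p n sd M) := by
  obtain ⟨f, hf, hfT, hf0⟩ := exists_polyHecke (n := n) hnm _ (coe_divisors hm)
  have hfin := TH.finite (m := m) (O := O) (M := M)
  have hfree := TH.free (m := m) (O := O) (M := M) htf
  have hlocal := TH.isLocalRing (m := m) (O := O) (M := M) hbij
  have hloc : IsLocalHom (algebraMap O (TH m O M)) := by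
    constructor
    intro a ha
    by_contra h
    exact TH.not_isUnit (m := m) (O := O) (M := M) hbij (h𝔪.cmem a h) ha
  -- the map from the Hecke algebra
  let π₀ : TPoly m ℤ →+* TH m O M := (Ideal.Quotient.mk _).comp (TWD.Shap.pz m O)
  let f₀ : TPoly m ℤ →+* CuspForm.heckeAlgebra n 2 ((m.divisors : Finset ℕ) : Set ℕ) := f
  have hker : RingHom.ker f₀ ≤ RingHom.ker π₀ := by
    intro P hP
    have h1 : f P = 0 := hP
    rw [hf0] at h1
    rw [RingHom.mem_ker]
    exact TH.mk_eq_zero.mpr (hrel P h1)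
  let π : CuspForm.heckeAlgebra n 2 ((m.divisors : Finset ℕ) : Set ℕ) →+* TH m O M :=
    f₀.liftOfSurjective hf ⟨π₀, hker⟩
  have hπ : ∀ P, π (f P) = Ideal.Quotient.mk _ (TWD.Shap.pz m O P) := fun P =>
    RingHom.liftOfRightInverse_comp_apply _ _ _ ⟨π₀, hker⟩ P
  have hπT : ∀ (l : ℕ) (hl : l.Prime) (hlN : ¬ l ∣ n)
      (hlS : l ∉ ((m.divisors : Finset ℕ) : Set ℕ)) (hlm : ¬ l ∣ m),
      π (CuspForm.heckeAlgebra.T hl hlN hlS) = Ideal.Quotient.mk _ (MvPolynomial.X ⟨l, hl, hlm⟩) := by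
    intro l hl hlN hlS hlm
    rw [← hfT l hl hlN hlS hlm, hπ, MvPolynomial.map_X]
  have hlm' : ∀ l : ℕ, l ∉ ((m.divisors : Finset ℕ) : Set ℕ) → ¬ l ∣ m := by
    intro l hl h
    apply hl
    rw [coe_divisors hm]
    exact h
  have hadj : Algebra.adjoin O (Set.range π) = ⊤ := by
    rw [eq_top_iff]
    intro t _
    obtain ⟨P, rfl⟩ := Ideal.Quotient.mk_surjective t
    induction P using MvPolynomial.induction_on with
    | C a => exact Subalgebra.algebraMap_mem _ a
    | add P Q hP hQ => rw [map_add]; exact add_mem (hP trivial) (hQ trivial)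
    | mul_X P l hP =>
      rw [map_mul]
      refine mul_mem (hP trivial) (Algebra.subset_adjoin ⟨f (MvPolynomial.X l), ?_⟩)
      rw [hπ, MvPolynomial.map_X]
  have hhfin := Period.finite_heckeAlgebra n 2 ((m.divisors : Finset ℕ) : Set ℕ)
  have hNS : ∀ q : ℕ, q.Prime → q ∣ n → q ∈ m.divisors := fun q hq h =>
    Nat.mem_divisors.mpr ⟨hnm q hq h, hm⟩
  have hhred := HeckeGal.isReduced_heckeAlgebra (N := n) hNS
  have hred : IsReduced (TH m O M) := isReduced_of_hecke O (TH m O M) _ π hadj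
  have hres : ResCond rbar π := by
    intro l hl hlN hlS B hB τ hτ o ho
    rw [hπT l hl hlN hlS (hlm' l hlS)]
    exact TH.not_isUnit (m := m) (O := O) (M := M) hbij
      (h𝔪.tmem ⟨l, hl, hlm' l hlS⟩ B hB τ hτ o ho)
  obtain ⟨r, hc, hr, hn, hatt, hunr, hadj'⟩ := exists_rep h30
    (Nat.mem_divisors.mpr ⟨hpm, hm⟩) hNS hpO sd hspan hrbar π hadj hres
  refine ⟨{ C := { T := TH m O M, r := r, cont := hc, red := hr, norm := hn }
            φ := Ideal.Quotient.mkₐ O _
            surj := Ideal.Quotient.mk_surjective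
            ker := fun P => TH.mk_eq_zero
            tr := ?_
            unr := hunr
            adj := hadj'
            free := hfree
            red := hred
            rel := ?_ }⟩
  · intro l B hB τ hτ
    have hlS : l.1 ∉ ((m.divisors : Finset ℕ) : Set ℕ) := by
      rw [coe_divisors hm]
      exact l.2.2
    have h1 := hatt l.1 l.2.1 (fun h => l.2.2 (hnm _ l.2.1 h)) hlS B hB τ hτ
    rw [hπT l.1 l.2.1 _ hlS l.2.2] at h1
    exact h1
  · intro hnm' _ P hP
    exact TH.mk_eq_zero.mpr (hrel P hP)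

end Main

end Fermat.Agent.TW

end
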