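import Fermat.Agent.TW.OPt

/-!
Points with values in a field factor through discrete valuation rings.
-/

set_option autoImplicit false
set_option linter.unusedSectionVars false

noncomputable section

open IsLocalRing

namespace Fermat.Agent.TW

variable (O : Type) [CommRing O] [IsDomain O] [IsDiscreteValuationRing O]
  [IsAdicComplete (maximalIdeal O) O] [Finite (ResidueField O)] [CharZero O]
  (T : Type) [CommRing T] [Algebra O T] [Module.Finite O T]

theorem exists_opt_of_field' (L : Type) [Field L] [Algebra (FractionRing O) L]
    [FiniteDimensional (FractionRing O) L] [Algebra O L] [IsScalarTower O (FractionRing O) L]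
    (f : T →ₐ[O] L) : ∃ (pt : OPt O T) (ι : pt.A →ₐ[O] L), Function.Injective ι ∧
      ∀ a, ι (pt.χ a) = f a := by
  have hloc := QuadRep.isLocalRing_integralClosure O (FractionRing O) L
  have hdvr := QuadRep.isDiscreteValuationRing_integralClosure O (FractionRing O) L
  have hcomp := QuadRep.isAdicComplete_integralClosure O (FractionRing O) L
  have hfin := QuadRep.finite_residueField_integralClosure O (FractionRing O) L
  have hfin' := QuadRep.finite_integralClosure O (FractionRing O) L
  have hch := QuadRep.charZero_integralClosure O (FractionRing O) L
  have hlochom := QuadRep.isLocalHom_integralClosure O (FractionRing O) L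
  have hint : ∀ a, IsIntegral O (f a) := fun a =>
    (Algebra.IsIntegral.isIntegral (R := O) a).map f
  let pt : OPt O T :=
    { A := integralClosure O L
      isDVR := hdvr
      isAdicComplete := hcomp
      finiteResidueField := hfin
      charZero := hch
      finite := hfin'
      isLocalHom := hlochom
      χ := f.codRestrict (integralClosure O L) hint }
  exact ⟨pt, (integralClosure O L).val, Subtype.val_injective, fun a => rfl⟩

/-- **Points with values in a field of characteristic zero.** -/
theorem exists_opt_embed (E : Type) [Field E] [Algebra O E]
    (hOE : Function.Injective (algebraMap O E)) (f : T →ₐ[O] E) :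
    ∃ (pt : OPt O T) (ι : pt.A →ₐ[O] E), Function.Injective ι ∧ ∀ a, ι (pt.χ a) = f a := by
  classical
  let _ : Algebra (FractionRing O) E := (IsFractionRing.lift hOE).toAlgebra
  have htow : IsScalarTower O (FractionRing O) E := IsScalarTower.of_algebraMap_eq fun x => by
    change _ = IsFractionRing.lift hOE (algebraMap O (FractionRing O) x)
    rw [IsFractionRing.lift_algebraMap]
  obtain ⟨G, hG⟩ := (inferInstance : Module.Finite O T).fg_top
  let L : IntermediateField (FractionRing O) E :=
    IntermediateField.adjoin (FractionRing O) ((G.image f : Finset E) : Set E)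
  have hint : ∀ a, IsIntegral (FractionRing O) (f a) := fun a =>
    ((Algebra.IsIntegral.isIntegral (R := O) a).map f).tower_top
  have hfd : FiniteDimensional (FractionRing O) L := by
    refine IntermediateField.finiteDimensional_adjoin fun x hx => ?_
    rw [Finset.mem_coe, Finset.mem_image] at hx
    obtain ⟨a, -, rfl⟩ := hx
    exact hint a
  have hmem : ∀ a, f a ∈ L := by
    intro a
    have ha : a ∈ Submodule.span O (G : Set T) := by rw [hG]; trivial
    induction ha using Submodule.span_induction with
    | mem a ha =>
      exact IntermediateField.subset_adjoin _ _ (by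
        rw [Finset.mem_coe, Finset.mem_image]
        exact ⟨a, ha, rfl⟩)
    | zero => rw [map_zero]; exact zero_mem _
    | add a b _ _ ha hb => rw [map_add]; exact add_mem ha hb
    | smul c a _ ha =>
      rw [map_smul, ← algebraMap_smul (FractionRing O) c (f a)]
      exact L.smul_mem ha
  let _ : Algebra O L := ((algebraMap (FractionRing O) L).comp
    (algebraMap O (FractionRing O))).toAlgebra
  have htow' : IsScalarTower O (FractionRing O) L := IsScalarTower.of_algebraMap_eq fun _ => rfl
  have halg : ∀ c : O, ((algebraMap O L c : L) : E) = algebraMap O E c := fun c => by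
    rw [IsScalarTower.algebraMap_apply O (FractionRing O) E]
    rfl
  let fL : T →ₐ[O] L :=
    { toFun := fun a => ⟨f a, hmem a⟩
      map_one' := Subtype.ext (map_one f)
      map_mul' := fun a b => Subtype.ext (map_mul f a b)
      map_zero' := Subtype.ext (map_zero f)
      map_add' := fun a b => Subtype.ext (map_add f a b)
      commutes' := fun c => Subtype.ext (by rw [halg]; exact f.commutes c) }
  obtain ⟨pt, ι, hι, hpt⟩ := exists_opt_of_field' O T L fL
  let jL : L →ₐ[O] E :=
    { L.val.toRingHom with
      commutes' := fun c => halg c }
  refine ⟨pt, jL.comp ι, (Subtype.val_injective).comp hι, fun a => ?_⟩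
  rw [AlgHom.comp_apply, hpt]
  rfl

end Fermat.Agent.TW

end
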