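import Mathlib.Algebra.Polynomial.AlgebraMap
import Mathlib.LinearAlgebra.Isomorphisms
import Mathlib.LinearAlgebra.Semisimple
import Mathlib.RingTheory.Polynomial.Cyclotomic.Basic
import Mathlib.FieldTheory.IsAlgClosed.AlgebraicClosure
import Mathlib.RingTheory.Localization.FractionRing
import Mathlib.LinearAlgebra.TensorProduct.Tower
import Mathlib.RingTheory.DiscreteValuationRing.Basic
import Mathlib.LinearAlgebra.FreeModule.PID

/-!
Comparison of two actions of a cyclic `p`-group: `(δ - 1) M = (θ - 1) M`.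
-/

set_option autoImplicit false

noncomputable section

namespace Fermat.Agent.TW

open Polynomial

section Range

variable {B M : Type} [CommRing B] [AddCommGroup M] [Module B M] (d t : B) {P : ℕ}

theorem pow_smul_of_unip {d : B} {x u : M} (h1 : d • x = x + u) (h2 : d • u = u) (k : ℕ) :
    d ^ k • x = x + k • u := by
  induction k with
  | zero => simp
  | succ k ih =>
    rw [pow_succ', mul_smul, ih, smul_add, h1, smul_comm, h2, succ_nsmul]
    abel

theorem exists_range_eq (hP : P ≠ 0) (hd : ∀ x : M, d ^ P • x = x)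
    (htf : ∀ (n : ℕ) (x : M), n ≠ 0 → n • x = 0 → x = 0)
    (hsat : ∀ (n : ℕ) (x y : M), n ≠ 0 → (d - 1) • y = n • x → ∃ z, (d - 1) • z = x)
    (hfix : ∀ x : M, d • x = x → t • x = x) (J : Finset ℕ)
    (hJ : ∀ x : M, (∏ j ∈ J, (d - t ^ j)) • x = 0) (y : M) :
    (∃ x, (d - 1) • x = y) ↔ ∃ x, (t - 1) • x = y := by
  classical
  let D : M →ₗ[B] M := LinearMap.lsmul B M (d - 1)
  let T : M →ₗ[B] M := LinearMap.lsmul B M (t - 1)
  have hD : ∀ x, D x = (d - 1) • x := fun _ => rfl
  have hT : ∀ x, T x = (t - 1) • x := fun _ => rfl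
  have hker : LinearMap.ker D ≤ LinearMap.ker T := by
    intro x hx
    rw [LinearMap.mem_ker, hD, sub_smul, one_smul, sub_eq_zero] at hx
    rw [LinearMap.mem_ker, hT, sub_smul, one_smul, sub_eq_zero]
    exact hfix x hx
  -- Step 1
  have hrange : ∀ x, T x ∈ LinearMap.range D := by
    intro x
    obtain ⟨g, hg⟩ : (d - 1) ∣ ((P : B) - ∑ i ∈ Finset.range P, d ^ i) := by
      have h1 : (P : B) - ∑ i ∈ Finset.range P, d ^ i = - ∑ i ∈ Finset.range P, (d ^ i - 1) := by
        rw [Finset.sum_sub_distrib, Finset.sum_const, Finset.card_range, nsmul_eq_mul, mul_one]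
        ring
      rw [h1]
      refine (Finset.dvd_sum fun i _ => ?_).neg_right
      simpa using sub_dvd_pow_sub_pow d 1 i
    have h2 : d • (∑ i ∈ Finset.range P, d ^ i) • x = (∑ i ∈ Finset.range P, d ^ i) • x := by
      have h3 : (d - 1) * (∑ i ∈ Finset.range P, d ^ i) = d ^ P - 1 := by
        rw [mul_comm, geom_sum_mul]
      have h4 : ((d - 1) * (∑ i ∈ Finset.range P, d ^ i)) • x = 0 := by
        rw [h3, sub_smul, one_smul, hd, sub_self]
      rw [mul_smul, sub_smul, one_smul, sub_eq_zero] at h4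
      exact h4
    have h5 := hfix _ h2
    have h6 : (d - 1) • (t - 1) • g • x = (t - 1) • ((P : B) - ∑ i ∈ Finset.range P, d ^ i) • x := by
      rw [hg]
      simp only [smul_smul]
      congr 1
      ring
    have h7 : (t - 1) • (∑ i ∈ Finset.range P, d ^ i) • x = 0 := by
      rw [sub_smul, one_smul, h5, sub_self]
    obtain ⟨z, hz⟩ := hsat P (T x) ((t - 1) • g • x) hP (by
      rw [h6, sub_smul (P : B), smul_sub, h7, sub_zero, smul_comm, Nat.cast_smul_eq_nsmul, hT])
    exact ⟨z, hz⟩
  -- the endomorphism `φ`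
  let T' : M →ₗ[B] LinearMap.range D := T.codRestrict _ hrange
  have hk : LinearMap.ker D ≤ LinearMap.ker T' := fun x hx => Subtype.ext (hker hx)
  let φ : LinearMap.range D →ₗ[B] LinearMap.range D :=
    ((LinearMap.ker D).liftQ T' hk) ∘ₗ D.quotKerEquivRange.symm.toLinearMap
  have hφ : ∀ x, φ ⟨D x, ⟨x, rfl⟩⟩ = T' x := by
    intro x
    change (LinearMap.ker D).liftQ T' hk (D.quotKerEquivRange.symm ⟨D x, ⟨x, rfl⟩⟩) = T' x
    have h1 : D.quotKerEquivRange.symm ⟨D x, ⟨x, rfl⟩⟩ = (LinearMap.ker D).mkQ x := by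
      rw [LinearEquiv.symm_apply_eq]
      rfl
    rw [h1]
    rfl
  -- injectivity of `d - 1` on the range
  have hinj : ∀ y : LinearMap.range D, (d - 1) • y = 0 → y = 0 := by
    rintro ⟨y, x, rfl⟩ h
    have h1 : (d - 1) • D x = 0 := congrArg Subtype.val h
    rw [sub_smul, one_smul, sub_eq_zero] at h1
    have h2 : d • x = x + D x := by
      rw [hD, sub_smul, one_smul]
      abel
    have h3 := pow_smul_of_unip h2 h1 P
    rw [hd, left_eq_add] at h3
    exact Subtype.ext (htf P _ hP h3)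
  have hinj' : ∀ (n : ℕ) (y : LinearMap.range D), (d - 1) ^ n • y = 0 → y = 0 := by
    intro n
    induction n with
    | zero => intro y h; simpa using h
    | succ n ih =>
      intro y h
      rw [pow_succ', mul_smul] at h
      exact ih y (hinj _ h)
  have hφd : ∀ y, (d - 1) • φ y = (t - 1) • y := by
    intro y
    rw [← map_smul]
    have h1 : (d - 1) • y = ⟨D y, ⟨y, rfl⟩⟩ := Subtype.ext rfl
    rw [h1, hφ]
    exact Subtype.ext rfl
  -- the polynomial
  let s : ℕ → B := fun j => ∑ i ∈ Finset.range j, t ^ i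
  let F : B[X] := ∏ j ∈ J, (1 - C (s j) * X)
  let mod : Module B[X] (LinearMap.range D) := Module.compHom _ (aeval φ).toRingHom
  have smul_def : ∀ (a : B[X]) y, a • y = aeval φ a y := fun _ _ => rfl
  have C_smul : ∀ (a : B) (y : LinearMap.range D), (C a : B[X]) • y = a • y := by
    intro a y
    rw [smul_def, aeval_C, Module.algebraMap_end_apply]
  have X_smul : ∀ (y : LinearMap.range D), (X : B[X]) • y = φ y := by
    intro y
    rw [smul_def, aeval_X]
  have hF : ∀ y : LinearMap.range D, F • y = 0 := by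
    intro y
    apply hinj' J.card
    have h1 : ∀ j (y : LinearMap.range D), (C (d - 1) * (1 - C (s j) * X) : B[X]) • y =
        (C (d - t ^ j) : B[X]) • y := by
      intro j y
      have e1 : (1 - C (s j) * X : B[X]) • y = y - s j • φ y := by
        rw [sub_smul, one_smul, mul_smul, C_smul, X_smul]
      rw [mul_smul, C_smul, C_smul, e1, smul_sub, smul_comm (d - 1) (s j), hφd, smul_smul,
        geom_sum_mul, ← sub_smul]
      congr 1
      ring
    have h2 : ∀ (J' : Finset ℕ) (y : LinearMap.range D),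
        (∏ j ∈ J', (C (d - 1) * (1 - C (s j) * X)) : B[X]) • y =
          (C (∏ j ∈ J', (d - t ^ j)) : B[X]) • y := by
      intro J'
      induction J' using Finset.induction_on with
      | empty => intro y; simp
      | insert j J' hj ih =>
        intro y
        rw [Finset.prod_insert hj, Finset.prod_insert hj, mul_smul, ih, h1, C_mul, mul_smul]
    have h3 := h2 J y
    rw [Finset.prod_mul_distrib, Finset.prod_const, ← C_pow, mul_smul, C_smul, C_smul] at h3
    rw [h3]
    exact Subtype.ext (hJ y)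
  obtain ⟨G, hG⟩ : X ∣ 1 - F := by
    rw [X_dvd_iff, coeff_sub, coeff_zero_eq_eval_zero, coeff_zero_eq_eval_zero, eval_one,
      eval_prod]
    simp
  have hsurj : ∀ y : LinearMap.range D, φ (G • y) = y := by
    intro y
    rw [← X_smul, ← mul_smul, ← hG, sub_smul, one_smul, hF, sub_zero]
  constructor
  · rintro ⟨x, hx⟩
    obtain ⟨⟨_, z, rfl⟩, hz⟩ : ∃ z, φ z = ⟨y, x, hx⟩ := ⟨_, hsurj _⟩
    rw [hφ] at hz
    exact ⟨z, congrArg Subtype.val hz⟩
  · rintro ⟨x, rfl⟩
    exact hrange x

end Range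

section Points

variable {O B M E : Type} [CommRing O] [IsDomain O] [IsNoetherianRing O] [CommRing B] [Algebra O B]
  [AddCommGroup M] [Module O M] [Module B M] [IsScalarTower O B M] [Module.Finite O M]
  [Field E] [IsAlgClosed E] [Algebra O E]

/-- If `β` is not nilpotent on `M` then some point of the algebra does not kill `β`. -/
theorem exists_point (hOE : Function.Injective (algebraMap O E))
    (htf : ∀ (a : O) (x : M), a ≠ 0 → a • x = 0 → x = 0) (β : B)
    (hβ : ∀ k : ℕ, ∃ x : M, β ^ k • x ≠ 0) :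
    ∃ χ : B →ₐ[O] E, (∀ b, (∀ x : M, b • x = 0) → χ b = 0) ∧ χ β ≠ 0 := by
  classical
  let I : Ideal B := Module.annihilator B M
  have hI : ∀ b, b ∈ I ↔ ∀ x : M, b • x = 0 := fun b => Module.mem_annihilator
  let S : Submonoid B :=
    { carrier := {b | ∃ (a : O) (k : ℕ), a ≠ 0 ∧ b = algebraMap O B a * β ^ k}
      one_mem' := ⟨1, 0, one_ne_zero, by simp⟩
      mul_mem' := by
        rintro _ _ ⟨a, k, ha, rfl⟩ ⟨a', k', ha', rfl⟩
        exact ⟨a * a', k + k', mul_ne_zero ha ha', by rw [map_mul, pow_add]; ring⟩ }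
  have hdisj : Disjoint (I : Set B) S := by
    rw [Set.disjoint_left]
    rintro _ hb ⟨a, k, ha, rfl⟩
    obtain ⟨x, hx⟩ := hβ k
    have h1 := (hI _).mp hb x
    rw [mul_smul, algebraMap_smul] at h1
    exact hx (htf a _ ha h1)
  obtain ⟨𝔭, h𝔭, hI𝔭, hd⟩ := Ideal.exists_le_prime_disjoint I S hdisj
  rw [Set.disjoint_left] at hd
  -- finiteness
  have hfin : Module.Finite O (B ⧸ I) := by
    let f : B ⧸ I →ₗ[O] Module.End O M := (I.restrictScalars O).liftQ
      (Algebra.lsmul O O M : B →ₐ[O] Module.End O M).toLinearMap (by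
        intro b hb
        rw [LinearMap.mem_ker]
        refine LinearMap.ext fun x => ?_
        exact (hI b).mp hb x)
    have hf : Function.Injective f := by
      rw [← LinearMap.ker_eq_bot, LinearMap.ker_eq_bot']
      intro b hb
      obtain ⟨b, rfl⟩ := Ideal.Quotient.mk_surjective b
      refine Ideal.Quotient.eq_zero_iff_mem.mpr ((hI b).mpr fun x => ?_)
      exact DFunLike.congr_fun hb x
    exact Module.Finite.of_injective f hf
  have hint : Algebra.IsIntegral O (B ⧸ 𝔭) := by
    have h1 : Algebra.IsIntegral O (B ⧸ I) := inferInstance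
    refine ⟨fun x => ?_⟩
    obtain ⟨b, rfl⟩ := Ideal.Quotient.mk_surjective x
    have h2 := h1.isIntegral (Ideal.Quotient.mk I b)
    exact h2.map (Ideal.Quotient.factorₐ O hI𝔭)
  have hinj : Function.Injective (algebraMap O (B ⧸ 𝔭)) := by
    rw [injective_iff_map_eq_zero]
    intro a ha
    by_contra hne
    have h1 : algebraMap O B a ∈ 𝔭 := Ideal.Quotient.eq_zero_iff_mem.mp ha
    exact hd h1 ⟨a, 0, hne, by simp⟩
  have hfs : FaithfulSMul O (B ⧸ 𝔭) := (faithfulSMul_iff_algebraMap_injective O _).mpr hinj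
  have hfs' : FaithfulSMul O E := (faithfulSMul_iff_algebraMap_injective O _).mpr hOE
  have htf1 : Module.IsTorsionFree O (B ⧸ 𝔭) := inferInstance
  have htf2 : Module.IsTorsionFree O E := inferInstance
  have halg : Algebra.IsAlgebraic O (B ⧸ 𝔭) := inferInstance
  let χ' : (B ⧸ 𝔭) →ₐ[O] E := IsAlgClosed.lift
  have hχ' : RingHom.ker (χ' : (B ⧸ 𝔭) →+* E) = ⊥ := by
    apply Ideal.eq_bot_of_comap_eq_bot (R := O)
    rw [eq_bot_iff]
    intro a ha
    rw [Ideal.mem_comap, RingHom.mem_ker] at ha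
    have h1 : algebraMap O E a = 0 := by
      rw [← χ'.commutes a]
      exact ha
    exact hOE (by rw [h1, map_zero])
  refine ⟨χ'.comp (Ideal.Quotient.mkₐ O 𝔭), fun b hb => ?_, fun h => ?_⟩
  · have h1 : (Ideal.Quotient.mkₐ O 𝔭) b = 0 :=
      Ideal.Quotient.eq_zero_iff_mem.mpr (hI𝔭 ((hI b).mpr hb))
    rw [AlgHom.comp_apply, h1, map_zero]
  · have h1 : Ideal.Quotient.mk 𝔭 β ∈ RingHom.ker (χ' : (B ⧸ 𝔭) →+* E) := h
    rw [hχ', Ideal.mem_bot, Ideal.Quotient.eq_zero_iff_mem] at h1
    exact hd h1 ⟨1, 1, one_ne_zero, by simp⟩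

/-- **The product identity.** -/
theorem prod_eq_zero (hOE : Function.Injective (algebraMap O E))
    (htf : ∀ (a : O) (x : M), a ≠ 0 → a • x = 0 → x = 0) [CharZero O]
    (d t : B) {P : ℕ} (hP : P ≠ 0) (hd : ∀ x : M, d ^ P • x = x) (ht : ∀ x : M, t ^ P • x = x)
    (J : Finset ℕ)
    (hpt : ∀ χ : B →ₐ[O] E, (∀ b, (∀ x : M, b • x = 0) → χ b = 0) → ∃ j ∈ J, χ d = χ t ^ j)
    (x : M) : (∏ j ∈ J, (d - t ^ j)) • x = 0 := by
  classical
  have htf' : ∀ (n : ℕ) (x : M), n ≠ 0 → n • x = 0 → x = 0 := fun n x hn h =>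
    htf (n : O) x (Nat.cast_ne_zero.mpr hn) (by rwa [Nat.cast_smul_eq_nsmul])
  have hc : ∀ (j : ℕ) (y : M), (d - t ^ j) • (d - t ^ j) • y = 0 → (d - t ^ j) • y = 0 := by
    intro j y h
    obtain ⟨u, hu⟩ : ∃ u, (d - t ^ j) • y = u := ⟨_, rfl⟩
    rw [hu] at h ⊢
    have h1 : d • u = t ^ j • u := by rwa [sub_smul, sub_eq_zero] at h
    have h2 : d • y = t ^ j • y + u := by rw [← hu, sub_smul]; abel
    have h3 : ∀ k : ℕ, d ^ (k + 1) • y = (t ^ j) ^ (k + 1) • y + (k + 1) • (t ^ j) ^ k • u := by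
      intro k
      induction k with
      | zero => simp [h2]
      | succ k ih =>
        rw [pow_succ' d, mul_smul, ih, smul_add, smul_comm d ((t ^ j) ^ (k + 1)), h2,
          smul_comm d (k + 1), smul_comm d ((t ^ j) ^ k), h1, smul_add, smul_smul, smul_smul,
          ← pow_succ, ← pow_succ, succ_nsmul' _ (k + 1), add_assoc]
    obtain ⟨P', rfl⟩ : ∃ P', P = P' + 1 := ⟨P - 1, by omega⟩
    have h4 := h3 P'
    have h5 : ∀ z : M, (t ^ j) ^ (P' + 1) • z = z := by
      intro z
      have : ∀ i : ℕ, ∀ z : M, (t ^ (P' + 1)) ^ i • z = z := by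
        intro i
        induction i with
        | zero => intro z; simp
        | succ i ih => intro z; rw [pow_succ', mul_smul, ih, ht]
      rw [← pow_mul, mul_comm j, pow_mul, this]
    rw [hd, h5, left_eq_add] at h4
    have h6 := htf' _ _ (Nat.succ_ne_zero P') h4
    rw [← h5 u, pow_succ', mul_smul, h6, smul_zero]
  have hprod : ∀ (J : Finset ℕ) (y : M), (∏ j ∈ J, (d - t ^ j)) • (∏ j ∈ J, (d - t ^ j)) • y = 0 →
      (∏ j ∈ J, (d - t ^ j)) • y = 0 := by
    intro J
    induction J using Finset.induction_on with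
    | empty => intro y h; simpa using h
    | insert j J hj ih =>
      intro y h
      rw [Finset.prod_insert hj] at h ⊢
      set c := d - t ^ j
      set C := ∏ j ∈ J, (d - t ^ j)
      have h1 : c • c • C • C • y = 0 := by
        rw [← h]
        simp only [smul_smul]
        congr 1
        ring
      have h2 := hc j _ h1
      have h3 : C • C • c • y = 0 := by
        rw [← h2]
        simp only [smul_smul]
        congr 1
        ring
      rw [mul_comm, mul_smul]
      exact ih _ h3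
  by_contra hne
  set β := ∏ j ∈ J, (d - t ^ j) with hβ
  have hnil : ∀ k : ℕ, ∃ x : M, β ^ k • x ≠ 0 := by
    intro k
    by_contra hcon
    push Not at hcon
    have : ∀ k : ℕ, ∀ y : M, β ^ (k + 1) • y = 0 → β • y = 0 := by
      intro k
      induction k with
      | zero => intro y h; simpa using h
      | succ k ih =>
        intro y h
        apply ih
        rw [pow_succ', mul_smul]
        apply hprod J
        rw [← hβ, smul_smul, smul_smul, ← h]
        congr 1
        ring
    exact hne (this k x (by rw [pow_succ', mul_smul, hcon, smul_zero]))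
  obtain ⟨χ, h1, h2⟩ := exists_point hOE htf β hnil
  obtain ⟨j, hj, hj'⟩ := hpt χ h1
  apply h2
  rw [hβ, map_prod]
  refine Finset.prod_eq_zero hj ?_
  rw [map_sub, map_pow, hj', sub_self]

end Points

end Fermat.Agent.TW

end
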