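import Fermat.Agent.TW.Pts
import Fermat.Agent.TW.OPt2
import Fermat.Agent.TW.HMod
import Fermat.Agent.TW.ThetaPsi
import Fermat.Agent.RT8.TWMod

/-!
The character `θ` of inertia and the diamond operators at Taylor-Wiles primes.
-/

set_option autoImplicit false
set_option linter.unusedSectionVars false

noncomputable section

namespace Fermat.Agent.TW

open IsLocalRing Module Matrix Fermat.Agent.DefRing Polynomial Fermat.Agent.RT8
open CongruenceSubgroup

/-! ### the action of the Hecke algebra -/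

section ModT

variable {p n m : ℕ} {O : Type} [CommRing O] [IsLocalRing O]
    {rbar : GQ →* M2 (ResidueField O)} {sd : SliceData rbar} {M : Type} [AddCommGroup M]
    [Module (TPoly m O) M] [Module O M] (R : HRep (m := m) p n sd M)

/-- the action of the Hecke algebra -/
def HRep.act : R.C.T →+* AddMonoid.End M :=
  (R.φ : TPoly m O →+* R.C.T).liftOfSurjective R.surj
    ⟨Module.toAddMonoidEnd (TPoly m O) M, by
      intro P hP
      rw [RingHom.mem_ker] at hP ⊢
      exact AddMonoidHom.ext fun x => (R.ker P).mp hP x⟩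

theorem HRep.act_φ (P : TPoly m O) (x : M) : R.act (R.φ P) x = P • x := by
  have h : R.act (R.φ P) = Module.toAddMonoidEnd (TPoly m O) M P :=
    RingHom.liftOfRightInverse_comp_apply (R.φ : TPoly m O →+* R.C.T) _ _ ⟨_, _⟩ P
  rw [h]
  rfl

/-- the module structure over the Hecke algebra -/
abbrev HRep.modT : Module R.C.T M := Module.compHom M R.act

theorem HRep.φ_smul (P : TPoly m O) (x : M) : (letI := R.modT; R.φ P • x) = P • x :=
  R.act_φ P x

theorem HRep.faithful (t : R.C.T) (h : ∀ x : M, (letI := R.modT; t • x) = 0) : t = 0 := by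
  obtain ⟨P, rfl⟩ := R.surj t
  rw [R.ker]
  intro x
  rw [← R.act_φ]
  exact h x

end ModT

/-- **Local–global compatibility at the Taylor–Wiles primes** -/
def LGHyp {D : Type} [CommGroup D] (W : TWD D) {m : ℕ} (hM : W.M ∣ m) {O : Type} [CommRing O]
    [IsLocalRing O] (rbar : GQ →* M2 (ResidueField O)) (E : Type) [Field E] : Prop :=
  ∀ (O' : Type) [CommRing O'] [IsDomain O'] [IsDiscreteValuationRing O']
    [IsAdicComplete (maximalIdeal O') O'] [Finite (ResidueField O')] [CharZero O'] [Algebra O O']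
    [Module.Finite O O'] [IsLocalHom (algebraMap O O')] (ι : O' →+* E), Function.Injective ι →
  ∀ r : GQ →* M2 O', MatCont O' r → Red rbar r →
  ∀ v : (XF hM).H (funRep (M := W.M) E E W.YQ), v ≠ 0 →
    (∀ (l : Pr m) (B : ValuationSubring (AlgebraicClosure ℚ)), B.LiesOverPrime l → ∀ τ : GQ,
      B.IsFrobeniusAt τ l → (XF hM).T _ l v = ι (r τ).trace • v ∧ (r τ).det = (l : ℕ)) →
  ∀ ψ : (W.Q → D) → E, (∀ δ, actH hM E W.YQ δ v = ψ δ • v) →
  ∀ (q : W.Q) (B : ValuationSubring (AlgebraicClosure ℚ)), B.LiesOverPrime q →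
  ∀ s ∈ B.inertiaSubgroupIn ℚ, ∀ ζ : AlgebraicClosure ℚ, IsPrimitiveRoot ζ q →
  ∀ c : (ZMod q)ˣ, s ζ = ζ ^ (c : ZMod q).val →
    ι (r s).trace = ψ (Pi.mulSingle q (W.χ q c)) + ψ (Pi.mulSingle q (W.χ q c)⁻¹)

section Red

variable {O : Type} [CommRing O] [IsLocalRing O] [IsNoetherianRing O]
  {rbar : GQ →* M2 (ResidueField O)} {T A : Type} [CommRing T]
  [IsLocalRing T] [Algebra O T] [Module.Finite O T] [CommRing A] [IsLocalRing A] [Algebra O A]
  [IsLocalHom (algebraMap O A)]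

theorem red_mapRep (f : T →ₐ[O] A) {r : GQ →* M2 T} (hr : Red rbar r) :
    Red rbar (mapRep (f : T →+* A) r) := by
  intro σ i j o ho
  have h3 := mem_max_of_algHom f (hr σ i j o ho)
  rw [map_sub, AlgHom.commutes] at h3
  exact h3

theorem det_mapRep {B C : Type} [CommRing B] [CommRing C] (ψ : B →+* C) (r : GQ →* M2 B)
    (σ : GQ) : (mapRep ψ r σ).det = ψ (r σ).det :=
  (RingHom.map_det ψ (r σ)).symm

end Red

section Main

variable {D : Type} [CommGroup D] [Fintype D] (W : TWD D) {m : ℕ} (hM : W.M ∣ m)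
  {O : Type} [CommRing O] [IsDomain O] [IsDiscreteValuationRing O]
  [IsAdicComplete (maximalIdeal O) O] [Finite (ResidueField O)] [CharZero O]
  (𝔪 : Ideal (TPoly m O)) [𝔪.IsMaximal] (hE : NonEis W.M 𝔪)
  {E : Type} [Field E] [IsAlgClosed E] [Algebra O E]
  (hOE : Function.Injective (algebraMap O E))
  {rbar : GQ →* M2 (ResidueField O)} {sd : SliceData rbar} {p n : ℕ}
  (R : HRep (m := m) p n sd (Loc 𝔪 ((XF hM).H (funRep (M := W.M) O O W.YQ))))
  (LG : LGHyp W hM rbar E)

section Eig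

variable {v : (XF hM).H (funRep (M := W.M) E E W.YQ)} {χ : BP m (W.Q → D) O →ₐ[O] E}
  (hv : v ≠ 0) (hop : ∀ i, opH hM E W.YQ i v = χ (MvPolynomial.X i) • v)
  (hk : ∀ b, (∀ x : Loc 𝔪 ((XF hM).H (funRep (M := W.M) O O W.YQ)), b • x = 0) → χ b = 0)

include hk in
/-- the point of the Hecke algebra attached to an eigenvector -/
theorem exists_ptT : ∃ f : R.C.T →ₐ[O] E, ∀ P, f (R.φ P) = χ (MvPolynomial.rename Sum.inl P) := by
  choose g hg using R.surj
  have hwd : ∀ P₁ P₂, R.φ P₁ = R.φ P₂ →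
      χ (MvPolynomial.rename Sum.inl P₁) = χ (MvPolynomial.rename Sum.inl P₂) := by
    intro P₁ P₂ h
    rw [← sub_eq_zero, ← map_sub, R.ker] at h
    rw [← sub_eq_zero, ← map_sub, ← map_sub]
    exact hk _ fun x => by rw [BP_rename_smul]; exact h x
  refine ⟨
    { toFun := fun t => χ (MvPolynomial.rename Sum.inl (g t))
      map_one' := by rw [hwd (g 1) 1 (by rw [hg, map_one]), map_one, map_one]
      map_mul' := fun s t => by
        rw [hwd (g (s * t)) (g s * g t) (by rw [hg, map_mul, hg, hg]), map_mul, map_mul]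
      map_zero' := by rw [hwd (g 0) 0 (by rw [hg, map_zero]), map_zero, map_zero]
      map_add' := fun s t => by
        rw [hwd (g (s + t)) (g s + g t) (by rw [hg, map_add, hg, hg]), map_add, map_add]
      commutes' := fun a => by
        change χ (MvPolynomial.rename Sum.inl (g (algebraMap O R.C.T a))) = _
        rw [hwd (g (algebraMap O R.C.T a)) (MvPolynomial.C a) (by
          rw [hg]; exact (R.φ.commutes a).symm), MvPolynomial.rename_C]
        exact χ.commutes a }, fun P => hwd _ _ (hg _)⟩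

include hv hop in
theorem psi_mul (δ δ' : W.Q → D) : χ (MvPolynomial.X (Sum.inr (δ * δ'))) =
    χ (MvPolynomial.X (Sum.inr δ)) * χ (MvPolynomial.X (Sum.inr δ')) := by
  have h1 : actH hM E W.YQ (δ * δ') v = actH hM E W.YQ δ (actH hM E W.YQ δ' v) := by
    obtain ⟨f, rfl⟩ := (XF hM).cl_surj _ v
    change (XF hM).cl _ (Z1.map _ _ f) = (XF hM).cl _ (Z1.map _ _ (Z1.map _ _ f))
    congr 1
    apply Subtype.ext
    funext g y
    change f.1 g ((δ * δ')⁻¹ • y) = f.1 g (δ'⁻¹ • δ⁻¹ • y)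
    rw [smul_smul, _root_.mul_inv_rev]
  have h2 : ∀ δ, actH hM E W.YQ δ v = χ (MvPolynomial.X (Sum.inr δ)) • v := fun δ =>
    hop (Sum.inr δ)
  rw [h2, h2, map_smul, h2, smul_smul, ← sub_eq_zero, ← sub_smul, smul_eq_zero, sub_eq_zero] at h1
  rw [h1.resolve_right hv, mul_comm]

include hv hop in
theorem psi_one : χ (MvPolynomial.X (Sum.inr (1 : W.Q → D))) = 1 := by
  have h1 : actH hM E W.YQ (1 : W.Q → D) v = v := by
    obtain ⟨f, rfl⟩ := (XF hM).cl_surj _ v
    change (XF hM).cl _ (Z1.map _ _ f) = (XF hM).cl _ f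
    congr 1
    apply Subtype.ext
    funext g y
    change f.1 g ((1 : W.Q → D)⁻¹ • y) = f.1 g y
    rw [inv_one, one_smul]
  have h2 : actH hM E W.YQ (1 : W.Q → D) v =
      χ (MvPolynomial.X (Sum.inr (1 : W.Q → D))) • v := hop (Sum.inr 1)
  rw [h2, ← sub_eq_zero, ← one_smul E v, smul_smul, mul_one, ← sub_smul, smul_eq_zero,
    sub_eq_zero] at h1
  exact h1.resolve_right hv

include hv hop in
theorem psi_pow (δ : W.Q → D) (k : ℕ) : χ (MvPolynomial.X (Sum.inr (δ ^ k))) =
    χ (MvPolynomial.X (Sum.inr δ)) ^ k := by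
  induction k with
  | zero => rw [pow_zero, pow_zero, psi_one W hM hv hop]
  | succ k ih => rw [pow_succ, psi_mul W hM hv hop, ih, pow_succ]

variable (q : W.Q) {B : ValuationSubring (AlgebraicClosure ℚ)} (hB : B.LiesOverPrime q)
  (P : TWP rbar) (hs : P.s ∈ B.inertiaSubgroupIn ℚ)
  {ζ : AlgebraicClosure ℚ} (hζ : IsPrimitiveRoot ζ q) {c : (ZMod q)ˣ}
  (hc : P.s ζ = ζ ^ (c : ZMod q).val)
  (hcomm : R.C.r P.φ * R.C.r P.s = R.C.r P.s * R.C.r P.φ) (hdet : (R.C.r P.s).det = 1)
  {θ : TPoly m O} (hθ : R.φ θ = theta P R.C.r)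

include hOE LG hv hop hk hB hs hζ hc hcomm hdet hθ in
/-- **`θ = ψ^{±1}` at every point.** -/
theorem theta_eq_psi :
    χ (MvPolynomial.rename Sum.inl θ) =
      χ (MvPolynomial.X (Sum.inr (Pi.mulSingle q (W.χ q c)))) ∨
    χ (MvPolynomial.rename Sum.inl θ) *
      χ (MvPolynomial.X (Sum.inr (Pi.mulSingle q (W.χ q c)))) = 1 := by
  obtain ⟨f, hf⟩ := exists_ptT W hM 𝔪 R hk
  obtain ⟨pt, ι, hι, hpt⟩ := exists_opt_embed O R.C.T E hOE f
  have hloc : IsLocalHom (pt.χ : R.C.T →+* pt.A) := isLocalHom_of_algHom pt.χ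
  have hr : Red rbar (mapRep (pt.χ : R.C.T →+* pt.A) R.C.r) := red_mapRep pt.χ R.C.red
  have htr : ∀ σ, ι (mapRep (pt.χ : R.C.T →+* pt.A) R.C.r σ).trace = f (R.C.r σ).trace := by
    intro σ
    rw [trace_mapRep]
    exact hpt _
  have hLG := LG pt.A (ι : pt.A →+* E) hι (mapRep (pt.χ : R.C.T →+* pt.A) R.C.r)
    (mapRep_cont _ hloc _ R.C.cont) hr v hv (fun l B hB τ hτ => by
      obtain ⟨h1, h2⟩ := R.tr l B hB τ hτ
      constructor
      · have h3 : (ι : pt.A →+* E) (mapRep (pt.χ : R.C.T →+* pt.A) R.C.r τ).trace =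
            χ (MvPolynomial.X (Sum.inl l)) := by
          refine (htr τ).trans ?_
          rw [h1, hf, MvPolynomial.rename_X]
        rw [h3]
        exact hop (Sum.inl l)
      · rw [det_mapRep, h2, map_natCast])
    (fun δ => χ (MvPolynomial.X (Sum.inr δ))) (fun δ => hop (Sum.inr δ)) q B hB P.s hs ζ hζ c hc
  have h1 : f (R.C.r P.s).trace = χ (MvPolynomial.X (Sum.inr (Pi.mulSingle q (W.χ q c)))) +
      χ (MvPolynomial.X (Sum.inr (Pi.mulSingle q (W.χ q c)⁻¹))) := by
    rw [← hLG]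
    exact (htr _).symm
  set x := χ (MvPolynomial.X (Sum.inr (Pi.mulSingle q (W.χ q c)))) with hx
  set y := χ (MvPolynomial.X (Sum.inr (Pi.mulSingle q (W.χ q c)⁻¹))) with hy
  have hxy : x * y = 1 := by
    rw [hx, hy, ← psi_mul W hM hv hop, ← Pi.mulSingle_mul, mul_inv_cancel, Pi.mulSingle_one]
    exact psi_one W hM hv hop
  have h2 := theta_root P R.C.red hcomm
  rw [hdet] at h2
  have h3 := congrArg f h2
  rw [map_add, map_sub, map_pow, map_mul, map_one, map_zero, h1, ← hθ, hf] at h3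
  set t := χ (MvPolynomial.rename Sum.inl θ) with ht
  have h4 : (t - x) * (t - y) = 0 := by linear_combination h3 + hxy
  rcases mul_eq_zero.mp h4 with h5 | h5
  · left
    exact sub_eq_zero.mp h5
  · right
    rw [sub_eq_zero.mp h5, mul_comm]
    exact hxy

end Eig

end Main

end Fermat.Agent.TW

end
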