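import Fermat.Agent.TW.Base2
import Fermat.Agent.TW.ThetaTW

/-!
The base level of the patching system, as a module.
-/

set_option autoImplicit false
set_option linter.unusedSectionVars false

noncomputable section

namespace Fermat.Agent.TW

open IsLocalRing Module Matrix Fermat.Agent.DefRing Polynomial Fermat.Agent.RT8
open CongruenceSubgroup

section Pow

variable {p n m : ℕ} {O : Type} [CommRing O] [IsLocalRing O]
    {rbar : GQ →* M2 (ResidueField O)} {sd : SliceData rbar} {M : Type} [AddCommGroup M]
    [Module (TPoly m O) M] [Module O M] [IsScalarTower O (TPoly m O) M]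
    (R : HRep (m := m) p n sd M)

theorem HRep.act_algebraMap (a : O) (x : M) : R.act (algebraMap O R.C.T a) x = a • x := by
  have h : algebraMap O R.C.T a = R.φ (algebraMap O (TPoly m O) a) := (R.φ.commutes a).symm
  rw [h, R.act_φ, algebraMap_smul]

/-- the action on powers -/
abbrev HRep.modPow (k : ℕ) : Module R.C.T (Fin k → M) :=
  letI := R.modT
  Pi.module _ _ _

theorem HRep.modPow_smul (k : ℕ) (t : R.C.T) (x : Fin k → M) (i : Fin k) :
    (letI := R.modPow k; t • x) i = R.act t (x i) := rfl

theorem HRep.modPow_tower (k : ℕ) (o : O) (x : Fin k → M) :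
    (letI := R.modPow k; algebraMap O R.C.T o • x) = o • x :=
  funext fun i => R.act_algebraMap o (x i)

end Pow

section BM

variable {p n m : ℕ} {O : Type} [CommRing O] [IsDomain O] [IsDiscreteValuationRing O]
    [IsAdicComplete (maximalIdeal O) O]
    {rbar : GQ →* M2 (ResidueField O)} {sd : SliceData rbar} {M : Type} [AddCommGroup M]
    [Module (TPoly m O) M] [Module O M] [IsScalarTower O (TPoly m O) M]
    (R : HRep (m := m) p n sd M) [Module.Free O M] [Module.Finite O M] (k : ℕ)

/-- the base level with module `M ^ k` -/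
def bmodOf : BMod sd where
  C := R.C
  gen := R.adj
  M := Fin k → M
  acg := inferInstance
  modO := inferInstance
  modT := R.modPow k
  tower := R.modPow_tower k
  d := Module.finrank O (Fin k → M)
  b := Module.finBasis O (Fin k → M)

theorem bmodOf_C : (bmodOf R k).C = R.C := rfl

theorem bmodOf_M : (bmodOf R k).M = (Fin k → M) := rfl

end BM

section BG

variable {p n m : ℕ} [NeZero n] (hn : n ∣ m) {O : Type} [CommRing O] [IsDomain O]
    [IsDiscreteValuationRing O] [IsAdicComplete (maximalIdeal O) O]
    {rbar : GQ →* M2 (ResidueField O)} {sd : SliceData rbar}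
    {𝔪 : Ideal (TPoly m O)} [𝔪.IsMaximal]

theorem locHG_finite : Module.Finite O (Loc 𝔪 (HG m n hn O)) := by
  have := HG.finite (NeZero.ne n) hn (O := O)
  exact Loc.finite 𝔪

theorem locHG_free : Module.Free O (Loc 𝔪 (HG m n hn O)) := by
  have h1 := locHG_finite hn (𝔪 := 𝔪)
  have h2 : Module.IsTorsionFree O (Loc 𝔪 (HG m n hn O)) := ⟨fun r hr x y hxy => by
    have h3 : r • (x - y) = 0 := by
      rw [smul_sub, sub_eq_zero]
      exact hxy
    exact sub_eq_zero.mp (Loc.smul_eq_zero' (HG.smul_eq_zero hn) r _ hr.ne_zero h3)⟩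
  exact Module.free_of_finite_type_torsion_free'

variable (R : HRep (m := m) p n sd (Loc 𝔪 (HG m n hn O))) (g : ℕ)

/-- **The base level**: `2 ^ g` copies of the localised cohomology of `Γ₀(n)`. -/
def bmod : BMod sd :=
  have := locHG_finite hn (𝔪 := 𝔪)
  have := locHG_free hn (𝔪 := 𝔪)
  bmodOf R (2 ^ g)

theorem bmod_C : (bmod hn R g).C = R.C := rfl

theorem bmod_M : (bmod hn R g).M = (Fin (2 ^ g) → Loc 𝔪 (HG m n hn O)) := rfl

end BG

end Fermat.Agent.TW

end
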