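import Fermat.Agent.TW.Corr
import Mathlib.LinearAlgebra.Matrix.GeneralLinearGroup.Defs
import Mathlib.LinearAlgebra.Matrix.SpecialLinearGroup
import Mathlib.Topology.Compactification.OnePoint.ProjectiveLine
import Mathlib.NumberTheory.ModularForms.CongruenceSubgroups
import Mathlib.Tactic

/-!
Integer matrices of prime determinant, the ambient group `GL₂(ℝ) × GL₂(ℤ/M)`, and the
correspondences `T_l`.
-/

set_option autoImplicit false

noncomputable section

namespace Fermat.Agent.TW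

open Matrix.SpecialLinearGroup
open scoped MatrixGroups

/-- integer matrices -/
abbrev M2Z := Matrix (Fin 2) (Fin 2) ℤ

/-- representatives of `SL₂(ℤ) \ {det = l}` -/
def bI (l : ℕ) (x : OnePoint (ZMod l)) : M2Z :=
  x.elim !![(l : ℤ), 0; 0, 1] (fun j => !![1, (j.val : ℤ); 0, (l : ℤ)])

theorem bI_infty (l : ℕ) : bI l OnePoint.infty = !![(l : ℤ), 0; 0, 1] := rfl

theorem bI_coe (l : ℕ) (j : ZMod l) : bI l (j : OnePoint (ZMod l)) = !![1, (j.val : ℤ); 0, (l : ℤ)] :=
  rfl

theorem det_bI (l : ℕ) (x : OnePoint (ZMod l)) : (bI l x).det = l := by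
  induction x using OnePoint.rec with
  | infty => rw [bI_infty, Matrix.det_fin_two_of]; ring
  | coe j => rw [bI_coe, Matrix.det_fin_two_of]; ring

theorem mul_right_cancel_det {A B C : M2Z} (hC : C.det ≠ 0) (h : A * C = B * C) : A = B := by
  have h1 := congrArg (· * C.adjugate) h
  simp only [mul_assoc, Matrix.mul_adjugate, Matrix.mul_smul, mul_one] at h1
  exact smul_right_injective _ hC h1

/-- **factorisation** -/
theorem exists_factor {l : ℕ} (hl : l.Prime) (A : M2Z) (h : (l : ℤ) ∣ A.det) :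
    ∃ (x : OnePoint (ZMod l)) (B : M2Z), A = B * bI l x := by
  have : Fact l.Prime := ⟨hl⟩
  obtain ⟨a, ha⟩ : ∃ a, a = A 0 0 := ⟨_, rfl⟩
  obtain ⟨b, hb⟩ : ∃ b, b = A 0 1 := ⟨_, rfl⟩
  obtain ⟨c, hc⟩ : ∃ c, c = A 1 0 := ⟨_, rfl⟩
  obtain ⟨d, hd⟩ : ∃ d, d = A 1 1 := ⟨_, rfl⟩
  have hA : A = !![a, b; c, d] := by rw [ha, hb, hc, hd]; exact Matrix.eta_fin_two A
  rw [hA, Matrix.det_fin_two_of, ← ZMod.intCast_zmod_eq_zero_iff_dvd] at h
  push_cast at h
  by_cases h0 : (a : ZMod l) = 0 ∧ (c : ZMod l) = 0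
  · obtain ⟨a', ha'⟩ := (ZMod.intCast_zmod_eq_zero_iff_dvd _ _).mp h0.1
    obtain ⟨c', hc'⟩ := (ZMod.intCast_zmod_eq_zero_iff_dvd _ _).mp h0.2
    refine ⟨OnePoint.infty, !![a', b; c', d], ?_⟩
    rw [hA, bI_infty, Matrix.mul_fin_two, ha', hc']
    congr! 2
    all_goals ring_nf
  · obtain ⟨j, hj1, hj2⟩ : ∃ j : ZMod l, (b : ZMod l) = a * j ∧ (d : ZMod l) = c * j := by
      by_cases h1 : (a : ZMod l) = 0
      · have h2 : (c : ZMod l) ≠ 0 := fun h3 => h0 ⟨h1, h3⟩
        refine ⟨d / c, ?_, ?_⟩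
        · rw [h1, zero_mul, zero_sub, neg_eq_zero, mul_eq_zero] at h
          rw [h1, zero_mul]
          exact h.resolve_right h2
        · field_simp
      · refine ⟨b / a, ?_, ?_⟩
        · field_simp
        · field_simp
          linear_combination h
    obtain ⟨b', hb'⟩ : (l : ℤ) ∣ b - a * j.val := by
      rw [← ZMod.intCast_zmod_eq_zero_iff_dvd]
      push_cast
      rw [ZMod.natCast_zmod_val, hj1, sub_self]
    obtain ⟨d', hd'⟩ : (l : ℤ) ∣ d - c * j.val := by
      rw [← ZMod.intCast_zmod_eq_zero_iff_dvd]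
      push_cast
      rw [ZMod.natCast_zmod_val, hj2, sub_self]
    refine ⟨(j : OnePoint (ZMod l)), !![a, b'; c, d'], ?_⟩
    rw [hA, bI_coe, Matrix.mul_fin_two]
    have e1 : b = a * (j.val : ℤ) + b' * l := by linear_combination hb'
    have e2 : d = c * (j.val : ℤ) + d' * l := by linear_combination hd'
    rw [← e1, ← e2, mul_one, mul_zero, add_zero, mul_one, mul_zero, add_zero]

/-- **uniqueness** -/
theorem uniq_gen {l : ℕ} (hl : l.Prime) {A B : M2Z} {x y : OnePoint (ZMod l)}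
    (h : A * bI l x = B * bI l y) (hA : ¬ (l : ℤ) ∣ A.det) (hB : ¬ (l : ℤ) ∣ B.det) :
    x = y ∧ A = B := by
  have : Fact l.Prime := ⟨hl⟩
  have h1 : x = y := by
    have e00 := congrFun (congrFun h 0) 0
    have e01 := congrFun (congrFun h 0) 1
    have e10 := congrFun (congrFun h 1) 0
    have e11 := congrFun (congrFun h 1) 1
    rw [Matrix.det_fin_two] at hA hB
    induction x using OnePoint.rec with
    | infty =>
      induction y using OnePoint.rec with
      | infty => rfl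
      | coe y =>
        exfalso
        simp [bI_infty, bI_coe, Matrix.mul_apply, Fin.sum_univ_two] at e00 e01 e10 e11
        apply hB
        rw [← e00, ← e10]
        exact ⟨A 0 0 * B 1 1 - B 0 1 * A 1 0, by ring⟩
    | coe x =>
      induction y using OnePoint.rec with
      | infty =>
        exfalso
        simp [bI_infty, bI_coe, Matrix.mul_apply, Fin.sum_univ_two] at e00 e01 e10 e11
        apply hA
        rw [e00, e10]
        exact ⟨B 0 0 * A 1 1 - A 0 1 * B 1 0, by ring⟩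
      | coe y =>
        simp [-ZMod.natCast_val, bI_coe, Matrix.mul_apply, Fin.sum_univ_two] at e00 e01 e10 e11
        rw [← e00] at e01
        rw [← e10] at e11
        have f0 := congrArg (Int.cast : ℤ → ZMod l) e01
        have f1 := congrArg (Int.cast : ℤ → ZMod l) e11
        push_cast at f0 f1
        rw [ZMod.natCast_zmod_val, ZMod.natCast_zmod_val, ZMod.natCast_self, mul_zero, mul_zero,
          add_zero, add_zero] at f0 f1
        by_contra hne
        have hne' : x ≠ y := fun h => hne (congrArg _ h)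
        have g0 : ((A 0 0 : ℤ) : ZMod l) = 0 := by
          by_contra h0
          exact hne' (mul_left_cancel₀ h0 f0)
        have g1 : ((A 1 0 : ℤ) : ZMod l) = 0 := by
          by_contra h0
          exact hne' (mul_left_cancel₀ h0 f1)
        apply hA
        rw [← ZMod.intCast_zmod_eq_zero_iff_dvd]
        push_cast
        rw [g0, g1]
        ring
  subst h1
  refine ⟨rfl, mul_right_cancel_det ?_ h⟩
  rw [det_bI]
  exact_mod_cast hl.ne_zero

/-- coercion of a matrix of determinant one -/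
theorem exists_SL {A : M2Z} (h : A.det = 1) : ∃ g : SL(2, ℤ), (g : M2Z) = A := ⟨⟨A, h⟩, rfl⟩

theorem exists_mul_bI {l : ℕ} (hl : l.Prime) (A : M2Z) (h : A.det = l) :
    ∃ (x : OnePoint (ZMod l)) (g : SL(2, ℤ)), A = g * bI l x := by
  obtain ⟨x, B, hB⟩ := exists_factor hl A (by rw [h])
  have h1 : B.det = 1 := by
    have h2 := congrArg Matrix.det hB
    rw [Matrix.det_mul, det_bI, h] at h2
    have h3 : (l : ℤ) ≠ 0 := by exact_mod_cast hl.ne_zero
    exact (mul_right_cancel₀ h3 (by rw [one_mul]; exact h2)).symm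
  obtain ⟨g, rfl⟩ := exists_SL h1
  exact ⟨x, g, hB⟩

theorem uniq_SL {l : ℕ} (hl : l.Prime) {x y : OnePoint (ZMod l)} {g : SL(2, ℤ)}
    (h : bI l x = g * bI l y) : x = y ∧ g = 1 := by
  have hone : ¬ (l : ℤ) ∣ 1 := by
    intro h
    exact hl.one_lt.ne' (by exact_mod_cast Int.eq_one_of_dvd_one (by positivity) h)
  obtain ⟨h1, h2⟩ := uniq_gen hl (A := 1) (B := g) (by rw [one_mul]; exact h)
    (by rwa [Matrix.det_one]) (by rwa [g.det_coe])
  exact ⟨h1, Subtype.ext h2.symm⟩

/-! ### the ambient group -/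

/-- the ambient group -/
abbrev Gp (M : ℕ) : Type := GL (Fin 2) ℝ × GL (Fin 2) (ZMod M)

/-- the embedding of `SL(2, ℤ)` -/
def iM (M : ℕ) : SL(2, ℤ) →* Gp M := (mapGL ℝ).prod (mapGL (ZMod M))

/-- matrices with nonzero determinant prime to `M`. -/
structure IsGd (M : ℕ) (A : M2Z) : Prop where
  ne : A.det ≠ 0
  unit : IsUnit ((A.det : ℤ) : ZMod M)

theorem IsGd.mul {M : ℕ} {A B : M2Z} (hA : IsGd M A) (hB : IsGd M B) : IsGd M (A * B) :=
  ⟨by rw [Matrix.det_mul]; exact mul_ne_zero hA.1 hB.1,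
    by rw [Matrix.det_mul, Int.cast_mul]; exact hA.2.mul hB.2⟩

theorem isGd_SL (M : ℕ) (g : SL(2, ℤ)) : IsGd M (g : M2Z) :=
  ⟨by rw [g.det_coe]; exact one_ne_zero, by rw [g.det_coe]; simp⟩

theorem isGd_bI {M l : ℕ} (hl : l.Prime) (hlM : l.Coprime M) (x : OnePoint (ZMod l)) :
    IsGd M (bI l x) :=
  ⟨by rw [det_bI]; exact_mod_cast hl.ne_zero, by
    rw [det_bI]
    push_cast
    exact (ZMod.isUnit_iff_coprime _ _).mpr hlM⟩

/-- the element of the ambient group attached to an integer matrix -/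
def toGp (M : ℕ) (A : M2Z) (hA : IsGd M A) : Gp M :=
  (Matrix.GeneralLinearGroup.mk'' (A.map (Int.castRingHom ℝ)) (by
      rw [← RingHom.mapMatrix_apply, ← RingHom.map_det]
      simpa using hA.1),
    Matrix.GeneralLinearGroup.mk'' (A.map (Int.castRingHom (ZMod M))) (by
      rw [← RingHom.mapMatrix_apply, ← RingHom.map_det]
      simpa using hA.2))

theorem toGp_mul {M : ℕ} {A B : M2Z} (hA : IsGd M A) (hB : IsGd M B) :
    toGp M (A * B) (hA.mul hB) = toGp M A hA * toGp M B hB := by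
  refine Prod.ext (Units.ext ?_) (Units.ext ?_)
  · change (A * B).map (Int.castRingHom ℝ) = A.map (Int.castRingHom ℝ) * B.map (Int.castRingHom ℝ)
    exact Matrix.map_mul
  · change (A * B).map (Int.castRingHom (ZMod M)) =
      A.map (Int.castRingHom (ZMod M)) * B.map (Int.castRingHom (ZMod M))
    exact Matrix.map_mul

theorem toGp_SL (M : ℕ) (g : SL(2, ℤ)) : toGp M (g : M2Z) (isGd_SL M g) = iM M g := by
  refine Prod.ext (Units.ext ?_) (Units.ext ?_) <;> rfl

theorem toGp_inj {M : ℕ} {A B : M2Z} {hA : IsGd M A} {hB : IsGd M B}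
    (h : toGp M A hA = toGp M B hB) : A = B := by
  have h1 := congrArg (fun z : Gp M => (z.1 : Matrix (Fin 2) (Fin 2) ℝ)) h
  change A.map (Int.castRingHom ℝ) = B.map (Int.castRingHom ℝ) at h1
  ext i j
  have h2 := congrFun (congrFun h1 i) j
  simpa using h2

theorem iM_injective (M : ℕ) : Function.Injective (iM M) := by
  intro g h hgh
  rw [← toGp_SL, ← toGp_SL] at hgh
  exact Subtype.ext (toGp_inj hgh)

theorem toGp_eq_iff {M : ℕ} {A B : M2Z} {g : SL(2, ℤ)} {hA : IsGd M A} {hB : IsGd M B} :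
    toGp M A hA = iM M g * toGp M B hB ↔ A = g * B := by
  constructor
  · intro h
    rw [← toGp_SL, ← toGp_mul] at h
    exact toGp_inj h
  · intro h
    subst h
    rw [← toGp_SL, ← toGp_mul]

theorem toGp_congr {M : ℕ} {A B : M2Z} (h : A = B) (hA : IsGd M A) (hB : IsGd M B) :
    toGp M A hA = toGp M B hB := by subst h; rfl

theorem uniq_mul {l l' : ℕ} (hl : l.Prime) (hl' : l'.Prime) (hne : l ≠ l')
    {x x' : OnePoint (ZMod l)} {y y' : OnePoint (ZMod l')} {g : SL(2, ℤ)}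
    (h : bI l x * bI l' y = g * (bI l x' * bI l' y')) : x = x' ∧ y = y' := by
  have hnd : ¬ (l' : ℤ) ∣ (l : ℤ) := by
    intro h
    have h1 : l' ∣ l := by exact_mod_cast h
    exact hne ((Nat.prime_dvd_prime_iff_eq hl' hl).mp h1).symm
  rw [← mul_assoc] at h
  obtain ⟨h1, h2⟩ := uniq_gen hl' h (by rwa [det_bI])
    (by rwa [Matrix.det_mul, det_bI, g.det_coe, one_mul])
  exact ⟨(uniq_SL hl h2).1, h1⟩

/-! ### levels -/

/-- A subgroup of `SL(2, ℤ)` with a semigroup of integer matrices. -/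
structure Lvl (Γ : Type) [Group Γ] where
  /-- the inclusion -/
  j : Γ →* SL(2, ℤ)
  inj : Function.Injective j
  /-- the semigroup -/
  P : M2Z → Prop
  mem : ∀ g, P (j g)
  mul : ∀ A B, P A → P B → P (A * B)
  sat : ∀ (h : SL(2, ℤ)) B, P B → P (h * B) → ∃ h' : Γ, j h' = h

namespace Lvl

/-- the full level -/
def full : Lvl SL(2, ℤ) where
  j := MonoidHom.id _
  inj := Function.injective_id
  P _ := True
  mem _ := trivial
  mul _ _ _ _ := trivial
  sat h _ _ _ := ⟨h, rfl⟩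

/-- level `Γ₀(n)` -/
def gamma0 (n : ℕ) : Lvl (CongruenceSubgroup.Gamma0 n) where
  j := (CongruenceSubgroup.Gamma0 n).subtype
  inj := Subtype.coe_injective
  P A := ((A 1 0 : ℤ) : ZMod n) = 0 ∧ IsUnit ((A.det : ℤ) : ZMod n)
  mem g := ⟨CongruenceSubgroup.Gamma0_mem.mp g.2, by
    change IsUnit (((((g : SL(2, ℤ)) : M2Z)).det : ℤ) : ZMod n)
    rw [(g : SL(2, ℤ)).det_coe]
    simp⟩
  mul A B hA hB := ⟨by
    rw [Matrix.mul_apply, Fin.sum_univ_two]
    push_cast
    rw [hA.1, hB.1]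
    ring, by rw [Matrix.det_mul, Int.cast_mul]; exact hA.2.mul hB.2⟩
  sat h B hB hhB := by
    refine ⟨⟨h, ?_⟩, rfl⟩
    rw [CongruenceSubgroup.Gamma0_mem]
    have h1 := hhB.1
    rw [Matrix.mul_apply, Fin.sum_univ_two] at h1
    push_cast at h1
    rw [hB.1, mul_zero, add_zero] at h1
    have h2 := hB.2
    rw [Matrix.det_fin_two] at h2
    push_cast at h2
    rw [hB.1, mul_zero, sub_zero] at h2
    exact (isUnit_of_mul_isUnit_left h2).mul_left_eq_zero.mp h1

variable {Γ : Type} [Group Γ] (L : Lvl Γ)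

/-- the level is prime to `l` -/
def Ok (l : ℕ) : Prop := ∀ x : OnePoint (ZMod l), L.P (bI l x)

theorem ok_full (l : ℕ) : full.Ok l := fun _ => trivial

theorem ok_gamma0 {n l : ℕ} (h : l.Coprime n) : (gamma0 n).Ok l := by
  intro x
  refine ⟨?_, ?_⟩
  · induction x using OnePoint.rec with
    | infty => simp [bI_infty]
    | coe x => simp [bI_coe]
  · rw [det_bI]
    push_cast
    exact (ZMod.isUnit_iff_coprime _ _).mpr h

/-- the map to the ambient group -/
def ι (M : ℕ) : Γ →* Gp M := (iM M).comp L.j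

theorem ι_apply (M : ℕ) (g : Γ) : L.ι M g = iM M (L.j g) := rfl

theorem ι_inj (M : ℕ) : Function.Injective (L.ι M) := (iM_injective M).comp L.inj

/-- A general correspondence between two levels, given by a complete set of inequivalent
matrices. -/
def corr {Γ' : Type} [Group Γ'] (L' : Lvl Γ') (M : ℕ) {X : Type} [Fintype X] (A : X → M2Z)
    (hA : ∀ x, IsGd M (A x))
    (ex : ∀ (g : Γ') (x : X), ∃ (y : X) (h : Γ), A x * (L'.j g : M2Z) = (L.j h : M2Z) * A y)
    (uniq : ∀ (h : Γ) (x y : X), A x = (L.j h : M2Z) * A y → x = y) : Corr (L.ι M) (L'.ι M) where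
  X := X
  α x := toGp M (A x) (hA x)
  inj := L.ι_inj M
  ex g x := by
    obtain ⟨y, h, hh⟩ := ex g x
    refine ⟨y, h, ?_⟩
    rw [ι_apply, ι_apply, ← toGp_SL, ← toGp_mul, ← toGp_SL, ← toGp_mul]
    exact toGp_congr hh _ _
  uniq h x y hxy := by
    rw [ι_apply, toGp_eq_iff] at hxy
    exact uniq h x y hxy

/-- The correspondence `T_l`. -/
def corrT (M : ℕ) {l : ℕ} (hl : l.Prime) (hlM : l.Coprime M) (hL : L.Ok l) :
    Corr (L.ι M) (L.ι M) :=
  haveI : Fact l.Prime := ⟨hl⟩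
  haveI : Fintype (OnePoint (ZMod l)) := inferInstanceAs (Fintype (Option (ZMod l)))
  L.corr L M (bI l) (isGd_bI hl hlM)
    (fun g x => by
      obtain ⟨y, h, hh⟩ := exists_mul_bI hl (bI l x * (L.j g : M2Z))
        (by rw [Matrix.det_mul, det_bI, (L.j g).det_coe, mul_one])
      obtain ⟨h', rfl⟩ := L.sat h _ (hL y) (by rw [← hh]; exact L.mul _ _ (hL x) (L.mem g))
      exact ⟨y, h', hh⟩)
    (fun _ _ _ hxy => (uniq_SL hl hxy).1)

theorem corrT_α (M : ℕ) {l : ℕ} (hl : l.Prime) (hlM : l.Coprime M) (hL : L.Ok l)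
    (x : OnePoint (ZMod l)) :
    (L.corrT M hl hlM hL).α x = toGp M (bI l x) (isGd_bI hl hlM x) := rfl

/-- products of two matrices in the ambient group -/
theorem toGp_mul_eq_iff {M : ℕ} {A B C D : M2Z} {g : Γ} (hA : IsGd M A) (hB : IsGd M B)
    (hC : IsGd M C) (hD : IsGd M D) :
    toGp M A hA * toGp M B hB = L.ι M g * (toGp M C hC * toGp M D hD) ↔
      A * B = (L.j g : M2Z) * (C * D) := by
  rw [← toGp_mul, ← toGp_mul, ι_apply, toGp_eq_iff]

section Comm

variable {R : Type} [CommRing R] {V : Type} [AddCommGroup V] [Module R V] {M : ℕ}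
  (ρ : Representation R (Gp M) V)

theorem corrT_comm {l l' : ℕ} (hl : l.Prime) (hlM : l.Coprime M) (hL : L.Ok l)
    (hl' : l'.Prime) (hlM' : l'.Coprime M) (hL' : L.Ok l') (x : H1 (L.ι M) ρ) :
    (L.corrT M hl hlM hL).map ρ ((L.corrT M hl' hlM' hL').map ρ x) =
      (L.corrT M hl' hlM' hL').map ρ ((L.corrT M hl hlM hL).map ρ x) := by
  rcases eq_or_ne l l' with rfl | hne
  · rfl
  refine Corr.map_comm _ _ _ _ ?_ ?_ ?_ ?_ x
  · intro h x x' y y' hxy
    exact uniq_mul hl hl' hne ((L.toGp_mul_eq_iff (isGd_bI hl hlM x) (isGd_bI hl' hlM' y)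
      (isGd_bI hl hlM x') (isGd_bI hl' hlM' y')).mp hxy)
  · intro h x x' y y' hxy
    exact uniq_mul hl' hl hne.symm ((L.toGp_mul_eq_iff (isGd_bI hl' hlM' x) (isGd_bI hl hlM y)
      (isGd_bI hl' hlM' x') (isGd_bI hl hlM y')).mp hxy)
  · intro x y
    obtain ⟨y', B, hB⟩ := exists_factor hl' (bI l' x * bI l y)
      (by rw [Matrix.det_mul, det_bI]; exact Dvd.intro _ rfl)
    have hdB : B.det = l := by
      have h2 := congrArg Matrix.det hB
      rw [Matrix.det_mul, Matrix.det_mul, det_bI, det_bI, det_bI, mul_comm] at h2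
      have h3 : (l' : ℤ) ≠ 0 := by exact_mod_cast hl'.ne_zero
      exact (mul_right_cancel₀ h3 h2).symm
    obtain ⟨x', g, hg⟩ := exists_mul_bI hl B hdB
    rw [hg, mul_assoc] at hB
    obtain ⟨h', rfl⟩ := L.sat g _ (L.mul _ _ (hL x') (hL' y'))
      (by rw [← hB]; exact L.mul _ _ (hL' x) (hL y))
    exact ⟨x', y', h', (L.toGp_mul_eq_iff (isGd_bI hl' hlM' x) (isGd_bI hl hlM y)
      (isGd_bI hl hlM x') (isGd_bI hl' hlM' y')).mpr hB⟩
  · exact mul_comm _ _

end Comm

end Lvl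

end Fermat.Agent.TW

end
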