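import Fermat.Agent.TW.Glue
import Fermat.Agent.HeckeHom.Theta
import Fermat.Agent.Frob.Exists

/-!
The Galois representation over a Hecke algebra: gluing.
-/

set_option autoImplicit false
set_option linter.unusedSectionVars false

noncomputable section

namespace Fermat.Agent.TW

open IsLocalRing Module Matrix Fermat.Agent.DefRing Polynomial

section Unique

variable {𝒪 : Type} [CommRing 𝒪] [IsLocalRing 𝒪] [IsNoetherianRing 𝒪]
  [IsAdicComplete (maximalIdeal 𝒪) 𝒪] {rbar : GQ →* M2 (ResidueField 𝒪)} (sd : SliceData rbar)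
  (hspan : Submodule.span (ResidueField 𝒪) (Set.range rbar) = ⊤)
  {A : Type} [CommRing A] [IsLocalRing A] [Algebra 𝒪 A] [IsLocalHom (algebraMap 𝒪 A)]
  [Module.Finite 𝒪 A]

include hspan in
/-- **Uniqueness**: a normalised representation is determined by its traces. -/
theorem norm_unique {r r' : GQ →* M2 A} (hc : MatCont A r) (hc' : MatCont A r')
    (hr : Red rbar r) (hr' : Red rbar r') (hn : Norm sd r) (hn' : Norm sd r') (S : Finset ℕ)
    (h : ∀ l : ℕ, l.Prime → l ∉ S → ∀ B : ValuationSubring (AlgebraicClosure ℚ),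
      B.LiesOverPrime l → ∀ τ : GQ, B.IsFrobeniusAt τ l → (r τ).trace = (r' τ).trace) :
    r = r' := by
  let rr : Bool → (GQ →* M2 A) := fun b => cond b r r'
  obtain ⟨J⟩ := RT8J.exists_jring (𝒪 := 𝒪) sd (J := Bool) (T := fun _ => A) (r := rr)
    (fun b => by cases b; exacts [hc', hc]) (fun b => by cases b; exacts [hr', hr])
    (fun b => by cases b; exacts [hn', hn])
  have h1 : AlgHom.equalizer (J.pr true) (J.pr false) = ⊤ := by
    refine jring_top J hspan _ S fun l hl hlS B hB τ hτ => ?_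
    change J.pr true (J.r0 τ).trace = J.pr false (J.r0 τ).trace
    have h2 : ∀ b, J.pr b (J.r0 τ).trace = (rr b τ).trace := by
      intro b
      rw [← J.pr_r0 b]
      exact (trace_mapRep (J.pr b : J.R →+* A) J.r0 τ).symm
    rw [h2, h2]
    exact h l hl hlS B hB τ hτ
  have h2 : J.pr true = J.pr false := by
    ext x
    have hx : x ∈ AlgHom.equalizer (J.pr true) (J.pr false) := by rw [h1]; trivial
    exact hx
  have h3 := J.pr_r0 true
  have h4 := J.pr_r0 false
  rw [← h2] at h4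
  exact h3.symm.trans h4

end Unique

section LocalPt

variable {𝒪 : Type} [CommRing 𝒪] [IsLocalRing 𝒪] [IsNoetherianRing 𝒪] {T A : Type} [CommRing T]
  [IsLocalRing T] [Algebra 𝒪 T] [Module.Finite 𝒪 T] [CommRing A] [IsLocalRing A] [Algebra 𝒪 A]
  [IsLocalHom (algebraMap 𝒪 A)]

/-- algebra homomorphisms out of finite local algebras are local -/
theorem mem_max_of_algHom (f : T →ₐ[𝒪] A) {x : T} (hx : x ∈ maximalIdeal T) :
    f x ∈ maximalIdeal A := by
  obtain ⟨N, hN⟩ := RT8J.exists_pow_le_map (O := 𝒪) (T := T)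
  have h1 : x ^ N ∈ (maximalIdeal 𝒪).map (algebraMap 𝒪 T) := hN (Ideal.pow_mem_pow hx N)
  have h2 : f (x ^ N) ∈ maximalIdeal A := by
    have h3 := Ideal.mem_map_of_mem (f : T →+* A) h1
    rw [Ideal.map_map] at h3
    have h4 : ((f : T →+* A).comp (algebraMap 𝒪 T)) = algebraMap 𝒪 A := f.comp_algebraMap
    rw [h4] at h3
    refine (Ideal.map_le_iff_le_comap.mpr fun o ho => ?_) h3
    exact map_nonunit (algebraMap 𝒪 A) o ho
  rw [map_pow] at h2
  exact (Ideal.IsPrime.mem_of_pow_mem inferInstance _ h2)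

theorem isLocalHom_of_algHom (f : T →ₐ[𝒪] A) : IsLocalHom (f : T →+* A) := by
  constructor
  intro x hx
  by_contra h
  exact mem_max_of_algHom f h hx

end LocalPt

section Points

variable (h30 : HeckeGal.S30Statement) {p N : ℕ} [Fact p.Prime] [NeZero N] {S : Finset ℕ}
  (hpS : p ∈ S) (hNS : ∀ q : ℕ, q.Prime → q ∣ N → q ∈ S)
  {𝒪 : Type} [CommRing 𝒪] [IsDomain 𝒪] [IsDiscreteValuationRing 𝒪]
  [IsAdicComplete (maximalIdeal 𝒪) 𝒪] [Finite (ResidueField 𝒪)] [CharZero 𝒪]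
  (hp𝒪 : (p : 𝒪) ∈ maximalIdeal 𝒪) {rbar : GQ →* M2 (ResidueField 𝒪)} (sd : SliceData rbar)
  (hspan : Submodule.span (ResidueField 𝒪) (Set.range rbar) = ⊤)
  (hrbar : ∃ L : IntermediateField ℚ (AlgebraicClosure ℚ), FiniteDimensional ℚ L ∧
      ∀ σ : GQ, (∀ x ∈ L, σ x = x) → rbar σ = 1)
  {T : Type} [CommRing T] [IsLocalRing T] [Algebra 𝒪 T] [IsLocalHom (algebraMap 𝒪 T)]
  [Module.Finite 𝒪 T] (π : CuspForm.heckeAlgebra N 2 (↑S : Set ℕ) →+* T)

/-- Frobenius traces and determinants -/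
def IsAtt {A : Type} [CommRing A] (r : GQ →* M2 A)
    (π : CuspForm.heckeAlgebra N 2 (↑S : Set ℕ) →+* A) : Prop :=
  ∀ (l : ℕ) (hl : l.Prime) (hlN : ¬ l ∣ N) (hlS : l ∉ (↑S : Set ℕ)),
    ∀ B : ValuationSubring (AlgebraicClosure ℚ), B.LiesOverPrime l → ∀ τ : GQ,
      B.IsFrobeniusAt τ l →
        (r τ).trace = π (CuspForm.heckeAlgebra.T hl hlN hlS) ∧ (r τ).det = (l : A)

/-- unramified outside `N p` -/
def UnrNp (p N : ℕ) {A : Type} [CommRing A] (r : GQ →* M2 A) : Prop :=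
  ∀ q : ℕ, q.Prime → ¬ q ∣ N → q ≠ p → ∀ B : ValuationSubring (AlgebraicClosure ℚ),
    B.LiesOverPrime q → ∀ σ ∈ B.inertiaSubgroupIn ℚ, r σ = 1

/-- residual condition -/
def ResCond (rbar : GQ →* M2 (ResidueField 𝒪)) {T : Type} [CommRing T] [IsLocalRing T]
    [Algebra 𝒪 T] (π : CuspForm.heckeAlgebra N 2 (↑S : Set ℕ) →+* T) : Prop :=
  ∀ (l : ℕ) (hl : l.Prime) (hlN : ¬ l ∣ N) (hlS : l ∉ (↑S : Set ℕ)),
    ∀ B : ValuationSubring (AlgebraicClosure ℚ), B.LiesOverPrime l → ∀ τ : GQ,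
      B.IsFrobeniusAt τ l → ∀ o : 𝒪, residue 𝒪 o = (rbar τ).trace →
        π (CuspForm.heckeAlgebra.T hl hlN hlS) - algebraMap 𝒪 T o ∈ maximalIdeal T

theorem trace_det_of_charpoly {A : Type} [CommRing A] [IsLocalRing A] (ρ : GaloisRepAdic A)
    (b : Basis (Fin 2) A ρ.V) (τ : GQ) {t d : A}
    (h : LinearMap.charpoly (ρ.ρ τ) = X ^ 2 - C t * X + C d) :
    (matOf ρ b τ).trace = t ∧ (matOf ρ b τ).det = d := by
  have h1 : LinearMap.charpoly (ρ.ρ τ) = (matOf ρ b τ).charpoly :=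
    (LinearMap.charpoly_toMatrix (ρ.ρ τ) b).symm
  rw [h1, Matrix.charpoly_fin_two] at h
  have e0 := congrArg (fun P : A[X] => P.coeff 0) h
  have e1 := congrArg (fun P : A[X] => P.coeff 1) h
  simp [coeff_X, coeff_C] at e0 e1
  exact ⟨e1, e0⟩

include h30 hpS hNS hp𝒪 hspan hrbar in
theorem exists_pt_rep (hres : ResCond rbar π) (pt : OPt 𝒪 T) :
    ∃ (pt' : OPt 𝒪 T), (∀ x, pt'.χ x = 0 → pt.χ x = 0) ∧ ∃ r : GQ →* M2 pt'.A,
      MatCont pt'.A r ∧ Red rbar r ∧ Norm sd r ∧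
      IsAtt r ((pt'.χ : T →+* pt'.A).comp π) ∧ UnrNp p N r := by
  have hpA : (p : pt.A) ∈ maximalIdeal pt.A := by
    have h1 : (p : pt.A) = algebraMap 𝒪 pt.A (p : 𝒪) := by rw [map_natCast]
    rw [h1]
    exact map_nonunit (algebraMap 𝒪 pt.A) _ hp𝒪
  obtain ⟨O'', i1, i2, i3, i4, i5, i6, i7, i8, i9, hinj, ρ, hρ, hunr⟩ :=
    h30 p N S hpS hNS pt.A hpA ((pt.χ : T →+* pt.A).comp π)
  let _ : Algebra 𝒪 O'' := ((algebraMap pt.A O'').comp (algebraMap 𝒪 pt.A)).toAlgebra
  have htow : IsScalarTower 𝒪 pt.A O'' := IsScalarTower.of_algebraMap_eq fun _ => rfl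
  have hfin : Module.Finite 𝒪 O'' := Module.Finite.trans pt.A O''
  have hloc : IsLocalHom (algebraMap 𝒪 O'') :=
    inferInstanceAs (IsLocalHom ((algebraMap pt.A O'').comp (algebraMap 𝒪 pt.A)))
  let f : pt.A →ₐ[𝒪] O'' := IsScalarTower.toAlgHom 𝒪 pt.A O''
  let pt' : OPt 𝒪 T := { A := O'', χ := f.comp pt.χ }
  obtain ⟨b⟩ := exists_basis ρ
  have hatt : IsAtt (matOf ρ b) ((pt'.χ : T →+* pt'.A).comp π) := by
    intro l hl hlN hlS B hB τ hτ
    exact trace_det_of_charpoly ρ b τ (hρ l hl hlN hlS B hB τ hτ)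
  have hNl : ∀ l : ℕ, l.Prime → l ∉ S → ¬ l ∣ N := fun l hl hlS h => hlS (hNS l hl h)
  obtain ⟨u, hu1, hu2, hu3⟩ := exists_norm (A := O'') sd hspan hrbar (matOf ρ b) (matOf_cont ρ b) S
    (fun l hl hlS B hB τ hτ o ho => by
      rw [(hatt l hl (hNl l hl hlS) (by exact_mod_cast hlS) B hB τ hτ).1]
      have h1 := mem_max_of_algHom pt'.χ
        (hres l hl (hNl l hl hlS) (by exact_mod_cast hlS) B hB τ hτ o ho)
      rw [map_sub, AlgHom.commutes] at h1
      exact h1)
  refine ⟨pt', fun x hx => hinj (hx.trans (map_zero _).symm), conjRep u (matOf ρ b), hu1, hu2, hu3,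
    fun l hl hlN hlS B hB τ hτ => ?_, fun q hq hqN hqp B hB σ hσ => ?_⟩
  · rw [trace_conjRep, det_conjRep]
    exact hatt l hl hlN hlS B hB τ hτ
  · have h1 : matOf ρ b σ = 1 := by
      rw [matOf_apply, hunr q hq hqN hqp B hB σ hσ]
      exact map_one (LinearMap.toMatrixAlgEquiv b)
    rw [conjRep_apply, h1, mul_one, Units.mul_inv]

end Points

section Main

variable (h30 : HeckeGal.S30Statement) {p N : ℕ} [Fact p.Prime] [NeZero N] {S : Finset ℕ}
  (hpS : p ∈ S) (hNS : ∀ q : ℕ, q.Prime → q ∣ N → q ∈ S)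
  {𝒪 : Type} [CommRing 𝒪] [IsDomain 𝒪] [IsDiscreteValuationRing 𝒪]
  [IsAdicComplete (maximalIdeal 𝒪) 𝒪] [Finite (ResidueField 𝒪)] [CharZero 𝒪]
  (hp𝒪 : (p : 𝒪) ∈ maximalIdeal 𝒪) {rbar : GQ →* M2 (ResidueField 𝒪)} (sd : SliceData rbar)
  (hspan : Submodule.span (ResidueField 𝒪) (Set.range rbar) = ⊤)
  (hrbar : ∃ L : IntermediateField ℚ (AlgebraicClosure ℚ), FiniteDimensional ℚ L ∧
      ∀ σ : GQ, (∀ x ∈ L, σ x = x) → rbar σ = 1)
  {T : Type} [CommRing T] [IsLocalRing T] [Algebra 𝒪 T] [IsLocalHom (algebraMap 𝒪 T)]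
  [Module.Finite 𝒪 T] (π : CuspForm.heckeAlgebra N 2 (↑S : Set ℕ) →+* T)

include hNS in
/-- the Hecke algebra is generated by the `T_l` -/
theorem mem_of_T_mem (T' : Subring T) (h : ∀ (l : ℕ) (hl : l.Prime) (hlN : ¬ l ∣ N)
    (hlS : l ∉ (↑S : Set ℕ)), π (CuspForm.heckeAlgebra.T hl hlN hlS) ∈ T')
    (x : CuspForm.heckeAlgebra N 2 (↑S : Set ℕ)) : π x ∈ T' := by
  have hS : ∀ q : ℕ, q.Prime → q ∣ N → q ∈ (↑S : Set ℕ) := fun q hq h => by
    exact_mod_cast hNS q hq h
  obtain ⟨y, rfl⟩ := HeckeHom.toHecke_surjective hS x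
  induction y using FreeAlgebra.induction with
  | grade0 n =>
    rw [AlgHom.commutes, eq_intCast, map_intCast]
    exact intCast_mem T' n
  | grade1 i =>
    rw [HeckeHom.toHecke_ι hS i.2.1 i.2.2.1 i.2.2.2]
    exact h _ _ _ _
  | mul x y hx hy => rw [map_mul, map_mul]; exact T'.mul_mem hx hy
  | add x y hx hy => rw [map_add, map_add]; exact T'.add_mem hx hy

include h30 hpS hNS hp𝒪 hspan hrbar in
/-- **The Galois representation over a Hecke algebra.** -/
theorem exists_rep [Module.Free 𝒪 T] [IsReduced T]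
    (hadj : Algebra.adjoin 𝒪 (Set.range π) = ⊤) (hres : ResCond rbar π) :
    ∃ r : GQ →* M2 T, MatCont T r ∧ Red rbar r ∧ Norm sd r ∧ IsAtt r π ∧ UnrNp p N r ∧
      Algebra.adjoin 𝒪 {x : T | ∃ σ i j, x = r σ i j} = ⊤ := by
  classical
  obtain ⟨ι, hι, pt, hpt⟩ := exists_opts 𝒪 T
  choose pt' hpt' r hc hr hn hatt hunr using
    fun i => exists_pt_rep h30 hpS hNS hp𝒪 sd hspan hrbar π hres (pt i)
  have hinjf : ∀ x : T, (∀ i, (pt' i).χ x = 0) → x = 0 := fun x hx =>
    hpt x fun i => hpt' i x (hx i)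
  have hne : Nonempty ι := by
    by_contra h
    have h0 := not_nonempty_iff.mp h
    exact one_ne_zero (hinjf 1 fun i => h0.elim i)
  obtain ⟨J⟩ := RT8J.exists_jring (𝒪 := 𝒪) sd (J := ι) (T := fun i => (pt' i).A) (r := r) hc hr hn
  -- the two embeddings
  let f : T →ₐ[𝒪] (∀ i, (pt' i).A) := AlgHom.pi fun i => (pt' i).χ
  let g : J.R →ₐ[𝒪] (∀ i, (pt' i).A) := AlgHom.pi J.pr
  have hf : Function.Injective f := by
    rw [injective_iff_map_eq_zero]
    exact fun x hx => hinjf x fun i => congrFun hx i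
  have hg : Function.Injective g := by
    rw [injective_iff_map_eq_zero]
    exact fun x hx => J.inj x fun i => congrFun hx i
  have hNl : ∀ l : ℕ, l.Prime → l ∉ S → ¬ l ∣ N := fun l hl hlS h => hlS (hNS l hl h)
  have htr : ∀ i τ, J.pr i (J.r0 τ).trace = (r i τ).trace := by
    intro i τ
    rw [← J.pr_r0 i]
    exact (trace_mapRep (J.pr i : J.R →+* (pt' i).A) J.r0 τ).symm
  have hdet : ∀ i τ, J.pr i (J.r0 τ).det = (r i τ).det := by
    intro i τ
    rw [← J.pr_r0 i]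
    exact RingHom.map_det (J.pr i : J.R →+* (pt' i).A) (J.r0 τ)
  have hfg : ∀ (l : ℕ) (hl : l.Prime) (hlN : ¬ l ∣ N) (hlS : l ∉ (↑S : Set ℕ)),
      ∀ B : ValuationSubring (AlgebraicClosure ℚ), B.LiesOverPrime l → ∀ τ : GQ,
        B.IsFrobeniusAt τ l → f (π (CuspForm.heckeAlgebra.T hl hlN hlS)) = g (J.r0 τ).trace := by
    intro l hl hlN hlS B hB τ hτ
    funext i
    change (pt' i).χ _ = J.pr i _
    rw [htr, (hatt i l hl hlN hlS B hB τ hτ).1]
    rfl
  have h1 : ∀ x : J.R, g x ∈ f.range := by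
    have h2 : f.range.comap g = ⊤ := by
      refine jring_top J hspan _ S fun l hl hlS B hB τ hτ => ?_
      rw [Subalgebra.mem_comap, ← hfg l hl (hNl l hl hlS) (by exact_mod_cast hlS) B hB τ hτ]
      exact ⟨_, rfl⟩
    intro x
    have hx : x ∈ f.range.comap g := by rw [h2]; trivial
    exact hx
  have h2 : ∀ x : T, f x ∈ g.range := by
    have h3 : g.range.comap f = ⊤ := by
      rw [eq_top_iff, ← hadj, Algebra.adjoin_le_iff]
      rintro _ ⟨x, rfl⟩
      refine mem_of_T_mem hNS π (g.range.comap f).toSubring (fun l hl hlN hlS => ?_) x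
      obtain ⟨B, hB, τ, hτ⟩ := Frob.exists_liesOverPrime_isFrobeniusAt (L := AlgebraicClosure ℚ) hl
      change f _ ∈ g.range
      rw [hfg l hl hlN hlS B hB τ hτ]
      exact ⟨_, rfl⟩
    intro x
    have hx : x ∈ g.range.comap f := by rw [h3]; trivial
    exact hx
  choose e he using h1
  let e' : J.R →ₐ[𝒪] T := AlgHom.ofLinearMap
    { toFun := e
      map_add' := fun x y => hf (by
        change f (e (x + y)) = f (e x + e y)
        rw [map_add, show f (e x) = g x from he x, show f (e y) = g y from he y,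
          show f (e (x + y)) = g (x + y) from he _, map_add])
      map_smul' := fun a x => hf (by
        change f (e (a • x)) = f (a • e x)
        rw [map_smul, show f (e x) = g x from he x, show f (e (a • x)) = g (a • x) from he _,
          map_smul]) }
    (hf (by
      change f (e 1) = f 1
      rw [show f (e 1) = g 1 from he _, map_one, map_one]))
    (fun x y => hf (by
      change f (e (x * y)) = f (e x * e y)
      rw [map_mul, show f (e x) = g x from he x, show f (e y) = g y from he y,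
          show f (e (x * y)) = g (x * y) from he _, map_mul]))
  have he' : ∀ x, f (e' x) = g x := he
  have hsurj : Function.Surjective e' := by
    intro x
    obtain ⟨y, hy⟩ := h2 x
    exact ⟨y, hf ((he' y).trans hy)⟩
  have hloc : IsLocalHom (e' : J.R →+* T) := isLocalHom_of_algHom e'
  have hchi : ∀ i x, (pt' i).χ (e' x) = J.pr i x := fun i x => congrFun (he' x) i
  refine ⟨mapRep (e' : J.R →+* T) J.r0, mapRep_cont _ hloc _ J.cont, ?_, J.norm.map e', ?_, ?_, ?_⟩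
  · intro σ i j o ho
    have h3 := mem_max_of_algHom e' (J.red σ i j o ho)
    rw [map_sub, AlgHom.commutes] at h3
    exact h3
  · intro l hl hlN hlS B hB τ hτ
    constructor
    · apply hf
      rw [hfg l hl hlN hlS B hB τ hτ, ← he']
      congr 1
      exact trace_mapRep (e' : J.R →+* T) J.r0 τ
    · apply hf
      funext i
      change (pt' i).χ _ = (pt' i).χ _
      rw [map_natCast]
      have h3 : (mapRep (e' : J.R →+* T) J.r0 τ).det = e' (J.r0 τ).det :=
        (RingHom.map_det (e' : J.R →+* T) (J.r0 τ)).symm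
      rw [h3, hchi, hdet]
      exact (hatt i l hl hlN hlS B hB τ hτ).2
  · intro q hq hqN hqp B hB σ hσ
    have h3 : J.r0 σ = 1 := by
      refine Matrix.ext fun a b => ?_
      rw [← sub_eq_zero]
      apply J.inj
      intro i
      rw [map_sub, sub_eq_zero]
      have h4 : J.pr i (J.r0 σ a b) = r i σ a b := by rw [← J.pr_r0 i]; rfl
      rw [h4, hunr i q hq hqN hqp B hB σ hσ]
      by_cases hab : a = b
      · subst hab; rw [Matrix.one_apply_eq, Matrix.one_apply_eq, map_one]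
      · rw [Matrix.one_apply_ne hab, Matrix.one_apply_ne hab, map_zero]
    refine Matrix.ext fun a b => ?_
    rw [mapRep_apply, h3]
    by_cases hab : a = b
    · subst hab; rw [Matrix.one_apply_eq, Matrix.one_apply_eq, map_one]
    · rw [Matrix.one_apply_ne hab, Matrix.one_apply_ne hab, map_zero]
  · have h3 : (Algebra.adjoin 𝒪 {x : J.R | ∃ σ i j, x = J.r0 σ i j}).map e' = ⊤ := by
      rw [J.adj, Algebra.map_top, AlgHom.range_eq_top]
      exact hsurj
    rw [AlgHom.map_adjoin] at h3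
    rw [← top_le_iff, ← h3]
    refine Algebra.adjoin_mono ?_
    rintro _ ⟨_, ⟨σ, i, j, rfl⟩, rfl⟩
    exact ⟨σ, i, j, rfl⟩

end Main

end Fermat.Agent.TW

end
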