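import Fermat.Agent.TW.Base

/-!
The modules of level `Γ₀(n)`: Galois representations and change of the excluded primes.
-/

set_option autoImplicit false
set_option linter.unusedSectionVars false

noncomputable section

namespace Fermat.Agent.TW

open IsLocalRing Module Matrix Fermat.Agent.DefRing Polynomial Fermat.Agent.TWDeg
open CongruenceSubgroup

section

variable (h30 : HeckeGal.S30Statement) {p n m m' : ℕ} [Fact p.Prime] [NeZero n] (hn : n ∣ m)
  (hmm : m ∣ m') (hm' : m' ≠ 0) (hpm : p ∣ m) {O : Type} [CommRing O] [IsDomain O]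
  [IsDiscreteValuationRing O] [IsAdicComplete (maximalIdeal O) O] [Finite (ResidueField O)]
  [CharZero O] (hpO : (p : O) ∈ maximalIdeal O) {rbar : GQ →* M2 (ResidueField O)}
  (sd : SliceData rbar) (hspan : Submodule.span (ResidueField O) (Set.range rbar) = ⊤)
  (hrbar : ∃ L : IntermediateField ℚ (AlgebraicClosure ℚ), FiniteDimensional ℚ L ∧
      ∀ σ : GQ, (∀ x ∈ L, σ x = x) → rbar σ = 1) (hES : HeckeHom.ES n)
  {𝔪 : Ideal (TPoly m O)} [𝔪.IsMaximal] {𝔪' : Ideal (TPoly m' O)} [𝔪'.IsMaximal]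
  (h𝔪 : ResId rbar 𝔪) (h𝔪' : ResId rbar 𝔪') (hE : NonEis n 𝔪) (hE' : NonEis n 𝔪')

theorem dvd_of_dvd (hn : n ∣ m) : ∀ q : ℕ, q.Prime → q ∣ n → q ∣ m := fun _ _ h => h.trans hn

include h30 hn hpm hpO hspan hrbar hES h𝔪 hE in
/-- **The Hecke algebra of level `Γ₀(n)`** -/
theorem exists_hrep_base (hm : m ≠ 0) [Nontrivial (Loc 𝔪 (HG m n hn O))] :
    Nonempty (HRep (m := m) p n sd (Loc 𝔪 (HG m n hn O))) := by
  have hfin := HG.finite (NeZero.ne n) hn (O := O)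
  have hfin' : Module.Finite O (Loc 𝔪 (HG m n hn O)) := Loc.finite 𝔪
  exact exists_hrep h30 hm hpm (dvd_of_dvd hn) hpO sd hspan hrbar
    (fun s hs => Loc.smul_bij hs) h𝔪
    (fun a x ha hx => Loc.smul_eq_zero' (HG.smul_eq_zero hn) a x ha hx)
    (fun P hP x => HG.rel hn (dvd_of_dvd hn) hES hE P hP x)

theorem inc_eis (l : Pr m') : inc hmm O (eis O l) = eis O (incP hmm l) := by
  change inc hmm O (MvPolynomial.X l - MvPolynomial.C _) = _
  rw [map_sub, inc_X, inc_C]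
  rfl

include h30 hm' hpm hpO hspan hrbar hES h𝔪 h𝔪' hE' sd in
/-- elements outside `𝔪` act injectively on the localisation at `𝔪'` -/
theorem hg_inj (s : TPoly m O) (hs : s ∉ 𝔪)
    (x : QLoc hmm (hgE hmm hn) (hgE_smul hmm hn) 𝔪') (hx : s • x = 0) : x = 0 := by
  have hfin' := HG.finite (NeZero.ne n) (hn.trans hmm) (O := O)
  have hfinL : Module.Finite O (Loc 𝔪' (HG m' n (hn.trans hmm) O)) := Loc.finite 𝔪'
  set e := qlocE hmm (hgE hmm hn) (hgE_smul hmm hn) 𝔪' with he_def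
  rcases subsingleton_or_nontrivial (Loc 𝔪' (HG m' n (hn.trans hmm) O)) with hsub | hnt
  · obtain ⟨y, rfl⟩ := e.surjective x
    rw [Subsingleton.elim y 0, map_zero]
  have hm : m ≠ 0 := fun h => hm' (by rw [h] at hmm; exact Nat.eq_zero_of_zero_dvd hmm)
  obtain ⟨R'⟩ := exists_hrep_base h30 (hn.trans hmm) (hpm.trans hmm) hpO sd hspan hrbar hES h𝔪'
    hE' hm'
  refine qloc_inj hmm (hgE hmm hn) (hgE_smul hmm hn) 𝔪' h30 hm hpm (dvd_of_dvd hn) hm' hpO 𝔪 h𝔪
    (fun a x ha hx => Loc.smul_eq_zero' (HG.smul_eq_zero (hn.trans hmm)) a x ha hx)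
    (fun P hP x => ?_) R' s hs x hx
  obtain ⟨l, hl, hl𝔪⟩ := hE'
  have hk : eis O l ^ 2 ∉ 𝔪' := fun h => hl𝔪 ((inferInstance : 𝔪'.IsPrime).mem_of_pow_mem _ h)
  obtain ⟨x, rfl⟩ := Submodule.Quotient.mk_surjective _ x
  have h4 := HG.kill hn (dvd_of_dvd hn) hES P hP (incP hmm l) hl x
  have h5 : eis O (incP hmm l) * (TWD.Shap.pz m O P * eis O (incP hmm l)) =
      inc hmm O (eis O l ^ 2) * TWD.Shap.pz m O P := by
    rw [map_pow, inc_eis]; ring
  rw [h5, mul_smul] at h4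
  have h6 : inc hmm O (eis O l ^ 2) • (Submodule.Quotient.mk (TWD.Shap.pz m O P • x) :
      QLoc hmm (hgE hmm hn) (hgE_smul hmm hn) 𝔪') = 0 := by
    rw [← Submodule.Quotient.mk_smul, h4, Submodule.Quotient.mk_zero]
  rw [← Submodule.Quotient.mk_smul]
  obtain ⟨y, hy⟩ := e.surjective (Submodule.Quotient.mk (TWD.Shap.pz m O P • x))
  rw [← hy, he_def, ← qlocE_smul] at h6
  have h7 := e.injective (h6.trans (map_zero _).symm)
  have h8 := Loc.eq_zero_of_smul hk h7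
  rw [← hy, h8, map_zero]

include h30 hm' hpm hpO hspan hrbar hES h𝔪 h𝔪' hE' sd in
/-- **Independence of the excluded primes.** -/
theorem exists_tqE : ∃ e : Loc 𝔪' (HG m' n (hn.trans hmm) O) ≃+ Loc 𝔪 (HG m n hn O),
    (∀ (P : TPoly m' O) x, e (P • x) = inc hmm O P • e x) ∧
    (∀ x, e (Loc.mk 𝔪' _ x) = Loc.mk 𝔪 _ (hgE hmm hn x)) ∧
    (∀ (a : O) x, e (a • x) = a • e x) ∧
    ∀ (l : Pr m) x, e (Loc.map 𝔪' (Tg (one_dvd m') (triv 1 O O) n (hn.trans hmm) l.2.1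
      (l.coprime hn) (l.coprime (one_dvd m))) x) = (MvPolynomial.X l : TPoly m O) • e x := by
  have hfin := HG.finite (NeZero.ne n) hn (O := O)
  have hfin' := HG.finite (NeZero.ne n) (hn.trans hmm) (O := O)
  have hinj := hg_inj h30 hn hmm hm' hpm hpO sd hspan hrbar hES h𝔪 h𝔪' hE'
  refine ⟨tqE hmm (hgE hmm hn) (hgE_smul hmm hn) 𝔪' 𝔪 h𝔪 h𝔪' hinj, tqE_smul _ _ _ _ _ _ _ _,
    tqE_mk _ _ _ _ _ _ _ _, fun a x => ?_, fun l x => ?_⟩
  · rw [← Loc.C_smul, tqE_smul, inc_C, Loc.C_smul]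
  · obtain ⟨x, rfl⟩ := Loc.mk_surjective 𝔪' (N := HG m' n (hn.trans hmm) O) x
    rw [Loc.map_mk, tqE_mk, hgE_Tg, tqE_mk, map_smul]

include h30 hm' hpm hpO hspan hrbar hES h𝔪 h𝔪' hE' sd in
/-- **(H1)**: `(l+1)² - T_l²` is bijective if `tr rbar(Frob_l) ≠ ±(l+1)`. -/
theorem det_bij (l : Pr m) (B : ValuationSubring (AlgebraicClosure ℚ)) (hB : B.LiesOverPrime l)
    (τ : GQ) (hτ : B.IsFrobeniusAt τ l)
    (hne : (rbar τ).trace ^ 2 ≠ (((l : ℕ) : ResidueField O) + 1) ^ 2) :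
    Function.Bijective (detN (one_dvd m') (triv 1 O O) 𝔪' n (hn.trans hmm) l.2.1
      (l.coprime hn) (l.coprime (one_dvd m))) := by
  obtain ⟨e, -, -, he, heT⟩ := exists_tqE h30 hn hmm hm' hpm hpO sd hspan hrbar hES h𝔪 h𝔪' hE'
  set s : TPoly m O := MvPolynomial.C ((((l : ℕ) : O) + 1) ^ 2) - MvPolynomial.X l ^ 2 with hs_def
  have hs : s ∉ 𝔪 := by
    intro h
    obtain ⟨o, ho⟩ := residue_surjective (R := O) (rbar τ).trace
    have h1 := h𝔪.tmem l B hB τ hτ o ho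
    have h2 : (MvPolynomial.C ((((l : ℕ) : O) + 1) ^ 2 - o ^ 2) : TPoly m O) ∈ 𝔪 := by
      have e1 : (MvPolynomial.C ((((l : ℕ) : O) + 1) ^ 2 - o ^ 2) : TPoly m O) =
          s + (MvPolynomial.X l + MvPolynomial.C o) *
            (MvPolynomial.X l - MvPolynomial.C o) := by
        rw [hs_def, map_sub, map_pow (MvPolynomial.C : O →+* TPoly m O) o]
        ring
      rw [e1]
      exact add_mem h (Ideal.mul_mem_left _ _ h1)
    rw [h𝔪.C_mem_iff (inferInstance : 𝔪.IsMaximal).ne_top, ← residue_eq_zero_iff, map_sub,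
      map_pow, map_pow, map_add, map_natCast, map_one, ho, sub_eq_zero] at h2
    exact hne h2.symm
  have key : ∀ x, e (detN (one_dvd m') (triv 1 O O) 𝔪' n (hn.trans hmm) l.2.1
      (l.coprime hn) (l.coprime (one_dvd m)) x) = s • e x := by
    intro x
    rw [detN_apply, map_sub, map_nsmul]
    change ((l : ℕ) + 1) ^ 2 • e x - e (Loc.map 𝔪' _ (Loc.map 𝔪' _ x)) = _
    rw [heT, heT, hs_def, sub_smul, pow_two (MvPolynomial.X l : TPoly m O), mul_smul,
      Loc.C_smul, ← Nat.cast_smul_eq_nsmul O]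
    push_cast
    rfl
  have h3 : (fun x => e (detN (one_dvd m') (triv 1 O O) 𝔪' n (hn.trans hmm) l.2.1
      (l.coprime hn) (l.coprime (one_dvd m)) x)) = (fun x : Loc 𝔪 (HG m n hn O) => s • x) ∘ e :=
    funext key
  have h4 : Function.Bijective (e ∘ (detN (one_dvd m') (triv 1 O O) 𝔪' n (hn.trans hmm) l.2.1
      (l.coprime hn) (l.coprime (one_dvd m)))) := by
    change Function.Bijective (fun x => e _)
    rw [h3]
    exact (Loc.smul_bij hs).comp e.bijective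
  exact (Function.Bijective.of_comp_iff' e.bijective _).mp h4

end

end Fermat.Agent.TW

end
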