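import Mathlib.Algebra.Module.LocalizedModule.Basic
import Mathlib.Algebra.Module.LocalizedModule.Exact
import Mathlib.Algebra.MvPolynomial.Eval
import Mathlib.RingTheory.Localization.AtPrime.Basic
import Mathlib.RingTheory.Noetherian.Basic
import Mathlib.LinearAlgebra.FreeModule.Basic
import Mathlib.RingTheory.Finiteness.Cardinality
import Fermat.Prelude.Thm_Algebra_finite_maximalSpectrum_and_bijective_localization_of_module_finite

/-!
Localisation of modules at prime ideals.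
-/

set_option autoImplicit false

noncomputable section

namespace Fermat.Agent.TW

section

variable {B : Type} [CommRing B] (𝔪 : Ideal B) [𝔪.IsPrime] (N : Type) [AddCommGroup N] [Module B N]
  {N' N'' : Type} [AddCommGroup N'] [Module B N'] [AddCommGroup N''] [Module B N'']

/-- localisation of a module -/
def Loc : Type := LocalizedModule 𝔪.primeCompl N

instance : AddCommGroup (Loc 𝔪 N) := inferInstanceAs (AddCommGroup (LocalizedModule 𝔪.primeCompl N))
instance : Module B (Loc 𝔪 N) := inferInstanceAs (Module B (LocalizedModule 𝔪.primeCompl N))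

namespace Loc

/-- the map to the localisation -/
def mk : N →ₗ[B] Loc 𝔪 N := LocalizedModule.mkLinearMap _ _

instance : IsLocalizedModule 𝔪.primeCompl (mk 𝔪 N) :=
  inferInstanceAs (IsLocalizedModule 𝔪.primeCompl (LocalizedModule.mkLinearMap 𝔪.primeCompl N))

variable {N} {𝔪}

theorem exists_smul (x : Loc 𝔪 N) : ∃ s ∉ 𝔪, ∃ n, s • x = mk 𝔪 N n := by
  obtain ⟨⟨n, s⟩, h⟩ := IsLocalizedModule.surj 𝔪.primeCompl (mk 𝔪 N) x
  exact ⟨s, s.2, n, h⟩

theorem smul_bij {s : B} (hs : s ∉ 𝔪) : Function.Bijective (fun x : Loc 𝔪 N => s • x) := by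
  have h := IsLocalizedModule.map_units (mk 𝔪 N) (⟨s, hs⟩ : 𝔪.primeCompl)
  rw [Module.End.isUnit_iff] at h
  exact h

theorem eq_zero_of_smul {s : B} (hs : s ∉ 𝔪) {x : Loc 𝔪 N} (h : s • x = 0) : x = 0 :=
  (smul_bij hs).1 (h.trans (smul_zero s).symm)

theorem mk_eq_zero {n : N} : mk 𝔪 N n = 0 ↔ ∃ s ∉ 𝔪, s • n = 0 := by
  rw [IsLocalizedModule.eq_zero_iff 𝔪.primeCompl (mk 𝔪 N)]
  constructor
  · rintro ⟨s, hs⟩
    exact ⟨s, s.2, hs⟩
  · rintro ⟨s, hs, h⟩
    exact ⟨⟨s, hs⟩, h⟩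

variable (𝔪)

/-- functoriality -/
def mapLin : (N →ₗ[B] N') →ₗ[B] (Loc 𝔪 N →ₗ[B] Loc 𝔪 N') :=
  IsLocalizedModule.map 𝔪.primeCompl (mk 𝔪 N) (mk 𝔪 N')

/-- functoriality -/
def map (f : N →ₗ[B] N') : Loc 𝔪 N →ₗ[B] Loc 𝔪 N' := mapLin 𝔪 f

@[simp] theorem map_mk (f : N →ₗ[B] N') (n : N) : map 𝔪 f (mk 𝔪 N n) = mk 𝔪 N' (f n) :=
  IsLocalizedModule.map_apply 𝔪.primeCompl (mk 𝔪 N) (mk 𝔪 N') f n

variable {𝔪}

theorem hom_ext {f g : Loc 𝔪 N →ₗ[B] Loc 𝔪 N'} (h : ∀ n, f (mk 𝔪 N n) = g (mk 𝔪 N n)) :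
    f = g := by
  ext x
  obtain ⟨s, hs, n, hn⟩ := exists_smul x
  apply (smul_bij hs).1
  change s • f x = s • g x
  rw [← map_smul, ← map_smul, hn, h]

variable (𝔪)

theorem map_id : map 𝔪 (LinearMap.id : N →ₗ[B] N) = LinearMap.id :=
  hom_ext fun n => by rw [map_mk]; rfl

theorem map_comp (g : N' →ₗ[B] N'') (f : N →ₗ[B] N') : map 𝔪 (g ∘ₗ f) = map 𝔪 g ∘ₗ map 𝔪 f :=
  hom_ext fun n => by rw [map_mk, LinearMap.comp_apply, LinearMap.comp_apply, map_mk, map_mk]

theorem map_add (f g : N →ₗ[B] N') : map 𝔪 (f + g) = map 𝔪 f + map 𝔪 g := _root_.map_add _ _ _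

theorem map_sub (f g : N →ₗ[B] N') : map 𝔪 (f - g) = map 𝔪 f - map 𝔪 g := _root_.map_sub _ _ _

theorem map_sum {ι : Type} (s : Finset ι) (f : ι → N →ₗ[B] N') :
    map 𝔪 (∑ i ∈ s, f i) = ∑ i ∈ s, map 𝔪 (f i) := _root_.map_sum _ _ _

theorem map_zero : map 𝔪 (0 : N →ₗ[B] N') = 0 := _root_.map_zero _

/-- injectivity of localised maps -/
theorem map_injective (f : N →ₗ[B] N') (h : ∀ n, f n = 0 → ∃ s ∉ 𝔪, s • n = 0) :
    Function.Injective (map 𝔪 f) := by
  rw [← LinearMap.ker_eq_bot, LinearMap.ker_eq_bot']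
  intro x hx
  obtain ⟨s, hs, n, hn⟩ := exists_smul x
  have h1 : mk 𝔪 N' (f n) = 0 := by rw [← map_mk, ← hn, map_smul, hx, smul_zero]
  obtain ⟨t, ht, h2⟩ := mk_eq_zero.mp h1
  rw [← map_smul] at h2
  obtain ⟨u, hu, h3⟩ := h _ h2
  have h4 : (u * t) • mk 𝔪 N n = 0 := by rw [← map_smul, mul_smul, h3, _root_.map_zero]
  rw [← hn, ← mul_smul] at h4
  have h5 : u * t * s ∉ 𝔪 := by
    intro h6
    rcases (inferInstance : 𝔪.IsPrime).mem_or_mem h6 with h7 | h7
    · rcases (inferInstance : 𝔪.IsPrime).mem_or_mem h7 with h8 | h8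
      · exact hu h8
      · exact ht h8
    · exact hs h7
  exact eq_zero_of_smul h5 h4

theorem map_surjective (f : N →ₗ[B] N') (h : Function.Surjective f) :
    Function.Surjective (map 𝔪 f) :=
  IsLocalizedModule.map_surjective 𝔪.primeCompl (mk 𝔪 N) (mk 𝔪 N') f h

/-- exactness of localised maps -/
theorem map_exact (f : N →ₗ[B] N') (g : N' →ₗ[B] N'') (h : ∀ n, g n = 0 → ∃ n', f n' = n)
    (x : Loc 𝔪 N') (hx : map 𝔪 g x = 0) : ∃ y, map 𝔪 f y = x := by
  obtain ⟨s, hs, n, hn⟩ := exists_smul x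
  have h1 : mk 𝔪 N'' (g n) = 0 := by rw [← map_mk, ← hn, map_smul, hx, smul_zero]
  obtain ⟨t, ht, h2⟩ := mk_eq_zero.mp h1
  rw [← map_smul] at h2
  obtain ⟨n', hn'⟩ := h _ h2
  have h3 : t * s ∉ 𝔪 := fun h6 => ((inferInstance : 𝔪.IsPrime).mem_or_mem h6).elim ht hs
  obtain ⟨y, hy⟩ := (smul_bij (N := N) h3).2 (mk 𝔪 N n')
  refine ⟨y, (smul_bij h3).1 ?_⟩
  change (t * s) • map 𝔪 f y = (t * s) • x
  rw [← map_smul]
  change map 𝔪 f ((fun x => (t * s) • x) y) = _
  rw [hy, map_mk, hn', mul_smul, hn, map_smul]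

end Loc

end

section Poly

variable {σ R : Type} [CommRing R] (𝔪 : Ideal (MvPolynomial σ R)) [𝔪.IsPrime]
  {N : Type} [AddCommGroup N] [Module (MvPolynomial σ R) N]
  {N' : Type} [AddCommGroup N'] [Module (MvPolynomial σ R) N']

instance Loc.instModuleBase : Module R (Loc 𝔪 N) :=
  Module.compHom _ (MvPolynomial.C : R →+* MvPolynomial σ R)

theorem Loc.C_smul (a : R) (x : Loc 𝔪 N) : (MvPolynomial.C a : MvPolynomial σ R) • x = a • x := rfl

instance Loc.instTower : IsScalarTower R (MvPolynomial σ R) (Loc 𝔪 N) where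
  smul_assoc a p x := by
    rw [MvPolynomial.smul_eq_C_mul, mul_smul, Loc.C_smul]

theorem Loc.mk_smul [Module R N] [IsScalarTower R (MvPolynomial σ R) N] (a : R) (n : N) :
    Loc.mk 𝔪 N (a • n) = a • Loc.mk 𝔪 N n := by
  rw [← Loc.C_smul, ← map_smul, ← algebraMap_smul (MvPolynomial σ R) a n]
  rfl

/-- localised maps as `R`-linear maps -/
def Loc.mapR (f : N →ₗ[MvPolynomial σ R] N') : Loc 𝔪 N →ₗ[R] Loc 𝔪 N' where
  toFun := Loc.map 𝔪 f
  map_add' := _root_.map_add _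
  map_smul' a x := _root_.map_smul (Loc.map 𝔪 f) (MvPolynomial.C a) x

@[simp] theorem Loc.mapR_apply (f : N →ₗ[MvPolynomial σ R] N') (x : Loc 𝔪 N) :
    Loc.mapR 𝔪 f x = Loc.map 𝔪 f x := rfl

end Poly

section Surj

variable {σ O : Type} [CommRing O] [IsLocalRing O] [IsNoetherianRing O]
  [IsAdicComplete (IsLocalRing.maximalIdeal O) O] (𝔪 : Ideal (MvPolynomial σ O))
  {N : Type} [AddCommGroup N] [Module (MvPolynomial σ O) N]
  [Module O N] [IsScalarTower O (MvPolynomial σ O) N] [Module.Finite O N]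

/-- For finite modules over complete local rings, the localisation at a maximal ideal is a
quotient. -/
theorem Loc.mk_surjective [h𝔪 : 𝔪.IsMaximal] : Function.Surjective (Loc.mk 𝔪 N) := by
  classical
  let φ : MvPolynomial σ O →ₐ[O] Module.End O N := Algebra.lsmul O O N
  have hφ : ∀ p n, φ p n = p • n := fun _ _ => rfl
  let I₀ : Ideal (MvPolynomial σ O) := RingHom.ker φ
  by_cases hle : I₀ ≤ 𝔪
  · let C := MvPolynomial σ O ⧸ I₀
    have hfin : Module.Finite O C := by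
      have : IsNoetherian O (Module.End O N) := by
        obtain ⟨n, w, hw⟩ := Module.Finite.exists_fin (R := O) (M := N)
        let ev : Module.End O N →ₗ[O] (Fin n → N) :=
          { toFun := fun f i => f (w i)
            map_add' := fun _ _ => rfl
            map_smul' := fun _ _ => rfl }
        refine isNoetherian_of_injective ev fun f g hfg => ?_
        refine LinearMap.ext_on_range hw fun i => congrFun hfg i
      exact Module.Finite.of_injective (Ideal.kerLiftAlg φ).toLinearMap (Ideal.kerLiftAlg_injective φ)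
    obtain ⟨-, hbij, -, -⟩ :=
      Algebra.finite_maximalSpectrum_and_bijective_localization_of_module_finite (𝒪 := O) C
    let 𝔪' : Ideal C := 𝔪.map (Ideal.Quotient.mk I₀)
    have hcomap : 𝔪'.comap (Ideal.Quotient.mk I₀) = 𝔪 := by
      rw [Ideal.comap_map_of_surjective _ Ideal.Quotient.mk_surjective, ← RingHom.ker_eq_comap_bot,
        Ideal.mk_ker, sup_eq_left]
      exact hle
    have hmax : 𝔪'.IsMaximal := by
      refine (Ideal.map_eq_top_or_isMaximal_of_surjective _ Ideal.Quotient.mk_surjective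
        h𝔪).resolve_left fun htop => h𝔪.ne_top ?_
      rw [← hcomap]
      change Ideal.comap _ 𝔪' = ⊤
      rw [show 𝔪' = ⊤ from htop, Ideal.comap_top]
    have hmem : ∀ s, s ∉ 𝔪 → Ideal.Quotient.mk I₀ s ∉ 𝔪' := by
      intro s hs h
      apply hs
      rw [← hcomap]
      exact h
    intro x
    obtain ⟨s, hs, n, hn⟩ := Loc.exists_smul x
    -- the inverse of `s` in the localisation of `C` comes from `C`
    have hs' := hmem s hs
    obtain ⟨b, hb⟩ := hbij.2 (Function.update 0 ⟨𝔪', hmax⟩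
      (IsLocalization.mk' (Localization.AtPrime 𝔪') (1 : C)
        (⟨Ideal.Quotient.mk I₀ s, hs'⟩ : 𝔪'.primeCompl)))
    have hb' := congrFun hb ⟨𝔪', hmax⟩
    rw [Function.update_self] at hb'
    change algebraMap C (Localization.AtPrime 𝔪') b = _ at hb'
    obtain ⟨t, rfl⟩ := Ideal.Quotient.mk_surjective b
    have h1 : algebraMap C (Localization.AtPrime 𝔪') (Ideal.Quotient.mk I₀ (s * t - 1)) = 0 := by
      rw [_root_.map_sub, _root_.map_mul, _root_.map_sub, _root_.map_mul, hb', _root_.map_one,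
        _root_.map_one, IsLocalization.mk'_spec'_mk, _root_.map_one, sub_self]
    rw [IsLocalization.map_eq_zero_iff 𝔪'.primeCompl] at h1
    obtain ⟨⟨u', hu'⟩, h2⟩ := h1
    obtain ⟨u, rfl⟩ := Ideal.Quotient.mk_surjective u'
    have hu : u ∉ 𝔪 := fun h => hu' (Ideal.mem_map_of_mem _ h)
    change Ideal.Quotient.mk I₀ u * Ideal.Quotient.mk I₀ (s * t - 1) = 0 at h2
    rw [← _root_.map_mul, Ideal.Quotient.eq_zero_iff_mem] at h2
    have h3 : ∀ n : N, (u * (s * t - 1)) • n = 0 := fun n => by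
      rw [← hφ]
      exact LinearMap.congr_fun h2 n
    refine ⟨t • n, (Loc.smul_bij hs).1 ((Loc.smul_bij hu).1 ?_)⟩
    change u • s • Loc.mk 𝔪 N (t • n) = u • s • x
    rw [hn, ← map_smul, ← map_smul, ← map_smul]
    congr 1
    have h4 := h3 n
    rw [mul_sub, mul_one, sub_smul, sub_eq_zero, mul_smul, mul_smul] at h4
    exact h4
  · obtain ⟨s, hs, hs'⟩ := SetLike.not_le_iff_exists.mp hle
    intro x
    refine ⟨0, ?_⟩
    rw [_root_.map_zero]
    obtain ⟨s', hs', n, hn⟩ := Loc.exists_smul x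
    symm
    apply Loc.eq_zero_of_smul hs'
    rw [hn, Loc.mk_eq_zero]
    exact ⟨s, by assumption, by
      rw [← hφ]
      exact LinearMap.congr_fun (show φ s = 0 from hs) n⟩

theorem Loc.finite [𝔪.IsMaximal] : Module.Finite O (Loc 𝔪 N) := by
  have h := Loc.mk_surjective 𝔪 (N := N)
  let f : N →ₗ[O] Loc 𝔪 N :=
    { toFun := Loc.mk 𝔪 N
      map_add' := _root_.map_add _
      map_smul' := fun a n => Loc.mk_smul 𝔪 a n }
  exact Module.Finite.of_surjective f h

end Surj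

end Fermat.Agent.TW

end
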