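import Mathlib.GroupTheory.PGroup
import Mathlib.GroupTheory.FiniteAbelian.Basic
import Mathlib.RingTheory.Nakayama
import Mathlib.RingTheory.DiscreteValuationRing.Basic
import Mathlib.RingTheory.SimpleModule.Basic
import Mathlib.RepresentationTheory.Basic
import Mathlib.RingTheory.LocalRing.ResidueField.Basic
import Mathlib.Tactic

/-!
A criterion for freeness over the group ring of a finite `p`-group.
-/

set_option autoImplicit false

noncomputable section

namespace Fermat.Agent.TW

theorem exists_fixed {p : ℕ} [hpf : Fact p.Prime] {Δ : Type} [Group Δ] [Finite Δ]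
    (hΔ : IsPGroup p Δ) {E : Type} [AddCommGroup E] (a : Δ →* AddMonoid.End E)
    (K : AddSubgroup E) (hK : ∀ g x, x ∈ K → a g x ∈ K) (hp : ∀ x ∈ K, (p : ℕ) • x = 0)
    (x₀ : E) (hx₀ : x₀ ∈ K) (h0 : x₀ ≠ 0) : ∃ x ∈ K, x ≠ 0 ∧ ∀ g, a g x = x := by
  classical
  let K' : AddSubgroup E := AddSubgroup.closure (Set.range fun g => a g x₀)
  have hK'K : K' ≤ K := by
    rw [AddSubgroup.closure_le]
    rintro _ ⟨g, rfl⟩
    exact hK g _ hx₀
  have hx₀' : x₀ ∈ K' := AddSubgroup.subset_closure ⟨1, by simp⟩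
  have hstab : ∀ g x, x ∈ K' → a g x ∈ K' := by
    intro g x hx
    have h1 : K' ≤ K'.comap (a g) := by
      rw [AddSubgroup.closure_le]
      rintro _ ⟨h, rfl⟩
      change a g (a h x₀) ∈ K'
      exact AddSubgroup.subset_closure ⟨g * h, by
        change a (g * h) x₀ = _
        rw [map_mul]
        rfl⟩
    exact h1 hx
  have hfg : AddGroup.FG K' := by
    exact (AddGroup.fg_iff_addSubgroup_fg K').mpr ((AddSubgroup.fg_iff K').mpr
      ⟨Set.range fun g => a g x₀, rfl, Set.finite_range _⟩)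
  have hfin : Finite K' := by
    refine AddCommGroup.finite_of_fg_isAddTorsion K' fun x => ?_
    rw [isOfFinAddOrder_iff_nsmul_eq_zero]
    exact ⟨p, hpf.out.pos, Subtype.ext (hp x (hK'K x.2))⟩
  letI : MulAction Δ K' :=
    { smul := fun g x => ⟨a g x, hstab g x x.2⟩
      one_smul := fun x => Subtype.ext (by
        change a 1 (x : E) = x
        simp)
      mul_smul := fun g h x => Subtype.ext (by
        change a (g * h) (x : E) = a g (a h x)
        rw [map_mul]
        rfl) }
  have hcard : p ∣ Nat.card K' := by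
    have h1 : addOrderOf (⟨x₀, hx₀'⟩ : K') = p :=
      addOrderOf_eq_prime (Subtype.ext (hp x₀ hx₀)) fun h => h0 (congrArg Subtype.val h)
    rw [← h1]
    exact addOrderOf_dvd_natCard _
  obtain ⟨b, hb, hb0⟩ := hΔ.exists_fixed_point_of_prime_dvd_card_of_fixed_point K' hcard
    (a := (0 : K')) (fun g => Subtype.ext (map_zero (a g)))
  refine ⟨b, hK'K b.2, fun h => hb0 (Subtype.ext h.symm), fun g => congrArg Subtype.val (hb g)⟩

section

variable {O : Type} [CommRing O] [IsDomain O] [IsDiscreteValuationRing O] (ϖ : O)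
  {p : ℕ} {Δ : Type} [Group Δ] [Fintype Δ]
  {M : Type} [AddCommGroup M] [Module O M] (ρ : Representation O Δ M)

/-- `(y_δ) ↦ ∑ (δ - 1) y_δ` -/
def augL : (Δ → M) →ₗ[O] M where
  toFun y := ∑ δ, (ρ δ (y δ) - y δ)
  map_add' y z := by
    rw [← Finset.sum_add_distrib]
    refine Finset.sum_congr rfl fun δ _ => ?_
    rw [Pi.add_apply, map_add]
    abel
  map_smul' c y := by
    rw [RingHom.id_apply, Finset.smul_sum]
    refine Finset.sum_congr rfl fun δ _ => ?_
    rw [Pi.smul_apply, map_smul, smul_sub]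

/-- `ϖ M + I_Δ M` -/
def augP : Submodule O M := LinearMap.range (augL ρ) ⊔ LinearMap.range (LinearMap.lsmul O M ϖ)

variable {ϖ} {ρ}

theorem mem_augP {x : M} : x ∈ augP ϖ ρ ↔ ∃ (y : Δ → M) (z : M),
    x = ∑ δ, (ρ δ (y δ) - y δ) + ϖ • z := by
  rw [augP, Submodule.mem_sup]
  constructor
  · rintro ⟨_, ⟨y, rfl⟩, _, ⟨z, rfl⟩, rfl⟩
    exact ⟨y, z, rfl⟩
  · rintro ⟨y, z, rfl⟩
    exact ⟨_, ⟨y, rfl⟩, _, ⟨z, rfl⟩, rfl⟩

variable (ρ) in
/-- the map from the free module -/
def freeMap {r : ℕ} (w : Fin r → M) : (Fin r → Δ → O) →ₗ[O] M where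
  toFun c := ∑ i, ∑ δ, c i δ • ρ δ (w i)
  map_add' c d := by
    rw [← Finset.sum_add_distrib]
    refine Finset.sum_congr rfl fun i _ => ?_
    rw [← Finset.sum_add_distrib]
    refine Finset.sum_congr rfl fun δ _ => ?_
    rw [Pi.add_apply, Pi.add_apply, add_smul]
  map_smul' a c := by
    rw [RingHom.id_apply, Finset.smul_sum]
    refine Finset.sum_congr rfl fun i _ => ?_
    rw [Finset.smul_sum]
    refine Finset.sum_congr rfl fun δ _ => ?_
    rw [Pi.smul_apply, Pi.smul_apply, smul_eq_mul, mul_smul]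

theorem freeMap_apply {r : ℕ} (w : Fin r → M) (c : Fin r → Δ → O) :
    freeMap ρ w c = ∑ i, ∑ δ, c i δ • ρ δ (w i) := rfl

theorem freeMap_translate {r : ℕ} (w : Fin r → M) (c : Fin r → Δ → O) (g : Δ) :
    freeMap ρ w (fun i δ => c i (g⁻¹ * δ)) = ρ g (freeMap ρ w c) := by
  rw [freeMap_apply, freeMap_apply, map_sum]
  refine Finset.sum_congr rfl fun i _ => ?_
  rw [map_sum, ← Equiv.sum_comp (Equiv.mulLeft g)]
  refine Finset.sum_congr rfl fun δ _ => ?_
  rw [map_smul, Equiv.coe_mulLeft, inv_mul_cancel_left, map_mul]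
  rfl

theorem exists_minimal [Module.Finite O M] :
    ∃ (r : ℕ) (w : Fin r → M), Submodule.span O (Set.range w) ⊔ augP ϖ ρ = ⊤ ∧
      ∀ a : Fin r → O, ∑ i, a i • w i ∈ augP ϖ ρ → ∀ i, ¬ IsUnit (a i) := by
  classical
  have hex : ∃ r : ℕ, ∃ w : Fin r → M, Submodule.span O (Set.range w) ⊔ augP ϖ ρ = ⊤ := by
    obtain ⟨n, w, hw⟩ := Module.Finite.exists_fin (R := O) (M := M)
    exact ⟨n, w, by rw [hw, top_sup_eq]⟩
  obtain ⟨w, hw⟩ := Nat.find_spec hex
  refine ⟨Nat.find hex, w, hw, fun a ha j hj => ?_⟩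
  obtain ⟨r', hr'⟩ : ∃ r', Nat.find hex = r' + 1 := Nat.exists_eq_succ_of_ne_zero fun h => by
    rw [h] at j
    exact j.elim0
  have hmin := Nat.find_min hex (m := r') (by omega)
  revert w a j
  rw [hr']
  intro w hw a ha j hj
  apply hmin
  refine ⟨w ∘ j.succAbove, ?_⟩
  rw [eq_top_iff, ← hw]
  refine sup_le (Submodule.span_le.mpr ?_) le_sup_right
  have hmem : ∀ i, w (j.succAbove i) ∈ Submodule.span O (Set.range (w ∘ j.succAbove)) ⊔ augP ϖ ρ :=
    fun i => Submodule.mem_sup_left (Submodule.subset_span ⟨i, rfl⟩)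
  rintro _ ⟨i, rfl⟩
  rcases Fin.eq_self_or_eq_succAbove j i with rfl | ⟨i', rfl⟩
  · rw [Fin.sum_univ_succAbove _ i] at ha
    have h1 : a i • w i ∈ Submodule.span O (Set.range (w ∘ i.succAbove)) ⊔ augP ϖ ρ := by
      have h2 : a i • w i = (a i • w i + ∑ k, a (i.succAbove k) • w (i.succAbove k)) -
          ∑ k, a (i.succAbove k) • w (i.succAbove k) := by abel
      rw [h2]
      refine Submodule.sub_mem _ (Submodule.mem_sup_right ha) (Submodule.sum_mem _ fun k _ => ?_)
      exact Submodule.smul_mem _ _ (hmem k)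
    obtain ⟨u, hu⟩ := hj
    have h3 := Submodule.smul_mem _ ((u⁻¹ : Oˣ) : O) h1
    rwa [← mul_smul, ← hu, Units.inv_mul, one_smul] at h3
  · exact hmem i'

variable [hpf : Fact p.Prime]

theorem freeMap_surjective [Module.Finite O M] (hϖ : Irreducible ϖ)
    (hp : (p : O) ∈ IsLocalRing.maximalIdeal O) (hΔ : IsPGroup p Δ) {r : ℕ} (w : Fin r → M)
    (hw : Submodule.span O (Set.range w) ⊔ augP ϖ ρ = ⊤) : Function.Surjective (freeMap ρ w) := by
  classical
  set L := LinearMap.range (freeMap ρ w) with hL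
  have hLw : ∀ i, w i ∈ L := by
    intro i
    refine ⟨Pi.single i (Pi.single 1 1), ?_⟩
    rw [freeMap_apply, Finset.sum_eq_single i, Finset.sum_eq_single 1]
    · simp
    · intro δ _ hδ
      simp [hδ]
    · intro h
      exact absurd (Finset.mem_univ _) h
    · intro k _ hk
      simp [hk]
    · intro h
      exact absurd (Finset.mem_univ _) h
  have hLstab : ∀ g x, x ∈ L → ρ g x ∈ L := by
    rintro g _ ⟨c, rfl⟩
    exact ⟨_, freeMap_translate w c g⟩
  set L' := L ⊔ LinearMap.range (LinearMap.lsmul O M ϖ) with hL'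
  have hL'stab : ∀ g x, x ∈ L' → ρ g x ∈ L' := by
    intro g x hx
    obtain ⟨y, hy, _, ⟨z, rfl⟩, rfl⟩ := Submodule.mem_sup.mp hx
    rw [map_add]
    refine Submodule.add_mem_sup (hLstab g y hy) ⟨ρ g z, ?_⟩
    change ϖ • ρ g z = ρ g (ϖ • z)
    rw [map_smul]
  have hL'top : L' = ⊤ := by
    by_contra hne
    obtain ⟨L'', hcoatom, hle⟩ := (eq_top_or_exists_le_coatom L').resolve_left hne
    have hsimple : IsSimpleModule O (M ⧸ L'') := isSimpleModule_iff_isCoatom.mpr hcoatom
    obtain ⟨J, hJ, ⟨e⟩⟩ := isSimpleModule_iff_quot_maximal.mp hsimple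
    have hpJ : (p : O) ∈ J := by
      rw [IsLocalRing.eq_maximalIdeal hJ]
      exact hp
    let f₀ : M →ₗ[O] O ⧸ J := e.toLinearMap ∘ₗ L''.mkQ
    have hf₀ : f₀ ≠ 0 := by
      intro h
      apply hcoatom.1
      rw [eq_top_iff]
      intro x _
      have h1 : e (L''.mkQ x) = 0 := LinearMap.congr_fun h x
      rw [LinearEquiv.map_eq_zero_iff] at h1
      exact (Submodule.Quotient.mk_eq_zero _).mp h1
    let K : AddSubgroup (M →ₗ[O] O ⧸ J) :=
      { carrier := {f | ∀ x ∈ L', f x = 0}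
        add_mem' := fun {f g} hf hg x hx => by
          change f x + g x = 0
          rw [hf x hx, hg x hx, add_zero]
        zero_mem' := fun x _ => rfl
        neg_mem' := fun {f} hf x hx => by
          change - f x = 0
          rw [hf x hx, neg_zero] }
    let a : Δ →* AddMonoid.End (M →ₗ[O] O ⧸ J) :=
      { toFun := fun g =>
          { toFun := fun f => f ∘ₗ ρ g⁻¹
            map_zero' := LinearMap.zero_comp _
            map_add' := fun f f' => LinearMap.add_comp _ _ _ }
        map_one' := by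
          ext f x
          change f (ρ 1⁻¹ x) = f x
          rw [inv_one, map_one]
          rfl
        map_mul' := fun g h => by
          ext f x
          change f (ρ (g * h)⁻¹ x) = f (ρ h⁻¹ (ρ g⁻¹ x))
          rw [mul_inv_rev, map_mul]
          rfl }
    obtain ⟨f, hfK, hf0, hffix⟩ := exists_fixed hΔ a K
      (fun g f hf x hx => hf _ (hL'stab g⁻¹ x hx))
      (fun f _ => by
        ext x
        change (p : ℕ) • f x = 0
        obtain ⟨b, hb⟩ := Ideal.Quotient.mk_surjective (f x)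
        rw [← hb, nsmul_eq_mul, ← map_natCast (Ideal.Quotient.mk J), ← map_mul,
          Ideal.Quotient.eq_zero_iff_mem]
        exact Ideal.mul_mem_right _ _ hpJ)
      f₀ (fun x hx => by
        change e (L''.mkQ x) = 0
        rw [LinearEquiv.map_eq_zero_iff]
        exact (Submodule.Quotient.mk_eq_zero _).mpr (hle hx)) hf₀
    apply hf0
    ext x
    have hx : x ∈ Submodule.span O (Set.range w) ⊔ augP ϖ ρ := by rw [hw]; trivial
    have hle2 : Submodule.span O (Set.range w) ⊔ augP ϖ ρ ≤ LinearMap.ker f := by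
      refine sup_le (Submodule.span_le.mpr ?_) (sup_le ?_ ?_)
      · rintro _ ⟨i, rfl⟩
        exact hfK _ (Submodule.mem_sup_left (hLw i))
      · rintro _ ⟨y, rfl⟩
        rw [LinearMap.mem_ker]
        change f (∑ δ, (ρ δ (y δ) - y δ)) = 0
        rw [map_sum]
        refine Finset.sum_eq_zero fun δ _ => ?_
        have h1 : f (ρ (δ⁻¹)⁻¹ (y δ)) = f (y δ) := LinearMap.congr_fun (hffix δ⁻¹) (y δ)
        rw [inv_inv] at h1
        rw [map_sub, h1, sub_self]
      · intro z hz
        exact hfK _ (Submodule.mem_sup_right hz)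
    exact hle2 hx
  have hLtop : L = ⊤ := by
    rw [eq_top_iff]
    refine Submodule.le_of_le_smul_of_le_jacobson_bot (I := Ideal.span {ϖ})
      Module.Finite.fg_top ?_ ?_
    · rw [IsLocalRing.jacobson_eq_maximalIdeal _ bot_ne_top, hϖ.maximalIdeal_eq]
    · rw [← hL'top]
      refine sup_le le_sup_left ?_
      rintro _ ⟨z, rfl⟩
      refine Submodule.mem_sup_right ?_
      exact Submodule.smul_mem_smul (Ideal.mem_span_singleton_self ϖ) (by rw [hL'top]; trivial)
  intro x
  have hx : x ∈ L := by rw [hLtop]; trivial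
  exact hx

theorem freeMap_injective (hϖ : Irreducible ϖ)
    (htf : ∀ x : M, ϖ • x = 0 → x = 0)
    (hp : (p : O) ∈ IsLocalRing.maximalIdeal O) (hΔ : IsPGroup p Δ)
    (hN : ∀ x z : M, ∑ δ, ρ δ x = ϖ • z → x ∈ augP ϖ ρ)
    {r : ℕ} (w : Fin r → M)
    (hw : ∀ a : Fin r → O, ∑ i, a i • w i ∈ augP ϖ ρ → ∀ i, ¬ IsUnit (a i)) :
    Function.Injective (freeMap ρ w) := by
  classical
  let k := O ⧸ Ideal.span {ϖ}
  have hpk : (p : O) ∈ Ideal.span {ϖ} := by rwa [← hϖ.maximalIdeal_eq]
  -- the kernel is divisible by `ϖ`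
  have key : ∀ c, freeMap ρ w c = 0 → ∀ i δ, ϖ ∣ c i δ := by
    intro c hc
    by_contra hne
    let red : (Fin r → Δ → O) → (Fin r → Δ → k) := fun c i δ => Ideal.Quotient.mk _ (c i δ)
    let K : AddSubgroup (Fin r → Δ → k) :=
      { carrier := {d | ∃ c z, red c = d ∧ freeMap ρ w c = ϖ • z}
        add_mem' := by
          rintro _ _ ⟨c, z, rfl, hc⟩ ⟨c', z', rfl, hc'⟩
          refine ⟨c + c', z + z', ?_, ?_⟩
          · ext i δ
            exact map_add (Ideal.Quotient.mk _) _ _
          · rw [map_add, hc, hc', smul_add]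
        zero_mem' := ⟨0, 0, by ext i δ; exact map_zero (Ideal.Quotient.mk _), by
          rw [map_zero, smul_zero]⟩
        neg_mem' := by
          rintro _ ⟨c, z, rfl, hc⟩
          refine ⟨-c, -z, ?_, ?_⟩
          · ext i δ
            exact map_neg (Ideal.Quotient.mk _) _
          · rw [map_neg, hc, smul_neg] }
    let a : Δ →* AddMonoid.End (Fin r → Δ → k) :=
      { toFun := fun g =>
          { toFun := fun d i δ => d i (g⁻¹ * δ)
            map_zero' := rfl
            map_add' := fun _ _ => rfl }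
        map_one' := by
          ext d i δ
          change d i (1⁻¹ * δ) = d i δ
          rw [inv_one, one_mul]
        map_mul' := fun g h => by
          ext d i δ
          change d i ((g * h)⁻¹ * δ) = d i (h⁻¹ * (g⁻¹ * δ))
          rw [mul_inv_rev, mul_assoc] }
    obtain ⟨d, ⟨c', z, hred, hc'⟩, hd0, hdfix⟩ := exists_fixed hΔ a K
      (by
        rintro g _ ⟨c, z, rfl, hc⟩
        exact ⟨fun i δ => c i (g⁻¹ * δ), ρ g z, rfl, by
          rw [freeMap_translate, hc, map_smul]⟩)
      (fun d _ => by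
        ext i δ
        change (p : ℕ) • d i δ = 0
        obtain ⟨b, hb⟩ := Ideal.Quotient.mk_surjective (d i δ)
        rw [← hb, nsmul_eq_mul, ← map_natCast (Ideal.Quotient.mk (Ideal.span {ϖ})), ← map_mul,
          Ideal.Quotient.eq_zero_iff_mem]
        exact Ideal.mul_mem_right _ _ hpk)
      (red c) ⟨c, 0, rfl, by rw [hc, smul_zero]⟩ (fun h => hne fun i δ => by
        have := congrFun (congrFun h i) δ
        rw [← Ideal.mem_span_singleton, ← Ideal.Quotient.eq_zero_iff_mem]
        exact this)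
    have hconst : ∀ i δ, d i δ = d i 1 := by
      intro i δ
      have := congrFun (congrFun (hdfix δ⁻¹) i) 1
      change d i (δ⁻¹⁻¹ * 1) = d i 1 at this
      rwa [inv_inv, mul_one] at this
    have hdiff : ∀ i δ, ∃ e, c' i δ = c' i 1 + ϖ * e := by
      intro i δ
      have h1 : Ideal.Quotient.mk (Ideal.span {ϖ}) (c' i δ) =
          Ideal.Quotient.mk (Ideal.span {ϖ}) (c' i 1) := by
        have h2 := congrFun (congrFun hred i) δ
        have h3 := congrFun (congrFun hred i) 1
        change Ideal.Quotient.mk _ (c' i δ) = d i δ at h2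
        change Ideal.Quotient.mk _ (c' i 1) = d i 1 at h3
        rw [h2, h3, hconst]
      rw [Ideal.Quotient.eq, Ideal.mem_span_singleton] at h1
      obtain ⟨e, he⟩ := h1
      exact ⟨e, by rw [← he]; ring⟩
    choose e he using hdiff
    have h1 : ∑ δ, ρ δ (∑ i, c' i 1 • w i) = ϖ • (z - ∑ i, ∑ δ, e i δ • ρ δ (w i)) := by
      rw [smul_sub, ← hc', freeMap_apply, Finset.smul_sum, ← Finset.sum_sub_distrib]
      rw [Finset.sum_congr rfl fun δ _ => map_sum (ρ δ) _ _, Finset.sum_comm]
      refine Finset.sum_congr rfl fun i _ => ?_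
      rw [Finset.smul_sum, ← Finset.sum_sub_distrib]
      refine Finset.sum_congr rfl fun δ _ => ?_
      rw [map_smul, he i δ, add_smul, mul_smul]
      abel
    have h2 := hw (fun i => c' i 1) (hN _ _ h1)
    apply hd0
    ext i δ
    rw [hconst]
    have h3 := congrFun (congrFun hred i) 1
    change Ideal.Quotient.mk _ (c' i 1) = d i 1 at h3
    rw [← h3]
    change Ideal.Quotient.mk _ (c' i 1) = 0
    rw [Ideal.Quotient.eq_zero_iff_mem, ← hϖ.maximalIdeal_eq, IsLocalRing.mem_maximalIdeal]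
    exact h2 i
  rw [← LinearMap.ker_eq_bot]
  have hle : LinearMap.ker (freeMap ρ w) ≤
      Ideal.span {ϖ} • LinearMap.ker (freeMap ρ w) := by
    intro c hc
    have h1 := key c hc
    choose c' hc' using h1
    have h2 : c = ϖ • c' := by
      ext i δ
      exact hc' i δ
    rw [h2]
    refine Submodule.smul_mem_smul (Ideal.mem_span_singleton_self ϖ) ?_
    rw [LinearMap.mem_ker]
    apply htf
    rw [← map_smul, ← h2]
    exact hc
  have hfg : (LinearMap.ker (freeMap ρ w)).FG := IsNoetherian.noetherian _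
  refine Submodule.eq_bot_of_le_smul_of_le_jacobson_bot (Ideal.span {ϖ}) _ hfg hle ?_
  rw [IsLocalRing.jacobson_eq_maximalIdeal _ bot_ne_top, hϖ.maximalIdeal_eq]

/-- **Freeness criterion** over the group ring of a `p`-group. -/
theorem exists_free [Module.Finite O M] (hϖ : Irreducible ϖ)
    (htf : ∀ x : M, ϖ • x = 0 → x = 0)
    (hp : (p : O) ∈ IsLocalRing.maximalIdeal O) (hΔ : IsPGroup p Δ)
    (hN : ∀ x z : M, ∑ δ, ρ δ x = ϖ • z → x ∈ augP ϖ ρ) :
    ∃ (r : ℕ) (w : Fin r → M), Function.Bijective (freeMap ρ w) := by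
  obtain ⟨r, w, hw, hw'⟩ := exists_minimal (ϖ := ϖ) (ρ := ρ)
  exact ⟨r, w, freeMap_injective hϖ htf hp hΔ hN w hw', freeMap_surjective hϖ hp hΔ w hw⟩

end

end Fermat.Agent.TW

end
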