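import Fermat.Agent.TW.Fun
import Fermat.Agent.TW.Loc
import Fermat.Agent.TW.PGroup

/-!
**Freeness of the cohomology of Taylor-Wiles levels over the group ring.**
-/

set_option autoImplicit false

noncomputable section

namespace Fermat.Agent.TW

open Matrix.SpecialLinearGroup
open scoped MatrixGroups

section Functor

variable {m M : ℕ} {Γ : Type} [Group Γ] {R : Type} [CommRing R] (X : Stg m M Γ)
  {V V' V'' : Type} [AddCommGroup V] [Module R V] [AddCommGroup V'] [Module R V']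
  [AddCommGroup V''] [Module R V'']
  {ρ : Representation R (Gp M) V} {ρ' : Representation R (Gp M) V'}
  {ρ'' : Representation R (Gp M) V''}

theorem Stg.mk_surj (x : X.H ρ) : ∃ f : Z1 (X.L.ι M) ρ, H1.mk _ _ f = x :=
  H1.mk_surjective x

theorem Stg.map_mk (φ : CHom ρ ρ') (f : Z1 (X.L.ι M) ρ) :
    X.map φ (H1.mk _ _ f : H1 (X.L.ι M) ρ) =
      (H1.mk _ _ (Z1.map (X.L.ι M) φ f) : H1 (X.L.ι M) ρ') := rfl

theorem Stg.map_id' (φ : CHom ρ ρ) (h : ∀ v, φ.toLinearMap v = v) (x : X.H ρ) :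
    X.map φ x = x := by
  obtain ⟨f, rfl⟩ := X.mk_surj x
  rw [X.map_mk]
  congr 1
  ext g
  exact h _

theorem Stg.map_comp' (φ : CHom ρ' ρ'') (ψ : CHom ρ ρ') (χ : CHom ρ ρ'')
    (h : ∀ v, φ.toLinearMap (ψ.toLinearMap v) = χ.toLinearMap v) (x : X.H ρ) :
    X.map φ (X.map ψ x) = X.map χ x := by
  obtain ⟨f, rfl⟩ := X.mk_surj x
  rw [X.map_mk, X.map_mk, X.map_mk]
  congr 1
  ext g
  exact h _

theorem Stg.map_zero' (φ : CHom ρ ρ') (h : ∀ v, φ.toLinearMap v = 0) (x : X.H ρ) :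
    X.map φ x = 0 := by
  obtain ⟨f, rfl⟩ := X.mk_surj x
  rw [X.map_mk]
  have : Z1.map (X.L.ι M) φ f = 0 := by
    ext g
    exact h _
  rw [this]
  exact map_zero (H1.mk (X.L.ι M) ρ')

theorem Stg.map_smul' (φ : CHom ρ ρ) (a : R) (h : ∀ v, φ.toLinearMap v = a • v) (x : X.H ρ) :
    X.map φ x = a • x := by
  obtain ⟨f, rfl⟩ := X.mk_surj x
  rw [X.map_mk]
  have : Z1.map (X.L.ι M) φ f = a • f := by
    ext g
    exact h _
  rw [this]
  exact map_smul (H1.mk (X.L.ι M) ρ) a f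

theorem Stg.map_sum' {I : Type} [Fintype I] (φ : CHom ρ ρ') (ψ : I → CHom ρ ρ')
    (h : ∀ v, φ.toLinearMap v = ∑ i, (ψ i).toLinearMap v) (x : X.H ρ) :
    X.map φ x = ∑ i, X.map (ψ i) x := by
  obtain ⟨f, rfl⟩ := X.mk_surj x
  have h1 : ∑ i, X.map (ψ i) (H1.mk _ _ f : H1 (X.L.ι M) ρ) =
      (H1.mk (X.L.ι M) ρ' (∑ i, Z1.map (X.L.ι M) (ψ i) f)) :=
    (map_sum (H1.mk (X.L.ι M) ρ') _ _).symm
  rw [X.map_mk]
  refine Eq.trans ?_ h1.symm
  congr 1
  apply Subtype.ext
  rw [AddSubmonoidClass.coe_finset_sum]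
  funext g
  rw [Finset.sum_apply]
  exact h _

end Functor

section Aug

variable {m M : ℕ} {R : Type} [CommRing R] {A : Type} [AddCommGroup A] [Module R A]
  {Y : Type} [MulAction (GL (Fin 2) (ZMod M)) Y] {Δ : Type} [Group Δ] [MulAction Δ Y]
  [SMulCommClass (GL (Fin 2) (ZMod M)) Δ Y]

variable (hM : M ∣ m)

/-- full level -/
abbrev XF (hM : M ∣ m) : Stg m M SL(2, ℤ) := Stg.full hM

theorem map_augC [Fintype Δ] (x : (XF hM).H (piRep Δ (funRep (M := M) R A Y))) :
    (XF hM).map (augC M R A Y Δ) x =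
      ∑ δ : Δ, ((XF hM).map (actC M R A Y δ) ((XF hM).map (projC _ δ) x) -
        (XF hM).map (projC _ δ) x) := by
  obtain ⟨f, rfl⟩ := (XF hM).mk_surj x
  have h1 : ∑ δ : Δ, ((XF hM).map (actC M R A Y δ) ((XF hM).map (projC _ δ)
      (H1.mk _ _ f : H1 ((XF hM).L.ι M) _)) -
        (XF hM).map (projC _ δ) (H1.mk _ _ f : H1 ((XF hM).L.ι M) _)) =
      H1.mk ((XF hM).L.ι M) (funRep (M := M) R A Y)
        (∑ δ : Δ, (Z1.map _ (actC M R A Y δ) (Z1.map _ (projC _ δ) f) -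
          Z1.map _ (projC _ δ) f)) :=
    (map_sum (H1.mk ((XF hM).L.ι M) (funRep (M := M) R A Y)) _ _).symm
  rw [(XF hM).map_mk]
  refine Eq.trans ?_ h1.symm
  congr 1
  apply Subtype.ext
  rw [AddSubmonoidClass.coe_finset_sum]
  funext g
  rw [Finset.sum_apply]
  ext y
  rw [Finset.sum_apply]
  rfl

variable (𝔪 : Ideal (TPoly m R)) [𝔪.IsPrime]

/-- the action of `Δ` on the localised cohomology -/
def repΔ (R A Y : Type) [CommRing R] [AddCommGroup A] [Module R A]
    [MulAction (GL (Fin 2) (ZMod M)) Y] (Δ : Type) [Group Δ] [MulAction Δ Y]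
    [SMulCommClass (GL (Fin 2) (ZMod M)) Δ Y] (𝔪 : Ideal (TPoly m R)) [𝔪.IsPrime] :
    Representation R Δ (Loc 𝔪 ((XF hM).H (funRep (M := M) R A Y))) where
  toFun δ := Loc.mapR 𝔪 ((XF hM).map (actC M R A Y δ))
  map_one' := by
    ext x
    change Loc.map 𝔪 ((XF hM).map (actC M R A Y 1)) x = x
    have : (XF hM).map (actC M R A Y (1 : Δ)) = LinearMap.id :=
      LinearMap.ext fun x => (XF hM).map_id' _ (fun v => by
        ext y
        rw [actC_apply, inv_one, one_smul]) x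
    rw [this, Loc.map_id]
    rfl
  map_mul' δ δ' := by
    ext x
    change Loc.map 𝔪 ((XF hM).map (actC M R A Y (δ * δ'))) x =
      (Loc.map 𝔪 ((XF hM).map (actC M R A Y δ)) ∘ₗ
        Loc.map 𝔪 ((XF hM).map (actC M R A Y δ'))) x
    rw [← Loc.map_comp]
    congr 2
    refine LinearMap.ext fun x => ((XF hM).map_comp' _ _ _ (fun v => ?_) x).symm
    ext y
    rw [actC_apply, actC_apply, actC_apply, mul_inv_rev, mul_smul]

theorem repΔ_apply (δ : Δ) (x : Loc 𝔪 ((XF hM).H (funRep (M := M) R A Y))) :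
    repΔ hM R A Y Δ 𝔪 δ x = Loc.map 𝔪 ((XF hM).map (actC M R A Y δ)) x := rfl

/-- elements of the image of the augmentation map -/
theorem exists_of_aug [Fintype Δ]
    (y : Loc 𝔪 ((XF hM).H (piRep Δ (funRep (M := M) R A Y)))) :
    ∃ z : Δ → Loc 𝔪 ((XF hM).H (funRep (M := M) R A Y)),
      Loc.map 𝔪 ((XF hM).map (augC M R A Y Δ)) y =
        ∑ δ : Δ, (repΔ hM R A Y Δ 𝔪 δ (z δ) - z δ) := by
  refine ⟨fun δ => Loc.map 𝔪 ((XF hM).map (projC _ δ)) y, ?_⟩
  have h1 : (XF hM).map (augC M R A Y Δ) =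
      ∑ δ : Δ, ((XF hM).map (actC M R A Y δ) ∘ₗ (XF hM).map (projC _ δ) -
        (XF hM).map (projC _ δ)) := by
    refine LinearMap.ext fun x => ?_
    rw [map_augC, LinearMap.sum_apply]
    rfl
  rw [h1, Loc.map_sum, LinearMap.sum_apply]
  refine Finset.sum_congr rfl fun δ _ => ?_
  rw [Loc.map_sub, Loc.map_comp]
  rfl

end Aug

section NonEis

variable {m : ℕ} {R : Type} [CommRing R]

/-- **non-Eisenstein ideals** (with respect to the modulus `M`). -/
def NonEis (M : ℕ) (𝔪 : Ideal (TPoly m R)) : Prop :=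
  ∃ l : Pr m, (((l : ℕ) : ℕ) : ZMod M) = 1 ∧
    (MvPolynomial.X l - MvPolynomial.C (((l : ℕ) : R) + 1) : TPoly m R) ∉ 𝔪

variable {Γ : Type} [Group Γ] {V W : Type} [AddCommGroup V] [Module R V] [AddCommGroup W]
  [Module R W]

theorem Stg.locMap_injective {M : ℕ} (X : Stg m M Γ) {ρ : Representation R (Gp M) V}
    {σ : Representation R (Gp M) W} (hσ : Infl σ) (φ : CHom ρ σ)
    (hφ : Function.Injective φ.toLinearMap) (hT : ∃ t, X.L.j t = ModularGroup.T)
    (𝔪 : Ideal (TPoly m R)) [𝔪.IsPrime] (h𝔪 : NonEis M 𝔪) :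
    Function.Injective (Loc.map 𝔪 (X.map φ)) := by
  obtain ⟨l, hl, hl𝔪⟩ := h𝔪
  refine Loc.map_injective 𝔪 _ fun n hn => ⟨_, hl𝔪, ?_⟩
  rw [sub_smul, X.X_smul, X.C_smul, X.eisenstein hσ φ hφ hT l hl n hn]
  have : (((l : ℕ) : R) + 1) • n = ((l : ℕ) + 1) • n := by
    rw [← Nat.cast_succ, Nat.cast_smul_eq_nsmul]
  rw [this, sub_self]

end NonEis

section Main

variable {m M : ℕ} (hM : M ∣ m) {O : Type} [CommRing O] [IsDomain O] [IsDiscreteValuationRing O]
  {Y Y' : Type} [Fintype Y] [MulAction (GL (Fin 2) (ZMod M)) Y]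
  [MulAction (GL (Fin 2) (ZMod M)) Y']
  {Δ : Type} [Group Δ] [Fintype Δ] [MulAction Δ Y] [SMulCommClass (GL (Fin 2) (ZMod M)) Δ Y]
  {f : Y → Y'}

/-- goodness of sets over `O` -/
structure GoodFor (M : ℕ) (O Y : Type) [CommRing O] [MulAction (GL (Fin 2) (ZMod M)) Y] :
    Prop where
  two : IsUnit (2 : O)
  neg : ∀ y : Y, (iM M (-1)).2 • y = y
  three : IsUnit (3 : O) ∨ ∀ y : Y, (iM M U).2 • y ≠ y

omit [IsDomain O] [IsDiscreteValuationRing O] [Fintype Y] in
theorem GoodFor.good (h : GoodFor M O Y) (A : Type) [AddCommGroup A] [Module O A] :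
    Good (Lvl.full.ι M) (funRep (M := M) O A Y) := by
  rcases h.three with h3 | h3
  · exact good_funRep_of_three h.neg h.two h3
  · exact good_funRep ⟨h.neg, h3⟩ h.two

omit [IsDomain O] [IsDiscreteValuationRing O] [Fintype Y] [Fintype Δ] in
theorem GoodFor.of_torsor (hf : IsTorsor (M := M) Δ f) (h : GoodFor M O Y) (h3 : IsUnit (3 : O) ∨
    ∀ y : Y', (iM M U).2 • y ≠ y) : GoodFor M O Y' :=
  ⟨h.two, fun y' => by
    obtain ⟨y, rfl⟩ := hf.surj y'
    rw [← hf.equiv, h.neg], h3⟩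

omit [IsDomain O] [IsDiscreteValuationRing O] [Fintype Y] in
theorem neg_piRep (h : GoodFor M O Y) (A : Type) [AddCommGroup A] [Module O A]
    (v : Δ → Y → A) :
    piRep Δ (funRep (M := M) O A Y) (Lvl.full.ι M (-1)) v = v :=
  funext fun δ => (h.good A).neg_one (v δ)

variable (hf : IsTorsor (M := M) Δ f) (hY : GoodFor M O Y) (hY' : GoodFor M O Y')
  (𝔪 : Ideal (TPoly m O)) [𝔪.IsPrime]

omit [IsDomain O] [IsDiscreteValuationRing O] in
include hf hY hY' in
/-- the kernel of the push-forward -/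
theorem ker_push_loc (A : Type) [AddCommGroup A] [Module O A]
    (x : Loc 𝔪 ((XF hM).H (funRep (M := M) O A Y)))
    (hx : Loc.map 𝔪 ((XF hM).map (push O A f hf.equiv)) x = 0) :
    ∃ z : Δ → Loc 𝔪 ((XF hM).H (funRep (M := M) O A Y)),
      x = ∑ δ : Δ, (repΔ hM O A Y Δ 𝔪 δ (z δ) - z δ) := by
  have h1 : ∀ n, (XF hM).map (push O A f hf.equiv) n = 0 →
      ∃ n', (XF hM).map (augC M O A Y Δ) n' = n := fun n hn =>
    (H1.exact (augC M O A Y Δ) (push O A f hf.equiv) (neg_piRep hY A) (hY.good A) (hY'.good A)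
      hf.push_surjective hf.ker_push n).mp hn
  obtain ⟨y, rfl⟩ := Loc.map_exact 𝔪 _ _ h1 x hx
  exact exists_of_aug hM 𝔪 y

omit [IsDomain O] [IsDiscreteValuationRing O] in
include hf hY hY' in
theorem push_loc_surjective (A : Type) [AddCommGroup A] [Module O A] :
    Function.Surjective (Loc.map 𝔪 ((XF hM).map (push O A f hf.equiv))) :=
  Loc.map_surjective 𝔪 _ (H1.map_surjective (push O A f hf.equiv) (hY.good A).neg_one (hY'.good A)
    hf.push_surjective)

omit [IsDomain O] [IsDiscreteValuationRing O] [Fintype Y] [Fintype Δ] in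
include hf in
theorem pull_loc_injective (h𝔪 : NonEis M 𝔪) (A : Type) [AddCommGroup A] [Module O A] :
    Function.Injective (Loc.map 𝔪 ((XF hM).map (pull O A f hf.equiv))) :=
  (XF hM).locMap_injective infl_funRep _ hf.pull_injective ⟨ModularGroup.T, rfl⟩ 𝔪 h𝔪

omit [IsDomain O] [IsDiscreteValuationRing O] in
include hf in
theorem pull_push_loc (A : Type) [AddCommGroup A] [Module O A]
    (x : Loc 𝔪 ((XF hM).H (funRep (M := M) O A Y))) :
    Loc.map 𝔪 ((XF hM).map (pull O A f hf.equiv))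
      (Loc.map 𝔪 ((XF hM).map (push O A f hf.equiv)) x) =
      ∑ δ : Δ, repΔ hM O A Y Δ 𝔪 δ x := by
  have h1 : (XF hM).map (pull O A f hf.equiv) ∘ₗ (XF hM).map (push O A f hf.equiv) =
      ∑ δ : Δ, (XF hM).map (actC M O A Y δ) := by
    refine LinearMap.ext fun x => ?_
    rw [LinearMap.sum_apply, LinearMap.comp_apply]
    let χ : CHom (funRep (M := M) O A Y) (funRep (M := M) O A Y) :=
      { (pull O A f hf.equiv).toLinearMap ∘ₗ (push O A f hf.equiv).toLinearMap with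
        comm' := fun g v => by
          change (pull O A f hf.equiv).toLinearMap ((push O A f hf.equiv).toLinearMap _) = _
          rw [CHom.comm, CHom.comm]
          rfl }
    rw [(XF hM).map_comp' _ _ χ (fun v => rfl)]
    exact (XF hM).map_sum' χ (fun δ => actC M O A Y δ) (fun v => hf.pull_push v) x
  have h2 := congrArg (Loc.map 𝔪) h1
  rw [Loc.map_comp, Loc.map_sum] at h2
  have h3 := LinearMap.congr_fun h2 x
  rw [LinearMap.sum_apply] at h3
  exact h3

variable {ϖ : O} (hϖ : Irreducible ϖ)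

omit [IsDomain O] [IsDiscreteValuationRing O] [Fintype Y] in
theorem loc_coef_smul (x : Loc 𝔪 ((XF hM).H (funRep (M := M) O O Y))) (a : O) :
    Loc.map 𝔪 ((XF hM).map (coef Y (LinearMap.lsmul O O a))) x = a • x := by
  have h1 : (XF hM).map (coef (M := M) Y (LinearMap.lsmul O O a)) =
      LinearMap.lsmul (TPoly m O) _ (MvPolynomial.C a) := by
    refine LinearMap.ext fun x => ?_
    rw [(XF hM).map_smul' _ a (fun v => rfl)]
    exact ((XF hM).C_smul _ a x).symm
  rw [h1]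
  have h2 : Loc.map 𝔪 (LinearMap.lsmul (TPoly m O) ((XF hM).H (funRep (M := M) O O Y))
      (MvPolynomial.C a)) = LinearMap.lsmul (TPoly m O) _ (MvPolynomial.C a) :=
    Loc.hom_ext fun n => by
      rw [Loc.map_mk, LinearMap.lsmul_apply, LinearMap.lsmul_apply, map_smul]
  rw [h2]
  rfl

omit [IsDiscreteValuationRing O] [Fintype Y] in
include hϖ in
theorem loc_torsionFree (h𝔪 : NonEis M 𝔪) (x : Loc 𝔪 ((XF hM).H (funRep (M := M) O O Y)))
    (hx : ϖ • x = 0) : x = 0 := by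
  rw [← loc_coef_smul] at hx
  refine (XF hM).locMap_injective infl_funRep _ ?_ ⟨ModularGroup.T, rfl⟩ 𝔪 h𝔪
    (hx.trans (map_zero _).symm)
  intro F F' h
  ext y
  exact mul_left_cancel₀ hϖ.ne_zero (congrFun h y)

/-- reduction of coefficients modulo `ϖ` -/
abbrev redC (M : ℕ) (O Y : Type) [CommRing O] [MulAction (GL (Fin 2) (ZMod M)) Y] (ϖ : O) :
    CHom (funRep (M := M) O O Y) (funRep (M := M) O (O ⧸ Ideal.span {ϖ}) Y) :=
  coef Y (Submodule.mkQ (Ideal.span {ϖ}))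

omit [IsDomain O] [IsDiscreteValuationRing O] [Fintype Y] in
theorem red_surjective : Function.Surjective (redC M O Y ϖ).toLinearMap := by
  intro F
  choose G hG using fun y => Submodule.mkQ_surjective (Ideal.span {ϖ}) (F y)
  exact ⟨G, funext hG⟩

omit [IsDomain O] [IsDiscreteValuationRing O] [Fintype Y] in
include hY in
theorem red_loc_surjective : Function.Surjective (Loc.map 𝔪 ((XF hM).map (redC M O Y ϖ))) :=
  Loc.map_surjective 𝔪 _ (H1.map_surjective _ (hY.good _).neg_one (hY.good _) red_surjective)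

omit [IsDomain O] [IsDiscreteValuationRing O] [Fintype Y] in
include hY in
theorem ker_red_loc (x : Loc 𝔪 ((XF hM).H (funRep (M := M) O O Y)))
    (hx : Loc.map 𝔪 ((XF hM).map (redC M O Y ϖ)) x = 0) : ∃ z, x = ϖ • z := by
  have h1 : ∀ n, (XF hM).map (redC M O Y ϖ) n = 0 →
      ∃ n', (XF hM).map (coef Y (LinearMap.lsmul O O ϖ)) n' = n := fun n hn =>
    (H1.exact (coef Y (LinearMap.lsmul O O ϖ)) (redC M O Y ϖ) (hY.good _).neg_one (hY.good _)
      (hY.good _) red_surjective (fun v => by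
        constructor
        · intro hv
          have h2 : ∀ y, ∃ a, v y = ϖ * a := fun y => by
            have h3 : Submodule.mkQ (Ideal.span {ϖ}) (v y) = 0 := congrFun hv y
            rw [Submodule.mkQ_apply, Submodule.Quotient.mk_eq_zero,
              Ideal.mem_span_singleton] at h3
            exact h3
          choose a ha using h2
          exact ⟨a, funext fun y => (ha y).symm⟩
        · rintro ⟨v', rfl⟩
          ext y
          change Submodule.mkQ (Ideal.span {ϖ}) (ϖ * v' y) = 0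
          rw [Submodule.mkQ_apply, Submodule.Quotient.mk_eq_zero]
          exact Ideal.mul_mem_right _ _ (Ideal.mem_span_singleton_self ϖ)) n).mp hn
  obtain ⟨y, rfl⟩ := Loc.map_exact 𝔪 _ _ h1 x hx
  exact ⟨y, loc_coef_smul hM 𝔪 y ϖ⟩

omit [IsDomain O] [IsDiscreteValuationRing O] [Fintype Y] in
theorem red_loc_smul (z : Loc 𝔪 ((XF hM).H (funRep (M := M) O O Y))) :
    Loc.map 𝔪 ((XF hM).map (redC M O Y ϖ)) (ϖ • z) = 0 := by
  rw [← loc_coef_smul, ← LinearMap.comp_apply, ← Loc.map_comp]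
  have h1 : (XF hM).map (redC M O Y ϖ) ∘ₗ (XF hM).map (coef Y (LinearMap.lsmul O O ϖ)) = 0 := by
    refine LinearMap.ext fun x => ?_
    let χ : CHom (funRep (M := M) O O Y) (funRep (M := M) O (O ⧸ Ideal.span {ϖ}) Y) :=
      { (0 : (Y → O) →ₗ[O] (Y → O ⧸ Ideal.span {ϖ})) with
        comm' := fun g v => (map_zero _).symm }
    rw [LinearMap.comp_apply, (XF hM).map_comp' _ _ χ (fun v => ?_)]
    · exact (XF hM).map_zero' χ (fun _ => rfl) x
    · ext y
      change Submodule.mkQ (Ideal.span {ϖ}) (ϖ * v y) = 0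
      rw [Submodule.mkQ_apply, Submodule.Quotient.mk_eq_zero]
      exact Ideal.mul_mem_right _ _ (Ideal.mem_span_singleton_self ϖ)
  rw [h1, Loc.map_zero]
  rfl

include hf hY hY' in
/-- the norm condition of the freeness criterion -/
theorem norm_condition (h𝔪 : NonEis M 𝔪)
    (x z : Loc 𝔪 ((XF hM).H (funRep (M := M) O O Y)))
    (hx : ∑ δ : Δ, repΔ hM O O Y Δ 𝔪 δ x = ϖ • z) :
    x ∈ augP ϖ (repΔ hM O O Y Δ 𝔪) := by
  set rd := Loc.map 𝔪 ((XF hM).map (redC M O Y ϖ)) with hrd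
  -- `rd` commutes with the action of `Δ`
  have hcomm : ∀ (δ : Δ) x, rd (repΔ hM O O Y Δ 𝔪 δ x) =
      repΔ hM O (O ⧸ Ideal.span {ϖ}) Y Δ 𝔪 δ (rd x) := by
    intro δ x
    rw [hrd, repΔ_apply, repΔ_apply, ← LinearMap.comp_apply, ← LinearMap.comp_apply,
      ← Loc.map_comp, ← Loc.map_comp]
    congr 2
    refine LinearMap.ext fun x => ?_
    rw [LinearMap.comp_apply, LinearMap.comp_apply]
    let χ : CHom (funRep (M := M) O O Y) (funRep (M := M) O (O ⧸ Ideal.span {ϖ}) Y) :=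
      { (redC M O Y ϖ).toLinearMap ∘ₗ (actC M O O Y δ).toLinearMap with
        comm' := fun g v => by
          change (redC M O Y ϖ).toLinearMap ((actC M O O Y δ).toLinearMap _) = _
          rw [CHom.comm, CHom.comm]
          rfl }
    rw [(XF hM).map_comp' _ _ χ (fun v => rfl), (XF hM).map_comp' _ _ χ (fun v => rfl)]
  have h1 : ∑ δ : Δ, repΔ hM O (O ⧸ Ideal.span {ϖ}) Y Δ 𝔪 δ (rd x) = 0 := by
    rw [← Finset.sum_congr rfl fun δ _ => hcomm δ x, ← map_sum, hx, hrd, red_loc_smul]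
  rw [← pull_push_loc hM hf 𝔪] at h1
  have h2 := pull_loc_injective hM hf 𝔪 h𝔪 _ (h1.trans (map_zero _).symm)
  obtain ⟨w, hw⟩ := ker_push_loc hM hf hY hY' 𝔪 _ _ h2
  choose v hv using fun δ => red_loc_surjective hM hY 𝔪 (ϖ := ϖ) (w δ)
  have h3 : rd (x - ∑ δ : Δ, (repΔ hM O O Y Δ 𝔪 δ (v δ) - v δ)) = 0 := by
    rw [map_sub, map_sum, sub_eq_zero, hw]
    refine Finset.sum_congr rfl fun δ _ => ?_
    rw [map_sub, hcomm, ← hv]
  obtain ⟨z', hz'⟩ := ker_red_loc hM hY 𝔪 _ h3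
  rw [mem_augP]
  exact ⟨v, z', by rw [← hz']; abel⟩

omit [IsDomain O] [IsDiscreteValuationRing O] in
theorem finite_H [IsNoetherianRing O] (A : Type) [AddCommGroup A] [Module O A] [Module.Finite O A] :
    Module.Finite O ((XF hM).H (funRep (M := M) O A Y)) := by
  let ev : Z1 ((XF hM).L.ι M) (funRep (M := M) O A Y) →ₗ[O] (Y → A) × (Y → A) :=
    { toFun := fun c => (c.1 ModularGroup.S, c.1 U)
      map_add' := fun _ _ => rfl
      map_smul' := fun _ _ => rfl }
  have hinj : Function.Injective ev := fun c c' h => Z1.ext' (Prod.mk.inj h).1 (Prod.mk.inj h).2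
  have h1 : Module.Finite O (Z1 ((XF hM).L.ι M) (funRep (M := M) O A Y)) :=
    Module.Finite.of_injective ev hinj
  exact Module.Finite.of_surjective (H1.mk ((XF hM).L.ι M) (funRep (M := M) O A Y))
    H1.mk_surjective

variable [IsAdicComplete (IsLocalRing.maximalIdeal O) O] {p : ℕ} [Fact p.Prime]

include hf hY hY' in
/-- **Freeness of the cohomology of Taylor-Wiles levels over the group ring.** -/
theorem exists_free_TW [𝔪.IsMaximal] (h𝔪 : NonEis M 𝔪)
    (hp : (p : O) ∈ IsLocalRing.maximalIdeal O) (hΔ : IsPGroup p Δ) :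
    ∃ (r : ℕ) (w : Fin r → Loc 𝔪 ((XF hM).H (funRep (M := M) O O Y))),
      Function.Bijective (freeMap (repΔ hM O O Y Δ 𝔪) w) := by
  obtain ⟨ϖ, hϖ⟩ := IsDiscreteValuationRing.exists_irreducible O
  have h1 := finite_H hM (Y := Y) O (O := O)
  have h2 : Module.Finite O (Loc 𝔪 ((XF hM).H (funRep (M := M) O O Y))) := Loc.finite 𝔪
  exact exists_free hϖ (loc_torsionFree hM 𝔪 hϖ h𝔪) hp hΔ
    (norm_condition hM hf hY hY' 𝔪 h𝔪)

end Main

end Fermat.Agent.TW

end
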