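import Fermat.Agent.HeckeGal.Points

/-!
Points of finite flat reduced algebras over a complete discrete valuation ring.
-/

set_option autoImplicit false
set_option linter.unusedSectionVars false

noncomputable section

open scoped TensorProduct
open IsLocalRing

namespace Fermat.Agent.TW

/-- A point of `T` over `O`: an `O`-algebra homomorphism to a discrete valuation ring finite
over `O`. -/
structure OPt (O T : Type) [CommRing O] [CommRing T] [Algebra O T] : Type 1 where
  /-- the ring of values -/
  A : Type
  [commRing : CommRing A]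
  [isDomain : IsDomain A]
  [isDVR : IsDiscreteValuationRing A]
  [isAdicComplete : IsAdicComplete (maximalIdeal A) A]
  [finiteResidueField : Finite (ResidueField A)]
  [charZero : CharZero A]
  [algebra : Algebra O A]
  [finite : Module.Finite O A]
  [isLocalHom : IsLocalHom (algebraMap O A)]
  /-- the point -/
  χ : T →ₐ[O] A

attribute [instance] OPt.commRing OPt.isDomain OPt.isDVR OPt.isAdicComplete
  OPt.finiteResidueField OPt.charZero OPt.algebra OPt.finite OPt.isLocalHom

section Frac

variable (O : Type) [CommRing O] [IsDomain O] (T : Type) [CommRing T] [Algebra O T]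

theorem exists_smul_eq_tmul (x : FractionRing O ⊗[O] T) :
    ∃ n : O, n ≠ 0 ∧ ∃ a : T, n • x = 1 ⊗ₜ[O] a := by
  induction x using TensorProduct.induction_on with
  | zero => exact ⟨1, one_ne_zero, 0, by simp⟩
  | tmul q a =>
    obtain ⟨⟨u, v⟩, h⟩ := IsLocalization.surj (nonZeroDivisors O) q
    refine ⟨v, nonZeroDivisors.ne_zero v.2, u • a, ?_⟩
    rw [TensorProduct.smul_tmul', ← TensorProduct.smul_tmul]
    congr 1
    rw [Algebra.smul_def, mul_comm]
    rw [h, Algebra.smul_def, mul_one]
  | add x y hx hy =>
    obtain ⟨n, hn, a, ha⟩ := hx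
    obtain ⟨m, hm, b, hb⟩ := hy
    refine ⟨n * m, mul_ne_zero hn hm, m • a + n • b, ?_⟩
    rw [smul_add, mul_comm n m, mul_smul, ha, mul_comm m n, mul_smul, hb,
      TensorProduct.tmul_add, TensorProduct.tmul_smul, TensorProduct.tmul_smul]

theorem frac_inj [Module.Free O T] : Function.Injective
    (Algebra.TensorProduct.includeRight : T →ₐ[O] FractionRing O ⊗[O] T) :=
  Algebra.TensorProduct.includeRight_injective (IsFractionRing.injective O _)

theorem isReduced_frac [Module.Free O T] [IsReduced T] : IsReduced (FractionRing O ⊗[O] T) := by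
  have hinj := frac_inj O T
  constructor
  rintro x ⟨k, hk⟩
  obtain ⟨n, hn, a, ha⟩ := exists_smul_eq_tmul O T x
  have h1 : (1 ⊗ₜ[O] a : FractionRing O ⊗[O] T) ^ k = 0 := by
    rw [← ha, smul_pow, hk, smul_zero]
  have h2 : a = 0 := by
    have h3 : (Algebra.TensorProduct.includeRight : T →ₐ[O] FractionRing O ⊗[O] T) (a ^ k) = 0 := by
      rw [map_pow]; exact h1
    have h4 : a ^ k = 0 := hinj (by rw [h3, map_zero])
    exact IsNilpotent.eq_zero ⟨k, h4⟩
  rw [h2, TensorProduct.tmul_zero] at ha
  have : (algebraMap O (FractionRing O) n) • x = 0 := by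
    rw [algebraMap_smul, ha]
  refine (smul_eq_zero.1 this).resolve_left fun h => hn ?_
  exact IsFractionRing.injective O (FractionRing O) (h.trans (map_zero _).symm)

end Frac

variable (O : Type) [CommRing O] [IsDomain O] [IsDiscreteValuationRing O]
  [IsAdicComplete (maximalIdeal O) O] [Finite (ResidueField O)] [CharZero O]
  (T : Type) [CommRing T] [Algebra O T] [Module.Finite O T]

theorem exists_opt_of_field (L : Type) [Field L] [Algebra (FractionRing O) L]
    [FiniteDimensional (FractionRing O) L] [Algebra O L] [IsScalarTower O (FractionRing O) L]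
    (f : T →ₐ[O] L) : ∃ pt : OPt O T, ∀ a, pt.χ a = 0 → f a = 0 := by
  have hloc := QuadRep.isLocalRing_integralClosure O (FractionRing O) L
  have hdvr := QuadRep.isDiscreteValuationRing_integralClosure O (FractionRing O) L
  have hcomp := QuadRep.isAdicComplete_integralClosure O (FractionRing O) L
  have hfin := QuadRep.finite_residueField_integralClosure O (FractionRing O) L
  have hfin' := QuadRep.finite_integralClosure O (FractionRing O) L
  have hch := QuadRep.charZero_integralClosure O (FractionRing O) L
  have hlochom := QuadRep.isLocalHom_integralClosure O (FractionRing O) L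
  have hint : ∀ a, IsIntegral O (f a) := fun a =>
    (Algebra.IsIntegral.isIntegral (R := O) a).map f
  let pt : OPt O T :=
    { A := integralClosure O L
      isDVR := hdvr
      isAdicComplete := hcomp
      finiteResidueField := hfin
      charZero := hch
      finite := hfin'
      isLocalHom := hlochom
      χ := f.codRestrict (integralClosure O L) hint }
  exact ⟨pt, fun a ha => congrArg (fun z : integralClosure O L => (z : L)) ha⟩

/-- A reduced finite free algebra has a finite jointly injective family of points. -/
theorem exists_opts [Module.Free O T] [IsReduced T] :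
    ∃ (ι : Type) (_ : Finite ι) (pt : ι → OPt O T), ∀ a : T, (∀ i, (pt i).χ a = 0) → a = 0 := by
  classical
  have hC : IsReduced (FractionRing O ⊗[O] T) := isReduced_frac O T
  have hCa : IsArtinianRing (FractionRing O ⊗[O] T) :=
    IsArtinianRing.of_finite (FractionRing O) _
  let fld : ∀ I : MaximalSpectrum (FractionRing O ⊗[O] T),
    Field ((FractionRing O ⊗[O] T) ⧸ I.asIdeal) := fun I => Ideal.Quotient.field _
  let f : ∀ I : MaximalSpectrum (FractionRing O ⊗[O] T),
      T →ₐ[O] (FractionRing O ⊗[O] T) ⧸ I.asIdeal := fun I =>
    (Ideal.Quotient.mkₐ O _).comp Algebra.TensorProduct.includeRight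
  have hpts := fun I : MaximalSpectrum (FractionRing O ⊗[O] T) =>
    exists_opt_of_field O T ((FractionRing O ⊗[O] T) ⧸ I.asIdeal) (f I)
  choose pt hpt using hpts
  refine ⟨MaximalSpectrum (FractionRing O ⊗[O] T), inferInstance, pt, fun a ha => ?_⟩
  apply frac_inj O T
  rw [map_zero]
  apply (IsArtinianRing.equivPi (FractionRing O ⊗[O] T)).injective
  rw [map_zero]
  funext I
  exact hpt I a (ha I)

end Fermat.Agent.TW

end
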