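import Fermat.Agent.TW.Lvls

/-!
Torsors of Taylor-Wiles type; transitivity, goodness and Shapiro conditions.
-/

set_option autoImplicit false
set_option linter.unusedSectionVars false

noncomputable section

namespace Fermat.Agent.TW

open scoped MatrixGroups
open CongruenceSubgroup

/-! ### quotients by kernels -/

/-- `K' = ker (K0 → Δ)` -/
structure NormD (G : Type) [Group G] (K0 K' : Subgroup G) (Δ : Type) [CommGroup Δ] where
  κ : K0 →* Δ
  surj : Function.Surjective κ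
  le : K' ≤ K0
  mem : ∀ k : K0, (k : G) ∈ K' ↔ κ k = 1

namespace NormD

variable {G : Type} [Group G] {K0 K' : Subgroup G} {Δ : Type} [CommGroup Δ]
  (W : NormD G K0 K' Δ)

/-- representatives -/
def kk (δ : Δ) : K0 := Classical.choose (W.surj δ)

theorem κ_kk (δ : Δ) : W.κ (W.kk δ) = δ := Classical.choose_spec (W.surj δ)

/-- the right translation action -/
def sm (δ : Δ) : G ⧸ K' → G ⧸ K' :=
  Quotient.map' (fun g => g * W.kk δ) fun a b hab => by
    rw [QuotientGroup.leftRel_apply] at hab ⊢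
    have h1 : (a * (W.kk δ : G))⁻¹ * (b * W.kk δ) =
      (((W.kk δ)⁻¹ * (⟨a⁻¹ * b, W.le hab⟩ * W.kk δ) : K0) : G) := by
      push_cast
      group
    rw [h1, W.mem, map_mul, map_mul, map_inv, (W.mem ⟨a⁻¹ * b, W.le hab⟩).mp hab, one_mul,
      inv_mul_cancel]

theorem mk_eq_mk_iff (g g' : G) : (g : G ⧸ K') = (g' : G ⧸ K') ↔
    ∃ h : g⁻¹ * g' ∈ K0, W.κ ⟨g⁻¹ * g', h⟩ = 1 := by
  rw [QuotientGroup.eq]
  constructor
  · intro h
    exact ⟨W.le h, (W.mem _).mp h⟩
  · rintro ⟨h, h'⟩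
    exact (W.mem ⟨g⁻¹ * g', h⟩).mpr h'

theorem sm_mk (δ : Δ) (g : G) (k : K0) (hk : W.κ k = δ) :
    W.sm δ (g : G ⧸ K') = ((g * (k : G) : G) : G ⧸ K') := by
  change ((g * (W.kk δ : G) : G) : G ⧸ K') = _
  rw [QuotientGroup.eq]
  have h1 : (g * (W.kk δ : G))⁻¹ * (g * k) = (((W.kk δ)⁻¹ * k : K0) : G) := by
    push_cast
    group
  rw [h1, W.mem, map_mul, map_inv, hk, W.κ_kk, inv_mul_cancel]

theorem sm_one (y : G ⧸ K') : W.sm 1 y = y := by
  induction y using QuotientGroup.induction_on with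
  | H g => rw [W.sm_mk 1 g 1 (map_one _), Subgroup.coe_one, mul_one]

theorem sm_mul (δ δ' : Δ) (y : G ⧸ K') : W.sm (δ * δ') y = W.sm δ (W.sm δ' y) := by
  induction y using QuotientGroup.induction_on with
  | H g =>
    rw [W.sm_mk δ' g _ (W.κ_kk δ'), W.sm_mk δ _ _ (W.κ_kk δ),
      W.sm_mk (δ * δ') g (W.kk δ' * W.kk δ) (by rw [map_mul, W.κ_kk, W.κ_kk, mul_comm]),
      Subgroup.coe_mul, mul_assoc]

theorem sm_smul (h : G) (δ : Δ) (y : G ⧸ K') : h • W.sm δ y = W.sm δ (h • y) := by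
  induction y using QuotientGroup.induction_on with
  | H g =>
    rw [W.sm_mk δ g _ (W.κ_kk δ)]
    change ((h * (g * (W.kk δ : G)) : G) : G ⧸ K') = W.sm δ ((h * g : G) : G ⧸ K')
    rw [W.sm_mk δ _ _ (W.κ_kk δ), mul_assoc]

theorem sm_eq_self {δ : Δ} {y : G ⧸ K'} (h : W.sm δ y = y) : δ = 1 := by
  induction y using QuotientGroup.induction_on with
  | H g =>
    rw [W.sm_mk δ g _ (W.κ_kk δ), eq_comm, QuotientGroup.eq, inv_mul_cancel_left, W.mem,
      W.κ_kk] at h
    exact h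

/-- the projection -/
def pr (h : K' ≤ K0) : G ⧸ K' → G ⧸ K0 := Subgroup.quotientMapOfLE h

theorem pr_mk (h : K' ≤ K0) (g : G) : pr h (g : G ⧸ K') = (g : G ⧸ K0) := rfl

theorem pr_smul (h : K' ≤ K0) (x : G) (y : G ⧸ K') : pr h (x • y) = x • pr h y := by
  induction y using QuotientGroup.induction_on with
  | H g => rfl

theorem pr_surjective (h : K' ≤ K0) : Function.Surjective (pr h) := by
  intro y
  induction y using QuotientGroup.induction_on with
  | H g => exact ⟨(g : G ⧸ K'), rfl⟩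

theorem pr_eq_iff (y y' : G ⧸ K') : pr W.le y = pr W.le y' ↔ ∃ δ, W.sm δ y = y' := by
  induction y using QuotientGroup.induction_on with
  | H g =>
    induction y' using QuotientGroup.induction_on with
    | H g' =>
      rw [pr_mk, pr_mk, QuotientGroup.eq]
      constructor
      · intro h
        refine ⟨W.κ ⟨_, h⟩, ?_⟩
        rw [W.sm_mk _ g _ rfl, mul_inv_cancel_left]
      · rintro ⟨δ, hδ⟩
        rw [W.sm_mk δ g _ (W.κ_kk δ), QuotientGroup.eq] at hδ
        have h2 := W.le hδ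
        have h3 : g⁻¹ * g' = (W.kk δ : G) * ((g * (W.kk δ : G))⁻¹ * g') := by group
        rw [h3]
        exact mul_mem (W.kk δ).2 h2

end NormD

/-! ### Taylor–Wiles data -/

/-- Taylor–Wiles data -/
structure TWD (D : Type) [CommGroup D] where
  N : ℕ
  Q : Finset ℕ
  χ : (q : ℕ) → (ZMod q)ˣ →* D
  tws : TWS N Q
  surj : ∀ q ∈ Q, Function.Surjective (χ q)
  odd : Odd (Nat.card D)

namespace TWD

variable {D : Type} [CommGroup D] (W : TWD D)

/-- the modulus -/
abbrev M : ℕ := modu W.N W.Q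

instance : NeZero W.M := ⟨W.tws.modu_ne_zero⟩

/-- the level group -/
abbrev K (t : ℕ → LT) : Subgroup (GL (Fin 2) (ZMod W.M)) := lvl W.N W.Q W.χ t

/-- the `GL₂(ℤ/M)`-set -/
abbrev Yt (t : ℕ → LT) : Type := GL (Fin 2) (ZMod W.M) ⧸ W.K t

instance (t : ℕ → LT) : Finite (W.Yt t) := inferInstance

/-- the normal data -/
def norm : NormD (GL (Fin 2) (ZMod W.M)) (W.K fun _ => .bor) (W.K fun _ => .chi)
    (W.Q → D) where
  κ := MonoidHom.pi fun q => nebq q.2
  surj := by
    rw [← MonoidHom.range_eq_top, eq_top_iff]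
    intro δ _
    refine Subgroup.pi_mem_of_mulSingle_mem δ fun q => ?_
    obtain ⟨u, hu⟩ := W.surj q q.2 (δ q)
    have hmem : emb W.tws q.2 (diagG u 1) ∈ W.K fun _ => .bor := by
      rw [emb_mem]
      exact diagG_mem _ _
    refine ⟨⟨_, hmem⟩, ?_⟩
    funext q'
    change nebq q'.2 _ = _
    by_cases h : q' = q
    · subst h
      rw [Pi.mulSingle_eq_same, nebq, MonoidHom.comp_apply, MonoidHom.comp_apply]
      have h1 : toLow q'.2 (⟨_, hmem⟩ : W.K fun _ => .bor) = ⟨diagG u 1, diagG_mem _ _⟩ :=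
        Subtype.ext (by rw [toLow_coe, red_emb])
      rw [h1, rat_diagG, div_one, hu]
    · rw [Pi.mulSingle_eq_of_ne h, nebq, MonoidHom.comp_apply, MonoidHom.comp_apply]
      have h1 : toLow q'.2 (⟨_, hmem⟩ : W.K fun _ => .bor) = 1 :=
        Subtype.ext (by
          rw [toLow_coe]
          exact red_emb_ne W.tws q.2 q'.2 (fun h' => h (Subtype.ext h')) _)
      rw [h1, map_one, map_one]
  le := lvl_mono fun q _ => Kloc_le _ _
  mem k := by
    constructor
    · intro h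
      funext q
      exact (mem_Kloc_chi.mp (h.2 q q.2)).2
    · intro h
      refine ⟨k.2.1, fun q hq => ?_⟩
      exact mem_Kloc_chi.mpr ⟨k.2.2 q hq, congrFun h ⟨q, hq⟩⟩

/-- the Taylor–Wiles set -/
abbrev YQ : Type := W.Yt fun _ => .chi

/-- the set of level `Γ₀` -/
abbrev Y0 : Type := W.Yt fun _ => .bor

instance : MulAction (W.Q → D) W.YQ where
  smul := W.norm.sm
  one_smul := W.norm.sm_one
  mul_smul := W.norm.sm_mul

theorem smul_def (δ : W.Q → D) (y : W.YQ) : δ • y = W.norm.sm δ y := rfl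

instance : SMulCommClass (GL (Fin 2) (ZMod W.M)) (W.Q → D) W.YQ where
  smul_comm g δ y := W.norm.sm_smul g δ y

/-- the projection `Y_Q → Y_0` -/
def prQ : W.YQ → W.Y0 := NormD.pr W.norm.le

theorem isTorsor : IsTorsor (M := W.M) (W.Q → D) W.prQ where
  equiv g y := NormD.pr_smul _ g y
  surj := NormD.pr_surjective _
  fib y y' := W.norm.pr_eq_iff y y'
  free _ _ h := W.norm.sm_eq_self h

/-! ### transitivity -/

theorem exists_diag (u : (ZMod W.M)ˣ) (t : ℕ → LT) : ∃ k ∈ W.K t,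
    Matrix.GeneralLinearGroup.det k = u := by
  obtain ⟨h, hh⟩ := W.odd
  have hk : diagG (u ^ (h + 1)) (u ^ h)⁻¹ ∈ W.K t := by
    refine ⟨?_, fun q hq => ?_⟩
    · change ZMod.castHom (N_dvd W.N W.Q) (ZMod W.N) 0 = 0
      rw [map_zero]
    · have h1 : red (q_dvd W.N hq) (diagG (u ^ (h + 1)) (u ^ h)⁻¹) =
          diagG (Units.map (ZMod.castHom (q_dvd W.N hq) (ZMod q) : ZMod W.M →* ZMod q) u ^ (h + 1))
          (Units.map (ZMod.castHom (q_dvd W.N hq) (ZMod q) : ZMod W.M →* ZMod q) u ^ h)⁻¹ := by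
        rw [← map_pow, ← map_pow, ← map_inv]
        apply Units.ext
        ext i j
        rw [red_apply]
        fin_cases i <;> fin_cases j
        · rfl
        · exact map_zero _
        · exact map_zero _
        · rfl
      rw [h1]
      apply diagG_mem_Kloc
      rw [div_inv_eq_mul, ← pow_add, map_pow]
      have h2 : h + 1 + h = Nat.card D := by omega
      rw [h2, pow_card_eq_one']
  refine ⟨_, hk, Units.ext ?_⟩
  change Matrix.det !![((u ^ (h + 1) : (ZMod W.M)ˣ) : ZMod W.M), 0; 0,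
    (((u ^ h)⁻¹ : (ZMod W.M)ˣ) : ZMod W.M)] = u
  rw [Matrix.det_fin_two_of, zero_mul, sub_zero, ← Units.val_mul, pow_succ', mul_inv_cancel_right]

theorem trans (t : ℕ → LT) (y : W.Yt t) :
    ∃ g : SL(2, ℤ), (iM W.M g).2 • ((1 : GL (Fin 2) (ZMod W.M)) : W.Yt t) = y := by
  induction y using QuotientGroup.induction_on with
  | H x =>
    obtain ⟨k, hk, hdet⟩ := W.exists_diag (Matrix.GeneralLinearGroup.det x) t
    obtain ⟨g, hg⟩ := exists_SL_lift W.M (x * k⁻¹ : GL (Fin 2) (ZMod W.M)).1 (by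
      have h1 : Matrix.GeneralLinearGroup.det (x * k⁻¹) = 1 := by
        rw [map_mul, map_inv, hdet, mul_inv_cancel]
      exact congrArg Units.val h1)
    refine ⟨g, ?_⟩
    change (((iM W.M g).2 * 1 : GL (Fin 2) (ZMod W.M)) : W.Yt t) = (x : W.Yt t)
    rw [mul_one]
    have h2 : (iM W.M g).2 = x * k⁻¹ := by
      apply Units.ext
      exact hg
    rw [h2]
    exact QuotientGroup.mk_mul_of_mem x (inv_mem hk)

theorem neg_smul (t : ℕ → LT) (y : W.Yt t) : (iM W.M (-1)).2 • y = y := by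
  induction y using QuotientGroup.induction_on with
  | H x =>
    change (((iM W.M (-1)).2 * x : GL (Fin 2) (ZMod W.M)) : W.Yt t) = x
    have h1 : (iM W.M (-1)).2 = diagG (-1) (-1) := by
      apply Units.ext
      change ((-1 : SL(2, ℤ)) : M2Z).map (algebraMap ℤ (ZMod W.M)) = _
      ext i j
      fin_cases i <;> fin_cases j <;> simp [diagG]
    have h2 : (diagG (-1) (-1) : GL (Fin 2) (ZMod W.M)) = -1 := by
      apply Units.ext
      ext i j
      fin_cases i <;> fin_cases j <;> simp [diagG]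
    have h3 : (iM W.M (-1)).2 * x = x * (iM W.M (-1)).2 := by
      rw [h1, h2, neg_mul, mul_neg, one_mul, mul_one]
    rw [h3]
    refine QuotientGroup.mk_mul_of_mem x ?_
    rw [h1]
    refine ⟨?_, fun q hq => ?_⟩
    · change ZMod.castHom (N_dvd W.N W.Q) (ZMod W.N) 0 = 0
      rw [map_zero]
    · have h4 : red (q_dvd W.N hq) (diagG (-1) (-1)) = diagG (-1) (-1) := by
        apply Units.ext
        ext i j
        rw [red_apply]
        fin_cases i <;> fin_cases j
        · change ZMod.castHom (q_dvd W.N hq) (ZMod q) (-1) = -1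
          rw [map_neg, map_one]
        · exact map_zero _
        · exact map_zero _
        · change ZMod.castHom (q_dvd W.N hq) (ZMod q) (-1) = -1
          rw [map_neg, map_one]
      rw [h4]
      apply diagG_mem_Kloc
      rw [div_self', map_one]

omit W in
theorem red_iM {M n : ℕ} (h : n ∣ M) (g : SL(2, ℤ)) :
    (red h (iM M g).2).1 = (g : M2Z).map (Int.castRingHom (ZMod n)) := by
  ext i j
  change ZMod.castHom h (ZMod n) (((g : M2Z) i j : ℤ) : ZMod M) = _
  rw [map_intCast]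
  rfl

/-- the element `U` acts freely if `r ∣ N` for some prime `r ≡ 2 mod 3`. -/
theorem U_free {r : ℕ} (hr : r.Prime) (hrN : r ∣ W.N) (hr3 : r % 3 = 2) (t : ℕ → LT)
    (y : W.Yt t) : (iM W.M U).2 • y ≠ y := by
  have : Fact r.Prime := ⟨hr⟩
  induction y using QuotientGroup.induction_on with
  | H x =>
    intro h
    change (((iM W.M U).2 * x : GL (Fin 2) (ZMod W.M)) : W.Yt t) = x at h
    rw [eq_comm, QuotientGroup.eq] at h
    have h1 : red (N_dvd W.N W.Q) (x⁻¹ * ((iM W.M U).2 * x)) 1 0 = 0 := h.1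
    set z := red (hrN.trans (N_dvd W.N W.Q)) (x⁻¹ * ((iM W.M U).2 * x)) with hz
    have hz10 : z 1 0 = 0 := by
      rw [hz, red_apply]
      rw [red_apply] at h1
      have h2 : ZMod.castHom (hrN.trans (N_dvd W.N W.Q)) (ZMod r) =
        (ZMod.castHom hrN (ZMod r)).comp (ZMod.castHom (N_dvd W.N W.Q) (ZMod W.N)) :=
        Subsingleton.elim _ _
      rw [h2, RingHom.comp_apply, h1, map_zero]
    have hdet : Matrix.det (z : Matrix (Fin 2) (Fin 2) (ZMod r)) = 1 := by
      have h2 : Matrix.GeneralLinearGroup.det z = 1 := by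
        rw [hz, map_mul, map_mul, map_mul, map_mul, map_inv, map_inv]
        have h3 : Matrix.GeneralLinearGroup.det
            (red (hrN.trans (N_dvd W.N W.Q)) (iM W.M U).2) = 1 := by
          apply Units.ext
          change Matrix.det ((red (hrN.trans (N_dvd W.N W.Q)) (iM W.M U).2).1) = 1
          rw [red_iM, coe_U, Matrix.det_fin_two]
          simp
        rw [h3, one_mul, inv_mul_cancel]
      exact congrArg Units.val h2
    have htr : Matrix.trace (z : Matrix (Fin 2) (Fin 2) (ZMod r)) = 1 := by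
      rw [hz, map_mul, map_mul, map_inv]
      change Matrix.trace (((red (hrN.trans (N_dvd W.N W.Q)) x)⁻¹ : GL (Fin 2) (ZMod r)).1 *
        ((red (hrN.trans (N_dvd W.N W.Q)) (iM W.M U).2).1 *
          (red (hrN.trans (N_dvd W.N W.Q)) x).1)) = 1
      rw [← mul_assoc, Matrix.trace_mul_comm, ← mul_assoc]
      have h3 : (red (hrN.trans (N_dvd W.N W.Q)) x).1 *
          ((red (hrN.trans (N_dvd W.N W.Q)) x)⁻¹ : GL (Fin 2) (ZMod r)).1 = 1 :=
        Units.mul_inv _
      rw [h3, one_mul]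
      rw [red_iM, coe_U, Matrix.trace_fin_two]
      simp
    rw [Matrix.det_fin_two, hz10, mul_zero, sub_zero] at hdet
    rw [Matrix.trace_fin_two] at htr
    set a : ZMod r := z 0 0 with ha
    have h2 : a * (1 - a) = 1 := by linear_combination hdet - a * htr
    have h3 : a ^ 3 = -1 := by linear_combination (-a - 1) * h2
    have h6 : (a ^ 2) ^ 3 = 1 := by rw [← pow_mul, mul_comm 2 3, pow_mul, h3, neg_one_sq]
    have hane : a ≠ 0 := by
      intro h0
      rw [h0, zero_mul] at h2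
      exact zero_ne_one h2
    have hr1 : a ^ (r - 1) = 1 := ZMod.pow_card_sub_one_eq_one hane
    have h7 : orderOf (a ^ 2) ∣ 3 := orderOf_dvd_of_pow_eq_one h6
    have h8 : orderOf (a ^ 2) ∣ r - 1 := orderOf_dvd_of_pow_eq_one (by
      rw [← pow_mul, mul_comm, pow_mul, hr1, one_pow])
    rcases (Nat.dvd_prime Nat.prime_three).mp h7 with h9 | h9
    · have h10 : a ^ 2 = 1 := orderOf_eq_one_iff.mp h9
      have h11 : a = 2 := by linear_combination h2 + h10
      rw [h11] at h10 h2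
      have h12 : ((3 : ℕ) : ZMod r) = 0 := by
        push_cast
        linear_combination h10
      rw [ZMod.natCast_eq_zero_iff] at h12
      rw [(Nat.prime_dvd_prime_iff_eq hr Nat.prime_three).mp h12] at hr3
      norm_num at hr3
    · rw [h9] at h8
      have := hr.two_le
      omega

/-! ### Shapiro conditions -/

/-- the product of the Taylor–Wiles primes -/
abbrev dd : ℕ := ∏ q ∈ W.Q, q

theorem dd_ne_zero : W.dd ≠ 0 := fun h => W.tws.modu_ne_zero (by
  change W.N * W.dd = 0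
  rw [h, mul_zero])

/-- base point -/
def pt (t : ℕ → LT) : W.Yt t := ((1 : GL (Fin 2) (ZMod W.M)) : W.Yt t)

theorem smul_pt_iff (t : ℕ → LT) (g : GL (Fin 2) (ZMod W.M)) :
    g • W.pt t = W.pt t ↔ g ∈ W.K t := by
  change ((g * 1 : GL (Fin 2) (ZMod W.M)) : W.Yt t) = ((1 : GL (Fin 2) (ZMod W.M)) : W.Yt t) ↔ _
  rw [mul_one, QuotientGroup.eq, mul_one, inv_mem_iff]

theorem dd_dvd {k : ℤ} (h : ∀ q ∈ W.Q, (q : ℤ) ∣ k) : (W.dd : ℤ) ∣ k := by
  rw [dd, Nat.cast_prod]
  refine Finset.prod_dvd_of_coprime ?_ h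
  intro q hq q' hq' hne
  exact Nat.isCoprime_iff_coprime.mpr (W.tws.coprime_of_ne hq' hq hne)

theorem N_dd_dvd {k : ℤ} (hN : (W.N : ℤ) ∣ k) (h : ∀ q ∈ W.Q, (q : ℤ) ∣ k) :
    ((W.N * W.dd : ℕ) : ℤ) ∣ k := by
  rw [Nat.cast_mul]
  refine IsCoprime.mul_dvd ?_ hN (W.dd_dvd h)
  rw [dd, Nat.cast_prod]
  refine IsCoprime.prod_right fun q hq => ?_
  exact Nat.isCoprime_iff_coprime.mpr (W.tws.coprime_N hq)

/-- membership of integral matrices in `K_bor`. -/
theorem mem_bor_iff {A : M2Z} (hA : IsGd W.M A) : (toGp W.M A hA).2 ∈ (W.K fun _ => .bor) ↔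
    (W.N : ℤ) ∣ A 1 0 ∧ (W.dd : ℤ) ∣ A 0 1 := by
  have h1 : ∀ (n : ℕ) (hn : n ∣ W.M) i j, red hn (toGp W.M A hA).2 i j = (A i j : ZMod n) := by
    intro n hn i j
    rw [red_apply]
    change ZMod.castHom hn (ZMod n) ((A i j : ℤ) : ZMod W.M) = _
    rw [map_intCast]
  constructor
  · intro h
    refine ⟨?_, W.dd_dvd fun q hq => ?_⟩
    · have := mem_upB.mp h.1
      rwa [h1, ZMod.intCast_zmod_eq_zero_iff_dvd] at this
    · have := mem_lowB.mp (h.2 q hq)
      rwa [h1, ZMod.intCast_zmod_eq_zero_iff_dvd] at this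
  · rintro ⟨h2, h3⟩
    refine ⟨?_, fun q hq => ?_⟩
    · rw [mem_upB, h1, ZMod.intCast_zmod_eq_zero_iff_dvd]
      exact h2
    · change _ ∈ lowB (ZMod q)
      rw [mem_lowB, h1, ZMod.intCast_zmod_eq_zero_iff_dvd]
      refine dvd_trans ?_ h3
      exact_mod_cast Finset.dvd_prod_of_mem (fun q => q) hq

/-- membership of integral matrices in `K_tor`. -/
theorem mem_tor_iff {A : M2Z} (hA : IsGd W.M A) : (toGp W.M A hA).2 ∈ (W.K fun _ => .tor) ↔
    ((W.N * W.dd : ℕ) : ℤ) ∣ A 1 0 ∧ (W.dd : ℤ) ∣ A 0 1 := by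
  have h1 : ∀ (n : ℕ) (hn : n ∣ W.M) i j, red hn (toGp W.M A hA).2 i j = (A i j : ZMod n) := by
    intro n hn i j
    rw [red_apply]
    change ZMod.castHom hn (ZMod n) ((A i j : ℤ) : ZMod W.M) = _
    rw [map_intCast]
  constructor
  · intro h
    refine ⟨W.N_dd_dvd ?_ fun q hq => ?_, W.dd_dvd fun q hq => ?_⟩
    · have := mem_upB.mp h.1
      rwa [h1, ZMod.intCast_zmod_eq_zero_iff_dvd] at this
    · have := mem_upB.mp (h.2 q hq).2
      rwa [h1, ZMod.intCast_zmod_eq_zero_iff_dvd] at this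
    · have := mem_lowB.mp (h.2 q hq).1
      rwa [h1, ZMod.intCast_zmod_eq_zero_iff_dvd] at this
  · rintro ⟨h2, h3⟩
    refine ⟨?_, fun q hq => ⟨?_, ?_⟩⟩
    · rw [mem_upB, h1, ZMod.intCast_zmod_eq_zero_iff_dvd]
      refine dvd_trans ?_ h2
      exact_mod_cast dvd_mul_right _ _
    · change _ ∈ lowB (ZMod q)
      rw [mem_lowB, h1, ZMod.intCast_zmod_eq_zero_iff_dvd]
      refine dvd_trans ?_ h3
      exact_mod_cast Finset.dvd_prod_of_mem (fun q => q) hq
    · change _ ∈ upB (ZMod q)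
      rw [mem_upB, h1, ZMod.intCast_zmod_eq_zero_iff_dvd]
      refine dvd_trans ?_ h2
      exact_mod_cast (Finset.dvd_prod_of_mem (fun q => q) hq).trans (dvd_mul_left _ _)

end TWD

end Fermat.Agent.TW

end
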