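import Fermat.Agent.TW.Base2
import Fermat.Agent.TWDeg.NewKill
import Fermat.Agent.TWDeg.LocNewPf

/-!
# [H2]: no new part at the Taylor-Wiles primes (base level)
-/

set_option autoImplicit false
set_option linter.unusedSectionVars false

noncomputable section

namespace Fermat.Agent.TW

open IsLocalRing Module Matrix Fermat.Agent.DefRing Polynomial Fermat.Agent.TWDeg
open CongruenceSubgroup

theorem NonEis.mono {m M M' : ℕ} {R : Type} [CommRing R] {𝔪 : Ideal (TPoly m R)} (h : M' ∣ M)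
    (hE : NonEis M 𝔪) : NonEis M' 𝔪 := by
  obtain ⟨l, hl, hl𝔪⟩ := hE
  refine ⟨l, ?_, hl𝔪⟩
  have h1 := congrArg (ZMod.castHom h (ZMod M')) hl
  rwa [map_natCast, map_one] at h1

section Transport

variable {m M a n' q : ℕ} (hM1 : M = 1) (ha : a = n') {R A : Type} [CommRing R] [AddCommGroup A]
  [Module R A] (𝔪 : Ideal (TPoly m R)) [𝔪.IsPrime] (hq : q.Prime) (hqa : q.Coprime a)
  (hqM : q.Coprime M) (haM : a ∣ m) (haq : a * q ∣ m) (hM : M ∣ m)
  (hqn : q.Coprime n') (hq1 : q.Coprime 1) (hn' : n' ∣ m) (hnq : n' * q ∣ m)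

include hM1 ha in
theorem transport_down (hρ : triv M R A (scal hq hqM) = 1)
    (H : ∀ y, ((degData (triv M R A) hq hqa hqM haM haq hM hρ).loc 𝔪).down y = 0 → y = 0) :
    ∀ x, (degN (one_dvd m) (triv 1 R A) 𝔪 hq hqn hq1 hn' hnq rfl).down x = 0 → x = 0 := by
  subst hM1 ha
  exact H

include hM1 ha in
theorem transport_kill (P : TPoly m R)
    (H : ∀ x : Loc 𝔪 ((Stg.gamma0 (n' * q) hnq (one_dvd m)).H (triv 1 R A)), P • x = 0) :
    ∀ y : Loc 𝔪 ((Stg.gamma0 (a * q) haq hM).H (triv M R A)), P • y = 0 := by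
  subst hM1 ha
  exact H

end Transport

section Unit

variable {m : ℕ} {O : Type} [CommRing O] [IsDomain O] [IsDiscreteValuationRing O]
  [IsAdicComplete (maximalIdeal O) O] [Finite (ResidueField O)] [CharZero O]
  {rbar : GQ →* M2 (ResidueField O)} {sd : SliceData rbar} {p n : ℕ} {M : Type} [AddCommGroup M]
  [Module (TPoly m O) M] [Module O M] (R : HRep (m := m) p n sd M)

/-- `(tr r(σ))² - (q+1)²` is a unit -/
theorem isUnit_trace_sq {q : ℕ} {σ : GQ}
    (hne : (rbar σ).trace ^ 2 ≠ ((q : ResidueField O) + 1) ^ 2) :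
    IsUnit ((R.C.r σ).trace ^ 2 - ((q : R.C.T) + 1) ^ 2) := by
  by_contra hu
  have h0 : (R.C.r σ).trace ^ 2 - ((q : R.C.T) + 1) ^ 2 ∈ maximalIdeal R.C.T := hu
  obtain ⟨o, ho⟩ := residue_surjective (R := O) (rbar σ).trace
  have h1 := trace_sub_mem_of_red R.C.red σ o ho
  have h2 : algebraMap O R.C.T (o ^ 2 - ((q : O) + 1) ^ 2) ∈ maximalIdeal R.C.T := by
    have e : algebraMap O R.C.T (o ^ 2 - ((q : O) + 1) ^ 2) =
        ((R.C.r σ).trace ^ 2 - ((q : R.C.T) + 1) ^ 2) -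
          ((R.C.r σ).trace + algebraMap O R.C.T o) *
            ((R.C.r σ).trace - algebraMap O R.C.T o) := by
      rw [map_sub, map_pow, map_pow, map_add, map_natCast, map_one]
      ring
    rw [e]
    exact Ideal.sub_mem _ h0 (Ideal.mul_mem_left _ _ h1)
  have h3 : o ^ 2 - ((q : O) + 1) ^ 2 ∈ maximalIdeal O := by
    rw [mem_maximalIdeal, mem_nonunits_iff] at h2 ⊢
    exact fun hu => h2 (hu.map (algebraMap O R.C.T))
  rw [← residue_eq_zero_iff, map_sub, map_pow, map_pow, map_add, map_natCast, map_one, ho,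
    sub_eq_zero] at h3
  exact hne h3

end Unit

section Main

variable (h30 : HeckeGal.S30Statement) {p m : ℕ} [hp : Fact p.Prime] (hm : m ≠ 0) (hpm : p ∣ m)
  {O : Type} [CommRing O] [IsDomain O] [IsDiscreteValuationRing O]
  [IsAdicComplete (maximalIdeal O) O] [Finite (ResidueField O)] [CharZero O]
  (hpO : (p : O) ∈ maximalIdeal O) {rbar : GQ →* M2 (ResidueField O)}
  (sd : SliceData rbar) (hspan : Submodule.span (ResidueField O) (Set.range rbar) = ⊤)
  (hrbar : ∃ L : IntermediateField ℚ (AlgebraicClosure ℚ), FiniteDimensional ℚ L ∧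
      ∀ σ : GQ, (∀ x ∈ L, σ x = x) → rbar σ = 1) (hES : ∀ (n : ℕ) [NeZero n], HeckeHom.ES n)
  (hloc : LocNew) {𝔪 : Ideal (TPoly m O)} [𝔪.IsMaximal] (h𝔪 : ResId rbar 𝔪)
  {n' q : ℕ} (hq : q.Prime) (hqn : q.Coprime n') (hq1 : q.Coprime 1) (hn' : n' ∣ m)
  (hnq : n' * q ∣ m) (hE : NonEis (n' * q) 𝔪) (hqp : q ≠ p)
  {B : ValuationSubring (AlgebraicClosure ℚ)} (hB : B.LiesOverPrime q) {τ : GQ}
  (hτ : B.IsFrobeniusAt τ q)
  (hne : (rbar τ).trace ^ 2 ≠ ((q : ResidueField O) + 1) ^ 2)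

include h30 hm hpm hpO sd hspan hrbar hES hloc h𝔪 hE hqp hB hτ hne in
/-- **[H2]** -/
theorem h2_base (x : MN (one_dvd m) (triv 1 O O) 𝔪 (n' * q) hnq)
    (hx : (degN (one_dvd m) (triv 1 O O) 𝔪 hq hqn hq1 hn' hnq rfl).down x = 0) : x = 0 := by
  by_contra hx0
  have hnt : Nontrivial (Loc 𝔪 (HG m (n' * q) hnq O)) := ⟨⟨x, 0, hx0⟩⟩
  have hn0 : n' ≠ 0 := fun h => hm (by rw [h] at hn'; exact zero_dvd_iff.mp hn')
  have : NeZero (n' * q) := ⟨mul_ne_zero hn0 hq.ne_zero⟩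
  obtain ⟨R⟩ := exists_hrep_base h30 hnq hpm hpO sd hspan hrbar (hES _) h𝔪 hE hm
  apply hx0
  let W' : TWD Unit := W0 n' hn0
  have hqQ : q ∉ W'.Q := Finset.notMem_empty _
  have hM : W'.M ∣ m := W0_dvd hn0 hn'
  have hrM : (raise W' hq hqQ).M = n' * q := by rw [raise_M, W0_M]
  have hM' : (raise W' hq hqQ).M ∣ m := by rw [hrM]; exact hnq
  have hqN : ¬ q ∣ W'.N := (Nat.Prime.coprime_iff_not_dvd hq).mp hqn
  have hM1 : (one W').M = 1 := by
    change 1 * ∏ q ∈ (∅ : Finset ℕ), q = 1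
    rw [Finset.prod_empty, one_mul]
  have ha : W'.N * W'.dd = n' := (W0_lev n' hn0).symm
  refine transport_down hM1 ha 𝔪 hq (coprime_M W' hq hqQ hqN)
    ((coprime_M W' hq hqQ hqN).coprime_dvd_right (one_M_dvd W')) (dvd_nd W' hM)
    (nd_mul W' hq hqQ hM') (one_dvd_m W' hM) hqn hq1 hn' hnq rfl ?_ x hx
  intro y hy
  -- transport to the Taylor-Wiles side
  let e₂ := locCongr 𝔪 (cmp₂ W' hq hqQ hM hM' O O)
  let e₁ := locCongr 𝔪 (cmp₁ W' hM O O)
  have hD := (degHom_cmp W' hq hqQ hM hM' hqN O O).loc 𝔪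
  obtain ⟨z, rfl⟩ := e₂.surjective y
  have hz : (D0 W' hq hqQ hM hM' hqN 𝔪 O).down z = 0 := by
    have h1 := (hD.down z).symm.trans hy
    obtain ⟨h2, h3⟩ := Prod.mk.inj h1
    refine Prod.ext ?_ ?_
    · exact e₁.injective (h2.trans (map_zero e₁).symm)
    · exact e₁.injective (h3.trans (map_zero e₁).symm)
  -- pull back
  have hP := (degTW_pull (R := O) (A := O) W' hq hqQ hM hM' hqN W'.norm.le (one W').norm.le
    (raise W' hq hqQ).norm.le).loc 𝔪
  set z' : MQ (raise W' hq hqQ) hM' 𝔪 O := Loc.map 𝔪 ((XF hM').map (pull O O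
    (raise W' hq hqQ).prQ (raise W' hq hqQ).isTorsor.equiv)) z with hz'
  have hdz' : (DQ W' hq hqQ hM hM' hqN 𝔪 O).down z' = 0 := by
    refine (hP.down z).trans ?_
    rw [hz]
    exact Prod.ext (map_zero _) (map_zero _)
  have hE' : NonEis (raise W' hq hqQ).M 𝔪 := by rw [hrM]; exact hE
  have hinj := pull_loc_injective hM' (raise W' hq hqQ).isTorsor 𝔪 hE' O
  have hker : ∀ P, R.φ P = 0 → ∀ x : MQ (raise W' hq hqQ) hM' 𝔪 O, P • x = 0 := by
    intro P hPR x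
    have h1 : ∀ y : Loc 𝔪 ((XF hM').H (funRep (M := (raise W' hq hqQ).M) O O
        (raise W' hq hqQ).Y0)), P • y = 0 := by
      intro y
      apply e₂.injective
      rw [map_smul, map_zero]
      exact transport_kill hM1 ha 𝔪 (nd_mul W' hq hqQ hM') (one_dvd_m W' hM) hnq P
        ((R.ker P).mp hPR) (e₂ y)
    have : Fintype (raise W' hq hqQ).YQ := Fintype.ofFinite _
    have h2 := pull_push_loc hM' (raise W' hq hqQ).isTorsor 𝔪 O (P • x)
    rw [map_smul, h1, map_zero] at h2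
    have : Unique ((raise W' hq hqQ).Q → Unit) := inferInstance
    rw [Fintype.sum_unique] at h2
    have h3 : (default : (raise W' hq hqQ).Q → Unit) = 1 := Subsingleton.elim _ _
    rw [h3, map_one] at h2
    exact h2.symm
  obtain ⟨β, hβ⟩ := R.surj ((R.C.r τ).trace ^ 2 - ((q : R.C.T) + 1) ^ 2)
  have hk := kill_ker_down hES hloc W' hq hqQ hM hM' hqN hm hpm hqp hpO R.φ R.surj R.C.cont R.tr
    hB hτ hβ 𝔪 hE' hker z' hdz'
  obtain ⟨u, hu⟩ := (isUnit_trace_sq R hne).exists_left_inv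
  obtain ⟨γ, hγ⟩ := R.surj u
  have h4 : R.φ (γ * β - 1) = 0 := by
    rw [map_sub, map_mul, hγ, hβ, hu, map_one, sub_self]
  have h5 := hker _ h4 z'
  rw [sub_smul, mul_smul, hk, smul_zero, one_smul, zero_sub, neg_eq_zero] at h5
  have h6 : z = 0 := hinj (h5.trans (map_zero _).symm)
  rw [h6, map_zero]

end Main

end Fermat.Agent.TW

end
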