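import Fermat.Agent.TW.ShapD
import Fermat.Agent.ES.Parabolic

/-!
`T_l - (l + 1)` maps into the parabolic part (`l ≡ 1 mod M`).
-/

set_option autoImplicit false
set_option linter.unusedSectionVars false

noncomputable section

namespace Fermat.Agent.TW

open scoped MatrixGroups
open CongruenceSubgroup Matrix.SpecialLinearGroup

section Abs

variable {M : ℕ} {R : Type} [CommRing R] {V : Type} [AddCommGroup V] [Module R V]
  {ρ : Representation R (Gp M) V}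

theorem Infl.trivial (hρ : Infl ρ) {t : SL(2, ℤ)} (ht : (iM M t).2 = 1) (v : V) :
    ρ (iM M t) v = v := by
  have h1 : ρ (iM M t) = ρ 1 := hρ _ _ ht
  rw [h1, map_one]
  rfl

variable (c : Z1 (Lvl.full.ι M) ρ)

theorem Z1.conj_of_trivial (hρ : Infl ρ) {t : SL(2, ℤ)} (ht : (iM M t).2 = 1) (g : SL(2, ℤ)) :
    c.1 (g * t * g⁻¹) = ρ (iM M g) (c.1 t) := by
  have h1 := Z1.mul c (g * t) g⁻¹
  have h2 := Z1.mul c g t
  have h3 := Z1.inv c g
  have h4 : ρ (Lvl.full.ι M (g * t)) (c.1 g⁻¹) = ρ (Lvl.full.ι M g) (c.1 g⁻¹) := by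
    rw [map_mul, rho_mul']
    congr 1
    exact hρ.trivial ht _
  have h5 : ρ (Lvl.full.ι M g) (c.1 g⁻¹) = - c.1 g := by
    rw [h3, map_neg, ← rho_mul', ← map_mul, mul_inv_cancel, map_one, map_one]
    rfl
  rw [h1, h4, h5, h2]
  change c.1 g + ρ (iM M g) (c.1 t) + - c.1 g = _
  abel

theorem Z1.pow_of_trivial (hρ : Infl ρ) {t : SL(2, ℤ)} (ht : (iM M t).2 = 1) (n : ℕ) :
    c.1 (t ^ n) = n • c.1 t := by
  induction n with
  | zero => rw [pow_zero, Z1.one, zero_smul]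
  | succ n ih =>
    rw [pow_succ', Z1.mul, ih, succ_nsmul']
    congr 1
    exact hρ.trivial ht _

theorem snd_T_zpow_of_dvd {h : ℤ} (hh : (M : ℤ) ∣ h) : (iM M (ModularGroup.T ^ h)).2 = 1 := by
  apply Units.ext
  change ((ModularGroup.T ^ h : SL(2, ℤ)) : M2Z).map (algebraMap ℤ (ZMod M)) = 1
  rw [ModularGroup.coe_T_zpow]
  have h0 : (h : ZMod M) = 0 := (ZMod.intCast_zmod_eq_zero_iff_dvd _ _).mpr hh
  ext i j
  fin_cases i <;> fin_cases j <;> simp [h0]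

/-- values of `T_l c` on powers of `T` -/
theorem zmap_T_zpow (hρ : Infl ρ) {l : ℕ} (hl : l.Prime) (hlM : l.Coprime M)
    (h1 : (l : ZMod M) = 1) {h : ℤ} (hh : (M : ℤ) ∣ h) :
    ((Lvl.full.corrT M hl hlM (Lvl.ok_full l)).zmap ρ c).1 (ModularGroup.T ^ ((l : ℤ) * h)) =
      (l + 1) • c.1 (ModularGroup.T ^ ((l : ℤ) * h)) := by
  have : NeZero l := ⟨hl.ne_zero⟩
  set D := Lvl.full.corrT M hl hlM (Lvl.ok_full l) with hD
  have hα : ∀ x : OnePoint (ZMod l), D.α x = toGp M (bI l x) (isGd_bI hl hlM x) := fun _ => rfl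
  -- invariance
  have hinv : ∀ (x : OnePoint (ZMod l)) (k : ℤ), (M : ℤ) ∣ k →
      ρ (D.α x)⁻¹ (c.1 (ModularGroup.T ^ k)) = c.1 (ModularGroup.T ^ k) := by
    intro x k hk
    obtain ⟨j, hj⟩ := exists_snd_eq hl hlM h1 x
    have h2 : ρ (D.α x)⁻¹ = ρ (iM M (ModularGroup.T ^ (-j))) := by
      apply hρ
      rw [Prod.snd_inv, hα, hj, zpow_neg, map_inv, Prod.snd_inv]
    rw [h2, ← Z1.conj_of_trivial c hρ (snd_T_zpow_of_dvd hk)]
    congr 1
    rw [← zpow_neg, ← zpow_add, ← zpow_add]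
    congr 1
    ring
  have hco : ∀ j : ZMod l, D.coc (ModularGroup.T ^ ((l : ℤ) * h)) (j : OnePoint (ZMod l)) =
      ModularGroup.T ^ h := by
    intro j
    refine (D.eq_of_spec (y := (j : OnePoint (ZMod l))) ?_).2.symm
    change toGp M (bI l j) (isGd_bI hl hlM j) * iM M _ = iM M _ * toGp M (bI l j)
      (isGd_bI hl hlM j)
    rw [← toGp_SL, ← toGp_SL, ← toGp_mul, ← toGp_mul]
    refine toGp_congr ?_ _ _
    rw [ModularGroup.coe_T_zpow, ModularGroup.coe_T_zpow, bI_coe, Matrix.mul_fin_two,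
      Matrix.mul_fin_two]
    ext a b
    fin_cases a <;> fin_cases b <;> simp [-ZMod.natCast_val]
    ring
  have hco' : D.coc (ModularGroup.T ^ ((l : ℤ) * h)) (OnePoint.infty : OnePoint (ZMod l)) =
      ModularGroup.T ^ ((l : ℤ) * (l * h)) := by
    refine (D.eq_of_spec (y := (OnePoint.infty : OnePoint (ZMod l))) ?_).2.symm
    change toGp M (bI l OnePoint.infty) (isGd_bI hl hlM OnePoint.infty) * iM M _ =
      iM M _ * toGp M (bI l OnePoint.infty) (isGd_bI hl hlM OnePoint.infty)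
    rw [← toGp_SL, ← toGp_SL, ← toGp_mul, ← toGp_mul]
    refine toGp_congr ?_ _ _
    rw [ModularGroup.coe_T_zpow, ModularGroup.coe_T_zpow, bI_infty, Matrix.mul_fin_two,
      Matrix.mul_fin_two]
    ext a b
    fin_cases a <;> fin_cases b <;> simp
  have hpow : ∀ n : ℕ, c.1 (ModularGroup.T ^ ((n : ℤ) * h)) = n • c.1 (ModularGroup.T ^ h) := by
    intro n
    rw [← Z1.pow_of_trivial c hρ (snd_T_zpow_of_dvd hh), ← zpow_natCast, ← zpow_mul, mul_comm h]
  rw [Corr.zmap_apply]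
  have hterm : ∀ x : OnePoint (ZMod l), ρ (D.α x)⁻¹
      (c.1 (D.coc (ModularGroup.T ^ ((l : ℤ) * h)) x)) =
      x.elim ((l * l) • c.1 (ModularGroup.T ^ h)) (fun _ => c.1 (ModularGroup.T ^ h)) := by
    intro x
    induction x using OnePoint.rec with
    | infty =>
      rw [hco', hinv _ _ (dvd_mul_of_dvd_right (dvd_mul_of_dvd_right hh _) _)]
      change _ = (l * l) • c.1 (ModularGroup.T ^ h)
      rw [← hpow (l * l)]
      congr 2
      push_cast
      ring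
    | coe j =>
      rw [hco, hinv _ _ hh]
      rfl
  refine (Finset.sum_congr rfl fun x _ => hterm x).trans ?_
  have hs : ∑ x : OnePoint (ZMod l), (x.elim ((l * l) • c.1 (ModularGroup.T ^ h))
      (fun _ => c.1 (ModularGroup.T ^ h)) : V) = (l * l) • c.1 (ModularGroup.T ^ h) +
        ∑ _j : ZMod l, c.1 (ModularGroup.T ^ h) :=
    Fintype.sum_option (fun x : Option (ZMod l) =>
      ((x : OnePoint (ZMod l)).elim ((l * l) • c.1 (ModularGroup.T ^ h))
      (fun _ => c.1 (ModularGroup.T ^ h)) : V))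
  refine hs.trans ?_
  rw [Finset.sum_const, Finset.card_univ, ZMod.card, hpow, ← add_smul, ← mul_smul]
  congr 1
  ring

theorem zmap_conj (hρ : Infl ρ) {l : ℕ} (hl : l.Prime) (hlM : l.Coprime M)
    (h1 : (l : ZMod M) = 1) {h : ℤ} (hh : (M : ℤ) ∣ h) (g : SL(2, ℤ)) :
    ((Lvl.full.corrT M hl hlM (Lvl.ok_full l)).zmap ρ c).1
        (g * ModularGroup.T ^ ((l : ℤ) * h) * g⁻¹) =
      (l + 1) • c.1 (g * ModularGroup.T ^ ((l : ℤ) * h) * g⁻¹) := by
  have ht := snd_T_zpow_of_dvd (dvd_mul_of_dvd_right hh (l : ℤ))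
  rw [Z1.conj_of_trivial _ hρ ht, Z1.conj_of_trivial _ hρ ht, zmap_T_zpow c hρ hl hlM h1 hh,
    map_nsmul]

end Abs

theorem exists_sq_eq (A : SL(2, ℤ)) (h : (A : M2Z).trace ^ 2 = 4) :
    ∃ (g : SL(2, ℤ)) (k : ℤ), A ^ 2 = g * ModularGroup.T ^ k * g⁻¹ := by
  obtain ⟨g, hg⟩ := ES.exists_conj_lower_left_eq_zero A h
  set B : SL(2, ℤ) := g⁻¹ * A * g with hB
  have hB10 : (B : M2Z) 1 0 = 0 := hg
  have htr : (B : M2Z).trace = (A : M2Z).trace := by
    rw [hB, Matrix.SpecialLinearGroup.coe_mul, Matrix.SpecialLinearGroup.coe_mul,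
      Matrix.trace_mul_comm, ← mul_assoc, ← Matrix.SpecialLinearGroup.coe_mul, mul_inv_cancel,
      Matrix.SpecialLinearGroup.coe_one, one_mul]
  have hdet : (B : M2Z) 0 0 * (B : M2Z) 1 1 = 1 := by
    have := B.det_coe
    rw [Matrix.det_fin_two, hB10, mul_zero, sub_zero] at this
    exact this
  have htr2 : ((B : M2Z) 0 0 + (B : M2Z) 1 1) ^ 2 = 4 := by
    rw [← Matrix.trace_fin_two, htr, h]
  have heq : (B : M2Z) 0 0 = (B : M2Z) 1 1 := by
    have : ((B : M2Z) 0 0 - (B : M2Z) 1 1) ^ 2 = 0 := by linear_combination htr2 - 4 * hdet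
    exact sub_eq_zero.mp (pow_eq_zero_iff (two_ne_zero)|>.mp this)
  have h1 : (B : M2Z) 0 0 ^ 2 = 1 := by rw [pow_two]; nth_rewrite 2 [heq]; exact hdet
  refine ⟨g, 2 * (B : M2Z) 0 0 * (B : M2Z) 0 1, ?_⟩
  have h2 : B ^ 2 = ModularGroup.T ^ (2 * (B : M2Z) 0 0 * (B : M2Z) 0 1) := by
    apply Subtype.ext
    rw [ModularGroup.coe_T_zpow, pow_two, Matrix.SpecialLinearGroup.coe_mul]
    ext i j
    rw [Matrix.mul_apply, Fin.sum_univ_two]
    fin_cases i <;> fin_cases j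
    · change (B : M2Z) 0 0 * (B : M2Z) 0 0 + (B : M2Z) 0 1 * (B : M2Z) 1 0 = 1
      rw [hB10]
      linear_combination h1
    · change (B : M2Z) 0 0 * (B : M2Z) 0 1 + (B : M2Z) 0 1 * (B : M2Z) 1 1 =
        2 * (B : M2Z) 0 0 * (B : M2Z) 0 1
      rw [← heq]
      ring
    · change (B : M2Z) 1 0 * (B : M2Z) 0 0 + (B : M2Z) 1 1 * (B : M2Z) 1 0 = 0
      rw [hB10]
      ring
    · change (B : M2Z) 1 0 * (B : M2Z) 0 1 + (B : M2Z) 1 1 * (B : M2Z) 1 1 = 1
      rw [hB10, ← heq]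
      linear_combination h1
  rw [← h2, hB]
  rw [pow_two, pow_two]
  group

/-- the class map with values in `X.H ρ` -/
def Stg.cl {m M : ℕ} {Γ : Type} [Group Γ] {R : Type} [CommRing R] (X : Stg m M Γ)
    {V : Type} [AddCommGroup V] [Module R V] (ρ : Representation R (Gp M) V) :
    Z1 (X.L.ι M) ρ →ₗ[R] X.H ρ := H1.mk _ _

theorem Stg.cl_surj {m M : ℕ} {Γ : Type} [Group Γ] {R : Type} [CommRing R] (X : Stg m M Γ)
    {V : Type} [AddCommGroup V] [Module R V] (ρ : Representation R (Gp M) V) (x : X.H ρ) :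
    ∃ c, X.cl ρ c = x := H1.mk_surjective x

theorem Stg.T_cl {m M : ℕ} {Γ : Type} [Group Γ] {R : Type} [CommRing R] (X : Stg m M Γ)
    {V : Type} [AddCommGroup V] [Module R V] (ρ : Representation R (Gp M) V) (l : Pr m)
    (c : Z1 (X.L.ι M) ρ) : X.T ρ l (X.cl ρ c) = X.cl ρ ((X.corrT l).zmap ρ c) := rfl

namespace TWD.Shap

variable {D : Type} [CommGroup D] {W : TWD D} {t : ℕ → LT} {e : ℕ} (S : W.Shap t e)
  {m : ℕ} (hM : W.M ∣ m) (R A : Type) [CommRing R] [AddCommGroup A] [Module R A]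

theorem equiv_cl (c : Z1 ((XF hM).L.ι W.M) (funRep (M := W.M) R A (W.Yt t)))
    (γ : Gamma0 (e * W.dd)) :
    S.equiv hM R A ((XF hM).cl _ c) (Additive.ofMul γ) =
      c.1 (conjD (e * W.dd) W.dd (dvd_mul_left _ _) γ) (W.pt t) := rfl

/-- **`T_l - (l + 1)` maps into the parabolic part.** -/
theorem parabolic (hA : ∀ (n : ℕ) (a : A), n ≠ 0 → n • a = 0 → a = 0) (l : Pr m)
    (hl : ((l : ℕ) : ZMod W.M) = 1) (x : (XF hM).H (funRep (M := W.M) R A (W.Yt t))) :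
    S.equiv hM R A ((XF hM).T _ l x - ((l : ℕ) + 1) • x) ∈
      ModularCurve.Period.parabolicHoms R (Gamma0 (e * W.dd)) A := by
  obtain ⟨c, rfl⟩ := (XF hM).cl_surj _ x
  rw [Stg.T_cl, ← map_nsmul, ← map_sub]
  intro γ hγ
  set κ := conjD (e * W.dd) W.dd (dvd_mul_left _ _) with hκ
  set c' := ((XF hM).corrT l).zmap (funRep (M := W.M) R A (W.Yt t)) c - ((l : ℕ) + 1) • c with hc'
  have htr : ((κ γ : SL(2, ℤ)) : M2Z).trace ^ 2 = 4 := by
    rw [← hγ, Matrix.trace_fin_two, Matrix.trace_fin_two]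
    rfl
  obtain ⟨g, k, hgk⟩ := exists_sq_eq (κ γ) htr
  have hpow : κ (γ ^ (2 * ((l : ℕ) * W.M))) =
      g * ModularGroup.T ^ (((l : ℕ) : ℤ) * (W.M * k)) * g⁻¹ := by
    rw [pow_mul, map_pow, map_pow, hgk]
    have h1 : (g * ModularGroup.T ^ k * g⁻¹) ^ ((l : ℕ) * W.M) =
        g * (ModularGroup.T ^ k) ^ ((l : ℕ) * W.M) * g⁻¹ := by
      have := (MulAut.conj g).toMonoidHom.map_pow (ModularGroup.T ^ k) ((l : ℕ) * W.M)
      exact this.symm
    rw [h1, ← zpow_natCast, ← zpow_mul]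
    congr 3
    push_cast
    ring
  apply hA (2 * ((l : ℕ) * W.M)) _ (mul_ne_zero two_ne_zero
    (mul_ne_zero l.2.1.ne_zero W.tws.modu_ne_zero))
  rw [← map_nsmul, ← ofMul_pow, equiv_cl, hpow]
  have h2 := zmap_conj c infl_funRep l.2.1 (l.coprime hM) hl (dvd_mul_right (W.M : ℤ) k) g
  change (((XF hM).corrT l).zmap (funRep (M := W.M) R A (W.Yt t)) c).1 _ (W.pt t) -
    (((l : ℕ) + 1) • c).1 _ (W.pt t) = 0
  rw [sub_eq_zero]
  exact congrFun h2 (W.pt t)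

end TWD.Shap

end Fermat.Agent.TW

end
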