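import Mathlib.Algebra.MvPolynomial.Eval
import Mathlib.RingTheory.Adjoin.Basic
import Mathlib.Algebra.Algebra.Subalgebra.Lattice
import Mathlib.Algebra.Module.LocalizedModule.Basic
import Mathlib.Algebra.Module.LocalizedModule.Exact

/-!
Modules over polynomial rings given by commuting families of endomorphisms.
-/

set_option autoImplicit false

noncomputable section

namespace Fermat.Agent.TW

section

variable {σ R H H' : Type} [CommRing R] [AddCommGroup H] [Module R H] [AddCommGroup H']
  [Module R H']

/-- the action of the polynomial ring -/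
def polyEnd (T : σ → Module.End R H) (hT : ∀ i j, T i * T j = T j * T i) :
    MvPolynomial σ R →ₐ[R] Module.End R H :=
  letI := Algebra.adjoinCommRingOfComm R (s := Set.range T) (by
    rintro _ ⟨i, rfl⟩ _ ⟨j, rfl⟩
    exact hT i j)
  (Algebra.adjoin R (Set.range T)).val.comp
    (MvPolynomial.aeval (fun i => (⟨T i, Algebra.subset_adjoin ⟨i, rfl⟩⟩ :
      Algebra.adjoin R (Set.range T))))

theorem polyEnd_X (T : σ → Module.End R H) (hT : ∀ i j, T i * T j = T j * T i) (i : σ) :
    polyEnd T hT (MvPolynomial.X i) = T i := by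
  letI := Algebra.adjoinCommRingOfComm R (s := Set.range T) (by
    rintro _ ⟨i, rfl⟩ _ ⟨j, rfl⟩
    exact hT i j)
  change ((MvPolynomial.aeval (fun i => (⟨T i, Algebra.subset_adjoin ⟨i, rfl⟩⟩ :
      Algebra.adjoin R (Set.range T))) (MvPolynomial.X i) :
        Algebra.adjoin R (Set.range T)) : Module.End R H) = T i
  rw [MvPolynomial.aeval_X]

theorem polyEnd_C (T : σ → Module.End R H) (hT : ∀ i j, T i * T j = T j * T i) (a : R) :
    polyEnd T hT (MvPolynomial.C a) = algebraMap R (Module.End R H) a :=
  (polyEnd T hT).commutes a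

theorem polyEnd_map (T : σ → Module.End R H) (hT : ∀ i j, T i * T j = T j * T i)
    (T' : σ → Module.End R H') (hT' : ∀ i j, T' i * T' j = T' j * T' i) (φ : H →ₗ[R] H')
    (h : ∀ i x, φ (T i x) = T' i (φ x)) (p : MvPolynomial σ R) (x : H) :
    φ (polyEnd T hT p x) = polyEnd T' hT' p (φ x) := by
  induction p using MvPolynomial.induction_on generalizing x with
  | C a =>
    rw [polyEnd_C, polyEnd_C]
    exact map_smul φ a x
  | add p q hp hq =>
    rw [map_add, map_add, LinearMap.add_apply, LinearMap.add_apply, map_add, hp, hq]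
  | mul_X p i hp =>
    rw [map_mul, map_mul, polyEnd_X, polyEnd_X, Module.End.mul_apply, Module.End.mul_apply, hp, h]

end

/-- A type with a commuting family of endomorphisms. -/
class PolyFam (σ R H : Type) [CommRing R] [AddCommGroup H] [Module R H] where
  /-- the operators -/
  T : σ → Module.End R H
  comm : ∀ i j, T i * T j = T j * T i

end Fermat.Agent.TW

end
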