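import Fermat.Agent.TW.Mat
import Fermat.Agent.TW.Poly
import Mathlib.NumberTheory.ModularForms.CongruenceSubgroups
import Mathlib.NumberTheory.Modular

/-!
Hecke modules: cohomology groups as modules over polynomial rings in the `T_l`.
The Eisenstein property of kernels.
-/

set_option autoImplicit false

noncomputable section

namespace Fermat.Agent.TW

open Matrix.SpecialLinearGroup
open scoped MatrixGroups

/-- primes not dividing `m` -/
abbrev Pr (m : ℕ) : Type := {l : ℕ // l.Prime ∧ ¬ l ∣ m}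

theorem Pr.coprime {m M : ℕ} (l : Pr m) (h : M ∣ m) : (l : ℕ).Coprime M :=
  (Nat.Prime.coprime_iff_not_dvd l.2.1).mpr fun h' => l.2.2 (h'.trans h)

/-- the polynomial ring in the `T_l` -/
abbrev TPoly (m : ℕ) (R : Type) [CommRing R] : Type := MvPolynomial (Pr m) R

/-- A level with an auxiliary modulus `M`. -/
structure Stg (m M : ℕ) (Γ : Type) [Group Γ] where
  /-- the level -/
  L : Lvl Γ
  dvd : M ∣ m
  ok : ∀ l : Pr m, L.Ok l

/-- full level -/
def Stg.full {m M : ℕ} (h : M ∣ m) : Stg m M SL(2, ℤ) := ⟨Lvl.full, h, fun _ => Lvl.ok_full _⟩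

/-- level `Γ₀(n)` -/
def Stg.gamma0 {m : ℕ} (n : ℕ) (hn : n ∣ m) {M : ℕ} (h : M ∣ m) :
    Stg m M (CongruenceSubgroup.Gamma0 n) :=
  ⟨Lvl.gamma0 n, h, fun l => Lvl.ok_gamma0 (l.coprime hn)⟩

section

variable {m M M' : ℕ} {Γ Γ' : Type} [Group Γ] [Group Γ'] {R : Type} [CommRing R]
  {V : Type} [AddCommGroup V] [Module R V] {W : Type} [AddCommGroup W] [Module R W]

namespace Stg

variable (X : Stg m M Γ) (ρ : Representation R (Gp M) V)

/-- the cohomology group -/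
def H : Type := H1 (X.L.ι M) ρ

instance : AddCommGroup (X.H ρ) := inferInstanceAs (AddCommGroup (H1 (X.L.ι M) ρ))
instance : Module R (X.H ρ) := inferInstanceAs (Module R (H1 (X.L.ι M) ρ))

/-- the correspondence `T_l` -/
def corrT (l : Pr m) : Corr (X.L.ι M) (X.L.ι M) :=
  X.L.corrT M l.2.1 (l.coprime X.dvd) (X.ok l)

/-- the operator `T_l` -/
def T (l : Pr m) : Module.End R (X.H ρ) := (X.corrT l).map ρ

theorem T_comm (l l' : Pr m) : X.T ρ l * X.T ρ l' = X.T ρ l' * X.T ρ l :=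
  LinearMap.ext fun x => X.L.corrT_comm ρ l.2.1 (l.coprime X.dvd) (X.ok l) l'.2.1
    (l'.coprime X.dvd) (X.ok l') x

instance instModulePoly : Module (TPoly m R) (X.H ρ) :=
  Module.compHom _ (polyEnd (X.T ρ) (X.T_comm ρ)).toRingHom

theorem smul_def (p : TPoly m R) (x : X.H ρ) : p • x = polyEnd (X.T ρ) (X.T_comm ρ) p x := rfl

theorem X_smul (l : Pr m) (x : X.H ρ) : (MvPolynomial.X l : TPoly m R) • x = X.T ρ l x := by
  rw [smul_def, polyEnd_X]

theorem C_smul (a : R) (x : X.H ρ) : (MvPolynomial.C a : TPoly m R) • x = a • x := by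
  rw [smul_def, polyEnd_C]
  rfl

instance instScalarTower : IsScalarTower R (TPoly m R) (X.H ρ) where
  smul_assoc a p x := by
    rw [smul_def, smul_def, map_smul]
    rfl

variable {X ρ}

/-- Linear maps commuting with the Hecke operators are linear over the polynomial ring. -/
def polyLin {X' : Stg m M' Γ'} {ρ' : Representation R (Gp M') W} (φ : X.H ρ →ₗ[R] X'.H ρ')
    (h : ∀ l x, φ (X.T ρ l x) = X'.T ρ' l (φ x)) : X.H ρ →ₗ[TPoly m R] X'.H ρ' where
  toFun := φ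
  map_add' := map_add φ
  map_smul' p x := polyEnd_map (X.T ρ) (X.T_comm ρ) (X'.T ρ') (X'.T_comm ρ') φ h p x

@[simp] theorem polyLin_apply {X' : Stg m M' Γ'} {ρ' : Representation R (Gp M') W}
    (φ : X.H ρ →ₗ[R] X'.H ρ') (h : ∀ l x, φ (X.T ρ l x) = X'.T ρ' l (φ x)) (x : X.H ρ) :
    polyLin φ h x = φ x := rfl

variable (X)

/-- functoriality in the coefficients -/
def map {ρ : Representation R (Gp M) V} {σ : Representation R (Gp M) W} (φ : CHom ρ σ) :
    X.H ρ →ₗ[TPoly m R] X.H σ :=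
  polyLin (H1.map (X.L.ι M) φ) fun l x => (X.corrT l).map_natural φ x

theorem map_apply {ρ : Representation R (Gp M) V} {σ : Representation R (Gp M) W}
    (φ : CHom ρ σ) (x : X.H ρ) : X.map φ x = H1.map (X.L.ι M) φ x := rfl

end Stg

theorem Corr.zmap_natural {𝒢 : Type} [Group 𝒢] {ι : Γ →* 𝒢} {ι' : Γ' →* 𝒢} (D : Corr ι ι')
    {ρ : Representation R 𝒢 V} {σ : Representation R 𝒢 W} (φ : CHom ρ σ) (f : Z1 ι ρ) :
    Z1.map ι' φ (D.zmap ρ f) = D.zmap σ (Z1.map ι φ f) := by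
  ext g
  rw [Z1.map_apply, Corr.zmap_apply, Corr.zmap_apply, map_sum]
  refine Finset.sum_congr rfl fun x _ => ?_
  rw [φ.comm]
  rfl

/-- a representation of `GL₂(ℤ/M)` -/
def Infl {M : ℕ} (ρ : Representation R (Gp M) V) : Prop :=
  ∀ g g' : Gp M, g.2 = g'.2 → ρ g = ρ g'

theorem exists_snd_eq {M l : ℕ} (hl : l.Prime) (hlM : l.Coprime M)
    (h1 : (l : ZMod M) = 1) (x : OnePoint (ZMod l)) :
    ∃ k : ℤ, (toGp M (bI l x) (isGd_bI hl hlM x)).2 = (iM M (ModularGroup.T ^ k)).2 := by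
  induction x using OnePoint.rec with
  | infty =>
    refine ⟨0, Units.ext ?_⟩
    change (bI l OnePoint.infty).map (Int.castRingHom (ZMod M)) =
      ((ModularGroup.T ^ (0 : ℤ) : SL(2, ℤ)) : M2Z).map (algebraMap ℤ (ZMod M))
    rw [ModularGroup.coe_T_zpow, bI_infty]
    ext i j
    fin_cases i <;> fin_cases j <;> simp [h1]
  | coe j =>
    refine ⟨j.val, Units.ext ?_⟩
    change (bI l (j : OnePoint (ZMod l))).map (Int.castRingHom (ZMod M)) =
      ((ModularGroup.T ^ (j.val : ℤ) : SL(2, ℤ)) : M2Z).map (algebraMap ℤ (ZMod M))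
    rw [ModularGroup.coe_T_zpow, bI_coe]
    ext i j
    fin_cases i <;> fin_cases j <;> simp [h1]

theorem card_onePoint (l : ℕ) [NeZero l] :
    @Fintype.card (OnePoint (ZMod l)) (inferInstanceAs (Fintype (Option (ZMod l)))) = l + 1 := by
  change Fintype.card (Option (ZMod l)) = l + 1
  rw [Fintype.card_option, ZMod.card]

/-- **Eisenstein lemma**: the kernel of `H¹(V) → H¹(W)`, for `V → W` injective, is killed by
`T_l - (l + 1)` for `l ≡ 1 mod M`. -/
theorem Stg.eisenstein (X : Stg m M Γ) {ρ : Representation R (Gp M) V}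
    {σ : Representation R (Gp M) W} (hσ : Infl σ) (φ : CHom ρ σ)
    (hφ : Function.Injective φ.toLinearMap) (hT : ∃ t, X.L.j t = ModularGroup.T) (l : Pr m)
    (hl : ((l : ℕ) : ZMod M) = 1) (x : X.H ρ) (hx : X.map φ x = 0) :
    X.T ρ l x = ((l : ℕ) + 1) • x := by
  classical
  have : NeZero (l : ℕ) := ⟨l.2.1.ne_zero⟩
  obtain ⟨t, ht⟩ := hT
  obtain ⟨c, rfl⟩ := H1.mk_surjective x
  obtain ⟨v, hv⟩ := H1.mk_eq_zero.mp hx
  have key : ∀ x : (X.corrT l).X, ∃ s : Γ, σ ((X.corrT l).α x)⁻¹ v =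
      v + φ.toLinearMap (c.1 s) := by
    intro x
    obtain ⟨k, hk⟩ := exists_snd_eq l.2.1 (l.coprime X.dvd) hl x
    refine ⟨(t ^ k)⁻¹, ?_⟩
    have h1 : σ ((X.corrT l).α x)⁻¹ = σ (X.L.ι M (t ^ k)⁻¹) := by
      apply hσ
      rw [map_inv, Prod.snd_inv, Prod.snd_inv, inv_inj, Lvl.ι_apply, map_zpow, ht]
      exact hk
    rw [h1]
    have h2 := congrArg (fun z : Z1 (X.L.ι M) σ => z.1 (t ^ k)⁻¹) hv
    change (cobLin (X.L.ι M) σ v).1 (t ^ k)⁻¹ = φ.toLinearMap (c.1 (t ^ k)⁻¹) at h2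
    rw [← h2, cobLin_apply]
    abel
  choose s hs using key
  change (X.corrT l).map ρ (H1.mk _ ρ c) = ((l : ℕ) + 1) • H1.mk _ ρ c
  rw [Corr.map_mk, ← map_nsmul]
  refine H1.mk_eq (∑ x, c.1 (s x)) fun g => hφ ?_
  have h1 := congrArg (fun z : Z1 (X.L.ι M) σ => z.1 g) ((X.corrT l).zmap_natural φ c)
  change φ.toLinearMap (((X.corrT l).zmap ρ c).1 g) = _ at h1
  rw [h1, ← hv, Corr.zmap_cob]
  change (cobLin (X.L.ι M) σ (∑ x : (X.corrT l).X, σ ((X.corrT l).α x)⁻¹ v)).1 g = _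
  have hcard : Fintype.card (X.corrT l).X = (l : ℕ) + 1 := card_onePoint (l : ℕ)
  have h2 : ∑ x : (X.corrT l).X, σ ((X.corrT l).α x)⁻¹ v =
      ((l : ℕ) + 1) • v + φ.toLinearMap (∑ x, c.1 (s x)) := by
    rw [Finset.sum_congr rfl fun x _ => hs x, Finset.sum_add_distrib, Finset.sum_const, map_sum,
      Finset.card_univ, hcard]
  have h3 : φ.toLinearMap (c.1 g) = σ (X.L.ι M g) v - v := by
    have h2 := congrArg (fun z : Z1 (X.L.ι M) σ => z.1 g) hv
    exact h2.symm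
  rw [h2, cobLin_apply, map_add, map_add]
  change _ = φ.toLinearMap (((l : ℕ) + 1) • c.1 g) + _
  rw [map_nsmul, map_nsmul, h3, map_sub, φ.comm, smul_sub]
  abel

end

end Fermat.Agent.TW

end
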