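import Fermat.Agent.RT8J.Joint
import Fermat.Agent.Cheb.Exist

/-!
The coefficient ring of a normalised residually absolutely irreducible representation is generated
by the traces of Frobenius elements.
-/

set_option autoImplicit false
set_option linter.unusedSectionVars false

noncomputable section

namespace Fermat.Agent.TW

open IsLocalRing Module Matrix Fermat.Agent.DefRing

section Closed

variable {𝒪 R : Type} [CommRing 𝒪] [IsLocalRing 𝒪] [IsNoetherianRing 𝒪] [CommRing R]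
  [IsLocalRing R] [Algebra 𝒪 R] [Module.Finite 𝒪 R]

/-- submodules of finite algebras are closed -/
theorem mem_of_closed (T' : Submodule 𝒪 R) (x : R)
    (h : ∀ n : ℕ, ∃ y ∈ T', x - y ∈ maximalIdeal R ^ n) : x ∈ T' := by
  obtain ⟨N, hN⟩ := RT8J.exists_pow_le_map (O := 𝒪) (T := R)
  have h1 : T'.mkQ x ∈ (⨅ n : ℕ, maximalIdeal 𝒪 ^ n • ⊤ : Submodule 𝒪 (R ⧸ T')) := by
    rw [Submodule.mem_iInf]
    intro n
    obtain ⟨y, hy, hxy⟩ := h (N * n)
    have h2 : T'.mkQ x = T'.mkQ (x - y) := by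
      rw [map_sub, (Submodule.Quotient.mk_eq_zero T').mpr hy |> fun h : T'.mkQ y = 0 => h, sub_zero]
    rw [h2]
    have h3 : x - y ∈ (maximalIdeal 𝒪 ^ n • ⊤ : Submodule 𝒪 R) := by
      rw [Ideal.smul_top_eq_map, Ideal.map_pow]
      rw [pow_mul] at hxy
      exact Ideal.pow_right_mono hN n hxy
    have h4 := Submodule.mem_map_of_mem (f := T'.mkQ) h3
    rw [Submodule.map_smul''] at h4
    exact Submodule.smul_mono le_rfl le_top h4
  rw [Ideal.iInf_pow_smul_eq_bot_of_isLocalRing _ (Ideal.IsPrime.ne_top inferInstance)] at h1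
  exact (Submodule.Quotient.mk_eq_zero T').mp h1

/-- traces of Frobenius elements determine all traces -/
theorem trace_mem_of_frob {r0 : GQ →* M2 R} (hc : MatCont R r0) (T' : Submodule 𝒪 R)
    (S : Finset ℕ) (h : ∀ l : ℕ, l.Prime → l ∉ S →
      ∀ A : ValuationSubring (AlgebraicClosure ℚ), A.LiesOverPrime l → ∀ τ : GQ,
        A.IsFrobeniusAt τ l → (r0 τ).trace ∈ T') (σ : GQ) : (r0 σ).trace ∈ T' := by
  refine mem_of_closed T' _ fun n => ?_
  obtain ⟨L, hL, hL'⟩ := hc n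
  obtain ⟨l, hl, hlS, -, A, hA, τ, hτ, hτσ⟩ := Cheb.exists_frobenius_eq L hL σ S
  refine ⟨_, h l hl hlS A hA τ hτ, ?_⟩
  have h1 := hL' (σ⁻¹ * τ) (fun x hx => by
    rw [AlgEquiv.mul_apply, hτσ x hx, ← AlgEquiv.mul_apply, inv_mul_cancel, AlgEquiv.one_apply])
  have h2 : r0 σ - r0 τ = - (r0 σ * (r0 (σ⁻¹ * τ) - 1)) := by
    rw [mul_sub, mul_one, ← map_mul, mul_inv_cancel_left]
    abel
  rw [← Matrix.trace_sub, h2, Matrix.trace_neg, neg_mem_iff, Matrix.trace]
  refine Ideal.sum_mem _ fun i _ => ?_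
  rw [Matrix.diag_apply, Matrix.mul_apply]
  exact Ideal.sum_mem _ fun j _ => Ideal.mul_mem_left _ _ (h1 j i)

end Closed

section Entries

variable {𝒪 R : Type} [CommRing 𝒪] [IsLocalRing 𝒪] [IsNoetherianRing 𝒪] [CommRing R]
  [IsLocalRing R] [Algebra 𝒪 R] [Module.Finite 𝒪 R] [IsLocalHom (algebraMap 𝒪 R)]
  (T' : Subalgebra 𝒪 R)

/-- the span of the image -/
def spanR (r0 : GQ →* M2 R) : Submodule T' (M2 R) := Submodule.span T' (Set.range r0)

variable {T'} {r0 : GQ →* M2 R}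

omit [IsLocalRing 𝒪] [IsNoetherianRing 𝒪] [IsLocalRing R] [Module.Finite 𝒪 R]
  [IsLocalHom (algebraMap 𝒪 R)] in
theorem spanR_mul {X Y : M2 R} (hX : X ∈ spanR T' r0) (hY : Y ∈ spanR T' r0) :
    X * Y ∈ spanR T' r0 := by
  induction hX using Submodule.span_induction with
  | mem X hX =>
    obtain ⟨σ, rfl⟩ := hX
    induction hY using Submodule.span_induction with
    | mem Y hY =>
      obtain ⟨τ, rfl⟩ := hY
      rw [← map_mul]
      exact Submodule.subset_span ⟨_, rfl⟩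
    | zero => rw [mul_zero]; exact Submodule.zero_mem _
    | add X Y _ _ hX hY => rw [mul_add]; exact Submodule.add_mem _ hX hY
    | smul a X _ hX => rw [Matrix.mul_smul]; exact Submodule.smul_mem _ _ hX
  | zero => rw [zero_mul]; exact Submodule.zero_mem _
  | add X Y _ _ hX hY => rw [add_mul]; exact Submodule.add_mem _ hX hY
  | smul a X _ hX => rw [Matrix.smul_mul]; exact Submodule.smul_mem _ _ hX

omit [IsLocalRing 𝒪] [IsNoetherianRing 𝒪] [IsLocalRing R] [Module.Finite 𝒪 R]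
  [IsLocalHom (algebraMap 𝒪 R)] in
theorem spanR_one : (1 : M2 R) ∈ spanR T' r0 := by
  rw [← map_one r0]
  exact Submodule.subset_span ⟨_, rfl⟩

omit [IsLocalRing 𝒪] [IsNoetherianRing 𝒪] [IsLocalRing R] [Module.Finite 𝒪 R]
  [IsLocalHom (algebraMap 𝒪 R)] in
theorem spanR_smul {X : M2 R} (hX : X ∈ spanR T' r0) {t : R} (ht : t ∈ T') :
    t • X ∈ spanR T' r0 := Submodule.smul_mem (spanR T' r0) (⟨t, ht⟩ : T') hX

omit [IsLocalRing 𝒪] [IsNoetherianRing 𝒪] [IsLocalRing R] [Module.Finite 𝒪 R]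
  [IsLocalHom (algebraMap 𝒪 R)] in
theorem spanR_sub {X Y : M2 R} (hX : X ∈ spanR T' r0) (hY : Y ∈ spanR T' r0) :
    X - Y ∈ spanR T' r0 := by
  have h1 : X - Y = X + (-1 : R) • Y := by rw [neg_smul, one_smul, sub_eq_add_neg]
  rw [h1]
  exact Submodule.add_mem _ hX (spanR_smul hY (T'.neg_mem T'.one_mem))

omit [IsLocalRing 𝒪] [IsNoetherianRing 𝒪] [IsLocalRing R] [Module.Finite 𝒪 R]
  [IsLocalHom (algebraMap 𝒪 R)] in
theorem spanR_trace (htr : ∀ σ, (r0 σ).trace ∈ T') {X : M2 R} (hX : X ∈ spanR T' r0) :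
    X.trace ∈ T' := by
  induction hX using Submodule.span_induction with
  | mem X hX =>
    obtain ⟨σ, rfl⟩ := hX
    exact htr σ
  | zero => rw [Matrix.trace_zero]; exact T'.zero_mem
  | add X Y _ _ hX hY => rw [Matrix.trace_add]; exact add_mem hX hY
  | smul a X _ hX =>
    rw [Matrix.trace_smul]
    exact mul_mem a.2 hX

omit [IsLocalRing 𝒪] [IsNoetherianRing 𝒪] [IsLocalRing R] [Module.Finite 𝒪 R]
  [IsLocalHom (algebraMap 𝒪 R)] in
theorem spanR_lc (c : GQ →₀ 𝒪) : Finsupp.linearCombination 𝒪 r0 c ∈ spanR T' r0 := by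
  rw [Finsupp.linearCombination_apply]
  refine Submodule.sum_mem _ fun σ _ => ?_
  have h1 : c σ • r0 σ = (algebraMap 𝒪 R (c σ)) • r0 σ := (algebraMap_smul R (c σ) (r0 σ)).symm
  change c σ • r0 σ ∈ _
  rw [h1]
  exact spanR_smul (Submodule.subset_span ⟨_, rfl⟩) (T'.algebraMap_mem _)

/-- units of the big ring which lie in the subalgebra are units of the subalgebra -/
theorem inv_mem_sub {u : R} (hu : u ∈ T') (h : IsUnit u) : ∃ v ∈ T', v * u = 1 := by
  have hint : Algebra.IsIntegral T' R := Algebra.IsIntegral.tower_top (R := 𝒪)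
  have hloc : IsLocalHom (algebraMap T' R) :=
    (algebraMap_isIntegral_iff.mpr hint).isLocalHom Subtype.val_injective
  have h1 : IsUnit (⟨u, hu⟩ : T') := isUnit_of_map_unit (algebraMap T' R) _ h
  obtain ⟨v, hv⟩ := h1.exists_left_inv
  exact ⟨v, v.2, congrArg Subtype.val hv⟩

theorem div_mem_sub {x u : R} (hu : u ∈ T') (h : IsUnit u) (hx : x * u ∈ T') : x ∈ T' := by
  obtain ⟨v, hv, hvu⟩ := inv_mem_sub hu h
  have : x = x * u * v := by rw [mul_assoc, mul_comm u, hvu, mul_one]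
  rw [this]
  exact mul_mem hx hv

theorem isUnit_of_sub_one {x : R} (h : x - 1 ∈ maximalIdeal R) : IsUnit x := by
  by_contra hx
  have h1 : x ∈ maximalIdeal R := hx
  have h2 := Ideal.sub_mem _ h1 h
  rw [sub_sub_cancel] at h2
  exact h2 isUnit_one

theorem exists_H {rbar : GQ →* M2 (ResidueField 𝒪)}
    (hspan : Submodule.span (ResidueField 𝒪) (Set.range rbar) = ⊤) (hr : Red rbar r0) :
    ∃ H ∈ spanR T' r0, ∀ i j, H i j - (Matrix.single 0 1 1 : M2 R) i j ∈ maximalIdeal R := by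
  have h1 : (Matrix.single 0 1 1 : M2 (ResidueField 𝒪)) ∈ Submodule.span 𝒪 (Set.range rbar) := by
    rw [← Submodule.restrictScalars_span 𝒪 (ResidueField 𝒪) (by
      rw [IsLocalRing.ResidueField.algebraMap_eq]
      exact residue_surjective)]
    rw [hspan]; trivial
  obtain ⟨c, hc⟩ := (Finsupp.mem_span_range_iff_exists_finsupp).mp h1
  refine ⟨_, spanR_lc (T' := T') (r0 := r0) c, fun i j => ?_⟩
  have := lc_red hr c i j ((Matrix.single 0 1 1 : M2 𝒪) i j) (by
    have hc' : Finsupp.linearCombination 𝒪 rbar c = Matrix.single 0 1 1 := hc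
    rw [hc']; fin_cases i <;> fin_cases j <;> simp)
  convert! this using 2
  fin_cases i <;> fin_cases j <;> simp

/-- the eigenvalues of an upper triangular matrix -/
theorem diag_mem (htr : ∀ σ, (r0 σ).trace ∈ T') {a : M2 R} (haB : a ∈ spanR T' r0)
    (a10 : a 1 0 = 0) (a00 : a 0 0 - 1 ∈ maximalIdeal R) (a11 : a 1 1 ∈ maximalIdeal R) :
    a 0 0 ∈ T' := by
  have hpow : ∀ n : ℕ, a ^ n ∈ spanR T' r0 := by
    intro n
    induction n with
    | zero => rw [pow_zero]; exact spanR_one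
    | succ n ih => rw [pow_succ]; exact spanR_mul ih haB
  have hent : ∀ n : ℕ, (a ^ n) 1 0 = 0 ∧ (a ^ n) 0 0 = a 0 0 ^ n ∧ (a ^ n) 1 1 = a 1 1 ^ n := by
    intro n
    induction n with
    | zero => simp
    | succ n ih =>
      obtain ⟨h1, h2, h3⟩ := ih
      refine ⟨?_, ?_, ?_⟩
      · rw [pow_succ, Matrix.mul_apply, Fin.sum_univ_two, h1, a10, zero_mul, mul_zero, add_zero]
      · rw [pow_succ, Matrix.mul_apply, Fin.sum_univ_two, h2, a10, mul_zero, add_zero, pow_succ]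
      · rw [pow_succ, Matrix.mul_apply, Fin.sum_univ_two, h1, h3, zero_mul, zero_add, pow_succ]
  have htrp : ∀ n : ℕ, a 0 0 ^ n + a 1 1 ^ n ∈ T' := by
    intro n
    have h1 := spanR_trace htr (hpow n)
    rwa [Matrix.trace_fin_two, (hent n).2.1, (hent n).2.2] at h1
  obtain ⟨u, hu⟩ : ∃ u, a 0 0 = u := ⟨_, rfl⟩
  obtain ⟨z, hz⟩ : ∃ z, a 1 1 = z := ⟨_, rfl⟩
  rw [hu] at a00 ⊢
  rw [hz] at a11
  simp only [hu, hz] at htrp
  refine mem_of_closed (Subalgebra.toSubmodule T') _ fun n => ?_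
  have h0 := isUnit_of_sub_one a00
  have h1 : IsUnit (u ^ (n + 1) + z ^ (n + 1)) := by
    by_contra h2
    have h3 : u ^ (n + 1) + z ^ (n + 1) ∈ maximalIdeal R := h2
    have h4 : z ^ (n + 1) ∈ maximalIdeal R := Ideal.pow_mem_of_mem _ a11 _ (Nat.succ_pos n)
    have h5 := Ideal.sub_mem _ h3 h4
    rw [add_sub_cancel_right] at h5
    exact h5 (h0.pow _)
  obtain ⟨v, hv, hv1⟩ := inv_mem_sub (htrp (n + 1)) h1
  refine ⟨(u ^ (n + 2) + z ^ (n + 2)) * v, T'.mul_mem (htrp _) hv, ?_⟩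
  have h6 : u - (u ^ (n + 2) + z ^ (n + 2)) * v = (u * z - z ^ 2) * v * z ^ n := by
    linear_combination (- u) * hv1
  rw [h6]
  exact Ideal.mul_mem_left _ _ (Ideal.pow_mem_pow a11 n)

/-- the lower left entry -/
theorem lower_mem (htr : ∀ σ, (r0 σ).trace ∈ T') {e b H : M2 R} (heB : e ∈ spanR T' r0)
    (hbB : b ∈ spanR T' r0) (hH : H ∈ spanR T' r0) {y : R} (hym : y ∈ maximalIdeal R)
    (he : e = !![1, y; 0, 0]) (b10 : b 1 0 = 1) (h4 : H 0 1 - 1 ∈ maximalIdeal R)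
    {X : M2 R} (hX : X ∈ spanR T' r0) : X 1 0 ∈ T' := by
  have h1 : ∀ Z : M2 R, (H * ((1 - e) * Z * e)).trace =
      Z 1 0 * (- y * H 0 0 + H 0 1 - y ^ 2 * H 1 0 + y * H 1 1) := by
    intro Z
    rw [he]
    simp only [Matrix.trace_fin_two, Matrix.mul_apply, Fin.sum_univ_two, Matrix.sub_apply,
      Matrix.one_apply_eq, Matrix.one_apply_ne (show (0 : Fin 2) ≠ 1 by decide),
      Matrix.one_apply_ne (show (1 : Fin 2) ≠ 0 by decide), Matrix.of_apply, Matrix.cons_val_zero,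
      Matrix.cons_val_one]
    ring
  have hmem : ∀ Z ∈ spanR T' r0, (H * ((1 - e) * Z * e)).trace ∈ T' := fun Z hZ =>
    spanR_trace htr (spanR_mul hH (spanR_mul (spanR_mul (spanR_sub spanR_one heB) hZ)
      heB))
  have h2 := hmem X hX
  have h3 := hmem b hbB
  rw [h1 X] at h2
  rw [h1 b, b10, one_mul] at h3
  refine div_mem_sub h3 (isUnit_of_sub_one ?_) h2
  have h5 : - y * H 0 0 + H 0 1 - y ^ 2 * H 1 0 + y * H 1 1 - 1 =
      (H 0 1 - 1) + y * (- H 0 0 - y * H 1 0 + H 1 1) := by ring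
  rw [h5]
  exact Ideal.add_mem _ h4 (Ideal.mul_mem_right _ _ hym)

/-- all entries -/
theorem all_mem (htr : ∀ σ, (r0 σ).trace ∈ T') {e b : M2 R} (heB : e ∈ spanR T' r0)
    (hbB : b ∈ spanR T' r0) {y : R} (he : e = !![1, y; 0, 0]) (b00 : b 0 0 = 0)
    (b10 : b 1 0 = 1) {X : M2 R} (hX : X ∈ spanR T' r0) (h10 : X 1 0 ∈ T') (i j : Fin 2) :
    X i j ∈ T' := by
  have e00 : e 0 0 = 1 := by rw [he]; rfl
  have e01 : e 0 1 = y := by rw [he]; rfl
  have e10 : e 1 0 = 0 := by rw [he]; rfl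
  have e11 : e 1 1 = 0 := by rw [he]; rfl
  have hyT : y ∈ T' := by
    have h1 := spanR_trace htr (spanR_mul heB hbB)
    rw [Matrix.trace_fin_two, Matrix.mul_apply, Matrix.mul_apply, Fin.sum_univ_two,
      Fin.sum_univ_two, e00, e01, e10, e11, b00, b10, mul_zero, zero_add, mul_one, zero_mul,
      zero_mul, add_zero, add_zero] at h1
    exact h1
  have h00 : X 0 0 ∈ T' := by
    have h1 := spanR_trace htr (spanR_mul heB hX)
    rw [Matrix.trace_fin_two, Matrix.mul_apply, Matrix.mul_apply, Fin.sum_univ_two,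
      Fin.sum_univ_two, e00, e01, e10, e11, one_mul, zero_mul, zero_mul, add_zero, add_zero] at h1
    have h2 := T'.sub_mem h1 (T'.mul_mem hyT h10)
    rwa [add_sub_cancel_right] at h2
  have h11 : X 1 1 ∈ T' := by
    have h1 := spanR_trace htr hX
    rw [Matrix.trace_fin_two] at h1
    have h2 := T'.sub_mem h1 h00
    rwa [add_sub_cancel_left] at h2
  have h01 : X 0 1 ∈ T' := by
    have h1 := spanR_trace htr (spanR_mul (spanR_mul heB hX) hbB)
    have h2 : (e * X * b).trace = X 0 1 + y * X 1 1 := by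
      simp only [Matrix.trace_fin_two, Matrix.mul_apply, Fin.sum_univ_two, e00, e01, e10, e11,
        b00, b10]
      ring
    rw [h2] at h1
    have h3 := T'.sub_mem h1 (T'.mul_mem hyT h11)
    rwa [add_sub_cancel_right] at h3
  fin_cases i <;> fin_cases j
  · exact h00
  · exact h01
  · exact h10
  · exact h11

theorem exists_a {rbar : GQ →* M2 (ResidueField 𝒪)} (sd : SliceData rbar)
    (hr : Red rbar r0) (hn : Norm sd r0) : ∃ a ∈ spanR T' r0, a 1 0 = 0 ∧
      a 0 0 - 1 ∈ maximalIdeal R ∧ a 0 1 ∈ maximalIdeal R ∧ a 1 1 ∈ maximalIdeal R := by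
  refine ⟨_, spanR_lc sd.α, hn.s1, ?_, ?_, ?_⟩
  · have := lcα_mem sd hr 0 0
    rwa [Matrix.single_apply_same] at this
  · have := lcα_mem sd hr 0 1
    rwa [Matrix.single_apply_of_ne _ _ _ _ _ (by decide), sub_zero] at this
  · have := lcα_mem sd hr 1 1
    rwa [Matrix.single_apply_of_ne _ _ _ _ _ (by decide), sub_zero] at this

theorem exists_b {rbar : GQ →* M2 (ResidueField 𝒪)} (sd : SliceData rbar)
    (hn : Norm sd r0) : ∃ b ∈ spanR T' r0, b 0 0 = 0 ∧ b 1 0 = 1 :=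
  ⟨_, spanR_lc sd.β, hn.s2, hn.s3⟩

omit [IsLocalRing R] in
theorem mat_eq {a : M2 R} {w : R} (hw1 : w * (a 0 0 - a 1 1) = 1) (a10 : a 1 0 = 0) :
    w • (a - a 1 1 • (1 : M2 R)) = !![1, w * a 0 1; 0, 0] := by
  rw [Matrix.eta_fin_two (w • (a - a 1 1 • (1 : M2 R)))]
  simp only [Matrix.smul_apply, Matrix.sub_apply, smul_eq_mul, Matrix.one_apply_eq, mul_one, hw1,
    Matrix.one_apply_ne (show (0 : Fin 2) ≠ 1 by decide),
    Matrix.one_apply_ne (show (1 : Fin 2) ≠ 0 by decide), mul_zero, sub_zero, a10, sub_self]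

theorem exists_e_aux {u v : R} (hu : u ∈ T') (hv : v ∈ T') (a00 : u - 1 ∈ maximalIdeal R)
    (a11 : v ∈ maximalIdeal R) : ∃ w ∈ T', w * (u - v) = 1 := by
  refine inv_mem_sub (T'.sub_mem hu hv) (isUnit_of_sub_one ?_)
  have := Ideal.sub_mem _ a00 a11
  rwa [sub_right_comm] at this

theorem exists_e (htr : ∀ σ, (r0 σ).trace ∈ T') {a : M2 R} (haB : a ∈ spanR T' r0)
    (a10 : a 1 0 = 0) (a00 : a 0 0 - 1 ∈ maximalIdeal R) (a01 : a 0 1 ∈ maximalIdeal R)
    (a11 : a 1 1 ∈ maximalIdeal R) :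
    ∃ e ∈ spanR T' r0, ∃ y ∈ maximalIdeal R, e = !![1, y; 0, 0] := by
  have hu : a 0 0 ∈ T' := diag_mem htr haB a10 a00 a11
  have hv : a 1 1 ∈ T' := by
    have h1 := T'.sub_mem (spanR_trace htr haB) hu
    have h2 : a.trace - a 0 0 = a 1 1 := by rw [Matrix.trace_fin_two, add_sub_cancel_left]
    exact h2 ▸ h1
  obtain ⟨w, hw, hw1⟩ := exists_e_aux hu hv a00 a11
  have hx : w • (a - a 1 1 • (1 : M2 R)) ∈ spanR T' r0 := by
    refine spanR_smul (spanR_sub haB ?_) hw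
    exact spanR_smul spanR_one hv
  exact ⟨_, hx, w * a 0 1, Ideal.mul_mem_left _ _ a01, mat_eq hw1 a10⟩

/-- **Traces generate.** -/
theorem entries_mem {rbar : GQ →* M2 (ResidueField 𝒪)}
    (hspan : Submodule.span (ResidueField 𝒪) (Set.range rbar) = ⊤) (sd : SliceData rbar)
    (hr : Red rbar r0) (hn : Norm sd r0) (htr : ∀ σ, (r0 σ).trace ∈ T') (σ : GQ) (i j : Fin 2) :
    r0 σ i j ∈ T' := by
  obtain ⟨H, hH, hHm⟩ := exists_H (T' := T') hspan hr
  obtain ⟨a, haB, a10, a00, a01, a11⟩ := exists_a (T' := T') sd hr hn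
  obtain ⟨b, hbB, b00, b10⟩ := exists_b (T' := T') sd hn
  obtain ⟨e, heB, y, hym, he⟩ := exists_e htr haB a10 a00 a01 a11
  have hX : r0 σ ∈ spanR T' r0 := Submodule.subset_span ⟨σ, rfl⟩
  have h4 := hHm 0 1
  rw [Matrix.single_apply_same] at h4
  exact all_mem htr heB hbB he b00 b10 hX
    (lower_mem htr heB hbB hH hym he b10 h4 hX) i j

end Entries

section Top

variable {𝒪 : Type} [CommRing 𝒪] [IsLocalRing 𝒪] [IsNoetherianRing 𝒪]
  {rbar : GQ →* M2 (ResidueField 𝒪)} {sd : SliceData rbar} {J : Type} {T : J → Type}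
  [∀ j, CommRing (T j)] [∀ j, Algebra 𝒪 (T j)] {r : ∀ j, GQ →* M2 (T j)}

/-- **A joint ring is generated by the traces of Frobenius elements.** -/
theorem jring_top (A : RT8J.JRing sd T r)
    (hspan : Submodule.span (ResidueField 𝒪) (Set.range rbar) = ⊤) (T' : Subalgebra 𝒪 A.R)
    (S : Finset ℕ) (h : ∀ l : ℕ, l.Prime → l ∉ S →
      ∀ B : ValuationSubring (AlgebraicClosure ℚ), B.LiesOverPrime l → ∀ τ : GQ,
        B.IsFrobeniusAt τ l → (A.r0 τ).trace ∈ T') : T' = ⊤ := by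
  rw [← top_le_iff, ← A.adj, Algebra.adjoin_le_iff]
  rintro _ ⟨σ, i, j, rfl⟩
  exact entries_mem hspan sd A.red A.norm
    (fun σ => trace_mem_of_frob A.cont (Subalgebra.toSubmodule T') S h σ) σ i j

end Top

end Fermat.Agent.TW

end
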