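import Fermat.Agent.TW.PGroup
import Fermat.Agent.RT8.TWMod

/-!
Free modules over group rings: saturation of the augmentation and change of the group ring.
-/

set_option autoImplicit false
set_option linter.unusedVariables false
set_option linter.unusedSectionVars false

noncomputable section

namespace Fermat.Agent.TW

open IsLocalRing Module

section ranges

variable {O : Type} [CommRing O] {Δ : Type} [CommGroup Δ] {M : Type} [AddCommGroup M] [Module O M]
  (ρ : Representation O Δ M)

theorem sub_mem_of_closure (N : AddSubgroup M) (S : Set Δ) (hS : ∀ δ ∈ S, ∀ y, ρ δ y - y ∈ N)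
    (δ : Δ) (hδ : δ ∈ Subgroup.closure S) (y : M) : ρ δ y - y ∈ N := by
  revert y
  induction hδ using Subgroup.closure_induction with
  | mem x hx => exact hS x hx
  | one =>
    intro y
    rw [map_one, Module.End.one_apply, sub_self]
    exact N.zero_mem
  | mul a b _ _ ha hb =>
    intro y
    have e : ρ (a * b) y - y = (ρ a (ρ b y) - ρ b y) + (ρ b y - y) := by
      rw [map_mul, Module.End.mul_apply]
      abel
    rw [e]
    exact N.add_mem (ha _) (hb _)
  | inv a _ ha =>
    intro y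
    have e : ρ a⁻¹ y - y = -(ρ a (ρ a⁻¹ y) - ρ a⁻¹ y) := by
      rw [← Module.End.mul_apply, ← map_mul, mul_inv_cancel, map_one, Module.End.one_apply]
      abel
    rw [e]
    exact N.neg_mem (ha _)

theorem freeMap_mul {Δ : Type} [CommGroup Δ] [Fintype Δ] (ρ : Representation O Δ M) {r : ℕ}
    (w : Fin r → M) (c : Fin r → Δ → O) (g : Δ) :
    freeMap ρ w (fun i δ => c i (g⁻¹ * δ)) = ρ g (freeMap ρ w c) := by
  change ∑ i, ∑ δ, c i (g⁻¹ * δ) • ρ δ (w i) = ρ g (∑ i, ∑ δ, c i δ • ρ δ (w i))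
  rw [map_sum]
  refine Finset.sum_congr rfl fun i _ => ?_
  rw [map_sum, ← Equiv.sum_comp (Equiv.mulLeft g)]
  refine Finset.sum_congr rfl fun δ _ => ?_
  rw [map_smul, Equiv.coe_mulLeft, inv_mul_cancel_left, map_mul]
  rfl

end ranges

/-- In a free module over the group ring, the quotient by the image of `δ - 1` is torsion
free. -/
theorem sat_of_free {O Δ M : Type} [CommRing O] [IsDomain O] [CharZero O] [CommGroup Δ]
    [Fintype Δ] [AddCommGroup M] [Module O M] (ρ : Representation O Δ M) {r : ℕ} (w : Fin r → M)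
    (hb : Function.Bijective (freeMap ρ w)) (δ : Δ) (k : ℕ) (x y : M) (hk : k ≠ 0)
    (h : ρ δ y - y = k • x) : ∃ z, ρ δ z - z = x := by
  classical
  obtain ⟨c, rfl⟩ := hb.2 x
  obtain ⟨d, rfl⟩ := hb.2 y
  -- the equation for the coordinates
  have h1 : ∀ i η, d i (δ⁻¹ * η) - d i η = (k : O) * c i η := by
    have h2 : freeMap ρ w (fun i η => d i (δ⁻¹ * η) - d i η) =
        freeMap ρ w (fun i η => (k : O) * c i η) := by
      have h3 : (fun i η => d i (δ⁻¹ * η) - d i η) = (fun i η => d i (δ⁻¹ * η)) - d := rfl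
      have h4 : (fun i η => (k : O) * c i η) = k • c := by
        funext i η
        rw [Pi.smul_apply, Pi.smul_apply, nsmul_eq_mul]
      rw [h3, h4, map_sub, map_nsmul, freeMap_mul, h]
    intro i η
    exact congrFun (congrFun (hb.1 h2) i) η
  set H : Subgroup Δ := Subgroup.zpowers δ with hH
  let rep : Δ → Δ := fun η => ((η : Δ ⧸ H)).out
  have hrep : ∀ η, ∃ t : H, (t : Δ) * rep η = η := by
    intro η
    have h5 : ((rep η : Δ) : Δ ⧸ H) = (η : Δ ⧸ H) := Quotient.out_eq' _
    have h6 : (rep η)⁻¹ * η ∈ H := QuotientGroup.eq.mp h5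
    exact ⟨⟨_, h6⟩, by
      change (rep η)⁻¹ * η * rep η = η
      rw [mul_comm, mul_inv_cancel_left]⟩
  have hrep2 : ∀ (t : H) η, rep ((t : Δ) * η) = rep η := by
    intro t η
    change ((((t : Δ) * η : Δ) : Δ ⧸ H)).out = ((η : Δ ⧸ H)).out
    congr 1
    rw [QuotientGroup.eq, mul_inv_rev, mul_comm η⁻¹, mul_assoc, inv_mul_cancel, mul_one]
    exact H.inv_mem t.2
  -- indicator of the representatives
  let χ : Δ → O := fun η => if rep η = η then 1 else 0
  have hχ : ∀ η, ∑ t : H, χ ((t : Δ)⁻¹ * η) = 1 := by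
    intro η
    obtain ⟨t₀, ht₀⟩ := hrep η
    rw [Finset.sum_eq_single t₀]
    · have h7 : (t₀ : Δ)⁻¹ * η = rep η := by rw [← ht₀]; rw [inv_mul_cancel_left, ht₀]
      have h8 : rep ((t₀ : Δ)⁻¹ * η) = rep η := hrep2 t₀⁻¹ η
      change (if rep ((t₀ : Δ)⁻¹ * η) = (t₀ : Δ)⁻¹ * η then (1 : O) else 0) = 1
      rw [if_pos (h8.trans h7.symm)]
    · intro t _ ht
      have h8 : rep ((t : Δ)⁻¹ * η) = rep η := hrep2 t⁻¹ η
      change (if rep ((t : Δ)⁻¹ * η) = (t : Δ)⁻¹ * η then (1 : O) else 0) = 0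
      rw [if_neg]
      intro h9
      apply ht
      rw [h8] at h9
      apply Subtype.ext
      have h10 : (t : Δ) * rep η = t₀ * rep η := by rw [ht₀, h9, mul_inv_cancel_left]
      exact mul_right_cancel h10
    · intro h9
      exact absurd (Finset.mem_univ _) h9
  -- the sums over the cosets vanish
  have hN : ∀ i η, ∑ t : H, c i ((t : Δ) * η) = 0 := by
    intro i η
    have h11 : (k : O) * ∑ t : H, c i ((t : Δ) * η) = 0 := by
      rw [Finset.mul_sum]
      have h12 : ∀ t : H, (k : O) * c i ((t : Δ) * η) =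
          d i (δ⁻¹ * ((t : Δ) * η)) - d i ((t : Δ) * η) := fun t => (h1 i _).symm
      rw [Finset.sum_congr rfl fun t _ => h12 t, Finset.sum_sub_distrib, sub_eq_zero]
      let δ' : H := ⟨δ, Subgroup.mem_zpowers δ⟩
      have h13 := Equiv.sum_comp (Equiv.mulLeft δ'⁻¹) fun t : H => d i ((t : Δ) * η)
      rw [← h13]
      refine Finset.sum_congr rfl fun t _ => ?_
      change _ = d i ((δ⁻¹ * (t : Δ)) * η)
      rw [mul_assoc]
    exact (mul_eq_zero.mp h11).resolve_left (Nat.cast_ne_zero.mpr hk)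
  -- the range of `δ - 1`
  let R : AddSubgroup M := (ρ δ - 1 : M →ₗ[O] M).range.toAddSubgroup
  have hRδ : ∀ y, ρ δ y - y ∈ R := fun y => ⟨y, rfl⟩
  have hR : ∀ t : H, ∀ y, ρ (t : Δ) y - y ∈ R := by
    intro t y
    refine sub_mem_of_closure ρ R {δ} (fun δ' hδ' y => ?_) t ?_ y
    · rw [Set.mem_singleton_iff] at hδ'
      rw [hδ']
      exact hRδ y
    · rw [← Subgroup.zpowers_eq_closure]
      exact t.2
  let c' : H → (Fin r → Δ → O) := fun t i η => χ η * c i ((t : Δ) * η)
  have hc : c = ∑ t : H, ((fun i η => c' t i ((t : Δ)⁻¹ * η)) - c' t) := by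
    funext i η
    rw [Finset.sum_apply, Finset.sum_apply]
    have h14 : ∀ t : H, ((fun i η => c' t i ((t : Δ)⁻¹ * η)) - c' t) i η =
        χ ((t : Δ)⁻¹ * η) * c i η - χ η * c i ((t : Δ) * η) := by
      intro t
      change χ ((t : Δ)⁻¹ * η) * c i ((t : Δ) * ((t : Δ)⁻¹ * η)) - _ = _
      rw [mul_inv_cancel_left]
    rw [Finset.sum_congr rfl fun t _ => h14 t, Finset.sum_sub_distrib, ← Finset.sum_mul,
      ← Finset.mul_sum, hχ, hN, one_mul, mul_zero, sub_zero]
  have hmem : freeMap ρ w c ∈ R := by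
    rw [hc, map_sum]
    refine AddSubgroup.sum_mem _ fun t _ => ?_
    rw [map_sub, freeMap_mul]
    exact hR t _
  obtain ⟨z, hz⟩ := hmem
  exact ⟨z, hz⟩

/-- Changing the group ring. -/
theorem free_of_range_eq {p g n : ℕ} (hp : p.Prime) {O : Type} [CommRing O] [IsDomain O]
    [IsDiscreteValuationRing O] [IsAdicComplete (maximalIdeal O) O]
    (hpO : (p : O) ∈ maximalIdeal O) {Δ : Type} [CommGroup Δ] [Fintype Δ]
    (hcard : Fintype.card Δ = (p ^ (n + 1)) ^ g) (d : Fin g → Δ)
    (hd : Subgroup.closure (Set.range d) = ⊤) {M : Type} [AddCommGroup M] [Module O M]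
    [Module.Finite O M] (ρ : Representation O Δ M) {r : ℕ} (w : Fin r → M)
    (hb : Function.Bijective (freeMap ρ w)) [Module (RT8.Lam p g O n) M]
    [IsScalarTower O (RT8.Lam p g O n) M]
    (hcomm : ∀ (δ : Δ) (a : RT8.Lam p g O n) (x : M), ρ δ (a • x) = a • ρ δ x)
    (hr : ∀ (i : Fin g) (y : M), (∃ x, ρ (d i) x - x = y) ↔
      ∃ x, RT8.delm p g O n i • x = y) :
    Module.Free (RT8.Lam p g O n) M ∧ Module.Finite (RT8.Lam p g O n) M ∧
      ∀ z : Δ → M, (∑ δ, (ρ δ (z δ) - z δ)) ∈
        (Ideal.span (Set.range (RT8.delm p g O n)) • ⊤ : Submodule (RT8.Lam p g O n) M) := by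
  classical
  have hne : NeZero (p ^ (n + 1)) := ⟨pow_ne_zero _ hp.ne_zero⟩
  set L := RT8.Lam p g O n with hL
  set J : Ideal L := Ideal.span (Set.range (RT8.delm p g O n)) with hJ
  have hI1 : ∀ (δ : Δ) (y : M), ρ δ y - y ∈ (J • ⊤ : Submodule L M) := by
    intro δ y
    have hδ : δ ∈ Subgroup.closure (Set.range d) := by rw [hd]; trivial
    refine sub_mem_of_closure ρ (J • ⊤ : Submodule L M).toAddSubgroup (Set.range d) ?_ δ hδ y
    rintro _ ⟨i, rfl⟩ y
    obtain ⟨x, hx⟩ := (hr i (ρ (d i) y - y)).mp ⟨y, rfl⟩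
    change ρ (d i) y - y ∈ (J • ⊤ : Submodule L M)
    rw [← hx]
    exact Submodule.smul_mem_smul (Ideal.subset_span ⟨i, rfl⟩) trivial
  have hfin : Module.Finite L M := Module.Finite.of_restrictScalars_finite O L M
  have hspan : Submodule.span L (Set.range w) = ⊤ := by
    rw [← top_le_iff]
    refine Submodule.le_of_le_smul_of_le_jacobson_bot (I := J) Module.Finite.fg_top
      (RT8.span_delm_le_jacobson (g := g) (n := n) hp hpO) ?_
    intro y _
    obtain ⟨c, rfl⟩ := hb.2 y
    have e : freeMap ρ w c = (∑ i, ∑ δ, algebraMap O L (c i δ) • w i) +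
        ∑ i, ∑ δ, algebraMap O L (c i δ) • (ρ δ (w i) - w i) := by
      rw [freeMap_apply, ← Finset.sum_add_distrib]
      refine Finset.sum_congr rfl fun i _ => ?_
      rw [← Finset.sum_add_distrib]
      refine Finset.sum_congr rfl fun δ _ => ?_
      rw [← smul_add, add_sub_cancel, algebraMap_smul]
    rw [e]
    refine Submodule.add_mem_sup (Submodule.sum_mem _ fun i _ => Submodule.sum_mem _ fun δ _ =>
      Submodule.smul_mem _ _ (Submodule.subset_span ⟨i, rfl⟩))
      (Submodule.sum_mem _ fun i _ => Submodule.sum_mem _ fun δ _ =>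
        Submodule.smul_mem _ _ (hI1 δ _))
  -- the surjection from the free module of rank `r`
  let f : (Fin r → L) →ₗ[L] M := Fintype.linearCombination _ w
  have hf : Function.Surjective f := by
    rw [← LinearMap.range_eq_top, Fintype.range_linearCombination, hspan]
  -- ranks over `O`
  have hfreeM : Module.Free O M :=
    Module.Free.of_equiv (LinearEquiv.ofBijective (freeMap ρ w) hb)
  have hrM : Module.finrank O M = r * (p ^ (n + 1)) ^ g := by
    rw [← (LinearEquiv.ofBijective (freeMap ρ w) hb).finrank_eq, Module.finrank_pi_fintype]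
    simp [hcard]
  have hfL : Module.Finite O L := inferInstance
  have hrL : Module.finrank O L = (p ^ (n + 1)) ^ g := by
    rw [Module.finrank_eq_card_basis
      (Basis.ofRepr (MonoidAlgebra.coeffLinearEquiv O (S := O) (M := RT8.Del p g n)))]
    simp [RT8.Del, ZMod.card]
  have hrF : Module.finrank O (Fin r → L) = r * (p ^ (n + 1)) ^ g := by
    rw [Module.finrank_pi_fintype]
    simp [hrL]
  let e : M ≃ₗ[O] (Fin r → L) := LinearEquiv.ofFinrankEq _ _ (by rw [hrM, hrF])
  have hinj : Function.Injective ((f.restrictScalars O) ∘ₗ e.toLinearMap) :=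
    OrzechProperty.injective_of_surjective_endomorphism _
      ((show Function.Surjective (f.restrictScalars O) from hf).comp e.surjective)
  have hfinj : Function.Injective f := by
    intro a b hab
    obtain ⟨a, rfl⟩ := e.surjective a
    obtain ⟨b, rfl⟩ := e.surjective b
    exact congrArg e (hinj hab)
  refine ⟨Module.Free.of_equiv (LinearEquiv.ofBijective f ⟨hfinj, hf⟩), hfin, fun z => ?_⟩
  exact Submodule.sum_mem _ fun δ _ => hI1 δ _

end Fermat.Agent.TW

end
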