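import Fermat.Agent.TW.ThetaPsi

/-!
The product identity, nilpotent version.
-/

set_option autoImplicit false

noncomputable section

namespace Fermat.Agent.TW

section

variable {O B M : Type} [CommRing O] [CommRing B]
  [AddCommGroup M] [Module O M] [Module B M]

theorem prod_eq_zero_of_nil
    (htf : ∀ (a : O) (x : M), a ≠ 0 → a • x = 0 → x = 0) [CharZero O]
    (d t : B) {P : ℕ} (hP : P ≠ 0) (hd : ∀ x : M, d ^ P • x = x) (ht : ∀ x : M, t ^ P • x = x)
    (J : Finset ℕ) (hnil : ∃ k : ℕ, ∀ x : M, (∏ j ∈ J, (d - t ^ j)) ^ k • x = 0)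
    (x : M) : (∏ j ∈ J, (d - t ^ j)) • x = 0 := by
  classical
  have htf' : ∀ (n : ℕ) (x : M), n ≠ 0 → n • x = 0 → x = 0 := fun n x hn h =>
    htf (n : O) x (Nat.cast_ne_zero.mpr hn) (by rwa [Nat.cast_smul_eq_nsmul])
  have hc : ∀ (j : ℕ) (y : M), (d - t ^ j) • (d - t ^ j) • y = 0 → (d - t ^ j) • y = 0 := by
    intro j y h
    obtain ⟨u, hu⟩ : ∃ u, (d - t ^ j) • y = u := ⟨_, rfl⟩
    rw [hu] at h ⊢
    have h1 : d • u = t ^ j • u := by rwa [sub_smul, sub_eq_zero] at h
    have h2 : d • y = t ^ j • y + u := by rw [← hu, sub_smul]; abel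
    have h3 : ∀ k : ℕ, d ^ (k + 1) • y = (t ^ j) ^ (k + 1) • y + (k + 1) • (t ^ j) ^ k • u := by
      intro k
      induction k with
      | zero => simp [h2]
      | succ k ih =>
        rw [pow_succ' d, mul_smul, ih, smul_add, smul_comm d ((t ^ j) ^ (k + 1)), h2,
          smul_comm d (k + 1), smul_comm d ((t ^ j) ^ k), h1, smul_add, smul_smul, smul_smul,
          ← pow_succ, ← pow_succ, succ_nsmul' _ (k + 1), add_assoc]
    obtain ⟨P', rfl⟩ : ∃ P', P = P' + 1 := ⟨P - 1, by omega⟩
    have h4 := h3 P'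
    have h5 : ∀ z : M, (t ^ j) ^ (P' + 1) • z = z := by
      intro z
      have : ∀ i : ℕ, ∀ z : M, (t ^ (P' + 1)) ^ i • z = z := by
        intro i
        induction i with
        | zero => intro z; simp
        | succ i ih => intro z; rw [pow_succ', mul_smul, ih, ht]
      rw [← pow_mul, mul_comm j, pow_mul, this]
    rw [hd, h5, left_eq_add] at h4
    have h6 := htf' _ _ (Nat.succ_ne_zero P') h4
    rw [← h5 u, pow_succ', mul_smul, h6, smul_zero]
  have hprod : ∀ (J : Finset ℕ) (y : M), (∏ j ∈ J, (d - t ^ j)) • (∏ j ∈ J, (d - t ^ j)) • y = 0 →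
      (∏ j ∈ J, (d - t ^ j)) • y = 0 := by
    intro J
    induction J using Finset.induction_on with
    | empty => intro y h; simpa using h
    | insert j J hj ih =>
      intro y h
      rw [Finset.prod_insert hj] at h ⊢
      set c := d - t ^ j
      set C := ∏ j ∈ J, (d - t ^ j)
      have h1 : c • c • C • C • y = 0 := by
        rw [← h]
        simp only [smul_smul]
        congr 1
        ring
      have h2 := hc j _ h1
      have h3 : C • C • c • y = 0 := by
        rw [← h2]
        simp only [smul_smul]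
        congr 1
        ring
      rw [mul_comm, mul_smul]
      exact ih _ h3
  obtain ⟨k, hk⟩ := hnil
  set β := ∏ j ∈ J, (d - t ^ j) with hβ
  have key : ∀ k : ℕ, ∀ y : M, β ^ (k + 1) • y = 0 → β • y = 0 := by
    intro k
    induction k with
    | zero => intro y h; simpa using h
    | succ k ih =>
      intro y h
      apply ih
      rw [pow_succ', mul_smul]
      apply hprod J
      rw [← hβ, smul_smul, smul_smul, ← h]
      congr 1
      ring
  exact key k x (by rw [pow_succ', mul_smul, hk, smul_zero])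

end

end Fermat.Agent.TW

end
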