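import Fermat.Agent.TW.ThetaTW
import Fermat.Agent.TW.ProdNil

/-!
`θ` has order dividing `#D`, and `(θ - 1) M = (δ - 1) M`.
-/

set_option autoImplicit false
set_option linter.unusedSectionVars false

noncomputable section

namespace Fermat.Agent.TW

open IsLocalRing Module Matrix Fermat.Agent.DefRing Polynomial Fermat.Agent.RT8
open CongruenceSubgroup

section Main

variable {D : Type} [CommGroup D] [Fintype D] (W : TWD D) {m : ℕ} (hM : W.M ∣ m)
  {O : Type} [CommRing O] [IsDomain O] [IsDiscreteValuationRing O]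
  [IsAdicComplete (maximalIdeal O) O] [Finite (ResidueField O)] [CharZero O]
  (𝔪 : Ideal (TPoly m O)) [𝔪.IsMaximal] (hE : NonEis W.M 𝔪)
  {E : Type} [Field E] [IsAlgClosed E] [Algebra O E]
  (hOE : Function.Injective (algebraMap O E))
  {rbar : GQ →* M2 (ResidueField O)} {sd : SliceData rbar} {p n : ℕ}
  (R : HRep (m := m) p n sd (Loc 𝔪 ((XF hM).H (funRep (M := W.M) O O W.YQ))))
  (LG : LGHyp W hM rbar E)
  (q : W.Q) {B : ValuationSubring (AlgebraicClosure ℚ)} (hB : B.LiesOverPrime q)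
  (P : TWP rbar) (hs : P.s ∈ B.inertiaSubgroupIn ℚ)
  {ζ : AlgebraicClosure ℚ} (hζ : IsPrimitiveRoot ζ q) {c : (ZMod q)ˣ}
  (hc : P.s ζ = ζ ^ (c : ZMod q).val)
  (hcomm : R.C.r P.φ * R.C.r P.s = R.C.r P.s * R.C.r P.φ) (hdet : (R.C.r P.s).det = 1)
  {P₀ : ℕ} (hD : ∀ d : D, d ^ P₀ = 1) (hP₀ : P₀ ≠ 0)

include hOE hE in
/-- eigenvectors on which a non-nilpotent polynomial does not vanish -/
theorem exists_eigen' (β : BP m (W.Q → D) O)
    (hβ : ¬ ∃ k : ℕ, ∀ x : Loc 𝔪 ((XF hM).H (funRep (M := W.M) O O W.YQ)), β ^ k • x = 0) :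
    ∃ (v : (XF hM).H (funRep (M := W.M) E E W.YQ)) (χ : BP m (W.Q → D) O →ₐ[O] E), v ≠ 0 ∧
      (∀ i, opH hM E W.YQ i v = χ (MvPolynomial.X i) • v) ∧
      (∀ b, (∀ x : Loc 𝔪 ((XF hM).H (funRep (M := W.M) O O W.YQ)), b • x = 0) → χ b = 0) ∧
      χ β ≠ 0 := by
  let _ : Algebra (FractionRing O) E := (IsFractionRing.lift hOE).toAlgebra
  have htow : IsScalarTower O (FractionRing O) E := IsScalarTower.of_algebraMap_eq fun x => by
    change _ = IsFractionRing.lift hOE (algebraMap O (FractionRing O) x)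
    rw [IsFractionRing.lift_algebraMap]
  have : Fintype W.YQ := Fintype.ofFinite _
  push Not at hβ
  exact exists_eigen hM (K := FractionRing O) (E := E) (IsFractionRing.injective O _) 𝔪 hE β hβ

include hE hOE LG hB hs hζ hc hcomm hdet hD in
/-- **`θ^#D = 1`** -/
theorem theta_pow_eq_one : theta P R.C.r ^ P₀ = 1 := by
  obtain ⟨θ, hθ⟩ := R.surj (theta P R.C.r)
  have hb : (MvPolynomial.rename Sum.inl (θ ^ P₀ - 1) : BP m (W.Q → D) O) =
      MvPolynomial.rename Sum.inl θ ^ P₀ - 1 := by rw [map_sub, map_pow, map_one]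
  by_cases h : ∃ k : ℕ, ∀ x : Loc 𝔪 ((XF hM).H (funRep (M := W.M) O O W.YQ)),
      (MvPolynomial.rename Sum.inl (θ ^ P₀ - 1) : BP m (W.Q → D) O) ^ k • x = 0
  · obtain ⟨k, hk⟩ := h
    have h1 : R.φ (θ ^ P₀ - 1) ^ k = 0 := by
      rw [← map_pow, R.ker]
      intro x
      rw [← BP_rename_smul (Δ := W.Q → D) hM O W.YQ 𝔪, map_pow]
      exact hk x
    have hred := R.red
    have h2 : R.φ (θ ^ P₀ - 1) = 0 := IsReduced.eq_zero _ ⟨k, h1⟩
    rw [map_sub, map_pow, hθ, map_one, sub_eq_zero] at h2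
    exact h2
  · exfalso
    obtain ⟨v, χ, hv, hop, hk, hχ⟩ := exists_eigen' W hM 𝔪 hE hOE _ h
    apply hχ
    have h1 := psi_pow W hM hv hop (Pi.mulSingle q (W.χ q c)) P₀
    have h0 : (Pi.mulSingle q (W.χ q c) : W.Q → D) ^ P₀ = 1 := by
      rw [← Pi.mulSingle_pow, hD, Pi.mulSingle_one]
    rw [h0, psi_one W hM hv hop] at h1
    rw [hb, map_sub, map_pow, map_one, sub_eq_zero]
    rcases theta_eq_psi W hM 𝔪 hOE R LG hv hop hk q hB P hs hζ hc hcomm hdet hθ with h2 | h2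
    · rw [h2, ← h1]
    · have h3 := congrArg (fun z => z ^ P₀) h2
      simp only [mul_pow, one_pow] at h3
      rw [← h1, mul_one] at h3
      exact h3

theorem pow_act (δ : W.Q → D) (k : ℕ)
    (x : Loc 𝔪 ((XF hM).H (funRep (M := W.M) O O W.YQ))) :
    (MvPolynomial.X (Sum.inr δ) : BP m (W.Q → D) O) ^ k • x =
      repΔ hM O O W.YQ (W.Q → D) 𝔪 (δ ^ k) x := by
  induction k with
  | zero => rw [pow_zero, pow_zero, one_smul, map_one]; rfl
  | succ k ih =>
    rw [pow_succ', mul_smul, ih, BP_act_smul, pow_succ' δ, map_mul]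
    rfl

include hE in
theorem loc_tf (a : O) (x : Loc 𝔪 ((XF hM).H (funRep (M := W.M) O O W.YQ))) (ha : a ≠ 0)
    (hx : a • x = 0) : x = 0 := by
  rw [← loc_coef_smul] at hx
  refine (XF hM).locMap_injective infl_funRep _ ?_ ⟨ModularGroup.T, rfl⟩ 𝔪 hE
    (hx.trans (map_zero _).symm)
  intro F F' h
  ext y
  exact mul_left_cancel₀ ha (congrFun h y)

include hE hOE LG hB hs hζ hc hcomm hdet hD hP₀ in
/-- the product identity -/
theorem prod_theta (hP₀' : Odd P₀) {θ : TPoly m O} (hθ : R.φ θ = theta P R.C.r)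
    (x : Loc 𝔪 ((XF hM).H (funRep (M := W.M) O O W.YQ))) :
    (∏ j ∈ ({1, P₀ - 1} : Finset ℕ),
      ((MvPolynomial.X (Sum.inr (Pi.mulSingle q (W.χ q c))) : BP m (W.Q → D) O) -
        (MvPolynomial.rename Sum.inl θ : BP m (W.Q → D) O) ^ j)) • x = 0 := by
  have hpow := theta_pow_eq_one W hM 𝔪 hE hOE R LG q hB P hs hζ hc hcomm hdet hD
  set δ : W.Q → D := Pi.mulSingle q (W.χ q c) with hδ
  have h0 : δ ^ P₀ = 1 := by rw [hδ, ← Pi.mulSingle_pow, hD, Pi.mulSingle_one]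
  set d : BP m (W.Q → D) O := MvPolynomial.X (Sum.inr δ) with hd_def
  set t : BP m (W.Q → D) O := MvPolynomial.rename Sum.inl θ with ht_def
  have hd : ∀ x : Loc 𝔪 ((XF hM).H (funRep (M := W.M) O O W.YQ)), d ^ P₀ • x = x := by
    intro x
    rw [hd_def, pow_act, h0, map_one]
    rfl
  have ht : ∀ x : Loc 𝔪 ((XF hM).H (funRep (M := W.M) O O W.YQ)), t ^ P₀ • x = x := by
    intro x
    rw [ht_def, ← map_pow, BP_rename_smul, ← R.act_φ, map_pow, hθ, hpow, map_one]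
    rfl
  have htf := loc_tf W hM 𝔪 hE
  refine prod_eq_zero_of_nil (O := O) htf d t hP₀ hd ht {1, P₀ - 1} ?_ x
  by_contra h
  obtain ⟨v, χ, hv, hop, hk, hχ⟩ := exists_eigen' W hM 𝔪 hE hOE _ h
  apply hχ
  have h1 := psi_pow W hM hv hop δ P₀
  rw [h0, psi_one W hM hv hop] at h1
  rw [map_prod]
  rcases theta_eq_psi W hM 𝔪 hOE R LG hv hop hk q hB P hs hζ hc hcomm hdet hθ with h2 | h2
  · refine Finset.prod_eq_zero (Finset.mem_insert_self 1 _) ?_
    rw [map_sub, map_pow, pow_one, sub_eq_zero]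
    exact h2.symm
  · refine Finset.prod_eq_zero (Finset.mem_insert_of_mem (Finset.mem_singleton_self (P₀ - 1))) ?_
    rw [map_sub, map_pow, sub_eq_zero]
    change χ t * χ d = 1 at h2
    have h3 : χ t ^ P₀ = 1 := by
      have h4 := congrArg (fun z => z ^ P₀) h2
      simp only [mul_pow, one_pow] at h4
      rw [← h1, mul_one] at h4
      exact h4
    have h4 : χ t ≠ 0 := fun h5 => by
      rw [h5, zero_mul] at h2
      exact zero_ne_one h2
    apply mul_left_cancel₀ h4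
    rw [h2, ← pow_succ', Nat.sub_add_cancel (Nat.one_le_iff_ne_zero.mpr hP₀), h3]

include hE hOE LG hB hs hζ hc hcomm hdet hD hP₀ in
/-- **`θ² + 1 = θ (δ + δ⁻¹)`** -/
theorem theta_plus (hP₀' : Odd P₀)
    (x : Loc 𝔪 ((XF hM).H (funRep (M := W.M) O O W.YQ))) :
    R.act (theta P R.C.r) (R.act (theta P R.C.r) x) + x =
      R.act (theta P R.C.r)
        (repΔ hM O O W.YQ (W.Q → D) 𝔪 (Pi.mulSingle q (W.χ q c)) x) +
      R.act (theta P R.C.r)
        (repΔ hM O O W.YQ (W.Q → D) 𝔪 (Pi.mulSingle q (W.χ q c))⁻¹ x) := by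
  have hpow := theta_pow_eq_one W hM 𝔪 hE hOE R LG q hB P hs hζ hc hcomm hdet hD
  obtain ⟨θ, hθ⟩ := R.surj (theta P R.C.r)
  have h2 := prod_theta W hM 𝔪 hE hOE R LG q hB P hs hζ hc hcomm hdet hD hP₀ hP₀' hθ x
  set δ : W.Q → D := Pi.mulSingle q (W.χ q c) with hδ
  have h0 : δ ^ P₀ = 1 := by rw [hδ, ← Pi.mulSingle_pow, hD, Pi.mulSingle_one]
  set d : BP m (W.Q → D) O := MvPolynomial.X (Sum.inr δ) with hd_def
  set d' : BP m (W.Q → D) O := MvPolynomial.X (Sum.inr δ⁻¹) with hd'_def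
  set t : BP m (W.Q → D) O := MvPolynomial.rename Sum.inl θ with ht_def
  have ht1 : ∀ x : Loc 𝔪 ((XF hM).H (funRep (M := W.M) O O W.YQ)),
      R.act (theta P R.C.r) x = t • x := fun x => by
    rw [ht_def, BP_rename_smul, ← hθ, R.act_φ]
  have hd1 : ∀ x : Loc 𝔪 ((XF hM).H (funRep (M := W.M) O O W.YQ)),
      repΔ hM O O W.YQ (W.Q → D) 𝔪 δ x = d • x := fun x => (BP_act_smul hM O W.YQ 𝔪 δ x).symm
  have hd1' : ∀ x : Loc 𝔪 ((XF hM).H (funRep (M := W.M) O O W.YQ)),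
      repΔ hM O O W.YQ (W.Q → D) 𝔪 δ⁻¹ x = d' • x := fun x => (BP_act_smul hM O W.YQ 𝔪 δ⁻¹ x).symm
  have hdd : ∀ x : Loc 𝔪 ((XF hM).H (funRep (M := W.M) O O W.YQ)), d' • d • x = x := by
    intro x
    rw [← hd1, ← hd1', ← Module.End.mul_apply, ← map_mul, inv_mul_cancel, map_one]
    rfl
  have ht : ∀ x : Loc 𝔪 ((XF hM).H (funRep (M := W.M) O O W.YQ)), t ^ P₀ • x = x := by
    intro x
    rw [ht_def, ← map_pow, BP_rename_smul, ← R.act_φ, map_pow, hθ, hpow, map_one]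
    rfl
  by_cases h1 : (1 : ℕ) = P₀ - 1
  · exfalso
    obtain ⟨k, hk⟩ := hP₀'
    omega
  rw [Finset.prod_pair h1, pow_one] at h2
  rw [ht1, ht1, ht1, ht1, hd1, hd1']
  have e2 : t ^ P₀ = t * t ^ (P₀ - 1) := by
    rw [← pow_succ', Nat.sub_add_cancel (Nat.one_le_iff_ne_zero.mpr hP₀)]
  -- expand
  have h3 : d • d • x + t ^ P₀ • x = d • t • x + t ^ (P₀ - 1) • d • x := by
    rw [← sub_eq_zero, ← h2, e2]
    simp only [smul_smul, ← add_smul, ← sub_smul]
    congr 1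
    ring
  have h4 := congrArg (fun w => t • d' • w) h3
  simp only [smul_add] at h4
  rw [hdd, hdd, smul_comm d' (t ^ (P₀ - 1)) (d • x), hdd, ht] at h4
  have h5 : t • t ^ (P₀ - 1) • x = x := by rw [smul_smul, ← e2, ht]
  rw [h5] at h4
  exact h4.symm

include hE hOE LG hB hs hζ hc hcomm hdet hD hP₀ in
/-- **`(δ - 1) M = (θ - 1) M`** -/
theorem range_theta (hP₀' : Odd P₀)
    (hsat : ∀ (k : ℕ) (x y : Loc 𝔪 ((XF hM).H (funRep (M := W.M) O O W.YQ))), k ≠ 0 →
      repΔ hM O O W.YQ (W.Q → D) 𝔪 (Pi.mulSingle q (W.χ q c)) y - y = k • x →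
      ∃ z, repΔ hM O O W.YQ (W.Q → D) 𝔪 (Pi.mulSingle q (W.χ q c)) z - z = x)
    (y : Loc 𝔪 ((XF hM).H (funRep (M := W.M) O O W.YQ))) :
    (∃ x, repΔ hM O O W.YQ (W.Q → D) 𝔪 (Pi.mulSingle q (W.χ q c)) x - x = y) ↔
      ∃ x, R.act (theta P R.C.r - 1) x = y := by
  have hpow := theta_pow_eq_one W hM 𝔪 hE hOE R LG q hB P hs hζ hc hcomm hdet hD
  obtain ⟨θ, hθ⟩ := R.surj (theta P R.C.r)
  set δ : W.Q → D := Pi.mulSingle q (W.χ q c) with hδ
  have h0 : δ ^ P₀ = 1 := by rw [hδ, ← Pi.mulSingle_pow, hD, Pi.mulSingle_one]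
  set d : BP m (W.Q → D) O := MvPolynomial.X (Sum.inr δ) with hd_def
  set t : BP m (W.Q → D) O := MvPolynomial.rename Sum.inl θ with ht_def
  have hd1 : ∀ x : Loc 𝔪 ((XF hM).H (funRep (M := W.M) O O W.YQ)),
      d • x = repΔ hM O O W.YQ (W.Q → D) 𝔪 δ x := fun x => BP_act_smul hM O W.YQ 𝔪 δ x
  have ht1 : ∀ x : Loc 𝔪 ((XF hM).H (funRep (M := W.M) O O W.YQ)),
      t • x = R.act (theta P R.C.r) x := fun x => by
    rw [ht_def, BP_rename_smul, ← hθ, R.act_φ]
  have hd : ∀ x : Loc 𝔪 ((XF hM).H (funRep (M := W.M) O O W.YQ)), d ^ P₀ • x = x := by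
    intro x
    rw [hd_def, pow_act, h0, map_one]
    rfl
  have ht : ∀ x : Loc 𝔪 ((XF hM).H (funRep (M := W.M) O O W.YQ)), t ^ P₀ • x = x := by
    intro x
    rw [ht_def, ← map_pow, BP_rename_smul, ← R.act_φ, map_pow, hθ, hpow, map_one]
    rfl
  have htf := loc_tf W hM 𝔪 hE
  have htf' : ∀ (k : ℕ) (x : Loc 𝔪 ((XF hM).H (funRep (M := W.M) O O W.YQ))), k ≠ 0 →
      k • x = 0 → x = 0 := fun k x hk hx =>
    htf (k : O) x (Nat.cast_ne_zero.mpr hk) (by rwa [Nat.cast_smul_eq_nsmul])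
  -- the product identity
  have hprod := prod_theta W hM 𝔪 hE hOE R LG q hB P hs hζ hc hcomm hdet hD hP₀ hP₀' hθ
  -- invariants
  have hfix : ∀ x : Loc 𝔪 ((XF hM).H (funRep (M := W.M) O O W.YQ)), d • x = x → t • x = x := by
    intro x hx
    have h1 : ∀ z : Loc 𝔪 ((XF hM).H (funRep (M := W.M) O O W.YQ)), d • z = z →
        (t - 1) • (t - 1) • z = 0 := by
      intro z hz
      by_cases h1 : (1 : ℕ) = P₀ - 1
      · exfalso
        obtain ⟨k, hk⟩ := hP₀'
        omega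
      · have h2 := hprod z
        rw [Finset.prod_pair h1, pow_one, mul_smul] at h2
        have h3 : (d - t ^ (P₀ - 1)) • z = (1 - t ^ (P₀ - 1)) • z := by
          rw [sub_smul, sub_smul, hz, one_smul]
        have h4 : d • (1 - t ^ (P₀ - 1)) • z = (1 - t ^ (P₀ - 1)) • z := by
          rw [smul_comm, hz]
        rw [h3, sub_smul d, h4] at h2
        have h2' : (1 - t) • (1 - t ^ (P₀ - 1)) • z = 0 := by
          rw [sub_smul, one_smul]
          exact h2
        have h5 := congrArg (fun w => t • w) h2'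
        simp only [smul_zero] at h5
        have h6 : t ^ P₀ • (t - 1) • z = (t - 1) • z := ht _
        have e1 : t * ((1 - t) * (1 - t ^ (P₀ - 1))) =
            (1 - t) * t - (1 - t) * t ^ P₀ := by
          have e2 : t ^ P₀ = t * t ^ (P₀ - 1) := by
            rw [← pow_succ', Nat.sub_add_cancel (Nat.one_le_iff_ne_zero.mpr hP₀)]
          rw [e2]; ring
        rw [smul_smul, smul_smul, mul_assoc, e1, sub_smul, mul_smul, mul_smul, ht] at h5
        have e3 : (t - 1) • (t - 1) • z = -((1 - t) • t • z - (1 - t) • z) := by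
          rw [← smul_sub, ← neg_smul, neg_sub]
          congr 1
          rw [sub_smul, one_smul]
        rw [e3, h5, neg_zero]
    have h2 := h1 x hx
    set u := (t - 1) • x with hu
    have h3 : t • x = x + u := by rw [hu, sub_smul, one_smul]; abel
    have h4 : t • u = u := by
      rw [sub_smul, one_smul, sub_eq_zero] at h2
      exact h2
    have h5 := pow_smul_of_unip h3 h4 P₀
    rw [ht, left_eq_add] at h5
    rw [h3, htf' _ _ hP₀ h5, add_zero]
  have h1 := exists_range_eq d t hP₀ hd htf' (fun k x y hk h => by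
    have h2 := hsat k x y hk (by
      rw [← hd1]
      rw [sub_smul, one_smul] at h
      exact h)
    obtain ⟨z, hz⟩ := h2
    exact ⟨z, by rw [sub_smul, one_smul, hd1]; exact hz⟩) hfix {1, P₀ - 1} hprod y
  have e1 : ∀ x, (d - 1) • x = repΔ hM O O W.YQ (W.Q → D) 𝔪 δ x - x := fun x => by
    rw [sub_smul, one_smul, hd1]
  have e2 : ∀ x, (t - 1) • x = R.act (theta P R.C.r - 1) x := fun x => by
    rw [sub_smul, one_smul, ht1, map_sub, map_one]
    rfl
  simp only [e1, e2] at h1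
  exact h1

end Main

end Fermat.Agent.TW

end
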