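import Fermat.Agent.TW.PrT
import Fermat.Agent.TW.ThetaPow
import Fermat.Agent.RT8.OfDiamond
import Fermat.Agent.TWDeg.Raise

/-!
The Taylor–Wiles levels of the patching system, as modules.
-/

set_option autoImplicit false
set_option linter.unusedSectionVars false

noncomputable section

namespace Fermat.Agent.TW

open IsLocalRing Module Matrix Fermat.Agent.DefRing Fermat.Agent.RT8 Fermat.Agent.TWDeg
open CongruenceSubgroup

instance instFintypeYt {D : Type} [CommGroup D] (W : TWD D) (t : ℕ → LT) : Fintype (W.Yt t) :=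
  Fintype.ofFinite _

/-- The data of a Taylor–Wiles level over the base level `R`: `W` are the Taylor–Wiles data,
`𝔪'` the maximal ideal and `R'` the Hecke algebra of the module `MQ W hM 𝔪' O`. -/
structure TWLev {p : ℕ} (n g : ℕ) {D : Type} [CommGroup D] [Fintype D]
    {O : Type} [CommRing O] [IsDomain O] [IsDiscreteValuationRing O]
    {rbar : GQ →* M2 (ResidueField O)} {sd : SliceData rbar}
    {m m' N : ℕ} {hN : N ∣ m} {𝔪 : Ideal (TPoly m O)} [𝔪.IsMaximal]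
    (R : HRep (m := m) p N sd (Loc 𝔪 (HG m N hN O))) (P : Fin g → TWP rbar) (W : TWD D)
    (hM : W.M ∣ m') (𝔪' : Ideal (TPoly m' O)) [𝔪'.IsMaximal] {N' : ℕ}
    (R' : HRep (m := m') p N' sd (MQ W hM 𝔪' O)) where
  idx : Fin g ≃ W.Q
  c : ∀ i, (ZMod (idx i))ˣ
  gen : Subgroup.closure (Set.range fun i =>
    (Pi.mulSingle (idx i) (W.χ (idx i) (c i)) : W.Q → D)) = ⊤
  card : Fintype.card (W.Q → D) = (p ^ (n + 1)) ^ g
  pow : ∀ d : D, d ^ (p ^ (n + 1)) = 1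
  nonEis : NonEis W.M 𝔪'
  goodQ : GoodFor W.M O W.YQ
  good0 : GoodFor W.M O W.Y0
  comm : ∀ i, R'.C.r (P i).φ * R'.C.r (P i).s = R'.C.r (P i).s * R'.C.r (P i).φ
  det : ∀ i, (R'.C.r (P i).s).det = 1
  B : Fin g → ValuationSubring (AlgebraicClosure ℚ)
  lies : ∀ i, (B i).LiesOverPrime (idx i)
  mem : ∀ i, (P i).s ∈ (B i).inertiaSubgroupIn ℚ
  ζ : Fin g → AlgebraicClosure ℚ
  prim : ∀ i, IsPrimitiveRoot (ζ i) (idx i)
  zeta : ∀ i, (P i).s (ζ i) = ζ i ^ (c i : ZMod (idx i)).val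
  triv : ∀ i, R.C.r (P i).s = 1
  lg : LGHyp W hM rbar (AlgebraicClosure (FractionRing O))
  hmm : m ∣ m'
  ne : m' ≠ 0
  e : Loc 𝔪' ((XF hM).H (funRep (M := W.M) O O W.Y0)) ≃+ (Fin (2 ^ g) → Loc 𝔪 (HG m N hN O))
  e_smul : ∀ (P : TPoly m' O) x, e (P • x) = inc hmm O P • e x

namespace TWLev

variable {p n g : ℕ} [hp : Fact p.Prime] (hp2 : p ≠ 2) {D : Type} [CommGroup D] [Fintype D]
    {O : Type} [CommRing O] [IsDomain O] [IsDiscreteValuationRing O]
    [IsAdicComplete (maximalIdeal O) O] [Finite (ResidueField O)] [CharZero O]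
    (hpO : (p : O) ∈ maximalIdeal O)
    {rbar : GQ →* M2 (ResidueField O)} {sd : SliceData rbar}
    (hspan : Submodule.span (ResidueField O) (Set.range rbar) = ⊤)
    {m m' N : ℕ} [NeZero N] {hN : N ∣ m} {𝔪 : Ideal (TPoly m O)} [𝔪.IsMaximal]
    {R : HRep (m := m) p N sd (Loc 𝔪 (HG m N hN O))} {P : Fin g → TWP rbar} {W : TWD D}
    {hM : W.M ∣ m'} {𝔪' : Ideal (TPoly m' O)} [𝔪'.IsMaximal] {N' : ℕ}
    {R' : HRep (m := m') p N' sd (MQ W hM 𝔪' O)} (X : TWLev n g R P W hM 𝔪' R')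

/-- comparison with the base level -/
def π : MQ W hM 𝔪' O →+ (Fin (2 ^ g) → Loc 𝔪 (HG m N hN O)) :=
  X.e.toAddMonoidHom.comp (pushQ W 𝔪' O hM).toAddMonoidHom

theorem π_apply (x : MQ W hM 𝔪' O) : X.π x = X.e (pushQ W 𝔪' O hM x) := rfl

theorem π_smul (Q : TPoly m' O) (x : MQ W hM 𝔪' O) : X.π (Q • x) = inc X.hmm O Q • X.π x := by
  rw [π_apply, map_smul, X.e_smul]
  rfl

theorem π_surj : Function.Surjective X.π := fun y => by
  obtain ⟨y, rfl⟩ := X.e.surjective y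
  obtain ⟨x, rfl⟩ := push_loc_surjective hM W.isTorsor X.goodQ X.good0 𝔪' O y
  exact ⟨x, rfl⟩

theorem two_pow_ne : 2 ^ g ≠ 0 := pow_ne_zero _ two_ne_zero

/-- comparison of the Hecke algebras -/
def pr : R'.C.T →ₐ[O] R.C.T := prT X.hmm R R' two_pow_ne X.π X.π_smul X.π_surj

theorem inj_E : Function.Injective (algebraMap O (AlgebraicClosure (FractionRing O))) := by
  rw [IsScalarTower.algebraMap_eq O (FractionRing O)]
  exact (algebraMap (FractionRing O) _).injective.comp (IsFractionRing.injective O _)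

theorem finite : Module.Finite O (MQ W hM 𝔪' O) := by
  have h1 := finite_H hM (Y := W.YQ) O (O := O)
  exact Loc.finite 𝔪'

include X in
theorem isPGroup : IsPGroup p (W.Q → D) := by
  intro x
  exact ⟨n + 1, funext fun q => X.pow (x q)⟩

include X hpO in
theorem exists_free : ∃ (r : ℕ) (w : Fin r → MQ W hM 𝔪' O),
    Function.Bijective (freeMap (repΔ hM O O W.YQ (W.Q → D) 𝔪') w) :=
  exists_free_TW hM W.isTorsor X.goodQ X.good0 𝔪' X.nonEis hpO X.isPGroup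

theorem act_comm (t : R'.C.T) (δ : W.Q → D) (x : MQ W hM 𝔪' O) :
    R'.act t (repΔ hM O O W.YQ (W.Q → D) 𝔪' δ x) =
      repΔ hM O O W.YQ (W.Q → D) 𝔪' δ (R'.act t x) := by
  obtain ⟨Q, rfl⟩ := R'.surj t
  rw [R'.act_φ, R'.act_φ, repΔ_apply, repΔ_apply, map_smul]

include hp2 in
theorem odd_pow : Odd (p ^ (n + 1)) := (hp.out.odd_of_ne_two hp2).pow

include hp2 hpO in
theorem plus (i : Fin g) (x : MQ W hM 𝔪' O) :
    R'.act (theta (P i) R'.C.r) (R'.act (theta (P i) R'.C.r) x) + x =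
      R'.act (theta (P i) R'.C.r)
        (repΔ hM O O W.YQ (W.Q → D) 𝔪' (Pi.mulSingle (X.idx i) (W.χ (X.idx i) (X.c i))) x) +
      R'.act (theta (P i) R'.C.r)
        (repΔ hM O O W.YQ (W.Q → D) 𝔪' (Pi.mulSingle (X.idx i) (W.χ (X.idx i) (X.c i)))⁻¹ x) :=
  theta_plus W hM 𝔪' X.nonEis inj_E R' X.lg (X.idx i) (X.lies i) (P i) (X.mem i) (X.prim i)
    (X.zeta i) (X.comm i) (X.det i) X.pow (pow_ne_zero _ hp.out.ne_zero) (odd_pow hp2) x

include hp2 hpO in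
theorem aug (i : Fin g) (x : MQ W hM 𝔪' O) : ∃ y,
    R'.act (theta (P i) R'.C.r) x - x =
      repΔ hM O O W.YQ (W.Q → D) 𝔪' (Pi.mulSingle (X.idx i) (W.χ (X.idx i) (X.c i))) y - y := by
  obtain ⟨r, w, hw⟩ := X.exists_free hpO
  have h1 := (range_theta W hM 𝔪' X.nonEis inj_E R' X.lg (X.idx i) (X.lies i) (P i) (X.mem i)
    (X.prim i) (X.zeta i) (X.comm i) (X.det i) X.pow (pow_ne_zero _ hp.out.ne_zero) (odd_pow hp2)
    (fun k x y hk h => sat_of_free _ w hw _ k x y hk h)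
    (R'.act (theta (P i) R'.C.r) x - x)).mpr ⟨x, by rw [map_sub, map_one]; rfl⟩
  obtain ⟨y, hy⟩ := h1
  exact ⟨y, hy.symm⟩

/-- **The Taylor–Wiles level.** -/
def tmod : TMod p P n (bmod hN R g) :=
  letI := R'.modT
  haveI := finite (W := W) (hM := hM) (𝔪' := 𝔪') (O := O)
  TMod.ofDiamond hp.out hp2 hpO P R'.C (M := MQ W hM 𝔪' O) R'.act_algebraMap X.card _ X.gen
    (fun i => by rw [← Pi.mulSingle_pow, X.pow, Pi.mulSingle_one])
    (repΔ hM O O W.YQ (W.Q → D) 𝔪') (X.exists_free hpO).choose_spec.choose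
    (X.exists_free hpO).choose_spec.choose_spec act_comm
    (X.plus hp2 hpO) (X.aug hp2 hpO) (bmod hN R g) R'.adj X.pr
    (prT_r X.hmm R R' two_pow_ne X.π X.π_smul X.π_surj hspan X.ne)
    R'.faithful X.π (prT_smul X.hmm R R' two_pow_ne X.π X.π_smul X.π_surj) X.π_surj
    (fun x hx => ker_push_loc hM W.isTorsor X.goodQ X.good0 𝔪' O x
      (X.e.injective (hx.trans (map_zero X.e).symm))) X.triv

theorem tmod_C : (X.tmod hp2 hpO hspan).C = R'.C := rfl

theorem tmod_M : (X.tmod hp2 hpO hspan).M = MQ W hM 𝔪' O := rfl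

theorem tmod_π (x : MQ W hM 𝔪' O) :
    ((X.tmod hp2 hpO hspan).π x : Fin (2 ^ g) → Loc 𝔪 (HG m N hN O)) =
      X.e (pushQ W 𝔪' O hM x) := rfl

theorem tmod_smul (t : R'.C.T) (x : MQ W hM 𝔪' O) :
    ((show (X.tmod hp2 hpO hspan).C.T from t) • (show (X.tmod hp2 hpO hspan).M from x) :
      (X.tmod hp2 hpO hspan).M) = R'.act t x := rfl

theorem tmod_φ_smul (Q : TPoly m' O) (x : MQ W hM 𝔪' O) :
    ((show (X.tmod hp2 hpO hspan).C.T from R'.φ Q) • (show (X.tmod hp2 hpO hspan).M from x) :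
      (X.tmod hp2 hpO hspan).M) = Q • x := R'.act_φ Q x

end TWLev

end Fermat.Agent.TW

end
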