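import Fermat.Agent.TW.H2

/-!
# The base level of Taylor-Wiles modules; vanishing
-/

set_option autoImplicit false
set_option linter.unusedSectionVars false

noncomputable section

namespace Fermat.Agent.TW

open IsLocalRing Module Matrix Fermat.Agent.DefRing Polynomial Fermat.Agent.TWDeg
open CongruenceSubgroup

section Aug

variable {O Δ M : Type} [CommRing O] [IsDomain O] [IsDiscreteValuationRing O] [Group Δ] [Fintype Δ] [AddCommGroup M] [Module O M]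

/-- a free module over the group ring which equals its augmentation part is zero -/
theorem eq_zero_of_aug (ρ : Representation O Δ M) {r : ℕ} (w : Fin r → M)
    (hb : Function.Bijective (freeMap ρ w))
    (haug : ∀ x : M, ∃ z : Δ → M, x = ∑ δ, (ρ δ (z δ) - z δ)) (x : M) : x = 0 := by
  classical
  -- the sum of the coordinates vanishes
  have key : ∀ (c : Fin r → Δ → O) (i : Fin r), ∑ δ, c i δ = 0 := by
    intro c i
    obtain ⟨z, hz⟩ := haug (freeMap ρ w c)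
    choose d hd using fun δ => hb.2 (z δ)
    have h1 : freeMap ρ w c = freeMap ρ w (∑ g, ((fun i δ => d g i (g⁻¹ * δ)) - d g)) := by
      rw [hz, map_sum]
      refine Finset.sum_congr rfl fun g _ => ?_
      rw [map_sub, freeMap_translate, hd]
    have h2 := congrFun (hb.1 h1) i
    rw [h2]
    have h3 : ∀ δ, (∑ g, ((fun i δ => d g i (g⁻¹ * δ)) - d g) : Fin r → Δ → O) i δ =
        ∑ g, (d g i (g⁻¹ * δ) - d g i δ) := by
      intro δ
      rw [Finset.sum_apply, Finset.sum_apply]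
      rfl
    rw [Finset.sum_congr rfl fun δ _ => h3 δ, Finset.sum_comm]
    refine Finset.sum_eq_zero fun g _ => ?_
    rw [Finset.sum_sub_distrib, sub_eq_zero]
    exact Equiv.sum_comp (Equiv.mulLeft g⁻¹) (fun δ => d g i δ)
  obtain ⟨c, rfl⟩ := hb.2 x
  have hc : c = 0 := by
    funext i δ
    have h1 := key (fun i' δ' => if δ' = δ then c i' δ else 0) i
    rw [Finset.sum_ite_eq'] at h1
    simpa using h1
  rw [hc, map_zero]

end Aug

section Main

variable (h30 : HeckeGal.S30Statement) {p m m₀ : ℕ} [hp : Fact p.Prime] (hm : m ≠ 0)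
  (hmm : m₀ ∣ m) (hpm : p ∣ m₀)
  {O : Type} [CommRing O] [IsDomain O] [IsDiscreteValuationRing O]
  [IsAdicComplete (maximalIdeal O) O] [Finite (ResidueField O)] [CharZero O]
  (hpO : (p : O) ∈ maximalIdeal O) {rbar : GQ →* M2 (ResidueField O)}
  (sd : SliceData rbar) (hspan : Submodule.span (ResidueField O) (Set.range rbar) = ⊤)
  (hrbar : ∃ L : IntermediateField ℚ (AlgebraicClosure ℚ), FiniteDimensional ℚ L ∧
      ∀ σ : GQ, (∀ x ∈ L, σ x = x) → rbar σ = 1) (hES : ∀ (n : ℕ) [NeZero n], HeckeHom.ES n)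
  (hloc : LocNew) {𝔪 : Ideal (TPoly m O)} [𝔪.IsMaximal] (h𝔪 : ResId rbar 𝔪)
  {𝔪₀ : Ideal (TPoly m₀ O)} [𝔪₀.IsMaximal] (h𝔪₀ : ResId rbar 𝔪₀)
  {D : Type} [CommGroup D] [Fintype D] (W : TWD D) (hM : W.M ∣ m) (hN : W.N ∣ m₀)
  (hE : NonEis W.M 𝔪) (hQm : ∀ q ∈ W.Q, ¬ q ∣ m₀)
  (hfr : ∀ q ∈ W.Q, ∃ B : ValuationSubring (AlgebraicClosure ℚ), B.LiesOverPrime q ∧
    ∃ τ : GQ, B.IsFrobeniusAt τ q ∧ (rbar τ).trace ^ 2 ≠ ((q : ResidueField O) + 1) ^ 2)

include h30 hm hmm hpm hpO sd hspan hrbar hES hloc h𝔪 h𝔪₀ hN hE hQm hfr in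
/-- **The base level of the Taylor-Wiles modules** -/
theorem exists_base_full : Nonempty (Loc 𝔪 ((XF hM).H (funRep (M := W.M) O O W.Y0))
    ≃ₗ[TPoly m O] (Fin (2 ^ W.Q.card) → Loc 𝔪 (HG m W.N (hN.trans hmm) O))) := by
  have hN0 : NeZero W.N := ⟨W.tws.pos⟩
  refine exists_base W hM O O 𝔪 (fun q hq hqn hq1 hqQ => ?_)
    (fun n' q hq hqn hq1 hn' hnq hqQ hNn hdvd x hx => ?_)
  · obtain ⟨B, hB, τ, hτ, hne⟩ := hfr q hqQ
    exact det_bij h30 hN hmm hm hpm hpO sd hspan hrbar (hES W.N) h𝔪₀ h𝔪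
      (NonEis.mono (N_dvd W.N W.Q) hE) ⟨q, hq, hQm q hqQ⟩ B hB τ hτ hne
  · obtain ⟨B, hB, τ, hτ, hne⟩ := hfr q hqQ
    have hqp : q ≠ p := fun h => hQm q hqQ (h ▸ hpm)
    exact h2_base h30 hm (hpm.trans hmm) hpO sd hspan hrbar hES hloc h𝔪 hq hqn hq1 hn' hnq
      (NonEis.mono hdvd hE) hqp hB hτ hne x hx

include h30 hm hmm hpm hpO sd hspan hrbar hES hloc h𝔪 h𝔪₀ hN hE hQm hfr in
/-- **Vanishing** of the Taylor-Wiles modules when the base level vanishes -/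
theorem subsingleton_MQ (hY : GoodFor W.M O W.YQ) (hY0 : GoodFor W.M O W.Y0)
    (hΔ : IsPGroup p (W.Q → D)) (h0 : Subsingleton (Loc 𝔪₀ (HG m₀ W.N hN O))) :
    Subsingleton (MQ W hM 𝔪 O) := by
  have hN0 : NeZero W.N := ⟨W.tws.pos⟩
  obtain ⟨e, -⟩ := exists_tqE h30 hN hmm hm hpm hpO sd hspan hrbar (hES W.N) h𝔪₀ h𝔪
    (NonEis.mono (N_dvd W.N W.Q) hE)
  have h1 : Subsingleton (Loc 𝔪 (HG m W.N (hN.trans hmm) O)) := e.toEquiv.subsingleton
  obtain ⟨e'⟩ := exists_base_full h30 hm hmm hpm hpO sd hspan hrbar hES hloc h𝔪 h𝔪₀ W hM hN hE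
    hQm hfr
  have h2 : Subsingleton (Loc 𝔪 ((XF hM).H (funRep (M := W.M) O O W.Y0))) :=
    e'.toEquiv.subsingleton
  have : Fintype W.YQ := Fintype.ofFinite _
  obtain ⟨r, w, hb⟩ := exists_free_TW hM W.isTorsor hY hY0 𝔪 hE hpO hΔ
  refine ⟨fun x y => ?_⟩
  rw [← sub_eq_zero]
  refine eq_zero_of_aug _ w hb (fun x => ?_) (x - y)
  exact ker_push_loc hM W.isTorsor hY hY0 𝔪 O x (Subsingleton.elim _ _)

end Main

end Fermat.Agent.TW

end
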