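import Fermat.Agent.TW.ExTW

/-!
Construction of the Taylor–Wiles levels.
-/

set_option autoImplicit false
set_option linter.unusedSectionVars false

noncomputable section

namespace Fermat.Agent.TW

open IsLocalRing Module Matrix Fermat.Agent.DefRing Fermat.Agent.RT8 Fermat.Agent.TWDeg
open CongruenceSubgroup

section

variable (h30 : HeckeGal.S30Statement) (hES : ∀ (n : ℕ) [NeZero n], HeckeHom.ES n)
  {p n g : ℕ} [hp : Fact p.Prime] (hp2 : p ≠ 2) {D : Type} [CommGroup D] [Fintype D] (W : TWD D)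
  {m m' : ℕ} (hm' : m' ≠ 0) (hM : W.M ∣ m') (hmm : m ∣ m') (hpm : p ∣ m) (hN : W.N ∣ m)
  {O : Type} [CommRing O] [IsDomain O] [IsDiscreteValuationRing O]
  [IsAdicComplete (maximalIdeal O) O] [Finite (ResidueField O)] [CharZero O]
  (hpO : (p : O) ∈ maximalIdeal O)
  {rbar : GQ →* M2 (ResidueField O)} (sd : SliceData rbar)
  (hspan : Submodule.span (ResidueField O) (Set.range rbar) = ⊤)
  (hrbar : ∃ L : IntermediateField ℚ (AlgebraicClosure ℚ), FiniteDimensional ℚ L ∧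
      ∀ σ : GQ, (∀ x ∈ L, σ x = x) → rbar σ = 1)
  {𝔪 : Ideal (TPoly m O)} [𝔪.IsMaximal] (h𝔪 : ResId rbar 𝔪)
  {𝔪' : Ideal (TPoly m' O)} [𝔪'.IsMaximal] (h𝔪' : ResId rbar 𝔪') (hE' : NonEis W.M 𝔪')

instance neZero_N : NeZero W.N := ⟨W.tws.pos⟩

/-- the isomorphism between the Taylor–Wiles module of level `Γ₀` at the Taylor–Wiles primes
and the base module -/
abbrev EType (g : ℕ) (𝔪 : Ideal (TPoly m O)) [𝔪.IsMaximal] (𝔪' : Ideal (TPoly m' O))
    [𝔪'.IsMaximal] : Type :=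
  Loc 𝔪' ((XF hM).H (funRep (M := W.M) O O W.Y0)) ≃+ (Fin (2 ^ g) → Loc 𝔪 (HG m W.N hN O))

include h30 hES hm' hpm hpO hspan hrbar h𝔪 h𝔪' hE' sd in
theorem exists_compE (hb : Nonempty (Loc 𝔪' ((XF hM).H (funRep (M := W.M) O O W.Y0)) ≃ₗ[TPoly m' O]
      (Fin (2 ^ g) → Loc 𝔪' (HG m' W.N (hN.trans hmm) O)))) :
    ∃ e : EType W hM hN g 𝔪 𝔪', ∀ (P : TPoly m' O) x, e (P • x) = inc hmm O P • e x := by
  obtain ⟨b⟩ := hb
  have hE2 : NonEis W.N 𝔪' := by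
    obtain ⟨l, hl, hl𝔪⟩ := hE'
    refine ⟨l, ?_, hl𝔪⟩
    have h1 := congrArg (ZMod.castHom (N_dvd W.N W.Q) (ZMod W.N)) hl
    rwa [map_natCast, map_one] at h1
  obtain ⟨e, he, -, -, -⟩ := exists_tqE h30 hN hmm hm' hpm hpO sd hspan hrbar (hES W.N) h𝔪 h𝔪' hE2
  refine ⟨b.toAddEquiv.trans (AddEquiv.piCongrRight fun _ => e), fun P x => ?_⟩
  funext i
  change e (b (P • x) i) = inc hmm O P • e (b x i)
  rw [map_smul, Pi.smul_apply, he]

include hpO in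
theorem nontrivial_MQ (hp2 : p ≠ 2) (h3 : 2 ∣ W.N ∨ 5 ≤ p)
    (e : EType W hM hN g 𝔪 𝔪') [Nontrivial (Loc 𝔪 (HG m W.N hN O))] :
    Nontrivial (MQ W hM 𝔪' O) := by
  have h1 : Nonempty (Fin (2 ^ g)) := ⟨⟨0, Nat.two_pow_pos g⟩⟩
  have h2 : Nontrivial (Fin (2 ^ g) → Loc 𝔪 (HG m W.N hN O)) := Pi.nontrivial
  have h4 : Nontrivial (Loc 𝔪' ((XF hM).H (funRep (M := W.M) O O W.Y0))) :=
    e.toEquiv.nontrivial
  exact (push_loc_surjective hM W.isTorsor (goodFor hpO W hp2 h3 _) (goodFor hpO W hp2 h3 _)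
    𝔪' O).nontrivial

variable (R : HRep (m := m) p W.N sd (Loc 𝔪 (HG m W.N hN O))) (P : Fin g → TWP rbar)
  (R' : HRep (m := m') p (W.N * W.dd * W.dd) sd (MQ W hM 𝔪' O))

include hp2 hm' hmm hpO hE' in
/-- **Construction of the Taylor–Wiles levels.** -/
theorem exists_TWLev (h3 : 2 ∣ W.N ∨ 5 ≤ p) (idx : Fin g ≃ W.Q) (hqp : ∀ q ∈ W.Q, q ≠ p)
    (c : ∀ i, (ZMod (idx i))ˣ)
    (gen : Subgroup.closure (Set.range fun i =>
      (Pi.mulSingle (idx i) (W.χ (idx i) (c i)) : W.Q → D)) = ⊤)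
    (card : Fintype.card (W.Q → D) = (p ^ (n + 1)) ^ g) (pow : ∀ d : D, d ^ (p ^ (n + 1)) = 1)
    (B : Fin g → ValuationSubring (AlgebraicClosure ℚ)) (lies : ∀ i, (B i).LiesOverPrime (idx i))
    (mem : ∀ i, (P i).s ∈ (B i).inertiaSubgroupIn ℚ)
    (zeta : ∀ i (ζ : AlgebraicClosure ℚ), ζ ^ ((idx i : W.Q) : ℕ) = 1 →
      (P i).s ζ = ζ ^ (c i : ZMod (idx i)).val)
    (comm : ∀ i, R'.C.r (P i).φ * R'.C.r (P i).s = R'.C.r (P i).s * R'.C.r (P i).φ)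
    (LG : LGHyp W hM rbar (AlgebraicClosure (FractionRing O)))
    (hb : ∃ e : EType W hM hN g 𝔪 𝔪', ∀ (P : TPoly m' O) x, e (P • x) = inc hmm O P • e x) :
    Nonempty (TWLev n g R P W hM 𝔪' R') := by
  obtain ⟨e, he⟩ := hb
  have hq : ∀ i : Fin g, ((idx i : W.Q) : ℕ).Prime := fun i => W.tws.prime _ (idx i).2
  choose ζ hζ using fun i : Fin g =>
    have : NeZero ((idx i : W.Q) : ℕ) := ⟨(hq i).ne_zero⟩
    HasEnoughRootsOfUnity.exists_primitiveRoot (AlgebraicClosure ℚ) ((idx i : W.Q) : ℕ)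
  exact ⟨{
    idx := idx
    c := c
    gen := gen
    card := card
    pow := pow
    nonEis := hE'
    goodQ := goodFor hpO W hp2 h3 _
    good0 := goodFor hpO W hp2 h3 _
    comm := comm
    det := fun i => det_hrep hm' R' (hq i) (hqp _ (idx i).2) (B i) (lies i) _ (mem i) hpO
    B := B
    lies := lies
    mem := mem
    ζ := ζ
    prim := hζ
    zeta := fun i => zeta i _ (hζ i).pow_eq_one
    triv := fun i => R.unr _ (hq i) (W.tws.ndvd _ (idx i).2) (hqp _ (idx i).2) (B i) (lies i) _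
      (mem i)
    lg := LG
    hmm := hmm
    ne := hm'
    e := e
    e_smul := he }⟩

end

end Fermat.Agent.TW

end
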