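import Fermat.Agent.TW.TWD
import Fermat.Agent.TW.PGroup

/-!
The Taylor–Wiles data attached to a Taylor–Wiles set of primes.
-/

set_option autoImplicit false
set_option linter.unusedSectionVars false

noncomputable section

namespace Fermat.Agent.TW

/-- The group `ℤ/p^{n+1}`, written multiplicatively. -/
abbrev DP (p n : ℕ) : Type := Multiplicative (ZMod (p ^ (n + 1)))

section Chi

/-- A cyclic group of order divisible by `m` surjects onto `ℤ/m`. -/
theorem exists_surj_of_cyclic {G : Type} [CommGroup G] [IsCyclic G] [Finite G] {m : ℕ} [NeZero m]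
    (h : m ∣ Nat.card G) : ∃ χ : G →* Multiplicative (ZMod m), Function.Surjective χ := by
  let e : G ≃* Multiplicative (ZMod (Nat.card G)) :=
    (zmodCyclicMulEquiv (inferInstance : IsCyclic G)).symm
  refine ⟨(AddMonoidHom.toMultiplicative (ZMod.castHom h (ZMod m)).toAddMonoidHom).comp
    (e : G →* Multiplicative (ZMod (Nat.card G))), ?_⟩
  intro y
  obtain ⟨x, hx⟩ := ZMod.castHom_surjective h (Multiplicative.toAdd y)
  obtain ⟨g, hg⟩ := e.surjective (Multiplicative.ofAdd x)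
  refine ⟨g, ?_⟩
  show Multiplicative.ofAdd (ZMod.castHom h (ZMod m) (Multiplicative.toAdd (e g))) = y
  rw [hg, toAdd_ofAdd, hx]
  rfl

theorem exists_chi (p n q : ℕ) [Fact p.Prime] (hq : q.Prime) (h : p ^ (n + 1) ∣ q - 1) :
    ∃ χ : (ZMod q)ˣ →* DP p n, Function.Surjective χ := by
  have : Fact q.Prime := ⟨hq⟩
  have hp : NeZero p := ⟨(Fact.out : p.Prime).ne_zero⟩
  have hcard : Nat.card (ZMod q)ˣ = q - 1 := by
    rw [Nat.card_eq_fintype_card, ZMod.card_units_eq_totient, Nat.totient_prime hq]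
  exact exists_surj_of_cyclic (by rw [hcard]; exact h)

end Chi

section Def

variable (p n g N : ℕ) [hp : Fact p.Prime] (hp2 : p ≠ 2) (hN : N ≠ 0) (q : Fin g → Nat.Primes)
  (hd : ∀ i, p ^ (n + 1) ∣ (q i : ℕ) - 1) (hqN : ∀ i, ¬ (q i : ℕ) ∣ N)

open Classical in
/-- the characters -/
def chiQ (l : ℕ) : (ZMod l)ˣ →* DP p n :=
  if h : l.Prime ∧ p ^ (n + 1) ∣ l - 1 then (exists_chi p n l h.1 h.2).choose else 1

theorem chiQ_surjective {l : ℕ} (h : l.Prime) (h' : p ^ (n + 1) ∣ l - 1) :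
    Function.Surjective (chiQ p n l) := by
  rw [chiQ, dif_pos ⟨h, h'⟩]
  exact (exists_chi p n l h h').choose_spec

include hp2 in
theorem odd_card_DP : Odd (Nat.card (DP p n)) := by
  have h1 : Nat.card (DP p n) = p ^ (n + 1) := Nat.card_zmod _
  rw [h1]
  exact (hp.out.odd_of_ne_two hp2).pow

/-- **The Taylor–Wiles datum** of a set of Taylor–Wiles primes. -/
def twd : TWD (DP p n) where
  N := N
  Q := Finset.univ.image (fun i => (q i : ℕ))
  χ := chiQ p n
  tws := ⟨hN, fun l hl => by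
      obtain ⟨i, -, rfl⟩ := Finset.mem_image.mp hl
      exact (q i).2, fun l hl => by
      obtain ⟨i, -, rfl⟩ := Finset.mem_image.mp hl
      exact hqN i⟩
  surj l hl := by
    obtain ⟨i, -, rfl⟩ := Finset.mem_image.mp hl
    exact chiQ_surjective p n (q i).2 (hd i)
  odd := odd_card_DP p n hp2

theorem twd_N : (twd p n g N hp2 hN q hd hqN).N = N := rfl

theorem twd_Q : (twd p n g N hp2 hN q hd hqN).Q = Finset.univ.image (fun i => (q i : ℕ)) := rfl

theorem twd_chi : (twd p n g N hp2 hN q hd hqN).χ = chiQ p n := rfl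

variable (hinj : Function.Injective q)

/-- the indexing of the Taylor–Wiles primes -/
def idx : Fin g ≃ (twd p n g N hp2 hN q hd hqN).Q :=
  Equiv.ofBijective (fun i => ⟨(q i : ℕ), Finset.mem_image_of_mem _ (Finset.mem_univ i)⟩)
    ⟨fun i j h => hinj (Subtype.ext (Subtype.mk.inj h)), fun ⟨l, hl⟩ => by
      obtain ⟨i, -, h⟩ := Finset.mem_image.mp hl
      exact ⟨i, Subtype.ext h⟩⟩

theorem coe_idx (i : Fin g) :
    ((idx p n g N hp2 hN q hd hqN hinj i : (twd p n g N hp2 hN q hd hqN).Q) : ℕ) = q i := rfl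

include hinj

theorem prod_Q : ∏ l ∈ (twd p n g N hp2 hN q hd hqN).Q, l = ∏ i, (q i : ℕ) := by
  rw [twd_Q, Finset.prod_image]
  intro i _ j _ h
  exact hinj (Subtype.ext h)

theorem twd_M : (twd p n g N hp2 hN q hd hqN).M = N * ∏ i, (q i : ℕ) := by
  change N * ∏ l ∈ (twd p n g N hp2 hN q hd hqN).Q, l = _
  rw [prod_Q p n g N hp2 hN q hd hqN hinj]

theorem card_Q : (twd p n g N hp2 hN q hd hqN).Q.card = g := by
  rw [twd_Q, Finset.card_image_of_injective, Finset.card_univ, Fintype.card_fin]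
  intro i j h
  exact hinj (Subtype.ext h)

omit hinj in
theorem pow_eq_one (x : DP p n) : x ^ (p ^ (n + 1)) = 1 := by
  have : NeZero (p ^ (n + 1)) := ⟨pow_ne_zero _ hp.out.ne_zero⟩
  have h1 : Nat.card (DP p n) = p ^ (n + 1) := Nat.card_zmod _
  have h2 : x ^ Nat.card (DP p n) = 1 := pow_card_eq_one'
  calc x ^ (p ^ (n + 1)) = x ^ Nat.card (DP p n) := congrArg (fun m => x ^ m) h1.symm
    _ = 1 := h2

theorem card_delta [Fintype ((twd p n g N hp2 hN q hd hqN).Q → DP p n)] :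
    Fintype.card ((twd p n g N hp2 hN q hd hqN).Q → DP p n) = (p ^ (n + 1)) ^ g := by
  have : NeZero (p ^ (n + 1)) := ⟨pow_ne_zero _ hp.out.ne_zero⟩
  have h1 : Nat.card (DP p n) = p ^ (n + 1) := Nat.card_zmod _
  rw [← Nat.card_eq_fintype_card, Nat.card_fun, h1, Nat.card_eq_fintype_card, Fintype.card_coe,
    card_Q p n g N hp2 hN q hd hqN hinj]

omit hinj in
theorem isPGroup_delta : IsPGroup p ((twd p n g N hp2 hN q hd hqN).Q → DP p n) := by
  intro x
  refine ⟨n + 1, ?_⟩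
  funext i
  rw [Pi.pow_apply, Pi.one_apply]
  exact pow_eq_one p n (x i)

/-- generators -/
theorem closure_gen (c : ∀ i, (ZMod (q i : ℕ))ˣ)
    (hc : ∀ i (x : (ZMod (q i : ℕ))ˣ), x ∈ Subgroup.zpowers (c i)) :
    Subgroup.closure (Set.range fun i =>
      (Pi.mulSingle (idx p n g N hp2 hN q hd hqN hinj i)
        ((twd p n g N hp2 hN q hd hqN).χ (idx p n g N hp2 hN q hd hqN hinj i) (c i)) :
        (twd p n g N hp2 hN q hd hqN).Q → DP p n)) = ⊤ := by
  classical
  rw [eq_top_iff]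
  intro δ _
  refine Subgroup.pi_mem_of_mulSingle_mem δ fun l => ?_
  obtain ⟨i, rfl⟩ := (idx p n g N hp2 hN q hd hqN hinj).surjective l
  obtain ⟨u, hu⟩ := chiQ_surjective p n (q i).2 (hd i)
    (δ (idx p n g N hp2 hN q hd hqN hinj i))
  obtain ⟨k, rfl⟩ := Subgroup.mem_zpowers_iff.mp (hc i u)
  have h1 := Subgroup.zpow_mem _ (Subgroup.subset_closure (k :=
    Set.range fun i => (Pi.mulSingle (idx p n g N hp2 hN q hd hqN hinj i)
        ((twd p n g N hp2 hN q hd hqN).χ (idx p n g N hp2 hN q hd hqN hinj i) (c i)) :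
        (twd p n g N hp2 hN q hd hqN).Q → DP p n)) (Set.mem_range_self i)) k
  rw [← Pi.mulSingle_zpow] at h1
  have h2 : δ (idx p n g N hp2 hN q hd hqN hinj i) = (chiQ p n (q i) (c i)) ^ k := by
    rw [← hu, map_zpow]
  rw [h2]
  exact h1

end Def

end Fermat.Agent.TW

end
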