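import Fermat.Agent.TW.TameComm
import Fermat.Agent.TW.TWQ
import Fermat.Agent.RT8.Theta

/-!
An element of inertia at a Taylor–Wiles prime `q` acting on the `q`-th roots of unity through a
generator of `(ZMod q)ˣ` is a tame generator; consequence: it commutes with Frobenius.
-/

set_option autoImplicit false

namespace Fermat.Agent.TW

open IsLocalRing
open Fermat.Agent.DefRing (GQ M2 MatCont Red SliceData)
open Fermat.Agent.TWP hiding GQ M2

/-- **TAMEG** -/
theorem ne_of_zeta_gen {p : ℕ} [hp : Fact p.Prime] {q : Nat.Primes} (hq : p ∣ (q : ℕ) - 1)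
    {c : Qb} (hc : c ^ p = ((q : ℕ) : Qb)) {s : GQ} (hs : s ∈ (Pl q).inertiaSubgroupIn ℚ)
    (u : (ZMod (q : ℕ))ˣ) (hu : ∀ x : (ZMod (q : ℕ))ˣ, x ∈ Subgroup.zpowers u)
    (hζ : ∀ ζ : Qb, ζ ^ (q : ℕ) = 1 → s ζ = ζ ^ (u : ZMod (q : ℕ)).val) : s c ≠ c := by
  intro hsc
  have hqp : (q : ℕ) ≠ p := by
    intro h
    rw [h] at hq
    have h1 := hp.out.two_le
    have h2 := Nat.le_of_dvd (by omega) hq
    omega
  have hc0 : c ≠ 0 := by
    rintro rfl
    rw [zero_pow hp.out.ne_zero] at hc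
    exact q.2.ne_zero (by exact_mod_cast hc.symm)
  have : NeZero (q : ℕ) := ⟨q.2.ne_zero⟩
  obtain ⟨χ, hχ⟩ := exists_chi p 0 (q : ℕ) q.2 (by rw [zero_add, pow_one]; exact hq)
  obtain ⟨ζ, hζ1⟩ := HasEnoughRootsOfUnity.exists_primitiveRoot (AlgebraicClosure ℚ) (q : ℕ)
  have hDp : ∀ x : DP p 0, x ^ p = 1 := by
    intro x
    have h1 := Fermat.Agent.TW.pow_eq_one p 0 x
    have h2 : p ^ (0 + 1) = p := by rw [zero_add, pow_one]
    exact (congrArg (x ^ ·) h2).symm.trans h1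
  obtain ⟨τ, hτ, hτc⟩ := exists_move hqp hc
  have hinj : ∀ (σ : GQ) (v : (ZMod (q : ℕ))ˣ), σ ζ = ζ ^ (v : ZMod (q : ℕ)).val →
      hζ1.autToPow ℚ σ = v := by
    intro σ v h
    have h1 := hζ1.autToPow_spec ℚ σ
    have h2 := hζ1.pow_inj (ZMod.val_lt _) (ZMod.val_lt _) (h1.trans h)
    exact Units.ext (ZMod.val_injective _ h2)
  let f : ↥((Pl q).inertiaSubgroupIn ℚ) →* DP p 0 :=
    χ.comp ((hζ1.autToPow ℚ).comp (Subgroup.subtype _))
  have hfv : ∀ σ, f σ = χ (hζ1.autToPow ℚ σ.1) := fun σ => rfl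
  have hfd : FiniteDimensional ℚ (IntermediateField.adjoin ℚ {ζ}) :=
    IntermediateField.adjoin.finiteDimensional (Algebra.IsAlgebraic.isAlgebraic ζ).isIntegral
  have hcfd : FiniteDimensional ℚ (IntermediateField.adjoin ℚ {c}) :=
    IntermediateField.adjoin.finiteDimensional (Algebra.IsAlgebraic.isAlgebraic c).isIntegral
  have hκp : ∀ σ, kumI hqp c hc0 hc σ ^ p = 1 := by
    intro σ
    apply Units.ext
    rw [Units.val_pow_eq_pow_val, Units.val_one]
    show (σ.1 c / c) ^ p = 1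
    rw [div_pow, ← map_pow, hc, map_natCast, div_self]
    exact_mod_cast q.2.ne_zero
  obtain ⟨j, hj⟩ := tame_gen hqp hc hτ hτc (f.prod (kumI hqp c hc0 hc))
    (IntermediateField.adjoin ℚ {ζ} ⊔ IntermediateField.adjoin ℚ {c}) (by
      intro σ hσ
      rw [MonoidHom.prod_apply, Prod.mk_eq_one]
      constructor
      · have h1 : σ.1 ζ = ζ := hσ ζ ((le_sup_left : IntermediateField.adjoin ℚ {ζ} ≤ _)
          (IntermediateField.mem_adjoin_simple_self ℚ ζ))
        rw [hfv, hinj σ.1 1 ?_, map_one]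
        have : Fact (1 < (q : ℕ)) := ⟨q.2.one_lt⟩
        rw [h1, Units.val_one, ZMod.val_one, pow_one]
      · apply Units.ext
        show σ.1 c / c = 1
        rw [hσ c ((le_sup_right : IntermediateField.adjoin ℚ {c} ≤ _)
          (IntermediateField.mem_adjoin_simple_self ℚ c)), div_self hc0]) (by
      intro σ
      refine ⟨1, ?_⟩
      have h2 : (f.prod (kumI hqp c hc0 hc)) σ ^ p = 1 := by
        rw [MonoidHom.prod_apply, Prod.pow_mk, Prod.mk_eq_one]
        exact ⟨hDp _, hκp σ⟩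
      exact (congrArg ((f.prod (kumI hqp c hc0 hc)) σ ^ ·) (pow_one p)).trans h2) ⟨s, hs⟩
  have hj1 : f ⟨s, hs⟩ = f ⟨τ, hτ⟩ ^ j := congrArg Prod.fst hj
  have hj2 : kumI hqp c hc0 hc ⟨s, hs⟩ = kumI hqp c hc0 hc ⟨τ, hτ⟩ ^ j := congrArg Prod.snd hj
  have hks : kumI hqp c hc0 hc ⟨s, hs⟩ = 1 := by
    apply Units.ext
    show s c / c = 1
    rw [hsc, div_self hc0]
  have hpj : (p : ℤ) ∣ j := by
    by_contra hnd
    have h1 : kumI hqp c hc0 hc ⟨τ, hτ⟩ ^ j = 1 := by rw [← hj2, hks]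
    have h2 : IsCoprime j (p : ℤ) :=
      ((Nat.prime_iff_prime_int.mp hp.out).coprime_iff_not_dvd.mpr hnd).symm
    obtain ⟨a, b, hab⟩ := h2
    have h3 : kumI hqp c hc0 hc ⟨τ, hτ⟩ = 1 := by
      calc kumI hqp c hc0 hc ⟨τ, hτ⟩ = kumI hqp c hc0 hc ⟨τ, hτ⟩ ^ (a * j + b * p) := by
            rw [hab, zpow_one]
        _ = 1 := by
            rw [zpow_add, mul_comm a, zpow_mul, h1, one_zpow, mul_comm b, zpow_mul, zpow_natCast,
              hκp, one_zpow, mul_one]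
    have h4 : τ c / c = 1 := congrArg Units.val h3
    exact hτc ((div_eq_one_iff_eq hc0).mp h4)
  have hfs : f ⟨s, hs⟩ = 1 := by
    obtain ⟨i, rfl⟩ := hpj
    rw [hj1, zpow_mul, zpow_natCast, hDp, one_zpow]
  have hχu : χ u = 1 := by
    rw [← hfs, hfv, hinj s u (hζ ζ hζ1.pow_eq_one)]
  -- the character is trivial
  have htriv : ∀ x : DP p 0, x = 1 := by
    intro x
    obtain ⟨v, rfl⟩ := hχ x
    obtain ⟨i, rfl⟩ := Subgroup.mem_zpowers_iff.mp (hu v)
    rw [map_zpow, hχu, one_zpow]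
  have h5 : Multiplicative.ofAdd (1 : ZMod (p ^ (0 + 1))) = 1 := htriv _
  have h6 : (1 : ZMod (p ^ (0 + 1))) = 0 := congrArg Multiplicative.toAdd h5
  have : Fact (1 < p ^ (0 + 1)) := ⟨by rw [zero_add, pow_one]; exact hp.out.one_lt⟩
  exact one_ne_zero h6

/-- Frobenius commutes with the tame generator in the components of the patching systems. -/
theorem commute_TW {O : Type} [CommRing O] [IsDomain O] [IsDiscreteValuationRing O]
    {rbar : GQ →* M2 (ResidueField O)} {sd : SliceData rbar} {p : ℕ} [hp : Fact p.Prime]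
    (hp2 : p ≠ 2) (hpO : (p : O) ∈ maximalIdeal O) (P : RT8.TWP rbar) (C : RT8.Cpt sd)
    {q : Nat.Primes} (hq : p ∣ (q : ℕ) - 1) (hφ : (Pl q).IsFrobeniusAt P.φ q)
    (hs : P.s ∈ (Pl q).inertiaSubgroupIn ℚ)
    (hI : ∀ σ ∈ (Pl q).inertiaSubgroupIn ℚ, rbar σ = 1)
    (u : (ZMod (q : ℕ))ˣ) (hu : ∀ x : (ZMod (q : ℕ))ˣ, x ∈ Subgroup.zpowers u)
    (hζ : ∀ ζ : Qb, ζ ^ (q : ℕ) = 1 → P.s ζ = ζ ^ (u : ZMod (q : ℕ)).val) :
    C.r P.φ * C.r P.s = C.r P.s * C.r P.φ := by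
  have : IsNoetherianRing C.T := IsNoetherianRing.of_finite O C.T
  have hpT : (p : C.T) ∈ maximalIdeal C.T := by
    have h1 : algebraMap O C.T (p : O) ∈ maximalIdeal C.T := by
      rw [mem_maximalIdeal, mem_nonunits_iff] at hpO ⊢
      exact fun hu => hpO (isUnit_of_map_unit (algebraMap O C.T) _ hu)
    rwa [map_natCast] at h1
  obtain ⟨c, hc⟩ : ∃ c : Qb, c ^ p = ((q : ℕ) : Qb) :=
    IsAlgClosed.exists_pow_nat_eq _ hp.out.pos
  have hsc := ne_of_zeta_gen hq hc hs u hu hζ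
  refine commute_inertia hp2 hpT C.r C.cont hq hc hs hsc hφ (fun σ hσ i j => ?_) ?_
  · have h1 := hI σ hσ
    rw [Matrix.sub_apply]
    by_cases hij : i = j
    · subst hij
      have h2 := C.red σ i i 1 (by rw [map_one, h1, Matrix.one_apply_eq])
      rw [map_one] at h2
      rwa [Matrix.one_apply_eq]
    · have h2 := C.red σ i j 0 (by rw [map_zero, h1, Matrix.one_apply_ne hij])
      rw [map_zero] at h2
      rwa [Matrix.one_apply_ne hij]
  · have ht := RT8.trace_red C.red P.φ P.tr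
    have hd := RT8.det_red C.red P.φ P.det
    have hab : IsUnit (P.a - P.b) := by
      by_contra hcon
      have h1 : P.a - P.b ∈ maximalIdeal O := hcon
      exact P.ne (by rw [← sub_eq_zero, ← map_sub]; exact (residue_eq_zero_iff _).mpr h1)
    by_contra hcon
    have h2 : (C.r P.φ).trace ^ 2 - 4 * (C.r P.φ).det ∈ maximalIdeal C.T := hcon
    have h3 : algebraMap O C.T (P.a - P.b) ^ 2 ∈ maximalIdeal C.T := by
      have e : algebraMap O C.T (P.a - P.b) ^ 2 = ((C.r P.φ).trace ^ 2 - 4 * (C.r P.φ).det) -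
          ((C.r P.φ).trace + algebraMap O C.T (P.a + P.b)) *
            ((C.r P.φ).trace - algebraMap O C.T (P.a + P.b)) +
          4 * ((C.r P.φ).det - algebraMap O C.T (P.a * P.b)) := by
        rw [map_sub, map_add, map_mul]; ring
      rw [e]
      exact Ideal.add_mem _ (Ideal.sub_mem _ h2 (Ideal.mul_mem_left _ _ ht))
        (Ideal.mul_mem_left _ _ hd)
    exact (mem_nonunits_iff.mp ((mem_maximalIdeal _).mp h3))
      ((hab.map (algebraMap O C.T)).pow 2)

end Fermat.Agent.TW
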