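import Mathlib.LinearAlgebra.GeneralLinearGroup.AlgEquiv
import Mathlib.LinearAlgebra.Matrix.ToLin
import Mathlib.LinearAlgebra.Matrix.Trace
import Mathlib.LinearAlgebra.FiniteDimensional.Lemmas
import Mathlib.Algebra.MonoidAlgebra.Basic
import Mathlib.LinearAlgebra.Matrix.FiniteDimensional
import Mathlib.LinearAlgebra.Matrix.GeneralLinearGroup.Defs

/-!
Representations with the same trace as an absolutely irreducible one.
-/

set_option autoImplicit false

noncomputable section

namespace Fermat.Agent.TW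

variable {K G n : Type} [Field K] [Group G] [Fintype n] [DecidableEq n]

/-- extension to the group algebra -/
def bnLift (r : G →* Matrix n n K) : MonoidAlgebra K G →ₐ[K] Matrix n n K :=
  MonoidAlgebra.lift K (Matrix n n K) G r

theorem bnLift_of (r : G →* Matrix n n K) (g : G) : bnLift r (MonoidAlgebra.of K G g) = r g :=
  MonoidAlgebra.lift_of _ _

theorem bnLift_surjective {r : G →* Matrix n n K}
    (h : Submodule.span K (Set.range r) = ⊤) : Function.Surjective (bnLift r) := by
  intro X
  have hX : X ∈ Submodule.span K (Set.range r) := by rw [h]; trivial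
  induction hX using Submodule.span_induction with
  | mem X hX =>
    obtain ⟨g, rfl⟩ := hX
    exact ⟨_, bnLift_of r g⟩
  | zero => exact ⟨0, map_zero _⟩
  | add X Y _ _ hX hY =>
    obtain ⟨x, rfl⟩ := hX
    obtain ⟨y, rfl⟩ := hY
    exact ⟨x + y, map_add _ _ _⟩
  | smul a X _ hX =>
    obtain ⟨x, rfl⟩ := hX
    exact ⟨a • x, map_smul _ _ _⟩

theorem bnLift_trace {r r' : G →* Matrix n n K} (h : ∀ g, (r g).trace = (r' g).trace)
    (x : MonoidAlgebra K G) : (bnLift r x).trace = (bnLift r' x).trace := by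
  induction x using MonoidAlgebra.induction_on with
  | of g => rw [bnLift_of, bnLift_of, h]
  | add x y hx hy => rw [map_add, map_add, Matrix.trace_add, Matrix.trace_add, hx, hy]
  | smul a x hx => rw [map_smul, map_smul, Matrix.trace_smul, Matrix.trace_smul, hx]

theorem mat_eq_zero_of_trace {X : Matrix n n K} (h : ∀ Y, (X * Y).trace = 0) : X = 0 := by
  ext i j
  have h1 := h (Matrix.single j i 1)
  rw [Matrix.trace_mul_comm, Matrix.trace_single_mul, one_smul] at h1
  exact h1

theorem bnLift_ker {r r' : G →* Matrix n n K} (h : ∀ g, (r g).trace = (r' g).trace)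
    (hs : Function.Surjective (bnLift r)) {x : MonoidAlgebra K G} (hx : bnLift r' x = 0) :
    bnLift r x = 0 := by
  refine mat_eq_zero_of_trace fun Y => ?_
  obtain ⟨y, rfl⟩ := hs Y
  rw [← map_mul, bnLift_trace h, map_mul, hx, zero_mul, Matrix.trace_zero]

theorem exists_conj_of_algEquiv (e : Matrix n n K ≃ₐ[K] Matrix n n K) :
    ∃ X : Matrix n n K, IsUnit X ∧ ∀ M, X * M = e M * X := by
  let c : Matrix n n K ≃ₐ[K] Module.End K (n → K) := Matrix.toLinAlgEquiv'
  obtain ⟨T, hT⟩ := ((c.symm.trans e).trans c).eq_linearEquivConjAlgEquiv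
  let X : Matrix n n K := c.symm (T : (n → K) →ₗ[K] (n → K))
  let Y : Matrix n n K := c.symm (T.symm : (n → K) →ₗ[K] (n → K))
  have hXY : X * Y = 1 := by
    rw [← map_mul]
    have : (T : (n → K) →ₗ[K] (n → K)) * (T.symm : (n → K) →ₗ[K] (n → K)) = 1 :=
      LinearMap.ext fun v => T.apply_symm_apply v
    rw [this, map_one]
  refine ⟨X, IsUnit.of_mul_eq_one Y hXY, fun M => ?_⟩
  apply c.injective
  rw [map_mul, map_mul]
  have h1 : c X = (T : (n → K) →ₗ[K] (n → K)) := c.apply_symm_apply _
  have h2 : c (e M) = T.conjAlgEquiv K (c M) := by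
    rw [← hT]
    change c (e M) = c (e (c.symm (c M)))
    rw [c.symm_apply_apply]
  rw [h1, h2]
  refine LinearMap.ext fun v => ?_
  change T (c M v) = T (c M (T.symm (T v)))
  rw [T.symm_apply_apply]

/-- **Representations with the same trace as an absolutely irreducible one are conjugate
to it.** -/
theorem conj_of_trace {r r' : G →* Matrix n n K} (h : ∀ g, (r g).trace = (r' g).trace)
    (hspan : Submodule.span K (Set.range r) = ⊤) :
    ∃ X : Matrix n n K, IsUnit X ∧ ∀ g, X * r g = r' g * X := by
  have hs := bnLift_surjective hspan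
  obtain ⟨s, hs'⟩ := (bnLift r).toLinearMap.exists_rightInverse_of_surjective
    (LinearMap.range_eq_top.mpr hs)
  have hs1 : ∀ X, bnLift r (s X) = X := fun X => LinearMap.congr_fun hs' X
  let g : Matrix n n K →ₗ[K] Matrix n n K := (bnLift r').toLinearMap ∘ₗ s
  have hg : ∀ X, g X = bnLift r' (s X) := fun _ => rfl
  have hginj : Function.Injective g := by
    rw [← LinearMap.ker_eq_bot, LinearMap.ker_eq_bot']
    intro X hX
    rw [← hs1 X]
    exact bnLift_ker h hs hX
  have hgsurj : Function.Surjective g := LinearMap.surjective_of_injective hginj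
  have hs' : Function.Surjective (bnLift r') := fun X => by
    obtain ⟨Y, rfl⟩ := hgsurj X
    exact ⟨_, rfl⟩
  have hgx : ∀ x, g (bnLift r x) = bnLift r' x := by
    intro x
    rw [hg, ← sub_eq_zero, ← map_sub]
    refine bnLift_ker (fun g => (h g).symm) hs' ?_
    rw [map_sub, hs1, sub_self]
  let g' : Matrix n n K →ₐ[K] Matrix n n K := AlgHom.ofLinearMap g (by
      rw [← map_one (bnLift r), hgx, map_one, map_one]) (by
      intro X Y
      obtain ⟨x, rfl⟩ := hs X
      obtain ⟨y, rfl⟩ := hs Y
      rw [← map_mul, hgx, hgx, hgx, map_mul])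
  obtain ⟨X, hX, hX'⟩ := exists_conj_of_algEquiv (AlgEquiv.ofBijective g' ⟨hginj, hgsurj⟩)
  refine ⟨X, hX, fun σ => ?_⟩
  rw [hX']
  congr 1
  change g (r σ) = _
  rw [← bnLift_of r, hgx, bnLift_of]

end Fermat.Agent.TW

end
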