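import Mathlib.RepresentationTheory.Basic
import Mathlib.LinearAlgebra.Quotient.Basic
import Mathlib.Algebra.BigOperators.GroupWithZero.Action
import Mathlib.Tactic.Group
import Mathlib.Tactic.Abel

/-!
Group cohomology `H¹(Γ, V)` (as crossed homomorphisms modulo coboundaries), with `Γ → 𝒢` a subgroup
of an ambient group acting on the coefficients, and Hecke operators (correspondences)
`H¹(Γ, V) → H¹(Γ', V)`.
-/

set_option autoImplicit false

noncomputable section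

namespace Fermat.Agent.TW

/-- Data for a Hecke operator `H¹(Γ, V) → H¹(Γ', V)`. -/
structure Corr {𝒢 Γ Γ' : Type} [Group 𝒢] [Group Γ] [Group Γ'] (ι : Γ →* 𝒢) (ι' : Γ' →* 𝒢) where
  /-- index set of the cosets -/
  X : Type
  /-- it is finite -/
  [fin : Fintype X]
  /-- the representatives -/
  α : X → 𝒢
  /-- `Γ` is a subgroup -/
  inj : Function.Injective ι
  /-- existence of the action -/
  ex : ∀ (g : Γ') (x : X), ∃ (y : X) (h : Γ), α x * ι' g = ι h * α y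
  /-- the cosets are distinct -/
  uniq : ∀ (h : Γ) (x y : X), α x = ι h * α y → x = y

attribute [instance] Corr.fin

namespace Corr

variable {𝒢 Γ Γ' : Type} [Group 𝒢] [Group Γ] [Group Γ'] {ι : Γ →* 𝒢} {ι' : Γ' →* 𝒢}
  (D : Corr ι ι')

/-- the action of `Γ'` on the cosets -/
def actFun (g : Γ') (x : D.X) : D.X := (D.ex g x).choose

/-- the cocycle -/
def coc (g : Γ') (x : D.X) : Γ := (D.ex g x).choose_spec.choose

theorem spec (g : Γ') (x : D.X) : D.α x * ι' g = ι (D.coc g x) * D.α (D.actFun g x) :=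
  (D.ex g x).choose_spec.choose_spec

theorem eq_of_spec {g : Γ'} {x y : D.X} {h : Γ} (hh : D.α x * ι' g = ι h * D.α y) :
    y = D.actFun g x ∧ h = D.coc g x := by
  have h2 := hh.symm.trans (D.spec g x)
  have h3 : D.α y = ι (h⁻¹ * D.coc g x) * D.α (D.actFun g x) := by
    rw [map_mul, map_inv, mul_assoc, ← h2, inv_mul_cancel_left]
  have h4 := D.uniq _ _ _ h3
  refine ⟨h4, ?_⟩
  rw [← h4] at h2
  exact D.inj (mul_right_cancel h2)

theorem mul_aux (g h : Γ') (x : D.X) :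
    D.actFun h (D.actFun g x) = D.actFun (g * h) x ∧
      D.coc g x * D.coc h (D.actFun g x) = D.coc (g * h) x := by
  apply D.eq_of_spec
  rw [map_mul, ← mul_assoc, D.spec g x, mul_assoc, D.spec h, map_mul, mul_assoc]

theorem one_aux (x : D.X) : x = D.actFun 1 x ∧ (1 : Γ) = D.coc 1 x := by
  apply D.eq_of_spec
  simp

theorem actFun_mul (g h : Γ') (x : D.X) :
    D.actFun (g * h) x = D.actFun h (D.actFun g x) := (D.mul_aux g h x).1.symm

theorem coc_mul (g h : Γ') (x : D.X) :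
    D.coc (g * h) x = D.coc g x * D.coc h (D.actFun g x) := (D.mul_aux g h x).2.symm

theorem actFun_one (x : D.X) : D.actFun 1 x = x := (D.one_aux x).1.symm

theorem coc_one (x : D.X) : D.coc 1 x = 1 := (D.one_aux x).2.symm

/-- the permutation of the cosets -/
def perm (g : Γ') : Equiv.Perm D.X where
  toFun := D.actFun g
  invFun := D.actFun g⁻¹
  left_inv x := by rw [← actFun_mul, mul_inv_cancel, actFun_one]
  right_inv x := by rw [← actFun_mul, inv_mul_cancel, actFun_one]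

@[simp] theorem perm_apply (g : Γ') (x : D.X) : D.perm g x = D.actFun g x := rfl

end Corr

section Coh

variable {R : Type} [CommRing R] {𝒢 Γ Γ' Γ'' : Type} [Group 𝒢] [Group Γ] [Group Γ'] [Group Γ'']
  {V W : Type} [AddCommGroup V] [Module R V] [AddCommGroup W] [Module R W]

/-- crossed homomorphisms -/
def Z1 (ι : Γ →* 𝒢) (ρ : Representation R 𝒢 V) : Submodule R (Γ → V) where
  carrier := {f | ∀ g h, f (g * h) = f g + ρ (ι g) (f h)}
  add_mem' {f f'} hf hf' g h := by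
    change f (g * h) + f' (g * h) = f g + f' g + ρ (ι g) (f h + f' h)
    rw [hf, hf', map_add]
    abel
  zero_mem' g h := by
    change (0 : V) = 0 + ρ (ι g) 0
    rw [map_zero, add_zero]
  smul_mem' c f hf g h := by
    change c • f (g * h) = c • f g + ρ (ι g) (c • f h)
    rw [hf, map_smul, smul_add]

variable {ι : Γ →* 𝒢} {ι' : Γ' →* 𝒢} {ι'' : Γ'' →* 𝒢} {ρ : Representation R 𝒢 V}
  {σ : Representation R 𝒢 W}

theorem Z1.mul (f : Z1 ι ρ) (g h : Γ) : f.1 (g * h) = f.1 g + ρ (ι g) (f.1 h) := f.2 g h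

theorem Z1.one (f : Z1 ι ρ) : f.1 1 = 0 := by
  have h := Z1.mul f 1 1
  rw [mul_one, map_one, map_one] at h
  exact left_eq_add.mp h

theorem Z1.inv (f : Z1 ι ρ) (g : Γ) : f.1 g⁻¹ = - ρ (ι g⁻¹) (f.1 g) := by
  have h := Z1.mul f g⁻¹ g
  rw [inv_mul_cancel, Z1.one] at h
  exact eq_neg_of_add_eq_zero_left h.symm

theorem rho_mul' (g h : 𝒢) (v : V) : ρ (g * h) v = ρ g (ρ h v) := by
  rw [map_mul]; rfl

theorem rho_inv_cancel (g : 𝒢) (v : V) : ρ g⁻¹ (ρ g v) = v := by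
  rw [← rho_mul', inv_mul_cancel, map_one]; rfl

theorem rho_cancel_inv (g : 𝒢) (v : V) : ρ g (ρ g⁻¹ v) = v := by
  rw [← rho_mul', mul_inv_cancel, map_one]; rfl

variable (ι ρ) in
/-- the coboundary map -/
def cobLin : V →ₗ[R] Z1 ι ρ where
  toFun v := ⟨fun g => ρ (ι g) v - v, fun g h => by
    change ρ (ι (g * h)) v - v = ρ (ι g) v - v + ρ (ι g) (ρ (ι h) v - v)
    rw [map_mul, rho_mul', map_sub]
    abel⟩
  map_add' v w := by
    ext g
    change ρ (ι g) (v + w) - (v + w) = (ρ (ι g) v - v) + (ρ (ι g) w - w)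
    rw [map_add]
    abel
  map_smul' c v := by
    ext g
    change ρ (ι g) (c • v) - c • v = c • (ρ (ι g) v - v)
    rw [map_smul, smul_sub]

@[simp] theorem cobLin_apply (v : V) (g : Γ) : (cobLin ι ρ v).1 g = ρ (ι g) v - v := rfl

variable (ι ρ) in
/-- coboundaries -/
def B1 : Submodule R (Z1 ι ρ) := LinearMap.range (cobLin ι ρ)

variable (ι ρ) in
/-- first cohomology -/
def H1 : Type := Z1 ι ρ ⧸ B1 ι ρ

instance : AddCommGroup (H1 ι ρ) := inferInstanceAs (AddCommGroup (Z1 ι ρ ⧸ B1 ι ρ))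
instance : Module R (H1 ι ρ) := inferInstanceAs (Module R (Z1 ι ρ ⧸ B1 ι ρ))

variable (ι ρ) in
/-- the class of a crossed homomorphism -/
def H1.mk : Z1 ι ρ →ₗ[R] H1 ι ρ := (B1 ι ρ).mkQ

theorem H1.mk_surjective : Function.Surjective (H1.mk ι ρ) := (B1 ι ρ).mkQ_surjective

theorem H1.mk_eq_zero {f : Z1 ι ρ} : H1.mk ι ρ f = 0 ↔ ∃ v, cobLin ι ρ v = f :=
  (Submodule.Quotient.mk_eq_zero _).trans Iff.rfl

theorem H1.mk_cob (v : V) : H1.mk ι ρ (cobLin ι ρ v) = 0 := H1.mk_eq_zero.mpr ⟨v, rfl⟩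

theorem H1.mk_eq {f f' : Z1 ι ρ} (v : V) (h : ∀ g, f.1 g = f'.1 g + (ρ (ι g) v - v)) :
    H1.mk ι ρ f = H1.mk ι ρ f' := by
  have : f = f' + cobLin ι ρ v := Subtype.ext (funext h)
  rw [this, map_add, H1.mk_cob, add_zero]

/-! ### functoriality in the coefficients -/

/-- morphisms of coefficients -/
structure CHom (ρ : Representation R 𝒢 V) (σ : Representation R 𝒢 W) extends V →ₗ[R] W where
  /-- equivariance -/
  comm' : ∀ g v, toFun (ρ g v) = σ g (toFun v)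

theorem CHom.comm (φ : CHom ρ σ) (g : 𝒢) (v : V) :
    φ.toLinearMap (ρ g v) = σ g (φ.toLinearMap v) := φ.comm' g v

/-- functoriality in the coefficients -/
def Z1.map (ι : Γ →* 𝒢) (φ : CHom ρ σ) : Z1 ι ρ →ₗ[R] Z1 ι σ where
  toFun f := ⟨fun g => φ.toLinearMap (f.1 g), fun g h => by
    change φ.toLinearMap (f.1 (g * h)) = φ.toLinearMap (f.1 g) + σ (ι g) (φ.toLinearMap (f.1 h))
    rw [Z1.mul, map_add, φ.comm]⟩
  map_add' f f' := by
    ext g
    exact map_add φ.toLinearMap _ _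
  map_smul' c f := by
    ext g
    exact map_smul φ.toLinearMap _ _

@[simp] theorem Z1.map_apply (φ : CHom ρ σ) (f : Z1 ι ρ) (g : Γ) :
    (Z1.map ι φ f).1 g = φ.toLinearMap (f.1 g) := rfl

theorem Z1.map_cob (φ : CHom ρ σ) (v : V) :
    Z1.map ι φ (cobLin ι ρ v) = cobLin ι σ (φ.toLinearMap v) := by
  ext g
  change φ.toLinearMap (ρ (ι g) v - v) = σ (ι g) (φ.toLinearMap v) - φ.toLinearMap v
  rw [map_sub, φ.comm]

/-- functoriality in the coefficients -/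
def H1.map (ι : Γ →* 𝒢) (φ : CHom ρ σ) : H1 ι ρ →ₗ[R] H1 ι σ :=
  Submodule.mapQ _ _ (Z1.map ι φ) (by
    rintro _ ⟨v, rfl⟩
    exact ⟨φ.toLinearMap v, (Z1.map_cob φ v).symm⟩)

@[simp] theorem H1.map_mk (φ : CHom ρ σ) (f : Z1 ι ρ) :
    H1.map ι φ (H1.mk ι ρ f) = H1.mk ι σ (Z1.map ι φ f) := rfl

theorem H1.hom_ext {N : Type*} [AddCommGroup N] [Module R N] {φ ψ : H1 ι ρ →ₗ[R] N}
    (h : ∀ f, φ (H1.mk ι ρ f) = ψ (H1.mk ι ρ f)) : φ = ψ := by
  ext x
  obtain ⟨f, rfl⟩ := H1.mk_surjective x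
  exact h f

/-! ### Hecke operators -/

namespace Corr

variable (D : Corr ι ι') (ρ)

theorem rho_coc (g : Γ') (x : D.X) (v : V) :
    ρ (D.α x)⁻¹ (ρ (ι (D.coc g x)) v) = ρ (ι' g) (ρ (D.α (D.actFun g x))⁻¹ v) := by
  rw [← rho_mul', ← rho_mul']
  congr 2
  have h := D.spec g x
  rw [inv_mul_eq_iff_eq_mul, ← mul_assoc, h, mul_inv_cancel_right]

/-- The Hecke operator on crossed homomorphisms. -/
def zmap : Z1 ι ρ →ₗ[R] Z1 ι' ρ where
  toFun f := ⟨fun g => ∑ x : D.X, ρ (D.α x)⁻¹ (f.1 (D.coc g x)), fun g h => by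
    change ∑ x : D.X, ρ (D.α x)⁻¹ (f.1 (D.coc (g * h) x)) =
      ∑ x : D.X, ρ (D.α x)⁻¹ (f.1 (D.coc g x)) +
        ρ (ι' g) (∑ x : D.X, ρ (D.α x)⁻¹ (f.1 (D.coc h x)))
    rw [map_sum, ← Equiv.sum_comp (D.perm g)
      (fun x => ρ (ι' g) (ρ (D.α x)⁻¹ (f.1 (D.coc h x)))), ← Finset.sum_add_distrib]
    refine Finset.sum_congr rfl fun x _ => ?_
    rw [coc_mul, Z1.mul, map_add, rho_coc, perm_apply]⟩
  map_add' f f' := by
    ext g
    change ∑ x : D.X, ρ (D.α x)⁻¹ (f.1 (D.coc g x) + f'.1 (D.coc g x)) =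
      ∑ x : D.X, ρ (D.α x)⁻¹ (f.1 (D.coc g x)) + ∑ x : D.X, ρ (D.α x)⁻¹ (f'.1 (D.coc g x))
    rw [← Finset.sum_add_distrib]
    exact Finset.sum_congr rfl fun x _ => map_add _ _ _
  map_smul' c f := by
    ext g
    change ∑ x : D.X, ρ (D.α x)⁻¹ (c • f.1 (D.coc g x)) =
      c • ∑ x : D.X, ρ (D.α x)⁻¹ (f.1 (D.coc g x))
    rw [Finset.smul_sum]
    exact Finset.sum_congr rfl fun x _ => map_smul _ _ _

theorem zmap_apply (f : Z1 ι ρ) (g : Γ') :
    (D.zmap ρ f).1 g = ∑ x : D.X, ρ (D.α x)⁻¹ (f.1 (D.coc g x)) := rfl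

theorem zmap_cob (v : V) :
    D.zmap ρ (cobLin ι ρ v) = cobLin ι' ρ (∑ x : D.X, ρ (D.α x)⁻¹ v) := by
  ext g
  rw [zmap_apply, cobLin_apply, map_sum, ← Equiv.sum_comp (D.perm g)
      (fun x => ρ (ι' g) (ρ (D.α x)⁻¹ v)), ← Finset.sum_sub_distrib]
  refine Finset.sum_congr rfl fun x _ => ?_
  rw [cobLin_apply, map_sub, rho_coc, perm_apply]

/-- The Hecke operator on cohomology. -/
def map : H1 ι ρ →ₗ[R] H1 ι' ρ :=
  Submodule.mapQ _ _ (D.zmap ρ) (by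
    rintro _ ⟨v, rfl⟩
    exact ⟨_, (D.zmap_cob ρ v).symm⟩)

@[simp] theorem map_mk (f : Z1 ι ρ) : D.map ρ (H1.mk ι ρ f) = H1.mk ι' ρ (D.zmap ρ f) := rfl

variable {ρ}

theorem map_natural (φ : CHom ρ σ) (x : H1 ι ρ) :
    H1.map ι' φ (D.map ρ x) = D.map σ (H1.map ι φ x) := by
  obtain ⟨f, rfl⟩ := H1.mk_surjective x
  rw [map_mk, H1.map_mk, H1.map_mk, map_mk]
  congr 1
  ext g
  rw [Z1.map_apply, zmap_apply, zmap_apply, map_sum]
  refine Finset.sum_congr rfl fun x _ => ?_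
  rw [φ.comm]
  rfl

/-- The key computation for compositions and comparisons of Hecke operators. -/
theorem compare (f : Z1 ι ρ) {Z : Type} [Fintype Z] (A : Z → 𝒢) (g : Γ') (act : Z → Z)
    (hact : Function.Bijective act) (c : Z → Γ) (hc : ∀ z, A z * ι' g = ι (c z) * A (act z))
    (e : Z → D.X) (h : Z → Γ) (he : ∀ z, A z = ι (h z) * D.α (e z)) :
    ∑ z, ρ (A z)⁻¹ (f.1 (c z)) = ∑ z, ρ (D.α (e z))⁻¹ (f.1 (D.coc g (e z))) +
      (∑ z, ρ (A z)⁻¹ (f.1 (h z)) - ρ (ι' g) (∑ z, ρ (A z)⁻¹ (f.1 (h z)))) := by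
  have key : ∀ z, e (act z) = D.actFun g (e z) ∧ (h z)⁻¹ * c z * h (act z) = D.coc g (e z) := by
    intro z
    apply D.eq_of_spec
    have h1 := hc z
    rw [he z, mul_assoc, he (act z)] at h1
    rw [map_mul, map_mul, map_inv]
    calc D.α (e z) * ι' g = (ι (h z))⁻¹ * (ι (h z) * (D.α (e z) * ι' g)) := by group
      _ = _ := by rw [h1]; group
  rw [map_sum, ← (Equiv.ofBijective act hact).sum_comp
    (fun z => ρ (ι' g) (ρ (A z)⁻¹ (f.1 (h z)))), ← Finset.sum_sub_distrib,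
    ← Finset.sum_add_distrib]
  refine Finset.sum_congr rfl fun z _ => ?_
  obtain ⟨h1, h2⟩ := key z
  have h3 : c z = h z * D.coc g (e z) * (h (act z))⁻¹ := by rw [← h2]; group
  rw [h3, Z1.mul, Z1.mul, map_add, map_add, Z1.inv, map_neg, map_neg, Equiv.ofBijective_apply]
  have h4 : ρ (A z)⁻¹ (ρ (ι (h z)) (f.1 (D.coc g (e z)))) =
      ρ (D.α (e z))⁻¹ (f.1 (D.coc g (e z))) := by
    rw [← rho_mul']
    congr 2
    rw [he z, mul_inv_rev, inv_mul_cancel_right]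
  have h5 : ρ (A z)⁻¹ (ρ (ι (h z * D.coc g (e z))) (ρ (ι (h (act z))⁻¹) (f.1 (h (act z))))) =
      ρ (ι' g) (ρ (A (act z))⁻¹ (f.1 (h (act z)))) := by
    rw [← rho_mul', ← rho_mul', ← rho_mul']
    congr 2
    have h6 := hc z
    rw [h3] at h6
    rw [map_mul ι, map_inv ι] at h6
    rw [map_inv, mul_assoc, inv_mul_eq_iff_eq_mul, ← mul_assoc, h6]
    group
  rw [h4, h5]
  abel

/-- Comparison of Hecke operators given by equivalent families. -/
theorem map_eq_nsmul (D D' : Corr ι ι') (e : D.X → D'.X) (h : D.X → Γ)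
    (he : ∀ x, D.α x = ι (h x) * D'.α (e x)) (m : ℕ)
    (hm : ∀ z, Nat.card {x // e x = z} = m) (x : H1 ι ρ) : D.map ρ x = m • D'.map ρ x := by
  classical
  obtain ⟨f, rfl⟩ := H1.mk_surjective x
  rw [map_mk, map_mk, ← map_nsmul]
  refine H1.mk_eq (-∑ z, ρ (D.α z)⁻¹ (f.1 (h z))) fun g => ?_
  rw [zmap_apply, D'.compare f D.α g (D.perm g) (D.perm g).bijective (D.coc g) (D.spec g) e h he,
    map_neg]
  have h1 : ∑ z, ρ (D'.α (e z))⁻¹ (f.1 (D'.coc g (e z))) = (m • (D'.zmap ρ f)).1 g := by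
    rw [← Finset.sum_fiberwise Finset.univ e]
    change _ = m • (D'.zmap ρ f).1 g
    rw [zmap_apply, Finset.smul_sum]
    refine Finset.sum_congr rfl fun z _ => ?_
    rw [Finset.sum_congr rfl (g := fun _ => ρ (D'.α z)⁻¹ (f.1 (D'.coc g z)))
      (fun x hx => by rw [(Finset.mem_filter.mp hx).2]), Finset.sum_const, ← hm z,
      Nat.card_eq_fintype_card, Fintype.card_subtype]
  rw [h1]
  abel

theorem map_eq (D D' : Corr ι ι') (e : D.X ≃ D'.X) (h : D.X → Γ)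
    (he : ∀ x, D.α x = ι (h x) * D'.α (e x)) (x : H1 ι ρ) : D.map ρ x = D'.map ρ x := by
  have := map_eq_nsmul D D' e h he 1 (fun z => by
    have : Unique {x // e x = z} := ⟨⟨⟨e.symm z, e.apply_symm_apply z⟩⟩, fun ⟨x, hx⟩ =>
      Subtype.ext (by
        change x = e.symm z
        rw [← hx, e.symm_apply_apply])⟩
    exact Nat.card_unique) x
  rwa [one_smul] at this

/-- Composition of Hecke operators. -/
theorem map_map_eq_nsmul (D₁ : Corr ι ι') (D₂ : Corr ι' ι'') (D₃ : Corr ι ι'')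
    (e : D₁.X → D₂.X → D₃.X) (h : D₁.X → D₂.X → Γ)
    (he : ∀ x y, D₁.α x * D₂.α y = ι (h x y) * D₃.α (e x y)) (m : ℕ)
    (hm : ∀ z, Nat.card {p : D₁.X × D₂.X // e p.1 p.2 = z} = m) (x : H1 ι ρ) :
    D₂.map ρ (D₁.map ρ x) = m • D₃.map ρ x := by
  classical
  obtain ⟨f, rfl⟩ := H1.mk_surjective x
  rw [map_mk, map_mk, map_mk, ← map_nsmul]
  refine H1.mk_eq (-∑ p : D₁.X × D₂.X, ρ (D₁.α p.1 * D₂.α p.2)⁻¹ (f.1 (h p.1 p.2))) fun g => ?_
  have h0 : (D₂.zmap ρ (D₁.zmap ρ f)).1 g = ∑ p : D₁.X × D₂.X,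
      ρ (D₁.α p.1 * D₂.α p.2)⁻¹ (f.1 (D₁.coc (D₂.coc g p.2) p.1)) := by
    rw [zmap_apply, Fintype.sum_prod_type_right]
    refine Finset.sum_congr rfl fun y _ => ?_
    rw [zmap_apply, map_sum]
    refine Finset.sum_congr rfl fun x _ => ?_
    rw [mul_inv_rev, rho_mul']
  have hact : Function.Bijective (fun p : D₁.X × D₂.X =>
      (D₁.actFun (D₂.coc g p.2) p.1, D₂.actFun g p.2)) := by
    rw [← Finite.injective_iff_bijective]
    rintro ⟨x, y⟩ ⟨x', y'⟩ hxy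
    obtain ⟨h1, h2⟩ := Prod.mk.inj hxy
    have h3 : y = y' := (D₂.perm g).injective h2
    subst h3
    have h4 : x = x' := (D₁.perm (D₂.coc g y)).injective h1
    rw [h4]
  rw [h0, D₃.compare f (fun p : D₁.X × D₂.X => D₁.α p.1 * D₂.α p.2) g
    (fun p => (D₁.actFun (D₂.coc g p.2) p.1, D₂.actFun g p.2)) hact
    (fun p => D₁.coc (D₂.coc g p.2) p.1) (fun p => by
      change D₁.α p.1 * D₂.α p.2 * ι'' g = ι (D₁.coc (D₂.coc g p.2) p.1) *
        (D₁.α (D₁.actFun (D₂.coc g p.2) p.1) * D₂.α (D₂.actFun g p.2))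
      rw [mul_assoc, D₂.spec, ← mul_assoc, D₁.spec, mul_assoc])
    (fun p => e p.1 p.2) (fun p => h p.1 p.2) (fun p => he p.1 p.2), map_neg]
  have h1 : ∑ p : D₁.X × D₂.X, ρ (D₃.α (e p.1 p.2))⁻¹ (f.1 (D₃.coc g (e p.1 p.2))) =
      (m • (D₃.zmap ρ f)).1 g := by
    rw [← Finset.sum_fiberwise Finset.univ (fun p : D₁.X × D₂.X => e p.1 p.2)]
    change _ = m • (D₃.zmap ρ f).1 g
    rw [zmap_apply, Finset.smul_sum]
    refine Finset.sum_congr rfl fun z _ => ?_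
    rw [Finset.sum_congr rfl (g := fun _ => ρ (D₃.α z)⁻¹ (f.1 (D₃.coc g z)))
      (fun x hx => by rw [(Finset.mem_filter.mp hx).2]), Finset.sum_const, ← hm z,
      Nat.card_eq_fintype_card, Fintype.card_subtype]
  rw [h1]
  abel

/-- the product of two families, provided the products are inequivalent. -/
def mul (D₁ : Corr ι ι') (D₂ : Corr ι' ι'')
    (hu : ∀ (h : Γ) (x x' : D₁.X) (y y' : D₂.X),
      D₁.α x * D₂.α y = ι h * (D₁.α x' * D₂.α y') → x = x' ∧ y = y') : Corr ι ι'' where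
  X := D₁.X × D₂.X
  α p := D₁.α p.1 * D₂.α p.2
  inj := D₁.inj
  ex g p := ⟨(D₁.actFun (D₂.coc g p.2) p.1, D₂.actFun g p.2), D₁.coc (D₂.coc g p.2) p.1, by
    rw [mul_assoc, D₂.spec, ← mul_assoc, D₁.spec, mul_assoc]⟩
  uniq h p q hpq := by
    obtain ⟨h1, h2⟩ := hu h p.1 q.1 p.2 q.2 hpq
    exact Prod.ext h1 h2

theorem map_mul (D₁ : Corr ι ι') (D₂ : Corr ι' ι'')
    (hu : ∀ (h : Γ) (x x' : D₁.X) (y y' : D₂.X),
      D₁.α x * D₂.α y = ι h * (D₁.α x' * D₂.α y') → x = x' ∧ y = y') (x : H1 ι ρ) :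
    D₂.map ρ (D₁.map ρ x) = (D₁.mul D₂ hu).map ρ x := by
  have := map_map_eq_nsmul (ρ := ρ) D₁ D₂ (D₁.mul D₂ hu) (fun x y => (x, y)) (fun _ _ => 1)
    (fun x y => by
      rw [_root_.map_one, one_mul]
      rfl) 1 (fun z => by
    have h1 : Nonempty {p : D₁.X × D₂.X // ((p.1, p.2) : D₁.X × D₂.X) = z} := ⟨⟨z, rfl⟩⟩
    have h2 : Subsingleton {p : D₁.X × D₂.X // ((p.1, p.2) : D₁.X × D₂.X) = z} :=
      ⟨fun p q => Subtype.ext (p.2.trans q.2.symm)⟩
    exact Nat.card_eq_one_iff_unique.mpr ⟨h2, h1⟩) x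
  rwa [one_smul] at this

/-- Commuting squares of Hecke operators -/
theorem map_comm {Δ : Type} [Group Δ] {κ : Δ →* 𝒢} (D₁ : Corr ι ι') (D₂ : Corr ι' ι'')
    (D₃ : Corr ι κ) (D₄ : Corr κ ι'')
    (hu : ∀ (h : Γ) (x x' : D₃.X) (y y' : D₄.X),
      D₃.α x * D₄.α y = ι h * (D₃.α x' * D₄.α y') → x = x' ∧ y = y')
    (hu' : ∀ (h : Γ) (x x' : D₁.X) (y y' : D₂.X),
      D₁.α x * D₂.α y = ι h * (D₁.α x' * D₂.α y') → x = x' ∧ y = y')
    (hex : ∀ x y, ∃ (x' : D₃.X) (y' : D₄.X) (h : Γ),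
      D₁.α x * D₂.α y = ι h * (D₃.α x' * D₄.α y'))
    (hcard : Nat.card D₁.X * Nat.card D₂.X = Nat.card D₃.X * Nat.card D₄.X) (x : H1 ι ρ) :
    D₂.map ρ (D₁.map ρ x) = D₄.map ρ (D₃.map ρ x) := by
  rw [map_mul D₁ D₂ hu', map_mul D₃ D₄ hu]
  choose ex ey h hh using hex
  let e : D₁.X × D₂.X → D₃.X × D₄.X := fun p => (ex p.1 p.2, ey p.1 p.2)
  have hinj : Function.Injective e := by
    rintro ⟨x, y⟩ ⟨x', y'⟩ hxy
    obtain ⟨h1, h2⟩ := Prod.mk.inj hxy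
    change ex x y = ex x' y' at h1
    change ey x y = ey x' y' at h2
    have h3 := hh x y
    have h4 := hh x' y'
    rw [← h1, ← h2] at h4
    have h5 : D₁.α x * D₂.α y = ι (h x y * (h x' y')⁻¹) * (D₁.α x' * D₂.α y') := by
      rw [h4, _root_.map_mul, map_inv, h3]
      group
    obtain ⟨h6, h7⟩ := hu' _ _ _ _ _ h5
    rw [h6, h7]
  have hbij : Function.Bijective e := by
    have hfin₃ := D₃.fin
    have hfin₄ := D₄.fin
    rw [Fintype.bijective_iff_injective_and_card]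
    refine ⟨hinj, ?_⟩
    rw [Fintype.card_prod, Fintype.card_prod, ← Nat.card_eq_fintype_card,
      ← Nat.card_eq_fintype_card, ← Nat.card_eq_fintype_card, ← Nat.card_eq_fintype_card, hcard]
  exact map_eq (D₁.mul D₂ hu') (D₃.mul D₄ hu) (Equiv.ofBijective e hbij)
    (fun p => h p.1 p.2) (fun p => hh p.1 p.2) x

end Corr

end Coh

end Fermat.Agent.TW

end
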