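import Fermat.Agent.TW.FreeProd
import Fermat.Agent.TW.Corr

/-!
Crossed homomorphisms of `SL(2, ℤ)` with values in modules on which `-1` acts trivially:
right exactness of `H¹(SL₂(ℤ), -)`.
-/

set_option autoImplicit false

noncomputable section

namespace Fermat.Agent.TW

open Matrix.SpecialLinearGroup
open scoped MatrixGroups

section Defs

variable {R : Type} [CommRing R] {𝒢 : Type} [Group 𝒢] {ι : SL(2, ℤ) →* 𝒢}
  {V : Type} [AddCommGroup V] [Module R V] {ρ : Representation R 𝒢 V}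

/-- crossed homomorphisms agreeing on `S` and `U` are equal. -/
theorem Z1.ext' {c c' : Z1 ι ρ} (hS : c.1 ModularGroup.S = c'.1 ModularGroup.S)
    (hU : c.1 U = c'.1 U) : c = c' := by
  let K : Subgroup SL(2, ℤ) :=
    { carrier := {g | c.1 g = c'.1 g}
      mul_mem' := fun {g h} hg hh => by
        change c.1 (g * h) = c'.1 (g * h)
        rw [Z1.mul, Z1.mul, show c.1 g = c'.1 g from hg, show c.1 h = c'.1 h from hh]
      one_mem' := by
        change c.1 1 = c'.1 1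
        rw [Z1.one, Z1.one]
      inv_mem' := fun {g} hg => by
        change c.1 g⁻¹ = c'.1 g⁻¹
        rw [Z1.inv, Z1.inv, show c.1 g = c'.1 g from hg] }
  have hT : ModularGroup.T ∈ K := by
    have : ModularGroup.T = ModularGroup.S⁻¹ * U := by rw [U, inv_mul_cancel_left]
    rw [this]
    exact mul_mem (inv_mem (show ModularGroup.S ∈ K from hS)) (show U ∈ K from hU)
  have hle : (⊤ : Subgroup SL(2, ℤ)) ≤ K := by
    rw [← SpecialLinearGroup.SL2Z_generators, Subgroup.closure_le]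
    rintro g (rfl | rfl)
    · exact hS
    · exact hT
  exact Subtype.ext (funext fun g => hle (Subgroup.mem_top g))

theorem S_S (hneg : ∀ v, ρ (ι (-1)) v = v) (v : V) :
    ρ (ι ModularGroup.S) (ρ (ι ModularGroup.S) v) = v := by
  rw [← rho_mul', ← map_mul, ← pow_two, S_sq, hneg]

theorem U_U_U (hneg : ∀ v, ρ (ι (-1)) v = v) (v : V) : ρ (ι U) (ρ (ι U) (ρ (ι U) v)) = v := by
  rw [← rho_mul', ← rho_mul', ← map_mul, ← map_mul, ← pow_two, ← pow_succ, U_cube,
    hneg]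

/-- `ρ g` as a permutation. -/
def rhoEquiv (ρ : Representation R 𝒢 V) (g : 𝒢) : V ≃ V where
  toFun := ρ g
  invFun := ρ g⁻¹
  left_inv v := rho_inv_cancel g v
  right_inv v := rho_cancel_inv g v

theorem exists_crossed (hneg : ∀ v, ρ (ι (-1)) v = v) (a b : V)
    (ha : a + ρ (ι ModularGroup.S) a = 0)
    (hb : b + ρ (ι U) b + ρ (ι U) (ρ (ι U) b) = 0) :
    ∃ c : Z1 ι ρ, c.1 ModularGroup.S = a ∧ c.1 U = b := by
  have hSS : ∀ v, ρ (ι ModularGroup.S) (ρ (ι ModularGroup.S) v) = v := S_S hneg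
  have hUUU : ∀ v, ρ (ι U) (ρ (ι U) (ρ (ι U) v)) = v := U_U_U hneg
  let s : Equiv.Perm V := (rhoEquiv ρ (ι ModularGroup.S)).trans (Equiv.addRight a)
  let u : Equiv.Perm V := (rhoEquiv ρ (ι U)).trans (Equiv.addRight b)
  have hs_apply : ∀ v, s v = ρ (ι ModularGroup.S) v + a := fun v => rfl
  have hu_apply : ∀ v, u v = ρ (ι U) v + b := fun v => rfl
  have hs : s ^ 2 = 1 := by
    ext v
    rw [pow_two, Equiv.Perm.mul_apply, hs_apply, hs_apply, map_add, hSS, Equiv.Perm.one_apply,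
      add_assoc, add_comm _ a, ha, add_zero]
  have hu : u ^ 3 = 1 := by
    ext v
    rw [pow_succ, pow_two, Equiv.Perm.mul_apply, Equiv.Perm.mul_apply, hu_apply, hu_apply,
      hu_apply, map_add, map_add, map_add, hUUU, Equiv.Perm.one_apply, add_assoc, add_assoc,
      show ρ (ι U) (ρ (ι U) b) + (ρ (ι U) b + b) = b + ρ (ι U) b + ρ (ι U) (ρ (ι U) b) by abel,
      hb, add_zero]
  obtain ⟨φ, hφS, hφU⟩ := exists_hom s u hs hu
  -- `φ g v = ρ g v + φ g 0`
  have key : ∀ g v, φ g v = ρ (ι g) v + φ g 0 := by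
    let K : Subgroup SL(2, ℤ) :=
      { carrier := {g | ∀ v, φ g v = ρ (ι g) v + φ g 0}
        mul_mem' := fun {g h} hg hh v => by
          rw [map_mul, Equiv.Perm.mul_apply, Equiv.Perm.mul_apply, hh v, hg, hg (φ h 0), map_add,
            map_mul, rho_mul', add_assoc]
        one_mem' := fun v => by
          rw [map_one, map_one, map_one, Equiv.Perm.one_apply, Equiv.Perm.one_apply, add_zero]
          rfl
        inv_mem' := fun {g} hg v => by
          have h1 : ∀ x, ρ (ι g) (ρ (ι g⁻¹) x) = x := fun x => by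
            rw [map_inv, rho_cancel_inv]
          have h2 := hg (ρ (ι g⁻¹) v + φ g⁻¹ 0)
          have h3 := hg (φ g⁻¹ 0)
          have h4 : φ g (φ g⁻¹ 0) = 0 := by
            rw [← Equiv.Perm.mul_apply, ← map_mul, mul_inv_cancel, map_one]; rfl
          have h5 : φ g (φ g⁻¹ v) = v := by
            rw [← Equiv.Perm.mul_apply, ← map_mul, mul_inv_cancel, map_one]; rfl
          apply (φ g).injective
          rw [h5, h2, map_add, h1, add_assoc, ← h3, h4, add_zero] }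
    have hS' : ModularGroup.S ∈ K := fun v => by
      rw [hφS, hs_apply, hs_apply, map_zero, zero_add]
    have hU' : U ∈ K := fun v => by
      rw [hφU, hu_apply, hu_apply, map_zero, zero_add]
    have hT : ModularGroup.T ∈ K := by
      have : ModularGroup.T = ModularGroup.S⁻¹ * U := by rw [U, inv_mul_cancel_left]
      rw [this]
      exact mul_mem (inv_mem hS') hU'
    have hle : (⊤ : Subgroup SL(2, ℤ)) ≤ K := by
      rw [← SpecialLinearGroup.SL2Z_generators, Subgroup.closure_le]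
      rintro g (rfl | rfl)
      · exact hS'
      · exact hT
    exact fun g v => hle (Subgroup.mem_top g) v
  refine ⟨⟨fun g => φ g 0, fun g h => ?_⟩, ?_, ?_⟩
  · change φ (g * h) 0 = φ g 0 + ρ (ι g) (φ h 0)
    rw [map_mul, Equiv.Perm.mul_apply, key g (φ h 0), add_comm]
  · change φ ModularGroup.S 0 = a
    rw [hφS, hs_apply, map_zero, zero_add]
  · change φ U 0 = b
    rw [hφU, hu_apply, map_zero, zero_add]

variable (ι ρ) in
/-- Vanishing conditions on the cohomology of the groups generated by `S` and `U`. -/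
structure Good : Prop where
  neg_one : ∀ v, ρ (ι (-1)) v = v
  two_tf : ∀ v : V, v + v = 0 → v = 0
  hS : ∀ b, b + ρ (ι ModularGroup.S) b = 0 → ∃ v, b = ρ (ι ModularGroup.S) v - v
  hU : ∀ b, b + ρ (ι U) b + ρ (ι U) (ρ (ι U) b) = 0 → ∃ v, b = ρ (ι U) v - v
  hS0 : ∀ t, ρ (ι ModularGroup.S) t = t → ∃ t', t = t' + ρ (ι ModularGroup.S) t'
  hU0 : ∀ t, ρ (ι U) t = t → ∃ t', t = t' + ρ (ι U) t' + ρ (ι U) (ρ (ι U) t')

/-- the normalised crossed homomorphism with values `0` on `S` and `U v - v` on `U`. -/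
theorem exists_cv (hneg : ∀ v, ρ (ι (-1)) v = v) (v : V) :
    ∃ c : Z1 ι ρ, c.1 ModularGroup.S = 0 ∧ c.1 U = ρ (ι U) v - v := by
  refine exists_crossed hneg 0 (ρ (ι U) v - v) (by simp) ?_
  rw [map_sub, map_sub, U_U_U hneg]
  abel

/-- the normalised crossed homomorphism with values `0` on `S` and `U v - v` on `U`. -/
def cv (hneg : ∀ v, ρ (ι (-1)) v = v) (v : V) : Z1 ι ρ := (exists_cv hneg v).choose

theorem cv_S (hneg : ∀ v, ρ (ι (-1)) v = v) (v : V) : (cv hneg v).1 ModularGroup.S = 0 :=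
  (exists_cv hneg v).choose_spec.1

theorem cv_U (hneg : ∀ v, ρ (ι (-1)) v = v) (v : V) : (cv hneg v).1 U = ρ (ι U) v - v :=
  (exists_cv hneg v).choose_spec.2

theorem crossed_neg_one (hρ : Good ι ρ) (c : Z1 ι ρ) : c.1 (-1) = 0 := by
  have h := Z1.mul c (-1) (-1)
  rw [neg_mul_neg, mul_one, Z1.one, hρ.neg_one] at h
  exact hρ.two_tf _ h.symm

/-- normal form of crossed homomorphisms -/
theorem exists_normal (hρ : Good ι ρ) (c : Z1 ι ρ) :
    ∃ w v, c = cobLin ι ρ w + cv hρ.neg_one v := by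
  have h1 : c.1 ModularGroup.S + ρ (ι ModularGroup.S) (c.1 ModularGroup.S) = 0 := by
    rw [← Z1.mul, ← pow_two, S_sq, crossed_neg_one hρ c]
  obtain ⟨w, hw⟩ := hρ.hS _ h1
  let c' : Z1 ι ρ := c - cobLin ι ρ w
  have h2 : c'.1 U + ρ (ι U) (c'.1 U) + ρ (ι U) (ρ (ι U) (c'.1 U)) = 0 := by
    have e : c'.1 (U ^ 3) = 0 := by rw [U_cube, crossed_neg_one hρ c']
    rw [pow_succ, pow_two, Z1.mul, Z1.mul, map_mul, rho_mul'] at e
    exact e
  obtain ⟨v, hv⟩ := hρ.hU _ h2
  refine ⟨w, v, ?_⟩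
  have h3 : c' = cv hρ.neg_one v := by
    refine Z1.ext' ?_ ?_
    · rw [cv_S]
      change c.1 ModularGroup.S - (cobLin ι ρ w).1 ModularGroup.S = 0
      rw [hw, cobLin_apply, sub_self]
    · rw [cv_U]
      exact hv
  rw [← h3]
  exact (add_sub_cancel _ _).symm

end Defs

section Maps

variable {R : Type} [CommRing R] {𝒢 : Type} [Group 𝒢] {ι : SL(2, ℤ) →* 𝒢}
  {V V' W : Type} [AddCommGroup V] [Module R V] [AddCommGroup V'] [Module R V']
  [AddCommGroup W] [Module R W] {ρ : Representation R 𝒢 V} {ρ' : Representation R 𝒢 V'}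
  {σ : Representation R 𝒢 W}

theorem map_cv (π : CHom ρ σ) (hρ : ∀ v, ρ (ι (-1)) v = v) (hσ : ∀ v, σ (ι (-1)) v = v) (v : V) :
    Z1.map ι π (cv hρ v) = cv hσ (π.toLinearMap v) := by
  refine Z1.ext' ?_ ?_
  · rw [Z1.map_apply, cv_S, cv_S, map_zero]
  · rw [Z1.map_apply, cv_U, cv_U, map_sub, π.comm]

/-- **Lifting of crossed homomorphisms** along surjections. -/
theorem exists_lift (π : CHom ρ σ) (hρ : ∀ v, ρ (ι (-1)) v = v) (hσ : Good ι σ)
    (hsurj : Function.Surjective π.toLinearMap) (c : Z1 ι σ) :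
    ∃ c' : Z1 ι ρ, Z1.map ι π c' = c := by
  obtain ⟨w, v, h⟩ := exists_normal hσ c
  obtain ⟨w', rfl⟩ := hsurj w
  obtain ⟨v', rfl⟩ := hsurj v
  refine ⟨cobLin ι ρ w' + cv hρ v', ?_⟩
  rw [map_add, Z1.map_cob, map_cv π hρ hσ.neg_one, h]

/-- `H¹` is right exact: surjectivity -/
theorem H1.map_surjective (π : CHom ρ σ) (hρ : ∀ v, ρ (ι (-1)) v = v) (hσ : Good ι σ)
    (hsurj : Function.Surjective π.toLinearMap) : Function.Surjective (H1.map ι π) := by
  intro x
  obtain ⟨c, rfl⟩ := H1.mk_surjective x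
  obtain ⟨c', rfl⟩ := exists_lift π hρ hσ hsurj c
  exact ⟨H1.mk ι ρ c', rfl⟩

/-- A crossed homomorphism which becomes a coboundary in `W` is, up to a coboundary, of the form
`cv v₂` with `v₂ ∈ ker π`. -/
theorem exists_of_map_cob (π : CHom ρ σ) (hρ : Good ι ρ) (hσ : Good ι σ)
    (hsurj : Function.Surjective π.toLinearMap) (c : Z1 ι ρ) (w : W)
    (hw : Z1.map ι π c = cobLin ι σ w) :
    ∃ v₂ w₂ : V, π.toLinearMap v₂ = 0 ∧ c = cobLin ι ρ w₂ + cv hρ.neg_one v₂ := by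
  obtain ⟨w₁, v, h⟩ := exists_normal hρ c
  -- `cv (π v) = cob (w - π w₁)`
  set x : W := w - π.toLinearMap w₁ with hx
  have h1 : cv hσ.neg_one (π.toLinearMap v) = cobLin ι σ x := by
    rw [h, map_add, Z1.map_cob, map_cv π hρ.neg_one hσ.neg_one] at hw
    rw [hx, map_sub, ← hw]
    abel
  have hxS : σ (ι ModularGroup.S) x = x := by
    have := congrArg (fun z : Z1 ι σ => z.1 ModularGroup.S) h1
    change (cv hσ.neg_one (π.toLinearMap v)).1 ModularGroup.S = (cobLin ι σ x).1 ModularGroup.S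
      at this
    rw [cv_S, cobLin_apply] at this
    exact (sub_eq_zero.mp this.symm)
  have hxU : σ (ι U) (π.toLinearMap v - x) = π.toLinearMap v - x := by
    have := congrArg (fun z : Z1 ι σ => z.1 U) h1
    change (cv hσ.neg_one (π.toLinearMap v)).1 U = (cobLin ι σ x).1 U at this
    rw [cv_U, cobLin_apply] at this
    rw [map_sub]
    have h4 : σ (ι U) (π.toLinearMap v) = (σ (ι U) x - x) + π.toLinearMap v := by
      rw [← this]; abel
    rw [h4]
    abel
  obtain ⟨s, hs⟩ := hσ.hS0 x hxS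
  obtain ⟨t, ht⟩ := hσ.hU0 _ hxU
  obtain ⟨s', rfl⟩ := hsurj s
  obtain ⟨t', rfl⟩ := hsurj t
  set s₂ := s' + ρ (ι ModularGroup.S) s' with hs₂
  set t₂ := t' + ρ (ι U) t' + ρ (ι U) (ρ (ι U) t') with ht₂
  have hs₂S : ρ (ι ModularGroup.S) s₂ = s₂ := by
    rw [hs₂, map_add, S_S hρ.neg_one, add_comm]
  have ht₂U : ρ (ι U) t₂ = t₂ := by
    rw [ht₂, map_add, map_add, U_U_U hρ.neg_one]
    abel
  have hπs : π.toLinearMap s₂ = x := by rw [hs₂, map_add, π.comm, ← hs]
  have hπt : π.toLinearMap t₂ = π.toLinearMap v - x := by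
    rw [ht₂, map_add, map_add, π.comm, π.comm, π.comm, ← ht]
  refine ⟨v - s₂ - t₂, w₁ + s₂, ?_, ?_⟩
  · rw [map_sub, map_sub, hπs, hπt]
    abel
  · refine Z1.ext' ?_ ?_
    · rw [h]
      change (cobLin ι ρ w₁).1 ModularGroup.S + (cv hρ.neg_one v).1 ModularGroup.S =
        (cobLin ι ρ (w₁ + s₂)).1 ModularGroup.S +
          (cv hρ.neg_one (v - s₂ - t₂)).1 ModularGroup.S
      rw [cv_S, cv_S, cobLin_apply, cobLin_apply, map_add, hs₂S]
      abel
    · rw [h]
      change (cobLin ι ρ w₁).1 U + (cv hρ.neg_one v).1 U =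
        (cobLin ι ρ (w₁ + s₂)).1 U + (cv hρ.neg_one (v - s₂ - t₂)).1 U
      rw [cv_U, cv_U, cobLin_apply, cobLin_apply, map_add, map_sub, map_sub, ht₂U]
      abel

/-- `H¹` is right exact: exactness in the middle -/
theorem H1.exact (φ : CHom ρ' ρ) (π : CHom ρ σ) (hρ' : ∀ v, ρ' (ι (-1)) v = v) (hρ : Good ι ρ)
    (hσ : Good ι σ) (hsurj : Function.Surjective π.toLinearMap)
    (hex : ∀ v, π.toLinearMap v = 0 ↔ ∃ v', φ.toLinearMap v' = v) (x : H1 ι ρ) :
    H1.map ι π x = 0 ↔ ∃ y, H1.map ι φ y = x := by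
  constructor
  · intro hx
    obtain ⟨c, rfl⟩ := H1.mk_surjective x
    rw [H1.map_mk, H1.mk_eq_zero] at hx
    obtain ⟨w, hw⟩ := hx
    obtain ⟨v₂, w₂, hv₂, hc⟩ := exists_of_map_cob π hρ hσ hsurj c w hw.symm
    obtain ⟨v', rfl⟩ := (hex _).mp hv₂
    refine ⟨H1.mk ι ρ' (cv hρ' v'), ?_⟩
    rw [H1.map_mk, map_cv φ hρ' hρ.neg_one, hc, map_add, H1.mk_cob, zero_add]
  · rintro ⟨y, rfl⟩
    obtain ⟨c, rfl⟩ := H1.mk_surjective y
    rw [H1.map_mk, H1.map_mk]
    have : Z1.map ι π (Z1.map ι φ c) = 0 := by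
      ext g
      exact (hex _).mpr ⟨_, rfl⟩
    rw [this, map_zero]

end Maps

end Fermat.Agent.TW

end
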