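import Fermat.Agent.DefRing.Mat
import Fermat.Agent.Cheb.Exist
import Fermat.Agent.QuadRep.RootsOfUnity

/-!
# Inertia away from `p` has determinant one
-/

set_option autoImplicit false

namespace Fermat.Agent.TW

open IsLocalRing
open Fermat.Agent.DefRing

theorem det_sub_one_mem {T : Type} [CommRing T] (I : Ideal T) {X : Matrix (Fin 2) (Fin 2) T}
    (h : ∀ i j, (X - 1) i j ∈ I) : X.det - 1 ∈ I := by
  have h1 : X.det - 1 = (X - 1) 0 0 * X 1 1 + (X - 1) 1 1 - X 0 1 * (X - 1) 1 0 := by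
    rw [Matrix.det_fin_two]
    simp only [Matrix.sub_apply, Matrix.one_apply_eq, ne_eq, one_ne_zero, not_false_eq_true,
      Matrix.one_apply_ne, sub_zero]
    ring
  rw [h1]
  exact I.sub_mem (I.add_mem (I.mul_mem_right _ (h 0 0)) (h 1 1)) (I.mul_mem_left _ (h 1 0))

theorem natCast_sub_one_mem {T : Type} [CommRing T] {I : Ideal T} {p : ℕ} (hp : (p : T) ∈ I)
    {k l : ℕ} (hl : 0 < l) (h : p ^ k ∣ l - 1) : (l : T) - 1 ∈ I ^ k := by
  obtain ⟨c, hc⟩ := h
  have h1 : (l : T) - 1 = (p : T) ^ k * c := by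
    have h2 : l = p ^ k * c + 1 := by omega
    rw [h2]
    push_cast
    ring
  rw [h1]
  exact Ideal.mul_mem_right _ _ (Ideal.pow_mem_pow hp k)

/-- **Inertia away from `p` has determinant one.** -/
theorem det_eq_one_inertia {T : Type} [CommRing T] [IsLocalRing T]
    [hH : IsHausdorff (maximalIdeal T) T] {p : ℕ} [hp : Fact p.Prime]
    (hpT : (p : T) ∈ maximalIdeal T) (r : GQ →* M2 T) (hcont : MatCont T r) (S : Finset ℕ)
    (hdet : ∀ l : ℕ, l.Prime → l ∉ S → ∀ B : ValuationSubring (AlgebraicClosure ℚ),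
      B.LiesOverPrime l → ∀ τ : GQ, B.IsFrobeniusAt τ l → (r τ).det = (l : T))
    {q : ℕ} (hq : q.Prime) (hqp : q ≠ p) (B : ValuationSubring (AlgebraicClosure ℚ))
    (hB : B.LiesOverPrime q) (σ : GQ) (hσ : σ ∈ B.inertiaSubgroupIn ℚ) : (r σ).det = 1 := by
  classical
  rw [← sub_eq_zero]
  apply hH.haus
  intro k
  rw [SModEq.zero, smul_eq_mul, Ideal.mul_top]
  obtain ⟨L, hLfin, hL⟩ := hcont k
  have hN : 0 < p ^ k := pow_pos hp.out.pos k
  have : NeZero (p ^ k) := ⟨hN.ne'⟩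
  obtain ⟨ζ, hζ⟩ := HasEnoughRootsOfUnity.exists_primitiveRoot (AlgebraicClosure ℚ) (p ^ k)
  have hadj : FiniteDimensional ℚ (IntermediateField.adjoin ℚ {ζ}) :=
    IntermediateField.finiteDimensional_adjoin fun x _ =>
      (AlgebraicClosure.isAlgebraic ℚ).isIntegral.isIntegral x
  have hζL : ζ ∈ IntermediateField.adjoin ℚ {ζ} := IntermediateField.subset_adjoin ℚ _ (by simp)
  obtain ⟨l, hl, hlS, -, A, hA, τ, hτ, hτσ⟩ := Fermat.Agent.Cheb.exists_frobenius_eq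
    (L ⊔ IntermediateField.adjoin ℚ {ζ}) (by infer_instance) σ (insert p S)
  rw [Finset.mem_insert, not_or] at hlS
  -- `l = 1` modulo `p ^ k`
  have hcop : (p ^ k).Coprime l :=
    Nat.Coprime.pow_left k ((Nat.coprime_primes hp.out hl).mpr (Ne.symm hlS.1))
  have hcop' : (p ^ k).Coprime q :=
    Nat.Coprime.pow_left k ((Nat.coprime_primes hp.out hq).mpr (Ne.symm hqp))
  have h1 : ζ ^ l = ζ ^ 1 := by
    rw [← QuadRep.frobenius_smul_root hl hA hτ hN hcop ζ hζ.pow_eq_one,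
      hτσ ζ ((le_sup_right : IntermediateField.adjoin ℚ {ζ} ≤ L ⊔ _) hζL),
      QuadRep.inertia_smul_root hq hB hσ hN hcop' ζ hζ.pow_eq_one, pow_one]
  have h2 : p ^ k ∣ l - 1 := by
    rw [← hζ.pow_eq_one_iff_dvd]
    have hζ0 : ζ ≠ 0 := hζ.ne_zero hN.ne'
    have h3 : ζ ^ (l - 1) * ζ = 1 * ζ := by
      rw [← pow_succ, Nat.sub_add_cancel hl.one_le, h1, pow_one, one_mul]
    exact mul_right_cancel₀ hζ0 h3
  -- the determinants
  have h4 : (r (σ⁻¹ * τ)).det - 1 ∈ maximalIdeal T ^ k := by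
    apply det_sub_one_mem
    apply hL
    intro x hx
    change σ⁻¹ (τ x) = x
    rw [hτσ x ((le_sup_left : L ≤ L ⊔ _) hx)]
    exact σ.symm_apply_apply x
  have h5 : (r σ).det * (r (σ⁻¹ * τ)).det = (l : T) := by
    rw [← Matrix.det_mul, ← map_mul, mul_inv_cancel_left]
    exact hdet l hl hlS.2 A hA τ hτ
  have h6 : (r σ).det - 1 = ((l : T) - 1) - (r σ).det * ((r (σ⁻¹ * τ)).det - 1) := by
    rw [← h5]
    ring
  rw [h6]
  exact Ideal.sub_mem _ (natCast_sub_one_mem hpT hl.pos h2) (Ideal.mul_mem_left _ _ h4)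

end Fermat.Agent.TW
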