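import Fermat.Agent.TW.TMod
import Fermat.Agent.TW.DetInertia
import Fermat.Agent.TWDeg.Gen

/-!
Construction of the Taylor–Wiles levels: goodness, the Hecke algebra.
-/

set_option autoImplicit false
set_option linter.unusedSectionVars false

noncomputable section

namespace Fermat.Agent.TW

open IsLocalRing Module Matrix Fermat.Agent.DefRing Fermat.Agent.RT8 Fermat.Agent.TWDeg
open CongruenceSubgroup

section Units

variable {O : Type} [CommRing O] [IsLocalRing O] {p : ℕ} [hp : Fact p.Prime]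
  (hpO : (p : O) ∈ maximalIdeal O)

include hpO in
theorem isUnit_of_coprime {k : ℕ} (h : k.Coprime p) : IsUnit (k : O) := by
  by_contra hk
  have h1 : (k : O) ∈ maximalIdeal O := hk
  obtain ⟨a, b, hab⟩ := Nat.isCoprime_iff_coprime.mpr h
  have h2 := congrArg (Int.cast : ℤ → O) hab
  push_cast at h2
  have h3 : (1 : O) ∈ maximalIdeal O := by
    rw [← h2]
    exact add_mem (Ideal.mul_mem_left _ _ h1) (Ideal.mul_mem_left _ _ hpO)
  exact (Ideal.ne_top_iff_one _).mp (maximalIdeal.isMaximal O).ne_top h3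

include hpO in
theorem isUnit_two (hp2 : p ≠ 2) : IsUnit (2 : O) := by
  have h := isUnit_of_coprime hpO (k := 2)
    ((Nat.coprime_primes Nat.prime_two hp.out).mpr (Ne.symm hp2))
  exact_mod_cast h

include hpO in
theorem isUnit_three (hp5 : 5 ≤ p) : IsUnit (3 : O) := by
  have h := isUnit_of_coprime hpO (k := 3)
    ((Nat.coprime_primes Nat.prime_three hp.out).mpr (by omega))
  exact_mod_cast h

variable {D : Type} [CommGroup D] (W : TWD D)

include hpO in
theorem goodFor (hp2 : p ≠ 2) (h3 : 2 ∣ W.N ∨ 5 ≤ p) (t : ℕ → LT) :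
    GoodFor W.M O (W.Yt t) where
  two := isUnit_two hpO hp2
  neg := W.neg_smul t
  three := by
    rcases h3 with h3 | h3
    · exact Or.inr (W.U_free Nat.prime_two h3 rfl t)
    · exact Or.inl (isUnit_three hpO h3)

end Units

section Rep

variable (h30 : HeckeGal.S30Statement) (hES : ∀ (n : ℕ) [NeZero n], HeckeHom.ES n)
  {p : ℕ} [hp : Fact p.Prime] {D : Type} [CommGroup D] [Fintype D] (W : TWD D) {m' : ℕ}
  (hm' : m' ≠ 0) (hM : W.M ∣ m') (hpm : p ∣ m')
  {O : Type} [CommRing O] [IsDomain O] [IsDiscreteValuationRing O]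
  [IsAdicComplete (maximalIdeal O) O] [Finite (ResidueField O)] [CharZero O]
  (hpO : (p : O) ∈ maximalIdeal O)
  {rbar : GQ →* M2 (ResidueField O)} (sd : SliceData rbar)
  (hspan : Submodule.span (ResidueField O) (Set.range rbar) = ⊤)
  (hrbar : ∃ L : IntermediateField ℚ (AlgebraicClosure ℚ), FiniteDimensional ℚ L ∧
      ∀ σ : GQ, (∀ x ∈ L, σ x = x) → rbar σ = 1)
  (𝔪' : Ideal (TPoly m' O)) [𝔪'.IsMaximal] (h𝔪' : ResId rbar 𝔪') (hE' : NonEis W.M 𝔪')

include h30 hES hm' hpm hpO hspan hrbar h𝔪' hE' in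
/-- **The Hecke algebra of the Taylor–Wiles module.** -/
theorem exists_hrepQ [Nontrivial (MQ W hM 𝔪' O)] :
    Nonempty (HRep (m := m') p (W.N * W.dd * W.dd) sd (MQ W hM 𝔪' O)) := by
  have hne : NeZero (W.N * W.dd * W.dd) :=
    ⟨mul_ne_zero (mul_ne_zero W.tws.pos W.dd_ne_zero) W.dd_ne_zero⟩
  have hfin := TWLev.finite (W := W) (hM := hM) (𝔪' := 𝔪') (O := O)
  exact exists_hrep h30 hm' hpm (hnm_of W hM) hpO sd hspan hrbar
    (fun s hs => Loc.smul_bij hs) h𝔪' (loc_tf W hM 𝔪' hE')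
    (fun P hP x => W.rel_YQ hM (hnm_of W hM) 𝔪' (hES _) hE' P hP x)

variable {W hM 𝔪' sd}

include hm' in
/-- determinants of inertia -/
theorem det_hrep {N' : ℕ} {M : Type} [AddCommGroup M] [Module (TPoly m' O) M] [Module O M]
    (R' : HRep (m := m') p N' sd M) {q : ℕ} (hq : q.Prime) (hqp : q ≠ p)
    (B : ValuationSubring (AlgebraicClosure ℚ)) (hB : B.LiesOverPrime q) (σ : GQ)
    (hσ : σ ∈ B.inertiaSubgroupIn ℚ) (hpO : (p : O) ∈ maximalIdeal O) :
    (R'.C.r σ).det = 1 := by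
  have hcpl : IsAdicComplete (maximalIdeal R'.C.T) R'.C.T :=
    IsLocalRing.isAdicComplete_of_module_finite (𝒪 := O) (T := R'.C.T)
  have hpT : (p : R'.C.T) ∈ maximalIdeal R'.C.T := by
    rw [← map_natCast (algebraMap O R'.C.T)]
    exact map_nonunit (algebraMap O R'.C.T) _ hpO
  exact det_eq_one_inertia hpT R'.C.r R'.C.cont m'.divisors
    (fun l hl hlS B hB τ hτ =>
      (R'.tr ⟨l, hl, fun h => hlS (Nat.mem_divisors.mpr ⟨h, hm'⟩)⟩ B hB τ hτ).2)
    hq hqp B hB σ hσ

end Rep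

end Fermat.Agent.TW

end
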