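import Fermat.Agent.TW.Alg
import Fermat.Agent.DS.Eigen

/-!
Extension of scalars for the cohomology of Taylor-Wiles sets.
-/

set_option autoImplicit false
set_option linter.unusedSectionVars false

noncomputable section

namespace Fermat.Agent.TW

open scoped MatrixGroups
open CongruenceSubgroup

section Ext

variable {m M : ℕ} (hM : M ∣ m) (O E : Type) [CommRing O] [CommRing E] [Algebra O E]
  (Y : Type) [MulAction (GL (Fin 2) (ZMod M)) Y]

/-- extension of scalars on crossed homomorphisms -/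
def extZ : Z1 ((XF hM).L.ι M) (funRep (M := M) O O Y) →+
    Z1 ((XF hM).L.ι M) (funRep (M := M) E E Y) where
  toFun f := ⟨fun g y => algebraMap O E (f.1 g y), fun g h => by
    funext y
    change algebraMap O E (f.1 (g * h) y) = algebraMap O E (f.1 g y) +
      algebraMap O E (f.1 h (((XF hM).L.ι M g).2⁻¹ • y))
    rw [Z1.mul, ← map_add]
    rfl⟩
  map_zero' := Subtype.ext (funext fun _ => funext fun _ => map_zero _)
  map_add' _ _ := Subtype.ext (funext fun _ => funext fun _ => map_add _ _ _)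

theorem extZ_apply (f : Z1 ((XF hM).L.ι M) (funRep (M := M) O O Y)) (g : SL(2, ℤ)) (y : Y) :
    (extZ hM O E Y f).1 g y = algebraMap O E (f.1 g y) := rfl

/-- extension of scalars -/
def extH : (XF hM).H (funRep (M := M) O O Y) →+ (XF hM).H (funRep (M := M) E E Y) :=
  QuotientAddGroup.lift (B1 ((XF hM).L.ι M) (funRep (M := M) O O Y)).toAddSubgroup
    ((H1.mk ((XF hM).L.ι M) (funRep (M := M) E E Y)).toAddMonoidHom.comp (extZ hM O E Y)) (by
      rintro _ ⟨v, rfl⟩
      refine H1.mk_eq_zero.mpr ⟨fun y => algebraMap O E (v y), ?_⟩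
      apply Subtype.ext
      funext g y
      rw [extZ_apply, cobLin_apply, cobLin_apply, Pi.sub_apply, Pi.sub_apply, map_sub]
      rfl)

theorem extH_cl (f : Z1 ((XF hM).L.ι M) (funRep (M := M) O O Y)) :
    extH hM O E Y ((XF hM).cl _ f) = (XF hM).cl _ (extZ hM O E Y f) := rfl

theorem extH_smul (a : O) (x : (XF hM).H (funRep (M := M) O O Y)) :
    extH hM O E Y (a • x) = algebraMap O E a • extH hM O E Y x := by
  obtain ⟨f, rfl⟩ := (XF hM).cl_surj _ x
  rw [← map_smul, extH_cl, extH_cl, ← map_smul]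
  congr 1
  apply Subtype.ext
  funext g y
  exact map_mul (algebraMap O E) _ _

theorem extH_T (l : Pr m) (x : (XF hM).H (funRep (M := M) O O Y)) :
    extH hM O E Y ((XF hM).T _ l x) = (XF hM).T _ l (extH hM O E Y x) := by
  obtain ⟨f, rfl⟩ := (XF hM).cl_surj _ x
  rw [Stg.T_cl, extH_cl, extH_cl, Stg.T_cl]
  congr 1
  apply Subtype.ext
  funext g y
  rw [extZ_apply, Corr.zmap_apply, Corr.zmap_apply, Finset.sum_apply, Finset.sum_apply, map_sum]
  rfl

variable {Δ : Type} [Group Δ] [MulAction Δ Y] [SMulCommClass (GL (Fin 2) (ZMod M)) Δ Y]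

theorem extH_act (δ : Δ) (x : (XF hM).H (funRep (M := M) O O Y)) :
    extH hM O E Y ((XF hM).map (actC M O O Y δ) x) =
      (XF hM).map (actC M E E Y δ) (extH hM O E Y x) := by
  obtain ⟨f, rfl⟩ := (XF hM).cl_surj _ x
  rfl

end Ext

section Indep

variable {m M : ℕ} (hM : M ∣ m) {O K E : Type} [CommRing O] [Field K] [Algebra O K] [Field E]
  [Algebra O E] [Algebra K E] [IsScalarTower O K E]
  {Y : Type} [MulAction (GL (Fin 2) (ZMod M)) Y]

/-- **linear independence**: if `∑ eᵢ xᵢ = 0` with `eᵢ` linearly independent then the `xᵢ` are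
killed by the Eisenstein elements. -/
theorem eis_smul_of_sum (hOK : Function.Injective (algebraMap O K)) {ι : Type} [Fintype ι]
    (e : ι → E) (he : LinearIndependent K e) (x : ι → (XF hM).H (funRep (M := M) O O Y))
    (hx : ∑ i, e i • extH hM O E Y (x i) = 0) (l : Pr m) (hl : ((l : ℕ) : ZMod M) = 1) (i : ι) :
    eis O l • x i = 0 := by
  classical
  choose f hf using fun i => (XF hM).cl_surj _ (x i)
  have h1 : (XF hM).cl _ (∑ i, e i • extZ hM O E Y (f i)) = 0 := by
    rw [map_sum, ← hx]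
    refine Finset.sum_congr rfl fun i _ => ?_
    rw [map_smul, ← extH_cl, hf]
  obtain ⟨v, hv⟩ := H1.mk_eq_zero.mp h1
  have hv' : ∀ (g : SL(2, ℤ)) (y : Y), v (((XF hM).L.ι M g).2⁻¹ • y) - v y =
      ∑ i, e i * algebraMap O E ((f i).1 g y) := by
    intro g y
    have h2 := congrArg (fun z : Z1 ((XF hM).L.ι M) (funRep (M := M) E E Y) => z.1 g y) hv
    change v (((XF hM).L.ι M g).2⁻¹ • y) - v y = _ at h2
    rw [h2]
    have h3 : ∀ (s : Finset ι), (∑ i ∈ s, e i • extZ hM O E Y (f i)).1 g y =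
        ∑ i ∈ s, e i * algebraMap O E ((f i).1 g y) := by
      intro s
      induction s using Finset.induction_on with
      | empty => rfl
      | insert a s ha ih =>
        rw [Finset.sum_insert ha, Finset.sum_insert ha, ← ih]
        rfl
    exact h3 Finset.univ
  -- the coordinate functional
  obtain ⟨fn, hfn⟩ : ∃ φ : E →ₗ[K] K, ∀ j, φ (e j) = if j = i then 1 else 0 := by
    obtain ⟨φ, hφ⟩ := LinearMap.exists_extend (p := Submodule.span K (Set.range e))
      ((Finsupp.lapply i) ∘ₗ he.repr)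
    refine ⟨φ, fun j => ?_⟩
    have h2 := LinearMap.congr_fun hφ ⟨e j, Submodule.subset_span ⟨j, rfl⟩⟩
    change φ (e j) = he.repr ⟨e j, Submodule.subset_span ⟨j, rfl⟩⟩ i at h2
    rw [h2, he.repr_eq_single j ⟨e j, _⟩ rfl, Finsupp.single_apply]
  have h2 : ∀ (g : SL(2, ℤ)) (y : Y), fn (v (((XF hM).L.ι M g).2⁻¹ • y)) - fn (v y) =
      algebraMap O K ((f i).1 g y) := by
    intro g y
    rw [← map_sub, hv', map_sum, Finset.sum_eq_single i]
    · rw [IsScalarTower.algebraMap_apply O K E, mul_comm, ← Algebra.smul_def, map_smul, hfn,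
        if_pos rfl, smul_eq_mul, mul_one]
    · intro j _ hj
      rw [IsScalarTower.algebraMap_apply O K E, mul_comm, ← Algebra.smul_def, map_smul, hfn,
        if_neg hj, smul_zero]
    · intro h
      exact absurd (Finset.mem_univ _) h
  have h3 : (XF hM).map (coef (M := M) Y (Algebra.linearMap O K)) (x i) = 0 := by
    rw [← hf i]
    refine H1.mk_eq_zero.mpr ⟨fun y => fn (v y), ?_⟩
    apply Subtype.ext
    funext g y
    exact h2 g y
  rw [sub_smul, Stg.X_smul, Stg.C_smul,
    (XF hM).eisenstein infl_funRep _ (fun F F' h => funext fun y => hOK (congrFun h y))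
      ⟨ModularGroup.T, rfl⟩ l hl _ h3, ← Nat.cast_succ, Nat.cast_smul_eq_nsmul, sub_self]

end Indep

end Fermat.Agent.TW

end
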