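import Mathlib.GroupTheory.CoprodI
import Mathlib.Data.ZMod.Basic
import Mathlib.LinearAlgebra.Matrix.FixedDetMatrices
import Mathlib.Topology.Compactification.OnePoint.ProjectiveLine
import Mathlib.LinearAlgebra.Matrix.SpecialLinearGroup
import Mathlib.NumberTheory.Modular

/-!
`PSL₂(ℤ)` is the free product of the cyclic groups of order `2` and `3` generated by `S` and `ST`
(ping-pong lemma), in the form of a universal property of `SL(2, ℤ)`, and the existence of
crossed homomorphisms with prescribed values on `S` and `ST`.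
-/

set_option autoImplicit false

noncomputable section

namespace Fermat.Agent.TW

open Matrix.SpecialLinearGroup
open scoped MatrixGroups Pointwise

section Cyc

variable {E : Type*} [Group E]

/-- the homomorphism from a cyclic group given by an element `g` with `g ^ n = 1` -/
def cyc (n : ℕ) (g : E) (h : g ^ n = 1) : Multiplicative (ZMod n) →* E :=
  AddMonoidHom.toMultiplicativeLeft (ZMod.lift n ⟨zmultiplesHom (Additive E) (Additive.ofMul g), by
    rw [zmultiplesHom_apply, natCast_zsmul, ← ofMul_pow, h, ofMul_one]⟩)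

theorem cyc_apply (n : ℕ) (g : E) (h : g ^ n = 1) (k : ℤ) :
    cyc n g h (Multiplicative.ofAdd (k : ZMod n)) = g ^ k := by
  change Additive.toMul (ZMod.lift n _ (k : ZMod n)) = _
  rw [ZMod.lift_coe]
  rfl

theorem cyc_one (n : ℕ) (g : E) (h : g ^ n = 1) :
    cyc n g h (Multiplicative.ofAdd (1 : ZMod n)) = g := by
  have := cyc_apply n g h 1
  simpa using this

end Cyc

/-- orders -/
def ord' : Bool → ℕ
  | false => 2
  | true => 3

/-- the two cyclic groups -/
abbrev Hc (i : Bool) : Type := Multiplicative (ZMod (ord' i))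

/-- family of homs -/
def homs {E : Type*} [Group E] (s u : E) (hs : s ^ 2 = 1) (hu : u ^ 3 = 1) :
    ∀ i : Bool, Hc i →* E
  | false => cyc 2 s hs
  | true => cyc 3 u hu

/-- action of `SL(2, ℤ)` on the real projective line -/
def projAct : SL(2, ℤ) →* Equiv.Perm (OnePoint ℝ) :=
  (MulAction.toPermHom (GL (Fin 2) ℝ) (OnePoint ℝ)).comp (mapGL ℝ)

theorem projAct_apply (g : SL(2, ℤ)) (x : OnePoint ℝ) :
    projAct g x = (mapGL ℝ g : GL (Fin 2) ℝ) • x := rfl

/-- `U = S T` -/
def U : SL(2, ℤ) := ModularGroup.S * ModularGroup.T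

theorem S_sq : ModularGroup.S ^ 2 = (-1 : SL(2, ℤ)) := by
  ext i j
  fin_cases i <;> fin_cases j <;> simp [ModularGroup.S, pow_two, Matrix.mul_apply]

theorem U_cube : U ^ 3 = (-1 : SL(2, ℤ)) := by
  rw [pow_succ, pow_two]
  ext i j
  fin_cases i <;> fin_cases j <;>
    simp [U, ModularGroup.S, ModularGroup.T, Matrix.mul_apply, Fin.sum_univ_two]

theorem projAct_neg_one : projAct (-1 : SL(2, ℤ)) = 1 := by
  ext x
  rw [projAct_apply, Equiv.Perm.one_apply]
  induction x using OnePoint.rec with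
  | infty =>
    rw [OnePoint.smul_infty_eq_ite]
    simp
  | coe x =>
    rw [OnePoint.smul_some_eq_ite]
    simp

theorem projAct_S_sq : projAct ModularGroup.S ^ 2 = 1 := by
  rw [← map_pow, S_sq, projAct_neg_one]

theorem projAct_U_cube : projAct U ^ 3 = 1 := by
  rw [← map_pow, U_cube, projAct_neg_one]

theorem mapGL_entry (g : SL(2, ℤ)) (i j : Fin 2) :
    (mapGL ℝ g : GL (Fin 2) ℝ) i j = ((g i j : ℤ) : ℝ) := by
  simp

theorem coe_U : (U : Matrix (Fin 2) (Fin 2) ℤ) = !![0, -1; 1, 1] := by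
  ext i j
  fin_cases i <;> fin_cases j <;>
    simp [U, ModularGroup.S, ModularGroup.T, Matrix.mul_apply, Fin.sum_univ_two]

theorem two_cases : ∀ h : Multiplicative (ZMod 2), h ≠ 1 → h = Multiplicative.ofAdd 1 := by
  decide

theorem three_cases : ∀ h : Multiplicative (ZMod 3), h ≠ 1 →
    h = Multiplicative.ofAdd 1 ∨ h = Multiplicative.ofAdd 2 := by
  decide

theorem projAct_S_coe (x : ℝ) (hx : x ≠ 0) :
    projAct ModularGroup.S (x : OnePoint ℝ) = ((-x⁻¹ : ℝ) : OnePoint ℝ) := by
  rw [projAct_apply, OnePoint.smul_some_eq_ite]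
  simp [ModularGroup.S, hx, neg_div]

theorem projAct_U_coe (x : ℝ) (hx : x + 1 ≠ 0) :
    projAct U (x : OnePoint ℝ) = ((-(x + 1)⁻¹ : ℝ) : OnePoint ℝ) := by
  rw [projAct_apply, OnePoint.smul_some_eq_ite]
  have h10 : (mapGL ℝ U : GL (Fin 2) ℝ) 1 0 = 1 := by
    rw [mapGL_entry, coe_U]; simp
  have h11 : (mapGL ℝ U : GL (Fin 2) ℝ) 1 1 = 1 := by
    rw [mapGL_entry, coe_U]; simp
  have h00 : (mapGL ℝ U : GL (Fin 2) ℝ) 0 0 = 0 := by
    rw [mapGL_entry, coe_U]; simp
  have h01 : (mapGL ℝ U : GL (Fin 2) ℝ) 0 1 = -1 := by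
    rw [mapGL_entry, coe_U]; simp
  rw [h10, h11, h00, h01]
  simp [hx, neg_div]

/-- the ping-pong sets: positive numbers for `S`, negative numbers for `U`. -/
def pingSet : Bool → Set (OnePoint ℝ)
  | false => {x | ∃ r : ℝ, 0 < r ∧ x = (r : OnePoint ℝ)}
  | true => {x | ∃ r : ℝ, r < 0 ∧ x = (r : OnePoint ℝ)}

/-- the homomorphism from the free product to permutations of the projective line -/
def toPerm' : Monoid.CoprodI Hc →* Equiv.Perm (OnePoint ℝ) :=
  Monoid.CoprodI.lift (homs (projAct ModularGroup.S) (projAct U) projAct_S_sq projAct_U_cube)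

theorem toPerm'_injective : Function.Injective toPerm' := by
  classical
  refine Monoid.CoprodI.lift_injective_of_ping_pong _ ?_ pingSet ?_ ?_ ?_
  · right
    refine ⟨true, ?_⟩
    have : Cardinal.mk (Hc true) = (3 : ℕ) := by
      change Cardinal.mk (ZMod 3) = (3 : ℕ)
      rw [Cardinal.mk_fintype]
      rfl
    rw [this]
    norm_cast
  · intro i
    cases i
    · exact ⟨((1 : ℝ) : OnePoint ℝ), 1, one_pos, rfl⟩
    · exact ⟨((-1 : ℝ) : OnePoint ℝ), -1, by norm_num, rfl⟩
  · intro i j hij
    cases i <;> cases j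
    · exact absurd rfl hij
    · refine Set.disjoint_left.mpr ?_
      rintro _ ⟨r, hr, rfl⟩ ⟨t, ht, h⟩
      rw [OnePoint.coe_eq_coe] at h
      linarith
    · refine Set.disjoint_left.mpr ?_
      rintro _ ⟨r, hr, rfl⟩ ⟨t, ht, h⟩
      rw [OnePoint.coe_eq_coe] at h
      linarith
    · exact absurd rfl hij
  · intro i j hij h hh
    cases i <;> cases j
    · exact absurd rfl hij
    · -- S maps negatives to positives
      have h1 : h = Multiplicative.ofAdd (1 : ZMod 2) := two_cases h hh
      rintro _ ⟨_, ⟨r, hr, rfl⟩, rfl⟩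
      refine ⟨-r⁻¹, by have := inv_lt_zero.mpr hr; linarith, ?_⟩
      change homs (projAct ModularGroup.S) (projAct U) projAct_S_sq projAct_U_cube false h
        (r : OnePoint ℝ) = _
      rw [h1]
      change cyc 2 (projAct ModularGroup.S) projAct_S_sq (Multiplicative.ofAdd (1 : ZMod 2))
        (r : OnePoint ℝ) = _
      rw [cyc_one, projAct_S_coe r hr.ne]
    · -- U, U² map positives to negatives
      have h1 : h = Multiplicative.ofAdd (1 : ZMod 3) ∨ h = Multiplicative.ofAdd (2 : ZMod 3) :=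
        three_cases h hh
      rintro _ ⟨_, ⟨r, hr, rfl⟩, rfl⟩
      rcases h1 with h1 | h1
      · refine ⟨-(r + 1)⁻¹, by
          have : 0 < (r + 1)⁻¹ := inv_pos.mpr (by linarith)
          linarith, ?_⟩
        rw [h1]
        change cyc 3 (projAct U) projAct_U_cube (Multiplicative.ofAdd (1 : ZMod 3))
          (r : OnePoint ℝ) = _
        rw [cyc_one, projAct_U_coe r (by linarith)]
      · refine ⟨-(-(r + 1)⁻¹ + 1)⁻¹, ?_, ?_⟩
        · have h2 : 0 < -(r + 1)⁻¹ + 1 := by
            have : (r + 1)⁻¹ < 1 := inv_lt_one_of_one_lt₀ (by linarith)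
            linarith
          have := inv_pos.mpr h2
          linarith
        · rw [h1]
          change cyc 3 (projAct U) projAct_U_cube (Multiplicative.ofAdd (2 : ZMod 3))
            (r : OnePoint ℝ) = _
          have h3 := cyc_apply 3 (projAct U) projAct_U_cube 2
          rw [show ((2 : ℤ) : ZMod 3) = 2 by norm_num] at h3
          rw [h3, show ((2 : ℤ)) = ((2 : ℕ) : ℤ) by norm_num, zpow_natCast, pow_two,
            Equiv.Perm.mul_apply, projAct_U_coe r (by linarith), projAct_U_coe]
          have : (r + 1)⁻¹ < 1 := inv_lt_one_of_one_lt₀ (by linarith)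
          linarith
    · exact absurd rfl hij

theorem projAct_mem_range (g : SL(2, ℤ)) : projAct g ∈ toPerm'.range := by
  have hS : projAct ModularGroup.S ∈ toPerm'.range := by
    refine ⟨Monoid.CoprodI.of (i := false) (Multiplicative.ofAdd (1 : ZMod 2)), ?_⟩
    rw [toPerm', Monoid.CoprodI.lift_of]
    exact cyc_one 2 _ projAct_S_sq
  have hU : projAct U ∈ toPerm'.range := by
    refine ⟨Monoid.CoprodI.of (i := true) (Multiplicative.ofAdd (1 : ZMod 3)), ?_⟩
    rw [toPerm', Monoid.CoprodI.lift_of]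
    exact cyc_one 3 _ projAct_U_cube
  have hT : projAct ModularGroup.T ∈ toPerm'.range := by
    have : ModularGroup.T = ModularGroup.S⁻¹ * U := by rw [U, inv_mul_cancel_left]
    rw [this, map_mul, map_inv]
    exact mul_mem (inv_mem hS) hU
  have hle : (⊤ : Subgroup SL(2, ℤ)) ≤ toPerm'.range.comap projAct := by
    rw [← SpecialLinearGroup.SL2Z_generators, Subgroup.closure_le]
    rintro g (rfl | rfl)
    · exact hS
    · exact hT
  exact hle (Subgroup.mem_top g)

/-- `SL(2, ℤ) → C₂ * C₃` -/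
def toCoprod : SL(2, ℤ) →* Monoid.CoprodI Hc where
  toFun g := (projAct_mem_range g).choose
  map_one' := toPerm'_injective (by
    rw [(projAct_mem_range 1).choose_spec, map_one, map_one])
  map_mul' g h := toPerm'_injective (by
    rw [(projAct_mem_range (g * h)).choose_spec, map_mul, map_mul,
      (projAct_mem_range g).choose_spec, (projAct_mem_range h).choose_spec])

theorem toPerm'_toCoprod (g : SL(2, ℤ)) : toPerm' (toCoprod g) = projAct g :=
  (projAct_mem_range g).choose_spec

theorem toCoprod_S : toCoprod ModularGroup.S =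
    Monoid.CoprodI.of (i := false) (Multiplicative.ofAdd (1 : ZMod 2)) := by
  apply toPerm'_injective
  rw [toPerm'_toCoprod, toPerm', Monoid.CoprodI.lift_of]
  exact (cyc_one 2 _ projAct_S_sq).symm

theorem toCoprod_U : toCoprod U =
    Monoid.CoprodI.of (i := true) (Multiplicative.ofAdd (1 : ZMod 3)) := by
  apply toPerm'_injective
  rw [toPerm'_toCoprod, toPerm', Monoid.CoprodI.lift_of]
  exact (cyc_one 3 _ projAct_U_cube).symm

/-- **Universal property**: `PSL₂(ℤ) = C₂ * C₃`. -/
theorem exists_hom {E : Type*} [Group E] (s u : E) (hs : s ^ 2 = 1) (hu : u ^ 3 = 1) :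
    ∃ φ : SL(2, ℤ) →* E, φ ModularGroup.S = s ∧ φ U = u := by
  refine ⟨(Monoid.CoprodI.lift (homs s u hs hu)).comp toCoprod, ?_, ?_⟩
  · rw [MonoidHom.comp_apply, toCoprod_S, Monoid.CoprodI.lift_of]
    exact cyc_one 2 s hs
  · rw [MonoidHom.comp_apply, toCoprod_U, Monoid.CoprodI.lift_of]
    exact cyc_one 3 u hu

theorem hom_ext' {E : Type*} [Group E] {φ ψ : SL(2, ℤ) →* E}
    (hS : φ ModularGroup.S = ψ ModularGroup.S) (hU : φ U = ψ U) : φ = ψ := by
  have hT : φ ModularGroup.T = ψ ModularGroup.T := by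
    have : ModularGroup.T = ModularGroup.S⁻¹ * U := by rw [U, inv_mul_cancel_left]
    rw [this, map_mul, map_mul, map_inv, map_inv, hS, hU]
  have hle : (⊤ : Subgroup SL(2, ℤ)) ≤ φ.eqLocus ψ := by
    rw [← SpecialLinearGroup.SL2Z_generators, Subgroup.closure_le]
    rintro g (rfl | rfl)
    · exact hS
    · exact hT
  exact MonoidHom.ext fun g => hle (Subgroup.mem_top g)

end Fermat.Agent.TW

end
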