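import Fermat.Agent.TW.Hecke
import Fermat.Agent.TW.Crossed
import Mathlib.GroupTheory.Perm.Cycle.Basic

/-!
Permutation modules as coefficients.
-/

set_option autoImplicit false

noncomputable section

namespace Fermat.Agent.TW

open Matrix.SpecialLinearGroup
open scoped MatrixGroups

section GoodOf

variable {R : Type} [CommRing R] {𝒢 : Type} [Group 𝒢] {ι : SL(2, ℤ) →* 𝒢}
  {V : Type} [AddCommGroup V] [Module R V] {ρ : Representation R 𝒢 V}

theorem good_of' (hneg : ∀ v, ρ (ι (-1)) v = v) (h2 : IsUnit (2 : R))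
    (hU : ∀ b, b + ρ (ι U) b + ρ (ι U) (ρ (ι U) b) = 0 → ∃ v, b = ρ (ι U) v - v)
    (hU0 : ∀ t, ρ (ι U) t = t → ∃ t', t = t' + ρ (ι U) t' + ρ (ι U) (ρ (ι U) t')) :
    Good ι ρ := by
  obtain ⟨h, hh⟩ := h2.exists_left_inv
  refine ⟨hneg, fun v hv => ?_, fun b hb => ?_, hU, fun t ht => ?_, hU0⟩
  · rw [← one_smul R v, ← hh, mul_smul, two_smul, hv, smul_zero]
  · refine ⟨-(h • b), ?_⟩
    have h1 : ρ (ι ModularGroup.S) b = -b := (neg_eq_of_add_eq_zero_right hb).symm
    rw [map_neg, map_smul, h1, smul_neg, neg_neg, sub_neg_eq_add, ← two_smul R, ← mul_smul,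
      mul_comm, hh, one_smul]
  · refine ⟨h • t, ?_⟩
    rw [map_smul, ht, ← two_smul R, ← mul_smul, mul_comm, hh, one_smul]

theorem good_of (hneg : ∀ v, ρ (ι (-1)) v = v) (h2 : IsUnit (2 : R)) (h3 : IsUnit (3 : R)) :
    Good ι ρ := by
  obtain ⟨h, hh⟩ := h3.exists_left_inv
  refine good_of' hneg h2 (fun b hb => ?_) (fun t ht => ?_)
  · refine ⟨-(h • (b + b + ρ (ι U) b)), ?_⟩
    have h1 : ρ (ι U) (ρ (ι U) b) = -(b + ρ (ι U) b) :=
      (neg_eq_of_add_eq_zero_right hb).symm
    rw [map_neg, map_smul, map_add, map_add, h1, sub_neg_eq_add, ← smul_neg, ← smul_add]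
    have h2 : -(ρ (ι U) b + ρ (ι U) b + -(b + ρ (ι U) b)) + (b + b + ρ (ι U) b) =
        (3 : R) • b := by
      rw [show (3 : R) = 1 + 1 + 1 by norm_num, add_smul, add_smul, one_smul]
      abel
    rw [h2, ← mul_smul, hh, one_smul]
  · refine ⟨h • t, ?_⟩
    rw [map_smul, map_smul, ht, ht, ← add_smul, ← add_smul,
      show h + h + h = h * 3 by ring, hh, one_smul]

end GoodOf

section Sigma

variable {Y : Type} (u : Equiv.Perm Y)

theorem zpow_eq_zero_of_free (hu : u ^ 3 = 1) (hfree : ∀ y, u y ≠ y) (k : ℤ) (y : Y)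
    (h : (u ^ k) y = y) : (k : ZMod 3) = 0 := by
  have h1 : u ^ k = u ^ (k % 3) := by
    conv_lhs => rw [← Int.emod_add_mul_ediv k 3, zpow_add, zpow_mul]
    rw [show u ^ (3 : ℤ) = u ^ 3 by norm_cast, hu, one_zpow, mul_one]
  rw [h1] at h
  have h2 := Int.emod_nonneg k (show (3 : ℤ) ≠ 0 by norm_num)
  have h3 := Int.emod_lt_of_pos k (show (0 : ℤ) < 3 by norm_num)
  have h4 : k % 3 = 0 ∨ k % 3 = 1 ∨ k % 3 = 2 := by omega
  rcases h4 with h4 | h4 | h4
  · rw [show (k : ZMod 3) = 0 ↔ (3 : ℤ) ∣ k from ZMod.intCast_zmod_eq_zero_iff_dvd _ _]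
    exact Int.dvd_of_emod_eq_zero h4
  · rw [h4, zpow_one] at h
    exact absurd h (hfree y)
  · exfalso
    rw [h4] at h
    have h5 : (u ^ 3) y = u ((u ^ (2 : ℤ)) y) := by
      rw [← Equiv.Perm.mul_apply]
      rfl
    rw [h, hu] at h5
    exact hfree y h5.symm

theorem exists_sigma (hu : u ^ 3 = 1) (hfree : ∀ y, u y ≠ y) :
    ∃ s : Y → ZMod 3, ∀ y, s (u y) = s y + 1 := by
  classical
  let st : Setoid Y := Equiv.Perm.SameCycle.setoid u
  have h1 : ∀ y : Y, ∃ k : ℤ, (u ^ k) (Quotient.out (Quotient.mk st y)) = y :=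
    fun y => Quotient.mk_out (s := st) y
  choose k hk using h1
  refine ⟨fun y => (k y : ZMod 3), fun y => ?_⟩
  have h2 : Quotient.mk st (u y) = Quotient.mk st y := by
    apply Quotient.sound
    change u.SameCycle (u y) y
    exact ⟨-1, by simp⟩
  have h3 := hk (u y)
  rw [h2] at h3
  have h4 := hk y
  have h5 : (u ^ (k (u y) - (k y + 1))) (Quotient.out (Quotient.mk st y)) =
      Quotient.out (Quotient.mk st y) := by
    rw [sub_eq_neg_add, zpow_add, Equiv.Perm.mul_apply, h3, zpow_neg, Equiv.Perm.inv_eq_iff_eq,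
      add_comm, zpow_add, zpow_one, Equiv.Perm.mul_apply, h4]
  have h6 := zpow_eq_zero_of_free u hu hfree _ _ h5
  push_cast at h6
  rw [sub_eq_zero] at h6
  exact h6

end Sigma

section FunRep

variable {M : ℕ} (R : Type) [CommRing R] (A : Type) [AddCommGroup A] [Module R A]
  (Y : Type) [MulAction (GL (Fin 2) (ZMod M)) Y]

/-- functions on a `GL₂(ℤ/M)`-set. -/
def funRep : Representation R (Gp M) (Y → A) where
  toFun g :=
    { toFun := fun F y => F (g.2⁻¹ • y)
      map_add' := fun _ _ => rfl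
      map_smul' := fun _ _ => rfl }
  map_one' := by
    ext F y
    change F ((1 : Gp M).2⁻¹ • y) = F y
    simp
  map_mul' g h := by
    ext F y
    change F ((g * h).2⁻¹ • y) = F (h.2⁻¹ • (g.2⁻¹ • y))
    rw [Prod.snd_mul, mul_inv_rev, mul_smul]

variable {R A Y}

theorem funRep_apply (g : Gp M) (F : Y → A) (y : Y) : funRep R A Y g F y = F (g.2⁻¹ • y) := rfl

theorem infl_funRep : Infl (funRep (M := M) R A Y) := by
  intro g g' h
  ext F y
  change F (g.2⁻¹ • y) = F (g'.2⁻¹ • y)
  rw [h]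

variable (M Y) in
/-- conditions on the `GL₂(ℤ/M)`-set -/
structure GoodSet : Prop where
  neg : ∀ y : Y, (iM M (-1)).2 • y = y
  free : ∀ y : Y, (iM M U).2 • y ≠ y

theorem neg_one_funRep (h : ∀ y : Y, (iM M (-1)).2 • y = y) (v : Y → A) :
    funRep (M := M) R A Y (iM M (-1)) v = v := by
  ext y
  rw [funRep_apply]
  congr 1
  rw [inv_smul_eq_iff, h]

theorem good_funRep_of_three (h : ∀ y : Y, (iM M (-1)).2 • y = y) (h2 : IsUnit (2 : R))
    (h3 : IsUnit (3 : R)) : Good (iM M) (funRep (M := M) R A Y) :=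
  good_of (neg_one_funRep h) h2 h3

theorem good_funRep (h : GoodSet M Y) (h2 : IsUnit (2 : R)) :
    Good (iM M) (funRep (M := M) R A Y) := by
  let u : Equiv.Perm Y := MulAction.toPerm (iM M U).2
  have hu_apply : ∀ y, u y = (iM M U).2 • y := fun _ => rfl
  have hu_symm : ∀ y, u.symm y = (iM M U).2⁻¹ • y := fun _ => rfl
  have hu : u ^ 3 = 1 := by
    ext y
    rw [pow_succ, pow_two, Equiv.Perm.mul_apply, Equiv.Perm.mul_apply, hu_apply, hu_apply,
      hu_apply, ← mul_smul, ← mul_smul, ← Prod.snd_mul, ← Prod.snd_mul, ← map_mul, ← map_mul,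
      ← pow_two, ← pow_succ, U_cube, h.neg]
    rfl
  obtain ⟨s, hs⟩ := exists_sigma u hu h.free
  have hs' : ∀ y, s (u.symm y) = s y - 1 := by
    intro y
    have := hs (u.symm y)
    rw [Equiv.apply_symm_apply] at this
    rw [this, add_sub_cancel_right]
  have hu3 : ∀ y, u.symm (u.symm (u.symm y)) = y := by
    intro y
    have h1 : u (u (u y)) = y := by
      have := congrArg (fun w : Equiv.Perm Y => w y) hu
      simpa [pow_succ] using this
    rw [Equiv.symm_apply_eq, Equiv.symm_apply_eq, Equiv.symm_apply_eq, h1]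
  have hρ : ∀ (v : Y → A) (y : Y), funRep (M := M) R A Y (iM M U) v y = v (u.symm y) :=
    fun _ _ => rfl
  have d01 : (1 : ZMod 3) ≠ 0 := by decide
  have d02 : (2 : ZMod 3) ≠ 0 := by decide
  have d12 : (2 : ZMod 3) ≠ 1 := by decide
  have cases3 : ∀ a : ZMod 3, a = 0 ∨ a = 1 ∨ a = 2 := by decide
  refine good_of' (neg_one_funRep h.neg) h2 (fun b hb => ?_) (fun t ht => ?_)
  · have hb' : ∀ y, b y + b (u.symm y) + b (u.symm (u.symm y)) = 0 := fun y => congrFun hb y
    refine ⟨fun y => if s y = 0 then 0 else if s y = 1 then - b y else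
      - b y - b (u.symm y), ?_⟩
    ext y
    change b y = (if s (u.symm y) = 0 then 0 else if s (u.symm y) = 1 then - b (u.symm y) else
      - b (u.symm y) - b (u.symm (u.symm y))) - (if s y = 0 then 0 else if s y = 1 then - b y else
      - b y - b (u.symm y))
    rw [hs']
    have hb'' := hb' y
    rcases cases3 (s y) with h0 | h0 | h0
    · rw [h0, zero_sub, if_neg (by decide), if_neg (by decide), if_pos rfl, sub_zero]
      have : b y = - b (u.symm y) - b (u.symm (u.symm y)) := by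
        rw [eq_sub_iff_add_eq, eq_neg_iff_add_eq_zero, ← hb'']
        abel
      exact this
    · rw [h0, sub_self, if_pos rfl, if_neg d01, if_pos rfl]
      simp
    · rw [h0, show (2 : ZMod 3) - 1 = 1 by decide, if_neg d01, if_pos rfl, if_neg d02, if_neg d12]
      abel
  · have ht' : ∀ y, t (u.symm y) = t y := fun y => congrFun ht y
    refine ⟨fun y => if s y = 0 then t y else 0, ?_⟩
    ext y
    change t y = (if s y = 0 then t y else 0) + (if s (u.symm y) = 0 then t (u.symm y) else 0) +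
      (if s (u.symm (u.symm y)) = 0 then t (u.symm (u.symm y)) else 0)
    simp only [hs', ht']
    rcases cases3 (s y) with h0 | h0 | h0
    · rw [h0, if_pos rfl, if_neg (by decide), if_neg (by decide), add_zero, add_zero]
    · rw [h0, if_neg (by decide), if_pos (by decide), if_neg (by decide), zero_add, add_zero]
    · rw [h0, if_neg (by decide), if_neg (by decide), if_pos (by decide), zero_add, zero_add]

/-! ### morphisms -/

variable {Y' : Type} [MulAction (GL (Fin 2) (ZMod M)) Y'] {A' : Type} [AddCommGroup A']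
  [Module R A']

theorem equiv_inv_smul {f : Y → Y'} (hf : ∀ (g : GL (Fin 2) (ZMod M)) y, f (g • y) = g • f y)
    (g : GL (Fin 2) (ZMod M)) (y : Y) : f (g⁻¹ • y) = g⁻¹ • f y := hf _ _

variable (R A) in
/-- pull-back -/
def pull (f : Y → Y') (hf : ∀ (g : GL (Fin 2) (ZMod M)) y, f (g • y) = g • f y) :
    CHom (funRep (M := M) R A Y') (funRep (M := M) R A Y) where
  toFun F := fun y => F (f y)
  map_add' _ _ := rfl
  map_smul' _ _ := rfl
  comm' g F := by
    ext y
    change F (g.2⁻¹ • f y) = F (f (g.2⁻¹ • y))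
    rw [hf]

theorem pull_apply (f : Y → Y') (hf : ∀ (g : GL (Fin 2) (ZMod M)) y, f (g • y) = g • f y)
    (F : Y' → A) (y : Y) : (pull R A f hf).toLinearMap F y = F (f y) := rfl

variable (R A) in
open scoped Classical in
/-- push-forward -/
def push [Fintype Y] (f : Y → Y') (hf : ∀ (g : GL (Fin 2) (ZMod M)) y, f (g • y) = g • f y) :
    CHom (funRep (M := M) R A Y) (funRep (M := M) R A Y') where
  toFun F := fun y' => ∑ y : Y, if f y = y' then F y else 0
  map_add' F F' := by
    ext y'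
    rw [Pi.add_apply, ← Finset.sum_add_distrib]
    refine Finset.sum_congr rfl fun y _ => ?_
    split_ifs
    · rfl
    · rw [add_zero]
  map_smul' c F := by
    ext y'
    rw [Pi.smul_apply, Finset.smul_sum]
    refine Finset.sum_congr rfl fun y _ => ?_
    split_ifs
    · rfl
    · rw [smul_zero]
  comm' g F := by
    ext y'
    change ∑ y : Y, (if f y = y' then F (g.2⁻¹ • y) else 0) =
      ∑ y : Y, if f y = g.2⁻¹ • y' then F y else 0
    rw [← Equiv.sum_comp (MulAction.toPerm (g.2⁻¹)) (fun y => if f y = g.2⁻¹ • y' then F y else 0)]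
    refine Finset.sum_congr rfl fun y _ => ?_
    have : f (g.2⁻¹ • y) = g.2⁻¹ • y' ↔ f y = y' := by rw [hf, smul_left_cancel_iff]
    change _ = if f (g.2⁻¹ • y) = g.2⁻¹ • y' then F (g.2⁻¹ • y) else 0
    simp only [this]

variable (Y) in
/-- change of coefficients -/
def coef (a : A →ₗ[R] A') : CHom (funRep (M := M) R A Y) (funRep (M := M) R A' Y) where
  toFun F := fun y => a (F y)
  map_add' F F' := by
    ext y
    exact map_add a _ _
  map_smul' c F := by
    ext y
    exact map_smul a _ _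
  comm' g F := rfl

theorem coef_apply (a : A →ₗ[R] A') (F : Y → A) (y : Y) :
    (coef (M := M) Y a).toLinearMap F y = a (F y) := rfl

end FunRep

section Delta

variable {M : ℕ} {R : Type} [CommRing R] {A : Type} [AddCommGroup A] [Module R A]
  {Y : Type} [MulAction (GL (Fin 2) (ZMod M)) Y] {Δ : Type} [Group Δ] [MulAction Δ Y]
  [SMulCommClass (GL (Fin 2) (ZMod M)) Δ Y]

variable (M R A Y) in
/-- the action of `Δ` -/
def actC (δ : Δ) : CHom (funRep (M := M) R A Y) (funRep (M := M) R A Y) where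
  toFun F := fun y => F (δ⁻¹ • y)
  map_add' _ _ := rfl
  map_smul' _ _ := rfl
  comm' g F := by
    ext y
    change F (g.2⁻¹ • δ⁻¹ • y) = F (δ⁻¹ • g.2⁻¹ • y)
    rw [smul_comm]

theorem actC_apply (δ : Δ) (F : Y → A) (y : Y) :
    (actC M R A Y δ).toLinearMap F y = F (δ⁻¹ • y) := rfl

/-- product representation -/
def piRep {𝒢 : Type} [Group 𝒢] {V : Type} [AddCommGroup V] [Module R V] (I : Type)
    (ρ : Representation R 𝒢 V) : Representation R 𝒢 (I → V) where
  toFun g :=
    { toFun := fun F i => ρ g (F i)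
      map_add' := fun _ _ => funext fun _ => map_add _ _ _
      map_smul' := fun _ _ => funext fun _ => map_smul _ _ _ }
  map_one' := by
    refine LinearMap.ext fun F => funext fun i => ?_
    change ρ 1 (F i) = F i
    rw [map_one]
    rfl
  map_mul' g h := by
    refine LinearMap.ext fun F => funext fun i => ?_
    change ρ (g * h) (F i) = ρ g (ρ h (F i))
    rw [map_mul]
    rfl

/-- projection -/
def projC {𝒢 : Type} [Group 𝒢] {V : Type} [AddCommGroup V] [Module R V] {I : Type}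
    (ρ : Representation R 𝒢 V) (i : I) : CHom (piRep I ρ) ρ where
  toFun F := F i
  map_add' _ _ := rfl
  map_smul' _ _ := rfl
  comm' _ _ := rfl

variable (M R A Y Δ) in
/-- `(v_δ) ↦ ∑ (δ - 1) v_δ` -/
def augC [Fintype Δ] : CHom (piRep Δ (funRep (M := M) R A Y)) (funRep (M := M) R A Y) where
  toFun v := fun y => ∑ δ : Δ, (v δ (δ⁻¹ • y) - v δ y)
  map_add' v w := by
    ext y
    rw [Pi.add_apply, ← Finset.sum_add_distrib]
    refine Finset.sum_congr rfl fun δ _ => ?_
    rw [Pi.add_apply, Pi.add_apply, Pi.add_apply]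
    abel
  map_smul' c v := by
    ext y
    rw [Pi.smul_apply, Finset.smul_sum]
    refine Finset.sum_congr rfl fun δ _ => ?_
    rw [Pi.smul_apply, Pi.smul_apply, Pi.smul_apply, smul_sub]
    rfl
  comm' g v := by
    ext y
    change ∑ δ : Δ, (v δ (g.2⁻¹ • δ⁻¹ • y) - v δ (g.2⁻¹ • y)) =
      ∑ δ : Δ, (v δ (δ⁻¹ • g.2⁻¹ • y) - v δ (g.2⁻¹ • y))
    refine Finset.sum_congr rfl fun δ _ => ?_
    rw [smul_comm]

theorem augC_apply [Fintype Δ] (v : Δ → Y → A) (y : Y) :
    (augC M R A Y Δ).toLinearMap v y = ∑ δ : Δ, (v δ (δ⁻¹ • y) - v δ y) := rfl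

variable {Y' : Type} [MulAction (GL (Fin 2) (ZMod M)) Y']

variable (Δ) in
/-- `Y → Y'` is a `Δ`-torsor. -/
structure IsTorsor (f : Y → Y') : Prop where
  equiv : ∀ (g : GL (Fin 2) (ZMod M)) y, f (g • y) = g • f y
  surj : Function.Surjective f
  fib : ∀ y y', f y = f y' ↔ ∃ δ : Δ, δ • y = y'
  free : ∀ (δ : Δ) (y : Y), δ • y = y → δ = 1

variable {f : Y → Y'} (hf : IsTorsor (M := M) Δ f)

include hf

theorem IsTorsor.push_apply [Fintype Y] [Fintype Δ] (F : Y → A) (y : Y) :
    (push R A f hf.equiv).toLinearMap F (f y) = ∑ δ : Δ, F (δ • y) := by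
  classical
  change ∑ z : Y, (if f z = f y then F z else 0) = _
  rw [← Finset.sum_filter]
  symm
  refine Finset.sum_bij (fun δ _ => δ • y) (fun δ _ => ?_) (fun δ _ δ' _ h => ?_)
    (fun z hz => ?_) (fun δ _ => rfl)
  · rw [Finset.mem_filter]
    exact ⟨Finset.mem_univ _, ((hf.fib _ _).mpr ⟨δ, rfl⟩).symm⟩
  · have h1 : (δ'⁻¹ * δ) • y = y := by rw [mul_smul, h, inv_smul_smul]
    have := hf.free _ _ h1
    exact (inv_mul_eq_one.mp this).symm
  · rw [Finset.mem_filter] at hz
    obtain ⟨δ, hδ⟩ := (hf.fib y z).mp hz.2.symm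
    exact ⟨δ, Finset.mem_univ _, hδ⟩

/-- the norm -/
theorem IsTorsor.pull_push [Fintype Y] [Fintype Δ] (F : Y → A) :
    (pull R A f hf.equiv).toLinearMap ((push R A f hf.equiv).toLinearMap F) =
      ∑ δ : Δ, (actC M R A Y δ).toLinearMap F := by
  ext y
  rw [pull_apply, hf.push_apply, Finset.sum_apply, ← Equiv.sum_comp (Equiv.inv Δ)]
  rfl

theorem IsTorsor.pull_injective : Function.Injective (pull R A f hf.equiv).toLinearMap := by
  intro F F' h
  ext y'
  obtain ⟨y, rfl⟩ := hf.surj y'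
  exact congrFun h y

theorem IsTorsor.push_surjective [Fintype Y] [Fintype Δ] :
    Function.Surjective (push R A f hf.equiv).toLinearMap := by
  classical
  intro F
  choose s hs using hf.surj
  refine ⟨fun y => if y = s (f y) then F (f y) else 0, ?_⟩
  ext y'
  have h1 : y' = f (s y') := (hs y').symm
  rw [h1, hf.push_apply, Finset.sum_eq_single 1]
  · rw [one_smul, if_pos]
    rw [hs]
  · intro δ _ hδ
    rw [if_neg]
    intro h
    apply hδ
    have h2 : f (δ • s y') = f (s y') := ((hf.fib _ _).mpr ⟨δ, rfl⟩).symm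
    rw [h2, hs] at h
    exact hf.free _ _ h
  · intro h
    exact absurd (Finset.mem_univ _) h

theorem IsTorsor.ker_push [Fintype Y] [Fintype Δ] (F : Y → A) :
    (push R A f hf.equiv).toLinearMap F = 0 ↔ ∃ v, (augC M R A Y Δ).toLinearMap v = F := by
  classical
  constructor
  · intro h
    choose s hs using hf.surj
    have h0 : ∀ y, ∑ δ : Δ, F (δ • y) = 0 := fun y => by
      rw [← hf.push_apply (R := R), h]
      rfl
    refine ⟨fun δ y => if y = s (f y) then F (δ • y) else 0, ?_⟩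
    ext y
    rw [augC_apply, Finset.sum_sub_distrib]
    have h1 : ∑ δ : Δ, (if y = s (f y) then F (δ • y) else 0) = 0 := by
      split_ifs
      · exact h0 y
      · rw [Finset.sum_const_zero]
    rw [h1, sub_zero]
    obtain ⟨δ₀, hδ₀⟩ := (hf.fib (s (f y)) y).mp (hs _)
    rw [Finset.sum_eq_single δ₀]
    · have h2 : δ₀⁻¹ • y = s (f y) := by rw [← hδ₀, inv_smul_smul]; rw [hδ₀]
      have h3 : f (δ₀⁻¹ • y) = f y := ((hf.fib _ _).mpr ⟨δ₀, smul_inv_smul _ _⟩)
      rw [if_pos (by rw [h3, h2]), smul_inv_smul]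
    · intro δ _ hδ
      rw [if_neg]
      intro h2
      apply hδ
      have h3 : f (δ⁻¹ • y) = f y := ((hf.fib _ _).mpr ⟨δ, smul_inv_smul _ _⟩)
      rw [h3] at h2
      have h4 : (δ * δ₀⁻¹) • y = y := by
        have : δ₀⁻¹ • y = s (f y) := by rw [← hδ₀, inv_smul_smul]; rw [hδ₀]
        rw [mul_smul, this, ← h2, smul_inv_smul]
      exact mul_inv_eq_one.mp (hf.free _ _ h4)
    · intro h
      exact absurd (Finset.mem_univ _) h
  · rintro ⟨v, rfl⟩
    ext y'
    obtain ⟨y, rfl⟩ := hf.surj y'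
    rw [hf.push_apply]
    change ∑ δ : Δ, (augC M R A Y Δ).toLinearMap v (δ • y) = 0
    simp only [augC_apply, Finset.sum_sub_distrib]
    rw [sub_eq_zero, Finset.sum_comm, Finset.sum_comm (f := fun δ δ' => v δ' (δ • y))]
    refine Finset.sum_congr rfl fun δ' _ => ?_
    rw [← Equiv.sum_comp (Equiv.mulLeft δ'⁻¹) (fun δ => v δ' (δ • y))]
    refine Finset.sum_congr rfl fun δ _ => ?_
    rw [Equiv.coe_mulLeft, mul_smul]

end Delta

end Fermat.Agent.TW

end
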