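import Fermat.Agent.TW.OPt
import Fermat.Agent.TW.BN
import Fermat.Agent.TW.TrGen
import Fermat.Agent.HeckeGal.S31FromS30

/-!
The Galois representation over a Hecke algebra.
-/

set_option autoImplicit false
set_option linter.unusedSectionVars false

noncomputable section

namespace Fermat.Agent.TW

open IsLocalRing Module Matrix Fermat.Agent.DefRing Polynomial

section Norm

variable {𝒪 : Type} [CommRing 𝒪] [IsLocalRing 𝒪] {rbar : GQ →* M2 (ResidueField 𝒪)}
  {A : Type} [CommRing A] [IsLocalRing A] [Algebra 𝒪 A] [IsLocalHom (algebraMap 𝒪 A)]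

theorem span_mapRep {k k' : Type} [Field k] [Field k'] (ψ : k →+* k') (r : GQ →* M2 k)
    (h : Submodule.span k (Set.range r) = ⊤) :
    Submodule.span k' (Set.range (mapRep ψ r)) = ⊤ := by
  rw [eq_top_iff]
  have key : ∀ X : M2 k, X.map ψ ∈ Submodule.span k' (Set.range (mapRep ψ r)) := by
    intro X
    have hX : X ∈ Submodule.span k (Set.range r) := by rw [h]; trivial
    induction hX using Submodule.span_induction with
    | mem X hX =>
      obtain ⟨σ, rfl⟩ := hX
      exact Submodule.subset_span ⟨σ, rfl⟩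
    | zero =>
      rw [Matrix.map_zero _ (map_zero ψ)]
      exact Submodule.zero_mem _
    | add X Y _ _ hX hY =>
      rw [Matrix.map_add _ (map_add ψ)]
      exact Submodule.add_mem _ hX hY
    | smul a X _ hX =>
      have h1 : (a • X).map ψ = ψ a • X.map ψ := by
        refine Matrix.ext fun i j => ?_
        rw [Matrix.map_apply, Matrix.smul_apply, Matrix.smul_apply, Matrix.map_apply, smul_eq_mul,
          smul_eq_mul, map_mul]
      rw [h1]
      exact Submodule.smul_mem _ _ hX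
  intro X _
  rw [Matrix.matrix_eq_sum_single X]
  refine Submodule.sum_mem _ fun i _ => Submodule.sum_mem _ fun j _ => ?_
  have h1 : Matrix.single i j (X i j) = X i j • (Matrix.single i j (1 : k)).map ψ := by
    refine Matrix.ext fun i' j' => ?_
    rw [Matrix.smul_apply, Matrix.map_apply, Matrix.single_apply, Matrix.single_apply]
    split_ifs
    · rw [map_one, smul_eq_mul, mul_one]
    · rw [map_zero, smul_zero]
  rw [h1]
  exact Submodule.smul_mem _ _ (key _)

/-- traces of two continuous representations over fields agree if they do on Frobenius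
elements -/
theorem trace_eq_of_frob {k : Type} [Field k] {r r' : GQ →* M2 k}
    (hr : ∃ L : IntermediateField ℚ (AlgebraicClosure ℚ), FiniteDimensional ℚ L ∧
      ∀ σ : GQ, (∀ x ∈ L, σ x = x) → r σ = 1)
    (hr' : ∃ L : IntermediateField ℚ (AlgebraicClosure ℚ), FiniteDimensional ℚ L ∧
      ∀ σ : GQ, (∀ x ∈ L, σ x = x) → r' σ = 1) (S : Finset ℕ)
    (h : ∀ l : ℕ, l.Prime → l ∉ S → ∀ B : ValuationSubring (AlgebraicClosure ℚ),
      B.LiesOverPrime l → ∀ τ : GQ, B.IsFrobeniusAt τ l → (r τ).trace = (r' τ).trace) (σ : GQ) :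
    (r σ).trace = (r' σ).trace := by
  obtain ⟨L, hL, hL1⟩ := hr
  obtain ⟨L', hL', hL1'⟩ := hr'
  have hfin : FiniteDimensional ℚ (L ⊔ L' : IntermediateField ℚ (AlgebraicClosure ℚ)) :=
    inferInstance
  obtain ⟨l, hl, hlS, -, B, hB, τ, hτ, hτσ⟩ := Cheb.exists_frobenius_eq _ hfin σ S
  have h1 : ∀ x ∈ (L ⊔ L' : IntermediateField ℚ (AlgebraicClosure ℚ)), (τ⁻¹ * σ) x = x := by
    intro x hx
    rw [AlgEquiv.mul_apply, ← hτσ x hx, ← AlgEquiv.mul_apply, inv_mul_cancel,
      AlgEquiv.one_apply]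
  have h2 : r σ = r τ := by
    have := hL1 (τ⁻¹ * σ) fun x hx => h1 x ((le_sup_left : L ≤ L ⊔ L') hx)
    rw [← mul_one (r τ), ← this, ← map_mul, mul_inv_cancel_left]
  have h3 : r' σ = r' τ := by
    have := hL1' (τ⁻¹ * σ) fun x hx => h1 x ((le_sup_right : L' ≤ L ⊔ L') hx)
    rw [← mul_one (r' τ), ← this, ← map_mul, mul_inv_cancel_left]
  rw [h2, h3]
  exact h l hl hlS B hB τ hτ

theorem matCont_residue {r : GQ →* M2 A} (hc : MatCont A r) :
    ∃ L : IntermediateField ℚ (AlgebraicClosure ℚ), FiniteDimensional ℚ L ∧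
      ∀ σ : GQ, (∀ x ∈ L, σ x = x) → mapRep (residue A) r σ = 1 := by
  obtain ⟨L, hL, h⟩ := hc 1
  refine ⟨L, hL, fun σ hσ => ?_⟩
  refine Matrix.ext fun i j => ?_
  have h1 := h σ hσ i j
  rw [pow_one, ← residue_eq_zero_iff, Matrix.sub_apply, map_sub, sub_eq_zero] at h1
  rw [mapRep_apply, h1]
  by_cases hij : i = j
  · subst hij; rw [Matrix.one_apply_eq, Matrix.one_apply_eq, map_one]
  · rw [Matrix.one_apply_ne hij, Matrix.one_apply_ne hij, map_zero]

theorem residue_alg (o : 𝒪) : residue A (algebraMap 𝒪 A o) =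
    ResidueField.map (algebraMap 𝒪 A) (residue 𝒪 o) := rfl

/-- lifting of invertible matrices -/
theorem exists_unit_lift (x : (M2 (ResidueField A))ˣ) :
    ∃ u : (M2 A)ˣ, (u : M2 A).map (residue A) = x := by
  choose Y hY using fun i => fun j => residue_surjective (R := A) ((x : M2 (ResidueField A)) i j)
  have hY' : (Matrix.of Y : M2 A).map (residue A) = x := Matrix.ext fun i j => hY i j
  have hYu : IsUnit (Matrix.of Y : M2 A) := by
    have hX : IsUnit (x : M2 (ResidueField A)) := x.isUnit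
    rw [Matrix.isUnit_iff_isUnit_det] at hX ⊢
    rw [← hY'] at hX
    have h3 : ((Matrix.of Y : M2 A).map (residue A)).det = residue A (Matrix.of Y : M2 A).det :=
      (RingHom.map_det (residue A) _).symm
    rw [h3] at hX
    exact isUnit_of_map_unit (residue A) _ hX
  obtain ⟨u, hu⟩ := hYu
  exact ⟨u, by rw [hu, hY']⟩

theorem mapRep_conj (u : (M2 A)ˣ) (r : GQ →* M2 A) (σ : GQ) :
    (u : M2 A).map (residue A) * mapRep (residue A) r σ =
      mapRep (residue A) (conjRep u r) σ * (u : M2 A).map (residue A) := by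
  have h4 := congrArg (fun N : M2 A => N.map (residue A)) (conjRep_conj u r σ)
  simp only [Matrix.map_mul] at h4
  exact h4

theorem red_of_map_eq {r : GQ →* M2 A}
    (h : ∀ σ, mapRep (residue A) r σ = mapRep (ResidueField.map (algebraMap 𝒪 A)) rbar σ) :
    Red rbar r := by
  intro σ i j o ho
  rw [← residue_eq_zero_iff, map_sub, sub_eq_zero, residue_alg, ho]
  exact congrFun (congrFun (h σ) i) j

theorem conjRep_mul (v u : (M2 A)ˣ) (r : GQ →* M2 A) :
    conjRep v (conjRep u r) = conjRep (v * u) r := by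
  ext1 σ
  rw [conjRep_apply, conjRep_apply, conjRep_apply, _root_.mul_inv_rev, Units.val_mul,
    Units.val_mul]
  simp only [mul_assoc]

theorem exists_red_of_trace
    (hspan : Submodule.span (ResidueField 𝒪) (Set.range rbar) = ⊤) (r : GQ →* M2 A)
    (htr : ∀ σ, (mapRep (ResidueField.map (algebraMap 𝒪 A)) rbar σ).trace =
      (mapRep (residue A) r σ).trace) :
    ∃ u : (M2 A)ˣ, Red rbar (conjRep u r) := by
  obtain ⟨X, hX, hX'⟩ := conj_of_trace htr (span_mapRep _ rbar hspan)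
  obtain ⟨x, rfl⟩ := hX
  obtain ⟨u, hu⟩ := exists_unit_lift x⁻¹
  refine ⟨u, red_of_map_eq fun σ => ?_⟩
  have h3 := mapRep_conj u r σ
  rw [hu] at h3
  have h5 := congrArg (fun N => N * (x : M2 (ResidueField A))) h3
  simp only [mul_assoc, Units.inv_mul, mul_one] at h5
  rw [← h5, ← hX', Units.inv_mul_cancel_left]

theorem mapRep_level {k k' : Type} [Field k] [Field k'] (ψ : k →+* k') {r : GQ →* M2 k}
    (hr : ∃ L : IntermediateField ℚ (AlgebraicClosure ℚ), FiniteDimensional ℚ L ∧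
      ∀ σ : GQ, (∀ x ∈ L, σ x = x) → r σ = 1) :
    ∃ L : IntermediateField ℚ (AlgebraicClosure ℚ), FiniteDimensional ℚ L ∧
      ∀ σ : GQ, (∀ x ∈ L, σ x = x) → mapRep ψ r σ = 1 := by
  obtain ⟨L, hL, h⟩ := hr
  refine ⟨L, hL, fun σ hσ => ?_⟩
  refine Matrix.ext fun i j => ?_
  rw [mapRep_apply, h σ hσ]
  by_cases hij : i = j
  · subst hij; rw [Matrix.one_apply_eq, Matrix.one_apply_eq, map_one]
  · rw [Matrix.one_apply_ne hij, Matrix.one_apply_ne hij, map_zero]

theorem trace_mapRep {B C : Type} [CommRing B] [CommRing C] (ψ : B →+* C) (r : GQ →* M2 B)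
    (σ : GQ) : (mapRep ψ r σ).trace = ψ (r σ).trace := by
  rw [Matrix.trace_fin_two, Matrix.trace_fin_two, map_add]
  rfl

theorem trace_residue_eq
    (hrbar : ∃ L : IntermediateField ℚ (AlgebraicClosure ℚ), FiniteDimensional ℚ L ∧
      ∀ σ : GQ, (∀ x ∈ L, σ x = x) → rbar σ = 1) (r : GQ →* M2 A) (hc : MatCont A r)
    (S : Finset ℕ)
    (h : ∀ l : ℕ, l.Prime → l ∉ S → ∀ B : ValuationSubring (AlgebraicClosure ℚ),
      B.LiesOverPrime l → ∀ τ : GQ, B.IsFrobeniusAt τ l →
        ∀ o : 𝒪, residue 𝒪 o = (rbar τ).trace → (r τ).trace - algebraMap 𝒪 A o ∈ maximalIdeal A)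
    (σ : GQ) : (mapRep (ResidueField.map (algebraMap 𝒪 A)) rbar σ).trace =
      (mapRep (residue A) r σ).trace := by
  refine trace_eq_of_frob (mapRep_level _ hrbar) (matCont_residue hc) S
    (fun l hl hlS B hB τ hτ => ?_) σ
  obtain ⟨o, ho⟩ := residue_surjective (R := 𝒪) (rbar τ).trace
  have h1 := h l hl hlS B hB τ hτ o ho
  rw [← residue_eq_zero_iff, map_sub, sub_eq_zero, residue_alg, ho] at h1
  rw [trace_mapRep, trace_mapRep, h1]

/-- **Normalisation.** -/
theorem exists_norm [IsAdicComplete (maximalIdeal A) A] (sd : SliceData rbar)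
    (hspan : Submodule.span (ResidueField 𝒪) (Set.range rbar) = ⊤)
    (hrbar : ∃ L : IntermediateField ℚ (AlgebraicClosure ℚ), FiniteDimensional ℚ L ∧
      ∀ σ : GQ, (∀ x ∈ L, σ x = x) → rbar σ = 1) (r : GQ →* M2 A) (hc : MatCont A r)
    (S : Finset ℕ)
    (h : ∀ l : ℕ, l.Prime → l ∉ S → ∀ B : ValuationSubring (AlgebraicClosure ℚ),
      B.LiesOverPrime l → ∀ τ : GQ, B.IsFrobeniusAt τ l →
        ∀ o : 𝒪, residue 𝒪 o = (rbar τ).trace → (r τ).trace - algebraMap 𝒪 A o ∈ maximalIdeal A) :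
    ∃ u : (M2 A)ˣ, MatCont A (conjRep u r) ∧ Red rbar (conjRep u r) ∧ Norm sd (conjRep u r) := by
  have htr := trace_residue_eq hrbar r hc S h
  obtain ⟨u, hred⟩ := exists_red_of_trace hspan r htr
  obtain ⟨v, hv1, hv2⟩ := slice_exists sd hred
  rw [conjRep_mul] at hv1 hv2
  exact ⟨v * u, conjRep_cont _ r hc, hv1, hv2⟩

omit [IsLocalRing A] in
theorem trace_conjRep (u : (M2 A)ˣ) (r : GQ →* M2 A) (σ : GQ) :
    (conjRep u r σ).trace = (r σ).trace := by
  rw [conjRep_apply, Matrix.trace_mul_comm, ← mul_assoc, Units.inv_mul, one_mul]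

omit [IsLocalRing A] in
theorem det_conjRep (u : (M2 A)ˣ) (r : GQ →* M2 A) (σ : GQ) :
    (conjRep u r σ).det = (r σ).det := by
  have h1 : (u : M2 A).det * (↑u⁻¹ : M2 A).det = 1 := by
    rw [← Matrix.det_mul, Units.mul_inv, Matrix.det_one]
  rw [conjRep_apply, Matrix.det_mul, Matrix.det_mul, mul_right_comm, h1, one_mul]

end Norm

end Fermat.Agent.TW

end
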