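import Fermat.Agent.TW.HMod

/-!
`T_q` acts as the trace of Frobenius: independence of the excluded set of primes.
-/

set_option autoImplicit false
set_option linter.unusedSectionVars false

noncomputable section

namespace Fermat.Agent.TW

open IsLocalRing Module Matrix Fermat.Agent.DefRing Polynomial

section Cont

variable {A : Type} [CommRing A] [IsLocalRing A]

/-- congruence of traces -/
theorem trace_sub_mem {I : Ideal A} {X Y : M2 A} (h : ∀ i j, (X - Y) i j ∈ I) :
    X.trace - Y.trace ∈ I := by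
  rw [Matrix.trace_fin_two, Matrix.trace_fin_two]
  have h0 := h 0 0
  have h1 := h 1 1
  rw [Matrix.sub_apply] at h0 h1
  have h2 := I.add_mem h0 h1
  have e : X 0 0 - Y 0 0 + (X 1 1 - Y 1 1) = X 0 0 + X 1 1 - (Y 0 0 + Y 1 1) := by ring
  rwa [e] at h2

theorem mul_entries_mem {I : Ideal A} {X Y : M2 A} (h : ∀ i j, Y i j ∈ I) (i j : Fin 2) :
    (X * Y) i j ∈ I := by
  rw [Matrix.mul_apply]
  exact I.sum_mem fun k _ => I.mul_mem_left _ (h k j)

/-- traces of two continuous representations agree if they do on Frobenius elements -/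
theorem trace_eq_of_cont [IsHausdorff (maximalIdeal A) A] {r r' : GQ →* M2 A}
    (hc : MatCont A r) (hc' : MatCont A r') (S : Finset ℕ)
    (h : ∀ l : ℕ, l.Prime → l ∉ S → ∀ B : ValuationSubring (AlgebraicClosure ℚ),
      B.LiesOverPrime l → ∀ τ : GQ, B.IsFrobeniusAt τ l → (r τ).trace = (r' τ).trace) (σ : GQ) :
    (r σ).trace = (r' σ).trace := by
  rw [← sub_eq_zero]
  refine IsHausdorff.haus (inferInstance : IsHausdorff (maximalIdeal A) A) _ fun n => ?_
  rw [SModEq.sub_mem, sub_zero]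
  obtain ⟨L, hL, hL1⟩ := hc n
  obtain ⟨L', hL', hL1'⟩ := hc' n
  have hfin : FiniteDimensional ℚ (L ⊔ L' : IntermediateField ℚ (AlgebraicClosure ℚ)) :=
    inferInstance
  obtain ⟨l, hl, hlS, -, B, hB, τ, hτ, hτσ⟩ := Cheb.exists_frobenius_eq _ hfin σ S
  have h1 : ∀ x ∈ (L ⊔ L' : IntermediateField ℚ (AlgebraicClosure ℚ)), (τ⁻¹ * σ) x = x := by
    intro x hx
    rw [AlgEquiv.mul_apply, ← hτσ x hx, ← AlgEquiv.mul_apply, inv_mul_cancel,
      AlgEquiv.one_apply]
  have key : ∀ s : GQ →* M2 A, (∀ i j, (s (τ⁻¹ * σ) - 1) i j ∈ maximalIdeal A ^ n) →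
      (s σ).trace - (s τ).trace ∈ maximalIdeal A ^ n := by
    intro s hs
    refine trace_sub_mem fun i j => ?_
    have h2 : s σ - s τ = s τ * (s (τ⁻¹ * σ) - 1) := by
      rw [mul_sub, mul_one, ← map_mul, mul_inv_cancel_left]
    rw [h2]
    exact mul_entries_mem hs i j
  have h2 := key r (hL1 (τ⁻¹ * σ) fun x hx => h1 x ((le_sup_left : L ≤ L ⊔ L') hx))
  have h3 := key r' (hL1' (τ⁻¹ * σ) fun x hx => h1 x ((le_sup_right : L' ≤ L ⊔ L') hx))
  have h4 := (maximalIdeal A ^ n).sub_mem h2 h3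
  rw [h l hl hlS B hB τ hτ] at h4
  have e : (r σ).trace - (r' τ).trace - ((r' σ).trace - (r' τ).trace) =
    (r σ).trace - (r' σ).trace := by ring
  rw [e] at h4
  rw [smul_eq_mul, Ideal.mul_top]
  exact h4

end Cont

section Inc

variable {m m' : ℕ} (hmm : m ∣ m') (R : Type) [CommRing R]

/-- primes not dividing a multiple -/
def incP (l : Pr m') : Pr m := ⟨l.1, l.2.1, fun h => l.2.2 (h.trans hmm)⟩

theorem incP_coe (l : Pr m') : ((incP hmm l : Pr m) : ℕ) = l := rfl

/-- inclusion of polynomial rings -/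
def inc : TPoly m' R →ₐ[R] TPoly m R := MvPolynomial.rename (incP hmm)

variable {R} in
theorem inc_X (l : Pr m') : inc hmm R (MvPolynomial.X l) = MvPolynomial.X (incP hmm l) :=
  MvPolynomial.rename_X _ _

variable {R} in
theorem inc_C (a : R) : inc hmm R (MvPolynomial.C a) = MvPolynomial.C a :=
  MvPolynomial.rename_C _ _

end Inc

section Pi

variable {n m : ℕ} [NeZero n] (hm : m ≠ 0) (hnm : ∀ q : ℕ, q.Prime → q ∣ n → q ∣ m)
  {O : Type} [CommRing O] {M : Type} [AddCommGroup M] [Module (TPoly m O) M] [Module O M]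
  [IsScalarTower O (TPoly m O) M]

include hm in
/-- the map from the Hecke algebra of level `n` -/
theorem exists_pi (hrel : ∀ P : TPoly m ℤ, polyHecke (n := n) hnm P = 0 →
      ∀ x : M, TWD.Shap.pz m O P • x = 0) :
    ∃ π : CuspForm.heckeAlgebra n 2 ((m.divisors : Finset ℕ) : Set ℕ) →+* TH m O M,
      (∀ (l : ℕ) (hl : l.Prime) (hlN : ¬ l ∣ n)
      (hlS : l ∉ ((m.divisors : Finset ℕ) : Set ℕ)) (hlm : ¬ l ∣ m),
      π (CuspForm.heckeAlgebra.T hl hlN hlS) = Ideal.Quotient.mk _ (MvPolynomial.X ⟨l, hl, hlm⟩)) ∧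
      Algebra.adjoin O (Set.range π) = ⊤ := by
  obtain ⟨f, hf, hfT, hf0⟩ := exists_polyHecke (n := n) hnm _ (coe_divisors hm)
  let π₀ : TPoly m ℤ →+* TH m O M := (Ideal.Quotient.mk _).comp (TWD.Shap.pz m O)
  let f₀ : TPoly m ℤ →+* CuspForm.heckeAlgebra n 2 ((m.divisors : Finset ℕ) : Set ℕ) := f
  have hker : RingHom.ker f₀ ≤ RingHom.ker π₀ := by
    intro P hP
    have h1 : f P = 0 := hP
    rw [hf0] at h1
    rw [RingHom.mem_ker]
    exact TH.mk_eq_zero.mpr (hrel P h1)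
  let π : CuspForm.heckeAlgebra n 2 ((m.divisors : Finset ℕ) : Set ℕ) →+* TH m O M :=
    f₀.liftOfSurjective hf ⟨π₀, hker⟩
  have hπ : ∀ P, π (f P) = Ideal.Quotient.mk _ (TWD.Shap.pz m O P) := fun P =>
    RingHom.liftOfRightInverse_comp_apply _ _ _ ⟨π₀, hker⟩ P
  refine ⟨π, fun l hl hlN hlS hlm => ?_, ?_⟩
  · rw [← hfT l hl hlN hlS hlm, hπ, MvPolynomial.map_X]
  · rw [eq_top_iff]
    intro t _
    obtain ⟨P, rfl⟩ := Ideal.Quotient.mk_surjective t
    induction P using MvPolynomial.induction_on with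
    | C a => exact Subalgebra.algebraMap_mem _ a
    | add P Q hP hQ => rw [map_add]; exact add_mem (hP trivial) (hQ trivial)
    | mul_X P l hP =>
      rw [map_mul]
      refine mul_mem (hP trivial) (Algebra.subset_adjoin ⟨f (MvPolynomial.X l), ?_⟩)
      rw [hπ, MvPolynomial.map_X]

end Pi

section TQ

variable (h30 : HeckeGal.S30Statement) {p n n' m m' : ℕ} [Fact p.Prime] [NeZero n] (hm : m ≠ 0)
  (hpm : p ∣ m) (hnm : ∀ q : ℕ, q.Prime → q ∣ n → q ∣ m) (hmm : m ∣ m') (hm' : m' ≠ 0)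
  {O : Type} [CommRing O] [IsDomain O] [IsDiscreteValuationRing O]
  [IsAdicComplete (maximalIdeal O) O] [Finite (ResidueField O)] [CharZero O]
  (hpO : (p : O) ∈ maximalIdeal O) {rbar : GQ →* M2 (ResidueField O)} {sd : SliceData rbar}
  {M : Type} [AddCommGroup M] [Module (TPoly m O) M] [Module O M] [IsScalarTower O (TPoly m O) M]
  [Module.Finite O M]
  {M' : Type} [AddCommGroup M'] [Module (TPoly m' O) M'] [Module O M']
  [IsScalarTower O (TPoly m' O) M']

include h30 hm hpm hnm hmm hm' hpO in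
/-- **`T_q` acts as the trace of Frobenius.** -/
theorem X_smul_eq (htf : ∀ (a : O) (x : M), a ≠ 0 → a • x = 0 → x = 0)
    (hrel : ∀ P : TPoly m ℤ, polyHecke (n := n) hnm P = 0 →
      ∀ x : M, TWD.Shap.pz m O P • x = 0) (e : M' ≃+ M)
    (he : ∀ (P : TPoly m' O) (x : M'), e (P • x) = inc hmm O P • e x)
    (R' : HRep (m := m') p n' sd M') (q : Pr m) (B : ValuationSubring (AlgebraicClosure ℚ))
    (hB : B.LiesOverPrime q) (τ : GQ) (hτ : B.IsFrobeniusAt τ q) (P : TPoly m' O)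
    (hP : R'.φ P = (R'.C.r τ).trace) (x : M) :
    (MvPolynomial.X q : TPoly m O) • x = inc hmm O P • x := by
  classical
  have hfin := TH.finite (m := m) (O := O) (M := M)
  have hfree := TH.free (m := m) (O := O) (M := M) htf
  obtain ⟨π, hπT, hadj⟩ := exists_pi (n := n) (O := O) (M := M) hm hnm hrel
  have hhfin := Period.finite_heckeAlgebra n 2 ((m.divisors : Finset ℕ) : Set ℕ)
  have hNS : ∀ q : ℕ, q.Prime → q ∣ n → q ∈ m.divisors := fun q hq h =>
    Nat.mem_divisors.mpr ⟨hnm q hq h, hm⟩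
  have hhred := HeckeGal.isReduced_heckeAlgebra (N := n) hNS
  have hred : IsReduced (TH m O M) := isReduced_of_hecke O (TH m O M) _ π hadj
  have hdiv : ∀ l : ℕ, l ∉ ((m.divisors : Finset ℕ) : Set ℕ) ↔ ¬ l ∣ m := by
    intro l
    rw [coe_divisors hm]
    rfl
  -- comparison of Hecke algebras
  have hcomp : ∀ P₁ P₂ : TPoly m' O, R'.φ P₁ = R'.φ P₂ →
      (Ideal.Quotient.mk _ (inc hmm O P₁) : TH m O M) = Ideal.Quotient.mk _ (inc hmm O P₂) := by
    intro P₁ P₂ h
    rw [← sub_eq_zero, ← map_sub, R'.ker] at h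
    rw [← sub_eq_zero, ← map_sub, ← map_sub, TH.mk_eq_zero]
    intro x
    obtain ⟨y, rfl⟩ := e.surjective x
    rw [← he, h, map_zero]
  obtain ⟨ι, hι, pt, hpt⟩ := exists_opts O (TH m O M)
  suffices hs : (Ideal.Quotient.mk _ (MvPolynomial.X q : TPoly m O) : TH m O M) =
      Ideal.Quotient.mk _ (inc hmm O P) by
    rw [← sub_eq_zero, ← map_sub, TH.mk_eq_zero] at hs
    have h1 := hs x
    rwa [sub_smul, sub_eq_zero] at h1
  rw [← sub_eq_zero]
  refine hpt _ fun i => ?_
  rw [map_sub, sub_eq_zero]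
  let A := (pt i).A
  have hpA : (p : A) ∈ maximalIdeal A := by
    have h1 : (p : A) = algebraMap O A (p : O) := by rw [map_natCast]
    rw [h1]
    exact map_nonunit (algebraMap O A) _ hpO
  obtain ⟨O'', i1, i2, i3, i4, i5, i6, i7, i8, i9, hinj, ρ, hρ, hunr⟩ :=
    h30 p n m.divisors (Nat.mem_divisors.mpr ⟨hpm, hm⟩) hNS A hpA
      (((pt i).χ : TH m O M →+* A).comp π)
  obtain ⟨b⟩ := exists_basis ρ
  -- the point of `T'`
  choose g hg using R'.surj
  let χ' : TPoly m' O → O'' := fun P' =>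
    algebraMap A O'' ((pt i).χ (Ideal.Quotient.mk _ (inc hmm O P')))
  have hχ' : ∀ P₁ P₂, R'.φ P₁ = R'.φ P₂ → χ' P₁ = χ' P₂ := fun P₁ P₂ h => by
    change algebraMap A O'' ((pt i).χ _) = algebraMap A O'' ((pt i).χ _)
    rw [hcomp P₁ P₂ h]
  let ψ : R'.C.T →+* O'' :=
    { toFun := fun t => χ' (g t)
      map_one' := by
        rw [hχ' (g 1) 1 (by rw [hg, map_one])]
        simp only [χ', map_one]
      map_mul' := fun s t => by
        rw [hχ' (g (s * t)) (g s * g t) (by rw [hg, map_mul, hg, hg])]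
        simp only [χ', map_mul]
      map_zero' := by
        rw [hχ' (g 0) 0 (by rw [hg, map_zero])]
        simp only [χ', map_zero]
      map_add' := fun s t => by
        rw [hχ' (g (s + t)) (g s + g t) (by rw [hg, map_add, hg, hg])]
        simp only [χ', map_add] }
  have hψ : ∀ P', ψ (R'.φ P') = χ' P' := fun P' => hχ' _ _ (hg _)
  let _ : Algebra O O'' := ((algebraMap A O'').comp (algebraMap O A)).toAlgebra
  have hlocO : IsLocalHom (algebraMap O O'') :=
    inferInstanceAs (IsLocalHom ((algebraMap A O'').comp (algebraMap O A)))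
  let ψ' : R'.C.T →ₐ[O] O'' :=
    { ψ with
      commutes' := fun a => by
        have h1 : algebraMap O R'.C.T a = R'.φ (MvPolynomial.C a) := (R'.φ.commutes a).symm
        change ψ (algebraMap O R'.C.T a) = algebraMap A O'' (algebraMap O A a)
        rw [h1, hψ]
        change algebraMap A O'' ((pt i).χ _) = _
        rw [inc_C]
        congr 1
        exact (pt i).χ.commutes a }
  have hψloc : IsLocalHom ψ := isLocalHom_of_algHom ψ'
  have hcont : MatCont O'' (mapRep ψ R'.C.r) := mapRep_cont _ hψloc _ R'.C.cont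
  have htr := trace_eq_of_cont (r := mapRep ψ R'.C.r) (r' := matOf ρ b) hcont (matOf_cont ρ b)
    m'.divisors (fun l hl hlS B hB τ hτ => by
      have hlm' : ¬ l ∣ m' := fun h => hlS (Nat.mem_divisors.mpr ⟨h, hm'⟩)
      have hlm : ¬ l ∣ m := fun h => hlm' (h.trans hmm)
      rw [trace_mapRep, (R'.tr ⟨l, hl, hlm'⟩ B hB τ hτ).1, hψ]
      rw [(trace_det_of_charpoly ρ b τ (hρ l hl (fun h => hlm (hnm l hl h))
        ((hdiv l).mpr hlm) B hB τ hτ)).1]
      change algebraMap A O'' ((pt i).χ _) = algebraMap A O'' ((pt i).χ (π _))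
      rw [hπT l hl _ _ hlm, inc_X]
      rfl) τ
  rw [trace_mapRep, ← hP, hψ] at htr
  rw [(trace_det_of_charpoly ρ b τ (hρ q.1 q.2.1 (fun h => q.2.2 (hnm _ q.2.1 h))
    ((hdiv _).mpr q.2.2) B hB τ hτ)).1] at htr
  have h2 := hinj htr
  change (pt i).χ (Ideal.Quotient.mk _ (inc hmm O P)) = (pt i).χ (π _) at h2
  rw [hπT q.1 q.2.1 _ _ q.2.2] at h2
  exact h2.symm

end TQ

end Fermat.Agent.TW

end
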