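import Fermat.Agent.TW.Fun
import Fermat.Agent.HeckeHom.UOp
import Fermat.Agent.Gamma0Comb.Basic

/-!
Shapiro's lemma: `H¹(SL₂(ℤ), Fun(Y, A)) = Hom(Γ, A)`, and its compatibility with the Hecke operators
on `Hom(Γ₀(n), A)`.
-/

set_option autoImplicit false

noncomputable section

namespace Fermat.Agent.TW

open Matrix.SpecialLinearGroup CongruenceSubgroup
open scoped MatrixGroups

section Lift

/-- `SL₂(ℤ) → SL₂(ℤ/N)` is surjective. -/
theorem exists_SL_lift (N : ℕ) [NeZero N] (A : Matrix (Fin 2) (Fin 2) (ZMod N)) (hA : A.det = 1) :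
    ∃ g : SL(2, ℤ), (g : M2Z).map (Int.castRingHom (ZMod N)) = A := by
  rw [Matrix.det_fin_two] at hA
  obtain ⟨g, hg⟩ := Gamma0Comb.exists_col_eq (N := N) (A 0 0, A 1 0)
    ⟨A 1 1, - A 0 1, by linear_combination hA⟩
  have h0 : ((g 0 0 : ℤ) : ZMod N) = A 0 0 := congrArg Prod.fst hg
  have h1 : ((g 1 0 : ℤ) : ZMod N) = A 1 0 := congrArg Prod.snd hg
  have hdet := congrArg (Int.cast : ℤ → ZMod N) (Gamma0Comb.det_eq g)
  push_cast at hdet
  rw [h0, h1] at hdet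
  -- `k = (g⁻¹ A)_{01}`
  obtain ⟨k, hk⟩ := ZMod.intCast_surjective
    (((g 1 1 : ℤ) : ZMod N) * A 0 1 - ((g 0 1 : ℤ) : ZMod N) * A 1 1)
  refine ⟨g * ModularGroup.T ^ k, ?_⟩
  have h2 : ((g * ModularGroup.T ^ k : SL(2, ℤ)) : M2Z) = (g : M2Z) * !![1, k; 0, 1] := by
    rw [Matrix.SpecialLinearGroup.coe_mul, ModularGroup.coe_T_zpow]
  rw [h2, Matrix.map_mul]
  ext i j
  fin_cases i <;> fin_cases j <;> simp [Matrix.mul_apply, Fin.sum_univ_two, h0, h1, hk]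
  · linear_combination (A 0 1) * hdet - ((g 0 1 : ℤ) : ZMod N) * hA
  · linear_combination (A 1 1) * hdet - ((g 1 1 : ℤ) : ZMod N) * hA

end Lift

section Conj

/-- conjugation by `diag(d, 1)`, `Γ₀(n) → SL₂(ℤ)` for `d ∣ n`. -/
def conjD (n d : ℕ) (hd : d ∣ n) : Gamma0 n →* SL(2, ℤ) where
  toFun γ := ⟨!![(γ : SL(2, ℤ)) 0 0, d * (γ : SL(2, ℤ)) 0 1; (γ : SL(2, ℤ)) 1 0 / d,
    (γ : SL(2, ℤ)) 1 1], by
      have h1 : (d : ℤ) ∣ (γ : SL(2, ℤ)) 1 0 := (Int.natCast_dvd_natCast.mpr hd).trans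
        ((ZMod.intCast_zmod_eq_zero_iff_dvd _ _).mp (Gamma0_mem.mp γ.2))
      have h2 := Gamma0Comb.det_eq (γ : SL(2, ℤ))
      rw [Matrix.det_fin_two_of, mul_comm (d : ℤ), mul_assoc, Int.mul_ediv_cancel' h1]
      exact h2⟩
  map_one' := by
    apply Subtype.ext
    ext i j
    fin_cases i <;> fin_cases j <;> simp
  map_mul' γ γ' := by
    apply Subtype.ext
    have key : ∀ γ : Gamma0 n, ∃ c, (γ : SL(2, ℤ)) 1 0 = d * c := fun γ =>
      (Int.natCast_dvd_natCast.mpr hd).trans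
        ((ZMod.intCast_zmod_eq_zero_iff_dvd _ _).mp (Gamma0_mem.mp γ.2))
    obtain ⟨c, hc⟩ := key γ
    obtain ⟨c', hc'⟩ := key γ'
    rw [Matrix.SpecialLinearGroup.coe_mul]
    change !![((γ : SL(2, ℤ)) * (γ' : SL(2, ℤ)) : SL(2, ℤ)) 0 0,
      d * ((γ : SL(2, ℤ)) * (γ' : SL(2, ℤ)) : SL(2, ℤ)) 0 1;
      ((γ : SL(2, ℤ)) * (γ' : SL(2, ℤ)) : SL(2, ℤ)) 1 0 / d,
      ((γ : SL(2, ℤ)) * (γ' : SL(2, ℤ)) : SL(2, ℤ)) 1 1] =
      !![(γ : SL(2, ℤ)) 0 0, d * (γ : SL(2, ℤ)) 0 1; (γ : SL(2, ℤ)) 1 0 / d,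
        (γ : SL(2, ℤ)) 1 1] * !![(γ' : SL(2, ℤ)) 0 0, d * (γ' : SL(2, ℤ)) 0 1;
        (γ' : SL(2, ℤ)) 1 0 / d, (γ' : SL(2, ℤ)) 1 1]
    rw [Matrix.SpecialLinearGroup.coe_mul, Matrix.mul_apply, Matrix.mul_apply, Matrix.mul_apply,
      Matrix.mul_apply, Fin.sum_univ_two, Fin.sum_univ_two, Fin.sum_univ_two, Fin.sum_univ_two,
      Matrix.mul_fin_two, hc, hc']
    rcases eq_or_ne (d : ℤ) 0 with h0 | h0
    · rw [h0]
      simp
    · rw [Int.mul_ediv_cancel_left _ h0, Int.mul_ediv_cancel_left _ h0,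
        show (d * c * (γ' : SL(2, ℤ)) 0 0 + (γ : SL(2, ℤ)) 1 1 * (d * c')) =
          d * (c * (γ' : SL(2, ℤ)) 0 0 + (γ : SL(2, ℤ)) 1 1 * c') by ring,
        Int.mul_ediv_cancel_left _ h0]
      have e1 : (γ : SL(2, ℤ)) 0 0 * (γ' : SL(2, ℤ)) 0 0 + (γ : SL(2, ℤ)) 0 1 * (d * c') =
          (γ : SL(2, ℤ)) 0 0 * (γ' : SL(2, ℤ)) 0 0 + d * (γ : SL(2, ℤ)) 0 1 * c' := by ring
      have e2 : (d : ℤ) * ((γ : SL(2, ℤ)) 0 0 * (γ' : SL(2, ℤ)) 0 1 +
          (γ : SL(2, ℤ)) 0 1 * (γ' : SL(2, ℤ)) 1 1) =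
          (γ : SL(2, ℤ)) 0 0 * (d * (γ' : SL(2, ℤ)) 0 1) +
            d * (γ : SL(2, ℤ)) 0 1 * (γ' : SL(2, ℤ)) 1 1 := by ring
      have e3 : d * c * (γ' : SL(2, ℤ)) 0 1 + (γ : SL(2, ℤ)) 1 1 * (γ' : SL(2, ℤ)) 1 1 =
          c * (d * (γ' : SL(2, ℤ)) 0 1) + (γ : SL(2, ℤ)) 1 1 * (γ' : SL(2, ℤ)) 1 1 := by ring
      rw [e1, e2, e3]

/-- the matrix `diag(d, 1)` -/
def dD (d : ℕ) : M2Z := !![(d : ℤ), 0; 0, 1]

theorem dD_mul {n d : ℕ} (hd : d ∣ n) (γ : Gamma0 n) :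
    dD d * ((γ : SL(2, ℤ)) : M2Z) = (conjD n d hd γ : M2Z) * dD d := by
  have h1 : (d : ℤ) ∣ (γ : SL(2, ℤ)) 1 0 := (Int.natCast_dvd_natCast.mpr hd).trans
    ((ZMod.intCast_zmod_eq_zero_iff_dvd _ _).mp (Gamma0_mem.mp γ.2))
  change dD d * ((γ : SL(2, ℤ)) : M2Z) = !![(γ : SL(2, ℤ)) 0 0, d * (γ : SL(2, ℤ)) 0 1;
    (γ : SL(2, ℤ)) 1 0 / d, (γ : SL(2, ℤ)) 1 1] * dD d
  have h2 := Int.ediv_mul_cancel h1
  rw [dD]
  ext i j
  fin_cases i <;> fin_cases j <;> simp [Matrix.mul_apply, Fin.sum_univ_two]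
  · ring
  · exact h2.symm

theorem det_dD (d : ℕ) : (dD d).det = d := by rw [dD, Matrix.det_fin_two_of]; ring

/-- the conjugates of the representatives of `T_l` -/
def aD (d l : ℕ) (x : OnePoint (ZMod l)) : M2Z :=
  x.elim !![(l : ℤ), 0; 0, 1] (fun j => !![1, (d * j.val : ℤ); 0, (l : ℤ)])

theorem aD_infty (d l : ℕ) : aD d l OnePoint.infty = !![(l : ℤ), 0; 0, 1] := rfl

theorem aD_coe (d l : ℕ) (j : ZMod l) :
    aD d l (j : OnePoint (ZMod l)) = !![1, (d * j.val : ℤ); 0, (l : ℤ)] := rfl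

theorem dD_mul_bI (d l : ℕ) (x : OnePoint (ZMod l)) : dD d * bI l x = aD d l x * dD d := by
  induction x using OnePoint.rec with
  | infty =>
    rw [bI_infty, aD_infty, dD, Matrix.mul_fin_two, Matrix.mul_fin_two]
    simp [mul_comm]
  | coe j =>
    rw [bI_coe, aD_coe, dD, Matrix.mul_fin_two, Matrix.mul_fin_two]
    simp

theorem det_aD (d l : ℕ) (x : OnePoint (ZMod l)) : (aD d l x).det = l := by
  induction x using OnePoint.rec with
  | infty => rw [aD_infty, Matrix.det_fin_two_of]; ring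
  | coe j => rw [aD_coe, Matrix.det_fin_two_of]; ring

theorem isGd_aD {M l : ℕ} (d : ℕ) (hl : l.Prime) (hlM : l.Coprime M) (x : OnePoint (ZMod l)) :
    IsGd M (aD d l x) :=
  ⟨by rw [det_aD]; exact_mod_cast hl.ne_zero, by
    rw [det_aD]
    push_cast
    exact (ZMod.isUnit_iff_coprime _ _).mpr hlM⟩

/-- integral form of the cocycle relation of `T_l` on `Γ₀(n)` -/
theorem coc_integral {n l : ℕ} (hl : l.Prime) (hln : ¬ l ∣ n) (γ : Gamma0 n)
    (x : OnePoint (ZMod l)) :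
    bI l x * ((γ : SL(2, ℤ)) : M2Z) =
      (((HeckeHom.dataT hl hln).coc γ x : SL(2, ℤ)) : M2Z) *
        bI l ((HeckeHom.dataT hl hln).actFun γ x) := by
  have : Fact l.Prime := ⟨hl⟩
  have h := (HeckeHom.dataT hl hln).spec γ x
  have h1 := congrArg (fun z : GL (Fin 2) ℝ => (z : Matrix (Fin 2) (Fin 2) ℝ)) h
  have hb : ∀ y : OnePoint (ZMod l), (((HeckeHom.dataT hl hln).α y : GL (Fin 2) ℝ) :
      Matrix (Fin 2) (Fin 2) ℝ) = (bI l y).map (Int.castRingHom ℝ) := by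
    intro y
    induction y using OnePoint.rec with
    | infty =>
      change ((P2MW.S_ModularForm_heckeT_slash_eq_self_of_mem_Gamma0.ModularForm.HeckeSlashInvariance.heckeRep
        l OnePoint.infty : GL (Fin 2) ℝ) : Matrix (Fin 2) (Fin 2) ℝ) = _
      rw [P2MW.S_ModularForm_heckeT_slash_eq_self_of_mem_Gamma0.ModularForm.HeckeSlashInvariance.heckeRep_infty,
        ModularForm.val_heckeDiagMatrix hl.ne_zero, bI_infty]
      ext i j
      fin_cases i <;> fin_cases j <;> simp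
    | coe j =>
      change ((P2MW.S_ModularForm_heckeT_slash_eq_self_of_mem_Gamma0.ModularForm.HeckeSlashInvariance.heckeRep
        l (j : OnePoint (ZMod l)) : GL (Fin 2) ℝ) : Matrix (Fin 2) (Fin 2) ℝ) = _
      rw [P2MW.S_ModularForm_heckeT_slash_eq_self_of_mem_Gamma0.ModularForm.HeckeSlashInvariance.heckeRep_coe,
        ModularForm.val_heckeMatrix hl.ne_zero, bI_coe]
      ext i k
      fin_cases i <;> fin_cases k <;> simp [-ZMod.natCast_val]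
  have hs : ∀ g : SL(2, ℤ), ((mapGL ℝ g : GL (Fin 2) ℝ) : Matrix (Fin 2) (Fin 2) ℝ) =
      (g : M2Z).map (Int.castRingHom ℝ) := fun g => rfl
  rw [Units.val_mul, Units.val_mul, hb, hb, hs, hs, ← Matrix.map_mul, ← Matrix.map_mul] at h1
  ext i j
  have h2 := congrFun (congrFun h1 i) j
  simpa using h2

end Conj

section Shap

variable {M : ℕ} {R : Type} [CommRing R] {A : Type} [AddCommGroup A] [Module R A]
  {Y : Type} [MulAction (GL (Fin 2) (ZMod M)) Y] (y₀ : Y) {Γ : Type} [Group Γ]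
  (κ : Γ →* SL(2, ℤ)) (hκ : ∀ γ, (iM M (κ γ)).2 • y₀ = y₀)

theorem Z1.fun_mul (c : Z1 (Lvl.full.ι M) (funRep (M := M) R A Y)) (g h : SL(2, ℤ)) (y : Y) :
    c.1 (g * h) y = c.1 g y + c.1 h ((iM M g).2⁻¹ • y) :=
  congrFun (Z1.mul c g h) y

/-- the Shapiro map on crossed homomorphisms -/
def shapZ : Z1 (Lvl.full.ι M) (funRep (M := M) R A Y) →ₗ[R] (Additive Γ →+ A) where
  toFun c :=
    { toFun := fun γ => c.1 (κ (Additive.toMul γ)) y₀
      map_zero' := by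
        rw [toMul_zero, map_one, Z1.one]
        rfl
      map_add' := fun γ γ' => by
        rw [toMul_add, map_mul, Z1.fun_mul, inv_smul_eq_iff.mpr (hκ _).symm] }
  map_add' _ _ := rfl
  map_smul' _ _ := rfl

/-- the Shapiro map -/
def shap : H1 (Lvl.full.ι M) (funRep (M := M) R A Y) →ₗ[R] (Additive Γ →+ A) :=
  Submodule.liftQ _ (shapZ y₀ κ hκ) (by
    rintro _ ⟨v, rfl⟩
    rw [LinearMap.mem_ker]
    refine AddMonoidHom.ext fun γ => ?_
    change v ((iM M (κ (Additive.toMul γ))).2⁻¹ • y₀) - v y₀ = 0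
    rw [inv_smul_eq_iff.mpr (hκ _).symm, sub_self])

theorem shap_mk (c : Z1 (Lvl.full.ι M) (funRep (M := M) R A Y)) (γ : Γ) :
    shap y₀ κ hκ (H1.mk _ _ c) (Additive.ofMul γ) = c.1 (κ γ) y₀ := rfl

variable (htrans : ∀ y : Y, ∃ g : SL(2, ℤ), (iM M g).2 • y₀ = y)
  (hrange : ∀ g : SL(2, ℤ), (iM M g).2 • y₀ = y₀ → ∃ γ, κ γ = g)

include htrans hrange in
theorem shap_injective : Function.Injective (shap (R := R) (A := A) y₀ κ hκ) := by
  rw [← LinearMap.ker_eq_bot, LinearMap.ker_eq_bot']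
  intro x hx
  obtain ⟨c, rfl⟩ := H1.mk_surjective x
  rw [H1.mk_eq_zero]
  choose s hs using htrans
  refine ⟨fun y => - c.1 (s y) y, ?_⟩
  ext g y
  change - c.1 (s ((iM M g).2⁻¹ • y)) ((iM M g).2⁻¹ • y) - - c.1 (s y) y = c.1 g y
  obtain ⟨γ, hγ⟩ := hrange ((s y)⁻¹ * (g * s ((iM M g).2⁻¹ • y))) (by
    rw [map_mul, map_mul, map_inv, Prod.snd_mul, Prod.snd_mul, Prod.snd_inv, mul_smul, mul_smul,
      hs, smul_inv_smul, inv_smul_eq_iff, hs])
  have h1 : c.1 (κ γ) y₀ = 0 := by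
    have := congrArg (fun φ : Additive Γ →+ A => φ (Additive.ofMul γ)) hx
    exact this
  have h2 : g * s ((iM M g).2⁻¹ • y) = s y * κ γ := by rw [hγ]; group
  have h3 := Z1.fun_mul c g (s ((iM M g).2⁻¹ • y)) y
  have h4 : (iM M (s y)).2⁻¹ • y = y₀ := by rw [inv_smul_eq_iff, hs]
  rw [h2, Z1.fun_mul, h4, h1, add_zero] at h3
  rw [h3]
  abel

include htrans hrange in
theorem shap_surjective (hinj : Function.Injective κ) :
    Function.Surjective (shap (R := R) (A := A) y₀ κ hκ) := by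
  intro φ
  choose s hs using htrans
  have hex : ∀ (g : SL(2, ℤ)) (y : Y), ∃ γ, κ γ = (s y)⁻¹ * (g * s ((iM M g).2⁻¹ • y)) :=
    fun g y => hrange _ (by
      rw [map_mul, map_mul, map_inv, Prod.snd_mul, Prod.snd_mul, Prod.snd_inv, mul_smul, mul_smul,
        hs, smul_inv_smul, inv_smul_eq_iff, hs])
  choose γ hγ using hex
  have hmul : ∀ g h y, γ (g * h) y = γ g y * γ h ((iM M g).2⁻¹ • y) := by
    intro g h y
    apply hinj
    rw [map_mul, hγ, hγ, hγ]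
    have : (iM M (g * h)).2⁻¹ • y = (iM M h).2⁻¹ • (iM M g).2⁻¹ • y := by
      rw [map_mul, Prod.snd_mul, mul_inv_rev, mul_smul]
    rw [this]
    group
  let c : Z1 (Lvl.full.ι M) (funRep (M := M) R A Y) :=
    ⟨fun g y => φ (Additive.ofMul (γ g y)), fun g h => by
      ext y
      change φ (Additive.ofMul (γ (g * h) y)) = φ (Additive.ofMul (γ g y)) +
        φ (Additive.ofMul (γ h ((iM M g).2⁻¹ • y)))
      rw [hmul, ofMul_mul, map_add]⟩
  refine ⟨H1.mk _ _ c, AddMonoidHom.ext fun γ' => ?_⟩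
  obtain ⟨γ', rfl⟩ := Additive.ofMul.surjective γ'
  rw [shap_mk]
  change φ (Additive.ofMul (γ (κ γ') y₀)) = _
  obtain ⟨t, ht⟩ := hrange (s y₀) (hs y₀)
  have h1 : γ (κ γ') y₀ = t⁻¹ * (γ' * t) := by
    apply hinj
    rw [hγ, map_mul, map_mul, map_inv, ht, inv_smul_eq_iff.mpr (hκ γ').symm]
  rw [h1, ofMul_mul, ofMul_mul, ofMul_inv, map_add, map_add, map_neg]
  abel

end Shap

section Hecke

variable {M : ℕ} {R : Type} [CommRing R] {A : Type} [AddCommGroup A] [Module R A]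
  {Y : Type} [MulAction (GL (Fin 2) (ZMod M)) Y] (y₀ : Y) {n d : ℕ} (hd : d ∣ n) (hd0 : d ≠ 0)
  (hκ : ∀ γ, (iM M (conjD n d hd γ)).2 • y₀ = y₀)

/-- `T_l`-representatives and their conjugates -/
theorem exists_aD_eq {d l : ℕ} [Fact l.Prime] (hdl : ¬ l ∣ d) :
    ∃ e : OnePoint (ZMod l) ≃ OnePoint (ZMod l), ∀ x, ∃ h : SL(2, ℤ),
      aD d l x = (h : M2Z) * bI l (e x) := by
  have hd : (d : ZMod l) ≠ 0 := by
    rw [Ne, ZMod.natCast_eq_zero_iff]
    exact hdl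
  refine ⟨Equiv.optionCongr (Equiv.mulLeft₀ (d : ZMod l) hd), fun x => ?_⟩
  induction x using OnePoint.rec with
  | infty => exact ⟨1, by rw [Matrix.SpecialLinearGroup.coe_one, one_mul]; rfl⟩
  | coe j =>
    change ∃ h : SL(2, ℤ), aD d l (j : OnePoint (ZMod l)) = (h : M2Z) *
      bI l (((d : ZMod l) * j : ZMod l) : OnePoint (ZMod l))
    obtain ⟨k, hk⟩ : (l : ℤ) ∣ (d * j.val : ℤ) - (((d : ZMod l) * j).val : ℤ) := by
      rw [← ZMod.intCast_zmod_eq_zero_iff_dvd]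
      push_cast
      rw [ZMod.natCast_zmod_val, ZMod.natCast_zmod_val, sub_self]
    refine ⟨ModularGroup.T ^ k, ?_⟩
    rw [ModularGroup.coe_T_zpow, aD_coe, bI_coe, Matrix.mul_fin_two]
    have : (d * j.val : ℤ) = ((d : ZMod l) * j).val + k * l := by linear_combination hk
    rw [this]
    simp [-ZMod.natCast_val]

include hd0 in
/-- **Shapiro's isomorphism is Hecke equivariant.** -/
theorem shap_hecke {l : ℕ} (hl : l.Prime) (hln : ¬ l ∣ n) (hlM : l.Coprime M)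
    (hst : ∀ x : OnePoint (ZMod l), (toGp M (aD d l x) (isGd_aD d hl hlM x)).2 • y₀ = y₀)
    (x : H1 (Lvl.full.ι M) (funRep (M := M) R A Y)) :
    shap y₀ (conjD n d hd) hκ ((Lvl.full.corrT M hl hlM (Lvl.ok_full l)).map _ x) =
      HeckeHom.heckeHom hl hln A (shap y₀ (conjD n d hd) hκ x) := by
  have : Fact l.Prime := ⟨hl⟩
  obtain ⟨c, rfl⟩ := H1.mk_surjective x
  rw [← HeckeHom.hom_dataT]
  refine AddMonoidHom.ext fun γ' => ?_
  obtain ⟨γ, rfl⟩ := Additive.ofMul.surjective γ'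
  rw [HeckeHom.HData.hom_apply, Corr.map_mk, shap_mk]
  set D := Lvl.full.corrT M hl hlM (Lvl.ok_full l) with hD
  set D' := HeckeHom.dataT hl hln with hD'
  have hdl : ¬ l ∣ d := fun h => hln (h.trans hd)
  obtain ⟨e, he⟩ := exists_aD_eq hdl
  choose h hh using he
  -- the conjugated cocycle relation
  have hrel : ∀ z : OnePoint (ZMod l), aD d l z * ((conjD n d hd γ : SL(2, ℤ)) : M2Z) =
      ((conjD n d hd (D'.coc γ z) : SL(2, ℤ)) : M2Z) * aD d l (D'.actFun γ z) := by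
    intro z
    apply mul_right_cancel_det (C := dD d)
    · rw [det_dD]
      exact_mod_cast hd0
    · rw [mul_assoc, ← dD_mul, ← mul_assoc, ← dD_mul_bI, mul_assoc, coc_integral hl hln,
        ← mul_assoc, dD_mul, mul_assoc, mul_assoc, dD_mul_bI]
  have key := D.compare c (fun z : OnePoint (ZMod l) => toGp M (aD d l z) (isGd_aD d hl hlM z))
    (conjD n d hd γ) (fun z => D'.actFun γ z) (D'.perm γ).bijective
    (fun z => conjD n d hd (D'.coc γ z)) (fun z => by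
      change toGp M (aD d l z) _ * iM M (conjD n d hd γ) = iM M _ * toGp M _ _
      rw [← toGp_SL, ← toGp_mul, ← toGp_SL, ← toGp_mul]
      exact toGp_congr (hrel z) _ _) e h (fun z =>
      (toGp_eq_iff (hA := isGd_aD d hl hlM z) (hB := isGd_bI hl hlM (e z))).mpr (hh z))
  have key2 := congrFun key y₀
  rw [Finset.sum_apply] at key2
  have h1 : ∀ z : OnePoint (ZMod l), (funRep (M := M) R A Y
      (toGp M (aD d l z) (isGd_aD d hl hlM z))⁻¹ (c.1 (conjD n d hd (D'.coc γ z)))) y₀ =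
      c.1 (conjD n d hd (D'.coc γ z)) y₀ := by
    intro z
    rw [funRep_apply, Prod.snd_inv, inv_inv, hst]
  rw [Finset.sum_congr rfl fun z _ => h1 z] at key2
  change _ = ∑ z : OnePoint (ZMod l), c.1 (conjD n d hd (D'.coc γ z)) y₀
  rw [key2, Pi.add_apply]
  have h2 : ∀ v : Y → A, funRep (M := M) R A Y (Lvl.full.ι M (conjD n d hd γ)) v y₀ = v y₀ := by
    intro v
    rw [funRep_apply]
    change v ((iM M (conjD n d hd γ)).2⁻¹ • y₀) = v y₀
    rw [inv_smul_eq_iff.mpr (hκ γ).symm]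
  rw [Pi.sub_apply, h2, sub_self, add_zero, Corr.zmap_apply]
  exact congrFun (Equiv.sum_comp e fun z => funRep (M := M) R A Y (D.α z)⁻¹
    (c.1 (D.coc (conjD n d hd γ) z))).symm y₀

end Hecke

end Fermat.Agent.TW

end
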