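import Fermat.Agent.TW.Step
import Fermat.Agent.TW.Shapiro

/-!
Levels of Taylor-Wiles type in `GL₂(ℤ/M)`, `M = N ∏ Q`.
-/

set_option autoImplicit false
set_option linter.unusedSectionVars false

noncomputable section

namespace Fermat.Agent.TW

open scoped MatrixGroups

section Red

/-- reduction -/
def red {M n : ℕ} (h : n ∣ M) : GL (Fin 2) (ZMod M) →* GL (Fin 2) (ZMod n) :=
  Matrix.GeneralLinearGroup.map (ZMod.castHom h (ZMod n))

theorem red_apply {M n : ℕ} (h : n ∣ M) (g : GL (Fin 2) (ZMod M)) (i j : Fin 2) :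
    red h g i j = ZMod.castHom h (ZMod n) (g i j) := rfl

/-- matrices over a product, with trivial second component -/
def matEmb (A B : Type) [CommRing A] [CommRing B] :
    Matrix (Fin 2) (Fin 2) A →* Matrix (Fin 2) (Fin 2) (A × B) where
  toFun h := Matrix.of fun i j => (h i j, (1 : Matrix (Fin 2) (Fin 2) B) i j)
  map_one' := by
    refine Matrix.ext fun i j => ?_
    rw [Matrix.of_apply]
    by_cases hij : i = j
    · subst hij
      rw [Matrix.one_apply_eq, Matrix.one_apply_eq, Matrix.one_apply_eq]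
      rfl
    · rw [Matrix.one_apply_ne hij, Matrix.one_apply_ne hij, Matrix.one_apply_ne hij]
      rfl
  map_mul' h h' := by
    refine Matrix.ext fun i j => ?_
    rw [Matrix.of_apply, Matrix.mul_apply, Matrix.mul_apply]
    refine Prod.ext ?_ ?_
    · rw [Prod.fst_sum]
      rfl
    · rw [Prod.snd_sum]
      change (1 : Matrix (Fin 2) (Fin 2) B) i j = ∑ k, (1 : Matrix (Fin 2) (Fin 2) B) i k *
        (1 : Matrix (Fin 2) (Fin 2) B) k j
      rw [← Matrix.mul_apply, one_mul]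

/-- CRT embedding -/
def crtEmb {n n' : ℕ} (h : n.Coprime n') : GL (Fin 2) (ZMod n) →* GL (Fin 2) (ZMod (n * n')) :=
  (Matrix.GeneralLinearGroup.map (ZMod.chineseRemainder h).symm.toRingHom).comp
    (Units.map (matEmb (ZMod n) (ZMod n')))

theorem crtEmb_apply {n n' : ℕ} (h : n.Coprime n') (x : GL (Fin 2) (ZMod n)) (i j : Fin 2) :
    crtEmb h x i j = (ZMod.chineseRemainder h).symm (x i j,
      (1 : Matrix (Fin 2) (Fin 2) (ZMod n')) i j) := rfl

theorem exists_emb {M n : ℕ} (hn : n ∣ M) (hc : n.Coprime (M / n)) :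
    ∃ L : GL (Fin 2) (ZMod n) →* GL (Fin 2) (ZMod M), (∀ x, red hn (L x) = x) ∧
      ∀ (k : ℕ) (hk : k ∣ M), k.Coprime n → ∀ x, red hk (L x) = 1 := by
  rcases Nat.eq_zero_or_pos n with rfl | hn0
  · rw [zero_dvd_iff] at hn
    subst hn
    refine ⟨MonoidHom.id _, fun x => ?_, fun k hk hkn x => ?_⟩
    · ext i j
      rw [red_apply]
      exact DFunLike.congr_fun (Subsingleton.elim (ZMod.castHom (dvd_refl 0) (ZMod 0))
        (RingHom.id _)) (x i j)
    · have hk1 : k = 1 := by rwa [Nat.coprime_zero_right] at hkn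
      subst hk1
      ext i j
      exact Subsingleton.elim (α := ZMod 1) _ _
  obtain ⟨n', rfl⟩ := hn
  rw [Nat.mul_div_cancel_left _ hn0] at hc
  refine ⟨crtEmb hc, fun x => ?_, fun k hk hkn x => ?_⟩
  · ext i j
    rw [red_apply, crtEmb_apply]
    have h1 : ZMod.castHom (dvd_mul_right n n') (ZMod n) =
        (RingHom.fst _ _).comp (ZMod.chineseRemainder hc).toRingHom := Subsingleton.elim _ _
    rw [h1]
    change ((ZMod.chineseRemainder hc) ((ZMod.chineseRemainder hc).symm _)).1 = _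
    rw [RingEquiv.apply_symm_apply]
  · have hk' : k ∣ n' := hkn.dvd_of_dvd_mul_left hk
    ext i j
    rw [red_apply, crtEmb_apply]
    have h1 : ZMod.castHom hk (ZMod k) = (ZMod.castHom hk' (ZMod k)).comp
        ((RingHom.snd _ _).comp (ZMod.chineseRemainder hc).toRingHom) := Subsingleton.elim _ _
    rw [h1]
    change ZMod.castHom hk' (ZMod k) ((ZMod.chineseRemainder hc)
      ((ZMod.chineseRemainder hc).symm _)).2 = _
    rw [RingEquiv.apply_symm_apply]
    change ZMod.castHom hk' (ZMod k) ((1 : Matrix (Fin 2) (Fin 2) (ZMod n')) i j) =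
      (1 : Matrix (Fin 2) (Fin 2) (ZMod k)) i j
    rw [Matrix.one_apply, Matrix.one_apply]
    split_ifs
    · rw [map_one]
    · rw [map_zero]

end Red

section Tri

variable (A : Type) [CommRing A]

theorem gl_inv_mul (g : GL (Fin 2) A) (i j : Fin 2) :
    g⁻¹ i 0 * g 0 j + g⁻¹ i 1 * g 1 j = (1 : Matrix (Fin 2) (Fin 2) A) i j := by
  have h := congrFun (congrFun (congrArg (fun x : GL (Fin 2) A =>
    (x : Matrix (Fin 2) (Fin 2) A)) (inv_mul_cancel g)) i) j
  rw [Units.val_mul, Matrix.mul_apply, Fin.sum_univ_two] at h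
  exact h

theorem gl_mul_inv (g : GL (Fin 2) A) (i j : Fin 2) :
    g i 0 * g⁻¹ 0 j + g i 1 * g⁻¹ 1 j = (1 : Matrix (Fin 2) (Fin 2) A) i j := by
  have h := congrFun (congrFun (congrArg (fun x : GL (Fin 2) A =>
    (x : Matrix (Fin 2) (Fin 2) A)) (mul_inv_cancel g)) i) j
  rw [Units.val_mul, Matrix.mul_apply, Fin.sum_univ_two] at h
  exact h

theorem gl_mul_apply (g h : GL (Fin 2) A) (i j : Fin 2) :
    (g * h) i j = g i 0 * h 0 j + g i 1 * h 1 j := by
  rw [Units.val_mul, Matrix.mul_apply, Fin.sum_univ_two]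

/-- lower triangular matrices -/
def lowB : Subgroup (GL (Fin 2) A) where
  carrier := {g | g 0 1 = 0}
  one_mem' := rfl
  mul_mem' {g h} hg hh := by
    change (g * h) 0 1 = 0
    rw [gl_mul_apply, show g 0 1 = 0 from hg, show h 0 1 = 0 from hh, mul_zero, zero_mul,
      add_zero]
  inv_mem' {g} hg := by
    change g⁻¹ 0 1 = 0
    have hg : g 0 1 = 0 := hg
    have h1 := gl_mul_inv A g 0 0
    have h2 := gl_mul_inv A g 0 1
    have h3 := gl_inv_mul A g 0 0
    rw [hg, zero_mul, add_zero] at h1 h2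
    rw [Matrix.one_apply_eq] at h1
    rw [Matrix.one_apply_ne (by decide)] at h2
    linear_combination g⁻¹ 0 0 * h2 - g⁻¹ 0 1 * h1

/-- upper triangular matrices -/
def upB : Subgroup (GL (Fin 2) A) where
  carrier := {g | g 1 0 = 0}
  one_mem' := rfl
  mul_mem' {g h} hg hh := by
    change (g * h) 1 0 = 0
    rw [gl_mul_apply, show g 1 0 = 0 from hg, show h 1 0 = 0 from hh, mul_zero, zero_mul,
      add_zero]
  inv_mem' {g} hg := by
    change g⁻¹ 1 0 = 0
    have hg : g 1 0 = 0 := hg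
    have h1 := gl_mul_inv A g 1 1
    have h2 := gl_mul_inv A g 1 0
    rw [hg, zero_mul, zero_add] at h1 h2
    rw [Matrix.one_apply_eq] at h1
    rw [Matrix.one_apply_ne (by decide)] at h2
    linear_combination g⁻¹ 1 1 * h2 - g⁻¹ 1 0 * h1

variable {A}

theorem mem_lowB {g : GL (Fin 2) A} : g ∈ lowB A ↔ g 0 1 = 0 := Iff.rfl
theorem mem_upB {g : GL (Fin 2) A} : g ∈ upB A ↔ g 1 0 = 0 := Iff.rfl

/-- upper left entry -/
def aU : lowB A →* Aˣ where
  toFun g := ⟨(g : GL (Fin 2) A) 0 0, (g : GL (Fin 2) A)⁻¹ 0 0, by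
      have h := gl_mul_inv A (g : GL (Fin 2) A) 0 0
      rw [mem_lowB.mp g.2, zero_mul, add_zero] at h
      exact h, by
      have h := gl_inv_mul A (g : GL (Fin 2) A) 0 0
      have h2 : ((g : GL (Fin 2) A)⁻¹ : GL (Fin 2) A) 0 1 = 0 :=
        mem_lowB.mp (Subgroup.inv_mem _ g.2)
      rw [h2, zero_mul, add_zero] at h
      exact h⟩
  map_one' := Units.ext rfl
  map_mul' g h := Units.ext (by
    change ((g : GL (Fin 2) A) * (h : GL (Fin 2) A)) 0 0 = (g : GL (Fin 2) A) 0 0 *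
      (h : GL (Fin 2) A) 0 0
    rw [gl_mul_apply, mem_lowB.mp g.2, zero_mul, add_zero])

/-- lower right entry -/
def dU : lowB A →* Aˣ where
  toFun g := ⟨(g : GL (Fin 2) A) 1 1, (g : GL (Fin 2) A)⁻¹ 1 1, by
      have h := gl_mul_inv A (g : GL (Fin 2) A) 1 1
      have h2 : ((g : GL (Fin 2) A)⁻¹ : GL (Fin 2) A) 0 1 = 0 :=
        mem_lowB.mp (Subgroup.inv_mem _ g.2)
      rw [h2, mul_zero, zero_add] at h
      exact h, by
      have h := gl_inv_mul A (g : GL (Fin 2) A) 1 1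
      rw [mem_lowB.mp g.2, mul_zero, zero_add] at h
      exact h⟩
  map_one' := Units.ext rfl
  map_mul' g h := Units.ext (by
    change ((g : GL (Fin 2) A) * (h : GL (Fin 2) A)) 1 1 = (g : GL (Fin 2) A) 1 1 *
      (h : GL (Fin 2) A) 1 1
    rw [gl_mul_apply, mem_lowB.mp h.2, mul_zero, zero_add])

/-- ratio of the diagonal entries -/
def rat : lowB A →* Aˣ := aU / dU

theorem rat_apply (g : lowB A) : rat g = aU g / dU g := rfl

/-- diagonal matrices -/
def diagG (a d : Aˣ) : GL (Fin 2) A :=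
  ⟨!![(a : A), 0; 0, (d : A)], !![((a⁻¹ : Aˣ) : A), 0; 0, ((d⁻¹ : Aˣ) : A)], by
    rw [Matrix.mul_fin_two, Matrix.one_fin_two]
    simp, by
    rw [Matrix.mul_fin_two, Matrix.one_fin_two]
    simp⟩

theorem diagG_mem (a d : Aˣ) : diagG a d ∈ lowB A := rfl

theorem diagG_mem' (a d : Aˣ) : diagG a d ∈ upB A := rfl

theorem rat_diagG (a d : Aˣ) : rat (⟨diagG a d, diagG_mem a d⟩ : lowB A) = a / d := by
  rw [rat_apply]
  have h1 : aU (⟨diagG a d, diagG_mem a d⟩ : lowB A) = a := Units.ext rfl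
  have h2 : dU (⟨diagG a d, diagG_mem a d⟩ : lowB A) = d := Units.ext rfl
  rw [h1, h2]

/-- upper unipotent -/
def upU (i : A) : GL (Fin 2) A :=
  ⟨!![1, i; 0, 1], !![1, -i; 0, 1], by
    rw [Matrix.mul_fin_two, Matrix.one_fin_two]
    simp, by
    rw [Matrix.mul_fin_two, Matrix.one_fin_two]
    simp⟩

/-- lower unipotent -/
def loU (i : A) : GL (Fin 2) A :=
  ⟨!![1, 0; i, 1], !![1, 0; -i, 1], by
    rw [Matrix.mul_fin_two, Matrix.one_fin_two]
    simp, by
    rw [Matrix.mul_fin_two, Matrix.one_fin_two]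
    simp⟩

theorem upU_val (i : A) : ((upU i : GL (Fin 2) A) : Matrix (Fin 2) (Fin 2) A) = !![1, i; 0, 1] := rfl
theorem loU_val (i : A) : ((loU i : GL (Fin 2) A) : Matrix (Fin 2) (Fin 2) A) = !![1, 0; i, 1] := rfl

theorem upU_zero : upU (0 : A) = 1 := Units.ext (by rw [upU_val, Units.val_one, Matrix.one_fin_two])

theorem upU_add (i j : A) : upU (i + j) = upU i * upU j := Units.ext (by
  rw [Units.val_mul, upU_val, upU_val, upU_val, Matrix.mul_fin_two]
  simp [add_comm])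

theorem loU_mem (i : A) : loU i ∈ lowB A := rfl

theorem rat_loU (i : A) : rat (⟨loU i, loU_mem i⟩ : lowB A) = 1 := by
  rw [rat_apply]
  have h1 : aU (⟨loU i, loU_mem i⟩ : lowB A) = 1 := Units.ext rfl
  have h2 : dU (⟨loU i, loU_mem i⟩ : lowB A) = 1 := Units.ext rfl
  rw [h1, h2, div_one]

/-- `diag(a, a⁻¹)` is a product of elementary matrices. -/
theorem diagG_eq (a : Aˣ) : diagG a a⁻¹ = upU (a : A) * loU (-((a⁻¹ : Aˣ) : A)) * upU (a : A) *
    (upU (-1) * loU 1 * upU (-1)) := Units.ext (by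
  rw [Units.val_mul, Units.val_mul, Units.val_mul, Units.val_mul, Units.val_mul]
  change !![(a : A), 0; 0, ((a⁻¹ : Aˣ) : A)] = !![1, (a : A); 0, 1] *
    !![1, 0; -((a⁻¹ : Aˣ) : A), 1] * !![1, (a : A); 0, 1] *
    (!![1, -1; 0, 1] * !![1, 0; 1, 1] * !![1, -1; 0, 1])
  simp only [Matrix.mul_fin_two]
  simp)

/-- conjugation by diagonal matrices -/
theorem conj_upU (t : GL (Fin 2) A) (h : t ∈ lowB A) (h' : t ∈ upB A) (i : A) :
    t * upU i = upU ((rat ⟨t, h⟩ : Aˣ) * i) * t := by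
  have h01 : t 0 1 = 0 := h
  have h10 : t 1 0 = 0 := h'
  have h1 : ((rat ⟨t, h⟩ : Aˣ) : A) * t 1 1 = t 0 0 := by
    have : rat (⟨t, h⟩ : lowB A) * dU ⟨t, h⟩ = aU ⟨t, h⟩ := by rw [rat_apply, div_mul_cancel]
    exact congrArg Units.val this
  apply Units.ext
  ext k l
  rw [gl_mul_apply, gl_mul_apply, upU_val, upU_val]
  fin_cases k <;> fin_cases l <;> simp [h01, h10]
  rw [← h1]
  ring

end Tri

end Fermat.Agent.TW

end
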