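import Fermat.Agent.TW.Lev

/-!
The subgroups `lvl` of `GL₂(ℤ/M)`, `M = N ∏ Q`, and the twisting data.
-/

set_option autoImplicit false
set_option linter.unusedSectionVars false

noncomputable section

namespace Fermat.Agent.TW

open scoped MatrixGroups

/-- local types: Borel, `χ`-level, torus -/
inductive LT where
  | bor
  | chi
  | tor
  deriving DecidableEq

section Kloc

variable {A : Type} [CommRing A] {D : Type} [CommGroup D]

/-- the local subgroups -/
def Kloc (χ : Aˣ →* D) : LT → Subgroup (GL (Fin 2) A)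
  | .bor => lowB A
  | .chi => ((χ.comp rat).ker).map (lowB A).subtype
  | .tor => lowB A ⊓ upB A

theorem mem_Kloc_chi {χ : Aˣ →* D} {g : GL (Fin 2) A} :
    g ∈ Kloc χ .chi ↔ ∃ h : g ∈ lowB A, χ (rat ⟨g, h⟩) = 1 := by
  constructor
  · rintro ⟨x, hx, rfl⟩
    exact ⟨x.2, hx⟩
  · rintro ⟨h, h'⟩
    exact ⟨⟨g, h⟩, h', rfl⟩

theorem mem_Kloc_tor {χ : Aˣ →* D} {g : GL (Fin 2) A} :
    g ∈ Kloc χ .tor ↔ g ∈ lowB A ∧ g ∈ upB A := Iff.rfl

theorem Kloc_le (χ : Aˣ →* D) (t : LT) : Kloc χ t ≤ lowB A := by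
  intro g hg
  cases t with
  | bor => exact hg
  | chi => exact (mem_Kloc_chi.mp hg).1
  | tor => exact hg.1

theorem diagG_mem_Kloc (χ : Aˣ →* D) (t : LT) (a d : Aˣ) (h : χ (a / d) = 1) :
    diagG a d ∈ Kloc χ t := by
  cases t with
  | bor => exact diagG_mem a d
  | chi => exact mem_Kloc_chi.mpr ⟨diagG_mem a d, by rw [rat_diagG, h]⟩
  | tor => exact ⟨diagG_mem a d, diagG_mem' a d⟩

end Kloc

/-- the modulus -/
abbrev modu (N : ℕ) (Q : Finset ℕ) : ℕ := N * ∏ q ∈ Q, q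

theorem N_dvd (N : ℕ) (Q : Finset ℕ) : N ∣ modu N Q := dvd_mul_right _ _

theorem q_dvd (N : ℕ) {Q : Finset ℕ} {q : ℕ} (hq : q ∈ Q) : q ∣ modu N Q :=
  (Finset.dvd_prod_of_mem (fun q => q) hq).trans (dvd_mul_left _ _)

/-- Taylor–Wiles sets -/
structure TWS (N : ℕ) (Q : Finset ℕ) : Prop where
  pos : N ≠ 0
  prime : ∀ q ∈ Q, q.Prime
  ndvd : ∀ q ∈ Q, ¬ q ∣ N

namespace TWS

variable {N : ℕ} {Q : Finset ℕ} (hQ : TWS N Q)

include hQ

theorem modu_ne_zero : modu N Q ≠ 0 :=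
  mul_ne_zero hQ.pos (Finset.prod_ne_zero_iff.mpr fun q hq => (hQ.prime q hq).ne_zero)

theorem coprime_of_ne {q q' : ℕ} (hq : q ∈ Q) (hq' : q' ∈ Q) (h : q' ≠ q) : q'.Coprime q :=
  (Nat.coprime_primes (hQ.prime _ hq') (hQ.prime _ hq)).mpr h

theorem coprime_N {q : ℕ} (hq : q ∈ Q) : N.Coprime q :=
  Nat.Coprime.symm ((Nat.Prime.coprime_iff_not_dvd (hQ.prime q hq)).mpr (hQ.ndvd q hq))

theorem coprime_div {q : ℕ} (hq : q ∈ Q) : q.Coprime (modu N Q / q) := by
  have h1 : modu N Q = q * (N * ∏ q' ∈ Q.erase q, q') := by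
    rw [modu, ← Finset.mul_prod_erase Q (fun q => q) hq]
    ring
  rw [h1, Nat.mul_div_cancel_left _ (hQ.prime q hq).pos]
  refine Nat.Coprime.mul_right (hQ.coprime_N hq).symm ?_
  refine Nat.Coprime.prod_right fun q' hq' => ?_
  rw [Finset.mem_erase] at hq'
  exact hQ.coprime_of_ne hq'.2 hq hq'.1.symm

theorem eq_zero_of_cast {x : ZMod (modu N Q)}
    (hN : ZMod.castHom (N_dvd N Q) (ZMod N) x = 0)
    (h : ∀ q (hq : q ∈ Q), ZMod.castHom (q_dvd N hq) (ZMod q) x = 0) : x = 0 := by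
  obtain ⟨k, rfl⟩ := ZMod.intCast_surjective x
  rw [map_intCast, ZMod.intCast_zmod_eq_zero_iff_dvd] at hN
  rw [ZMod.intCast_zmod_eq_zero_iff_dvd]
  have h1 : ((∏ q ∈ Q, (q : ℤ)) : ℤ) ∣ k := by
    refine Finset.prod_dvd_of_coprime ?_ fun q hq => ?_
    · intro q hq q' hq' hne
      exact Nat.isCoprime_iff_coprime.mpr (hQ.coprime_of_ne hq' hq hne)
    · have := h q hq
      rwa [map_intCast, ZMod.intCast_zmod_eq_zero_iff_dvd] at this
  rw [modu, Nat.cast_mul, Nat.cast_prod]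
  refine IsCoprime.mul_dvd ?_ hN h1
  refine IsCoprime.prod_right fun q hq => ?_
  exact Nat.isCoprime_iff_coprime.mpr (hQ.coprime_N hq)

theorem gl_ext {g g' : GL (Fin 2) (ZMod (modu N Q))} (hN : red (N_dvd N Q) g = red (N_dvd N Q) g')
    (h : ∀ q (hq : q ∈ Q), red (q_dvd N hq) g = red (q_dvd N hq) g') : g = g' := by
  apply Units.ext
  ext i j
  rw [← sub_eq_zero]
  refine hQ.eq_zero_of_cast ?_ fun q hq => ?_
  · rw [map_sub, sub_eq_zero, ← red_apply, ← red_apply, hN]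
  · rw [map_sub, sub_eq_zero, ← red_apply, ← red_apply, h q hq]

end TWS

section Lvl

variable {N : ℕ} {Q : Finset ℕ} {D : Type} [CommGroup D] (χ : (q : ℕ) → (ZMod q)ˣ →* D)
  (t : ℕ → LT)

variable (N Q) in
/-- the level -/
def lvl : Subgroup (GL (Fin 2) (ZMod (modu N Q))) where
  carrier := {g | red (N_dvd N Q) g ∈ upB (ZMod N) ∧
    ∀ q (hq : q ∈ Q), red (q_dvd N hq) g ∈ Kloc (χ q) (t q)}
  one_mem' := ⟨by rw [map_one]; exact one_mem _, fun q hq => by rw [map_one]; exact one_mem _⟩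
  mul_mem' ha hb := ⟨by rw [map_mul]; exact mul_mem ha.1 hb.1, fun q hq => by
    rw [map_mul]
    exact mul_mem (ha.2 q hq) (hb.2 q hq)⟩
  inv_mem' ha := ⟨by rw [map_inv]; exact inv_mem ha.1, fun q hq => by
    rw [map_inv]
    exact inv_mem (ha.2 q hq)⟩

variable {χ t}

theorem mem_lvl {g : GL (Fin 2) (ZMod (modu N Q))} : g ∈ lvl N Q χ t ↔
    red (N_dvd N Q) g ∈ upB (ZMod N) ∧
      ∀ q (hq : q ∈ Q), red (q_dvd N hq) g ∈ Kloc (χ q) (t q) := Iff.rfl

theorem lvl_mono {t' : ℕ → LT} (h : ∀ q ∈ Q, Kloc (χ q) (t q) ≤ Kloc (χ q) (t' q)) :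
    lvl N Q χ t ≤ lvl N Q χ t' := fun _ hg => ⟨hg.1, fun q hq => h q hq (hg.2 q hq)⟩

/-- the local component at `q` -/
def toLow {q : ℕ} (hq : q ∈ Q) : lvl N Q χ t →* lowB (ZMod q) where
  toFun g := ⟨red (q_dvd N hq) g, Kloc_le _ _ (g.2.2 q hq)⟩
  map_one' := Subtype.ext (map_one _)
  map_mul' _ _ := Subtype.ext (map_mul _ _ _)

theorem toLow_coe {q : ℕ} (hq : q ∈ Q) (g : lvl N Q χ t) :
    ((toLow hq g : lowB (ZMod q)) : GL (Fin 2) (ZMod q)) = red (q_dvd N hq) g := rfl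

/-- the nebentypus character -/
def nebq {q : ℕ} (hq : q ∈ Q) : lvl N Q χ t →* D := ((χ q).comp rat).comp (toLow hq)

variable (hQ : TWS N Q)

/-- the local embedding -/
def emb {q : ℕ} (hq : q ∈ Q) : GL (Fin 2) (ZMod q) →* GL (Fin 2) (ZMod (modu N Q)) :=
  Classical.choose (exists_emb (q_dvd N hq) (hQ.coprime_div hq))

theorem red_emb {q : ℕ} (hq : q ∈ Q) (x : GL (Fin 2) (ZMod q)) :
    red (q_dvd N hq) (emb hQ hq x) = x :=
  (Classical.choose_spec (exists_emb (q_dvd N hq) (hQ.coprime_div hq))).1 x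

theorem red_emb_N {q : ℕ} (hq : q ∈ Q) (x : GL (Fin 2) (ZMod q)) :
    red (N_dvd N Q) (emb hQ hq x) = 1 :=
  (Classical.choose_spec (exists_emb (q_dvd N hq) (hQ.coprime_div hq))).2 N _ (hQ.coprime_N hq) x

theorem red_emb_ne {q q' : ℕ} (hq : q ∈ Q) (hq' : q' ∈ Q) (h : q' ≠ q) (x : GL (Fin 2) (ZMod q)) :
    red (q_dvd N hq') (emb hQ hq x) = 1 :=
  (Classical.choose_spec (exists_emb (q_dvd N hq) (hQ.coprime_div hq))).2 q' _
    (hQ.coprime_of_ne hq hq' h) x

theorem emb_mem {q : ℕ} (hq : q ∈ Q) {x : GL (Fin 2) (ZMod q)} :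
    emb hQ hq x ∈ lvl N Q χ t ↔ x ∈ Kloc (χ q) (t q) := by
  constructor
  · intro h
    have := h.2 q hq
    rwa [red_emb] at this
  · intro h
    refine ⟨by rw [red_emb_N]; exact one_mem _, fun q' hq' => ?_⟩
    by_cases hqq : q' = q
    · subst hqq
      rwa [red_emb]
    · rw [red_emb_ne hQ hq hq' hqq]
      exact one_mem _

theorem conj_emb {q : ℕ} (hq : q ∈ Q) (g : GL (Fin 2) (ZMod (modu N Q)))
    (x y : GL (Fin 2) (ZMod q)) (h : red (q_dvd N hq) g * x = y * red (q_dvd N hq) g) :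
    g * emb hQ hq x = emb hQ hq y * g := by
  refine hQ.gl_ext ?_ fun q' hq' => ?_
  · rw [map_mul, map_mul, red_emb_N, red_emb_N, one_mul, mul_one]
  · by_cases hqq : q' = q
    · subst hqq
      rw [map_mul, map_mul, red_emb, red_emb, h]
    · rw [map_mul, map_mul, red_emb_ne hQ hq hq' hqq, red_emb_ne hQ hq hq' hqq, one_mul, mul_one]

/-- **The twisting data at `q ∈ Q`.** -/
def mkTwist {q : ℕ} (hq : q ∈ Q) (hχ : Function.Surjective (χ q)) :
    TwistData (GL (Fin 2) (ZMod (modu N Q))) (lvl N Q χ (Function.update t q .bor))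
      (lvl N Q χ (Function.update t q .chi)) (lvl N Q χ (Function.update t q .tor)) D q where
  κ := nebq hq
  kk δ := ⟨emb hQ hq (diagG (Classical.choose (hχ δ)) 1), by
    rw [emb_mem, Function.update_self]
    exact diagG_mem _ _⟩
  κ_kk δ := by
    have h1 : toLow hq (⟨emb hQ hq (diagG (Classical.choose (hχ δ)) 1), by
        rw [emb_mem, Function.update_self]
        exact diagG_mem _ _⟩ : lvl N Q χ (Function.update t q .bor)) =
        ⟨diagG (Classical.choose (hχ δ)) 1, diagG_mem _ _⟩ :=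
      Subtype.ext (by rw [toLow_coe, red_emb])
    rw [nebq, MonoidHom.comp_apply, MonoidHom.comp_apply, h1, rat_diagG, div_one]
    exact Classical.choose_spec (hχ δ)
  leχ := lvl_mono fun q' hq' => by
    by_cases hqq : q' = q
    · subst hqq
      rw [Function.update_self, Function.update_self]
      exact Kloc_le _ _
    · rw [Function.update_of_ne hqq, Function.update_of_ne hqq]
  mem_χ k := by
    constructor
    · intro h
      have h1 := h.2 q hq
      rw [Function.update_self] at h1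
      exact (mem_Kloc_chi.mp h1).2
    · intro h
      refine ⟨k.2.1, fun q' hq' => ?_⟩
      by_cases hqq : q' = q
      · subst hqq
        rw [Function.update_self, mem_Kloc_chi]
        exact ⟨(toLow hq k).2, h⟩
      · have := k.2.2 q' hq'
        rw [Function.update_of_ne hqq] at this ⊢
        exact this
  χ := χ q
  n i := emb hQ hq (upU i)
  n_zero := by rw [upU_zero, map_one]
  n_add i j := by rw [upU_add, map_mul]
  leT := lvl_mono fun q' hq' => by
    by_cases hqq : q' = q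
    · subst hqq
      rw [Function.update_self, Function.update_self]
      exact Kloc_le _ _
    · rw [Function.update_of_ne hqq, Function.update_of_ne hqq]
  τ g := rat (toLow hq g)
  conj g i := by
    have h1 := g.2.2 q hq
    rw [Function.update_self] at h1
    exact conj_emb hQ hq _ _ _ (conj_upU _ h1.1 h1.2 i)
  κ_τ g := rfl
  gen H hn hK a := by
    refine ⟨⟨emb hQ hq (diagG a a⁻¹), ?_⟩, ?_, ?_⟩
    · rw [emb_mem, Function.update_self]
      exact diagG_mem _ _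
    · have hlo : ∀ i, emb hQ hq (loU i) ∈ H := fun i => hK (by
        rw [emb_mem, Function.update_self, mem_Kloc_chi]
        exact ⟨loU_mem i, by rw [rat_loU, map_one]⟩)
      change emb hQ hq (diagG a a⁻¹) ∈ H
      rw [diagG_eq, map_mul, map_mul, map_mul, map_mul, map_mul]
      exact mul_mem (mul_mem (mul_mem (hn _) (hlo _)) (hn _))
        (mul_mem (mul_mem (hn _) (hlo _)) (hn _))
    · have h1 : toLow hq (⟨emb hQ hq (diagG a a⁻¹), by
          rw [emb_mem, Function.update_self]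
          exact diagG_mem _ _⟩ : lvl N Q χ (Function.update t q .bor)) =
          ⟨diagG a a⁻¹, diagG_mem _ _⟩ :=
        Subtype.ext (by rw [toLow_coe, red_emb])
      rw [nebq, MonoidHom.comp_apply, MonoidHom.comp_apply, h1, rat_diagG, div_eq_mul_inv,
        inv_inv, ← pow_two, map_pow]

end Lvl

end Fermat.Agent.TW

end
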