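import Fermat.Agent.DefRing.Mat
import Fermat.Agent.Cheb.Exist
import Fermat.Agent.QuadRep.RootsOfUnity

/-!
# A prime `l ≡ 1 (mod M)` with `tr ρ̄(Frob_l) ≠ l + 1`
-/

set_option autoImplicit false
set_option linter.unusedSectionVars false
set_option linter.style.haveILetI false

noncomputable section

namespace Fermat.Agent.TW.NE

open Fermat.Agent.DefRing

/-- for a `2 × 2` matrix of determinant `0`, `N Y N = tr (N Y) N`. -/
theorem mul_mul_eq_trace_smul {R : Type*} [CommRing R] (N Y : Matrix (Fin 2) (Fin 2) R)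
    (hN : N.det = 0) : N * Y * N = (N * Y).trace • N := by
  rw [Matrix.det_fin_two] at hN
  ext i j
  fin_cases i <;> fin_cases j <;>
    simp only [Matrix.mul_apply, Fin.sum_univ_two, Matrix.smul_apply, Matrix.trace_fin_two,
      smul_eq_mul, Fin.zero_eta, Fin.mk_one, Fin.isValue]
  · linear_combination (-(Y 1 1)) * hN
  · linear_combination (Y 0 1) * hN
  · linear_combination (Y 1 0) * hN
  · linear_combination (-(Y 0 0)) * hN

theorem trace_mul_adjugate {R : Type*} [CommRing R] (N g : Matrix (Fin 2) (Fin 2) R) :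
    (N * g.adjugate).trace = N.trace * g.trace - (N * g).trace := by
  rw [Matrix.adjugate_fin_two]
  simp only [Matrix.mul_apply, Fin.sum_univ_two, Matrix.trace_fin_two, Matrix.of_apply,
    Matrix.cons_val', Matrix.cons_val_zero, Matrix.cons_val_one, Matrix.cons_val_fin_one]
  ring

theorem eq_zero_of_trace_mul {R : Type*} [CommRing R] (N : Matrix (Fin 2) (Fin 2) R)
    (h : ∀ Y : Matrix (Fin 2) (Fin 2) R, (N * Y).trace = 0) : N = 0 := by
  ext i j
  have h1 := h (Matrix.single j i 1)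
  fin_cases i <;> fin_cases j <;>
    simpa [Matrix.trace_fin_two, Matrix.mul_apply, Fin.sum_univ_two, Matrix.single] using h1

theorem det_sub_one {R : Type*} [CommRing R] (X : Matrix (Fin 2) (Fin 2) R) :
    (X - 1).det = X.det - X.trace + 1 := by
  rw [Matrix.det_fin_two, Matrix.det_fin_two, Matrix.trace_fin_two]
  simp only [Matrix.sub_apply, Matrix.one_apply_eq, Matrix.one_apply_ne (show (0 : Fin 2) ≠ 1 by decide),
    Matrix.one_apply_ne (show (1 : Fin 2) ≠ 0 by decide)]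
  ring

/-- the matrix core: if all `X ∈ H` (conjugation stable) have `tr = 2`, `det = 1` then `H` is trivial -/
theorem eq_one_of_trace {k : Type*} [Field k] {G : Type*} [Group G]
    (r : G →* Matrix (Fin 2) (Fin 2) k) (hspan : Submodule.span k (Set.range r) = ⊤)
    (H : Subgroup G) [hn : H.Normal] (htr : ∀ σ ∈ H, (r σ).trace = 2)
    (hdet : ∀ σ ∈ H, (r σ).det = 1) (σ : G) (hσ : σ ∈ H) : r σ = 1 := by
  have hN0 : (r σ - 1).det = 0 := by
    rw [det_sub_one, htr σ hσ, hdet σ hσ]; ring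
  have hNt : (r σ - 1).trace = 0 := by
    rw [Matrix.trace_sub, htr σ hσ, Matrix.trace_one]
    norm_num
  have key : ∀ τ : G, ((r σ - 1) * r τ).trace = 0 := by
    intro τ
    have hinv : r τ * r τ⁻¹ = 1 := by rw [← map_mul, mul_inv_cancel, map_one]
    have hinv' : r τ⁻¹ * r τ = 1 := by rw [← map_mul, inv_mul_cancel, map_one]
    have hd0 : (r τ).det ≠ 0 := by
      intro h0
      have h1 := congrArg Matrix.det hinv
      rw [Matrix.det_mul, h0, zero_mul, Matrix.det_one] at h1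
      exact zero_ne_one h1
    have hadj : (r τ).adjugate = (r τ).det • r τ⁻¹ := by
      have h1 := Matrix.adjugate_mul (r τ)
      have h2 := congrArg (· * r τ⁻¹) h1
      simp only [mul_assoc, hinv, mul_one, smul_mul_assoc, one_mul] at h2
      exact h2
    have h1 : ((r σ - 1) * r τ * (r σ - 1) * r τ⁻¹).trace = 0 := by
      have h2 : (r σ - 1) * r τ * (r σ - 1) * r τ⁻¹ =
          r (σ * (τ * σ * τ⁻¹)) - r σ - r (τ * σ * τ⁻¹) + 1 := by
        have e1 : (r σ - 1) * r τ * (r σ - 1) * r τ⁻¹ =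
            (r σ - 1) * (r τ * r σ * r τ⁻¹ - r τ * r τ⁻¹) := by noncomm_ring
        rw [e1, hinv, ← map_mul, ← map_mul, map_mul r σ]
        noncomm_ring
      rw [h2, Matrix.trace_add, Matrix.trace_sub, Matrix.trace_sub,
        htr _ (H.mul_mem hσ (hn.conj_mem σ hσ τ)), htr _ hσ, htr _ (hn.conj_mem σ hσ τ),
        Matrix.trace_one]
      norm_num
    rw [mul_mul_eq_trace_smul _ _ hN0, smul_mul_assoc, Matrix.trace_smul, smul_eq_mul] at h1
    have h3 := trace_mul_adjugate (r σ - 1) (r τ)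
    rw [hadj, mul_smul_comm, Matrix.trace_smul, smul_eq_mul, hNt, zero_mul, zero_sub] at h3
    have h4 : ((r σ - 1) * r τ).trace * ((r σ - 1) * r τ).trace = 0 := by
      linear_combination -(r τ).det * h1 + ((r σ - 1) * r τ).trace * h3
    exact mul_self_eq_zero.mp h4
  have h5 : ∀ Y : Matrix (Fin 2) (Fin 2) k, ((r σ - 1) * Y).trace = 0 := by
    intro Y
    have hY : Y ∈ Submodule.span k (Set.range r) := hspan ▸ Submodule.mem_top
    induction hY using Submodule.span_induction with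
    | mem x hx => obtain ⟨τ, rfl⟩ := hx; exact key τ
    | zero => rw [mul_zero, Matrix.trace_zero]
    | add x y _ _ hx hy => rw [mul_add, Matrix.trace_add, hx, hy, add_zero]
    | smul a x _ hx => rw [mul_smul_comm, Matrix.trace_smul, hx, smul_zero]
  exact sub_eq_zero.mp (eq_zero_of_trace_mul _ h5)

theorem not_comm {k : Type*} [Field k] {G : Type*} [Group G]
    (r : G →* Matrix (Fin 2) (Fin 2) k) (hspan : Submodule.span k (Set.range r) = ⊤)
    (hc : ∀ a b : G, r a * r b = r b * r a) : False := by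
  have h1 : ∀ (a : G) (Y : Matrix (Fin 2) (Fin 2) k), r a * Y = Y * r a := by
    intro a Y
    have hY : Y ∈ Submodule.span k (Set.range r) := hspan ▸ Submodule.mem_top
    induction hY using Submodule.span_induction with
    | mem x hx => obtain ⟨τ, rfl⟩ := hx; exact hc a τ
    | zero => rw [mul_zero, zero_mul]
    | add x y _ _ hx hy => rw [mul_add, add_mul, hx, hy]
    | smul c x _ hx => rw [mul_smul_comm, smul_mul_assoc, hx]
  have h2 : ∀ (X Y : Matrix (Fin 2) (Fin 2) k), X * Y = Y * X := by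
    intro X Y
    have hX : X ∈ Submodule.span k (Set.range r) := hspan ▸ Submodule.mem_top
    induction hX using Submodule.span_induction with
    | mem x hx => obtain ⟨τ, rfl⟩ := hx; exact h1 τ Y
    | zero => rw [mul_zero, zero_mul]
    | add x y _ _ hx hy => rw [mul_add, add_mul, hx, hy]
    | smul c x _ hx => rw [mul_smul_comm, smul_mul_assoc, hx]
  have h3 := h2 (Matrix.single 0 1 1) (Matrix.single 1 0 1)
  have h4 := congrFun (congrFun h3 0) 0
  simp [Matrix.single, Matrix.mul_apply] at h4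


/-- the subgroup fixing `ζ` is normal, and contains the commutators -/
theorem mem_of_root {Mn : ℕ} (ζ : AlgebraicClosure ℚ) (hζ : IsPrimitiveRoot ζ Mn) (hM : Mn ≠ 0)
    (σ : GQ) : ∃ a : ℕ, σ ζ = ζ ^ a := by
  have h1 : (σ ζ) ^ Mn = 1 := by rw [← map_pow, hζ.pow_eq_one, map_one]
  haveI : NeZero Mn := ⟨hM⟩
  obtain ⟨i, -, hi⟩ := hζ.eq_pow_of_pow_eq_one h1
  exact ⟨i, hi.symm⟩

theorem comm_apply {Mn : ℕ} (ζ : AlgebraicClosure ℚ) (hζ : IsPrimitiveRoot ζ Mn) (hM : Mn ≠ 0)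
    (σ τ : GQ) : (σ * τ) ζ = (τ * σ) ζ := by
  obtain ⟨a, ha⟩ := mem_of_root ζ hζ hM σ
  obtain ⟨b, hb⟩ := mem_of_root ζ hζ hM τ
  rw [AlgEquiv.mul_apply, AlgEquiv.mul_apply, ha, hb, map_pow, map_pow, ha, hb, ← pow_mul,
    ← pow_mul, mul_comm]

/-- the stabiliser of `ζ` -/
def fixSub (ζ : AlgebraicClosure ℚ) : Subgroup GQ where
  carrier := {σ | σ ζ = ζ}
  mul_mem' {a b} ha hb := by
    change (a * b) ζ = ζ
    rw [AlgEquiv.mul_apply, show b ζ = ζ from hb, show a ζ = ζ from ha]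
  one_mem' := rfl
  inv_mem' {a} ha := by
    change a⁻¹ ζ = ζ
    have h1 : a ζ = ζ := ha
    calc a⁻¹ ζ = a⁻¹ (a ζ) := by rw [h1]
      _ = (a⁻¹ * a) ζ := rfl
      _ = ζ := by rw [inv_mul_cancel, AlgEquiv.one_apply]

theorem mem_fixSub {ζ : AlgebraicClosure ℚ} {σ : GQ} : σ ∈ fixSub ζ ↔ σ ζ = ζ := Iff.rfl

theorem commutator_mem {Mn : ℕ} (ζ : AlgebraicClosure ℚ) (hζ : IsPrimitiveRoot ζ Mn) (hM : Mn ≠ 0)
    (σ τ : GQ) : (τ * σ)⁻¹ * (σ * τ) ∈ fixSub ζ := by
  rw [mem_fixSub, AlgEquiv.mul_apply, comm_apply ζ hζ hM σ τ]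
  calc (τ * σ)⁻¹ ((τ * σ) ζ) = ((τ * σ)⁻¹ * (τ * σ)) ζ := rfl
    _ = ζ := by rw [inv_mul_cancel, AlgEquiv.one_apply]

theorem normal_fixSub {Mn : ℕ} (ζ : AlgebraicClosure ℚ) (hζ : IsPrimitiveRoot ζ Mn)
    (hM : Mn ≠ 0) : (fixSub ζ).Normal := by
  refine ⟨fun σ hσ τ => ?_⟩
  have h1 : σ ζ = ζ := hσ
  obtain ⟨a, ha⟩ := mem_of_root ζ hζ hM τ⁻¹
  rw [mem_fixSub, AlgEquiv.mul_apply, AlgEquiv.mul_apply, ha, map_pow, h1, ← ha]
  calc τ (τ⁻¹ ζ) = (τ * τ⁻¹) ζ := rfl
    _ = ζ := by rw [mul_inv_cancel, AlgEquiv.one_apply]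

end Fermat.Agent.TW.NE

namespace Fermat.Agent.TW

open Fermat.Agent.DefRing Fermat.Agent.TW.NE

theorem exists_nonEis {k : Type} [Field k] {p : ℕ} [Fact p.Prime] [CharP k p] (hp2 : p ≠ 2)
    {rbar : GQ →* M2 k} (hspan : Submodule.span k (Set.range rbar) = ⊤)
    (hrbar : ∃ L : IntermediateField ℚ (AlgebraicClosure ℚ), FiniteDimensional ℚ L ∧
      ∀ σ : GQ, (∀ x ∈ L, σ x = x) → rbar σ = 1) (S₀ : Finset ℕ)
    (hdet : ∀ l : ℕ, l.Prime → l ∉ S₀ → ∀ B : ValuationSubring (AlgebraicClosure ℚ),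
      B.LiesOverPrime l → ∀ τ : GQ, B.IsFrobeniusAt τ l → (rbar τ).det = (l : k))
    (M : ℕ) (hM : M ≠ 0) (S : Finset ℕ) :
    ∃ l : ℕ, l.Prime ∧ l ∉ S ∧ ((l : ℕ) : ZMod M) = 1 ∧
      ∃ (B : ValuationSubring (AlgebraicClosure ℚ)) (τ : GQ), B.LiesOverPrime l ∧
        B.IsFrobeniusAt τ l ∧ (rbar τ).trace ≠ (l : k) + 1 := by
  by_contra hcon
  push Not at hcon
  have hp : p.Prime := Fact.out
  have hMp : M * p ≠ 0 := mul_ne_zero hM hp.ne_zero
  haveI : NeZero ((M * p : ℕ) : AlgebraicClosure ℚ) := ⟨Nat.cast_ne_zero.2 hMp⟩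
  obtain ⟨ζ, hζ⟩ := HasEnoughRootsOfUnity.exists_primitiveRoot (AlgebraicClosure ℚ) (M * p)
  obtain ⟨L, hL, hLr⟩ := hrbar
  have key : ∀ σ ∈ fixSub ζ, (rbar σ).trace = 2 ∧ (rbar σ).det = 1 := by
    intro σ hσ
    have hζi : IsIntegral ℚ ζ := Algebra.IsIntegral.isIntegral ζ
    haveI : FiniteDimensional ℚ (IntermediateField.adjoin ℚ {ζ}) :=
      IntermediateField.adjoin.finiteDimensional hζi
    haveI := hL
    obtain ⟨l, hl, hlS, -, B, hB, τ, hτ, hτσ⟩ := Fermat.Agent.Cheb.exists_frobenius_eq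
      (L ⊔ IntermediateField.adjoin ℚ {ζ}) inferInstance σ (S ∪ S₀ ∪ (M * p).primeFactors)
    simp only [Finset.mem_union, not_or] at hlS
    have hlMp : (M * p).Coprime l := by
      rw [Nat.coprime_comm, Nat.Prime.coprime_iff_not_dvd hl]
      exact fun h => hlS.2 (Nat.mem_primeFactors.2 ⟨hl, h, hMp⟩)
    have h1 : τ ζ = ζ ^ l :=
      Fermat.Agent.QuadRep.frobenius_smul_root hl hB hτ (Nat.pos_of_ne_zero hMp) hlMp ζ
        hζ.pow_eq_one
    have h2 : τ ζ = ζ := by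
      rw [hτσ ζ ((le_sup_right : IntermediateField.adjoin ℚ {ζ} ≤ _)
        (IntermediateField.mem_adjoin_simple_self ℚ ζ))]
      exact hσ
    have h3 : l ≡ 1 [MOD (M * p)] := by
      have h4 : ζ ^ (l - 1) = 1 := by
        have h5 : ζ ^ (l - 1) * ζ = ζ := by
          rw [← pow_succ, Nat.sub_add_cancel hl.one_lt.le, ← h1, h2]
        exact mul_right_cancel₀ (hζ.ne_zero hMp) (h5.trans (one_mul ζ).symm)
      exact ((Nat.modEq_iff_dvd' hl.one_lt.le).2 ((hζ.pow_eq_one_iff_dvd _).1 h4)).symm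
    have h4 : ((l : ℕ) : ZMod M) = 1 := by
      have h5 := (ZMod.natCast_eq_natCast_iff l 1 M).2 (h3.of_mul_right p)
      rwa [Nat.cast_one] at h5
    have h5 : (l : k) = 1 := by
      have h6 := (CharP.natCast_eq_natCast k p).2 (h3.of_mul_left M)
      rwa [Nat.cast_one] at h6
    have h6 : rbar σ = rbar τ := by
      have h7 : rbar (σ⁻¹ * τ) = 1 := by
        refine hLr _ fun x hx => ?_
        rw [AlgEquiv.mul_apply, hτσ x ((le_sup_left : L ≤ _) hx)]
        exact σ.symm_apply_apply x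
      have h8 : σ * (σ⁻¹ * τ) = τ := by group
      rw [← h8, map_mul, h7, mul_one]
    refine ⟨?_, ?_⟩
    · rw [h6, hcon l hl hlS.1.1 h4 B τ hB hτ, h5]
      norm_num
    · rw [h6, hdet l hl hlS.1.2 B hB τ hτ, h5]
  haveI := normal_fixSub ζ hζ hMp
  have h1 := eq_one_of_trace rbar hspan (fixSub ζ) (fun σ hσ => (key σ hσ).1)
    (fun σ hσ => (key σ hσ).2)
  refine not_comm rbar hspan fun a b => ?_
  have h2 := h1 _ (commutator_mem ζ hζ hMp a b)
  have h3 : a * b = b * a * ((b * a)⁻¹ * (a * b)) := by group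
  rw [← map_mul, h3, map_mul rbar (b * a), h2, mul_one, map_mul]

end Fermat.Agent.TW
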