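import Fermat.Agent.TW.BMod

/-!
Comparison of Hecke algebras.
-/

set_option autoImplicit false
set_option linter.unusedSectionVars false

noncomputable section

namespace Fermat.Agent.TW

open IsLocalRing Module Matrix Fermat.Agent.DefRing Polynomial Fermat.Agent.RT8
open CongruenceSubgroup

section

variable {p N N' m m' : ℕ} (hmm : m ∣ m') {O : Type} [CommRing O] [IsDomain O]
    [IsDiscreteValuationRing O] [IsAdicComplete (maximalIdeal O) O]
    {rbar : GQ →* M2 (ResidueField O)} {sd : SliceData rbar}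
    {M : Type} [AddCommGroup M] [Module (TPoly m O) M] [Module O M] [IsScalarTower O (TPoly m O) M]
    {M' : Type} [AddCommGroup M'] [Module (TPoly m' O) M'] [Module O M']
    (R : HRep (m := m) p N sd M) (R' : HRep (m := m') p N' sd M') {k : ℕ} (hk : k ≠ 0)
    (π : M' →+ (Fin k → M)) (hπ : ∀ (P : TPoly m' O) x, π (P • x) = inc hmm O P • π x)
    (hs : Function.Surjective π)

include hπ hs hk in
theorem ker_le : RingHom.ker (R'.φ : TPoly m' O →+* R'.C.T) ≤
    RingHom.ker ((R.φ : TPoly m O →+* R.C.T).comp (inc hmm O : TPoly m' O →+* TPoly m O)) := by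
  intro P hP
  have h1 : R'.φ P = 0 := hP
  change R.φ (inc hmm O P) = 0
  rw [R'.ker] at h1
  rw [R.ker]
  intro x
  obtain ⟨y, hy⟩ := hs fun _ => x
  have h2 := hπ P y
  rw [h1, map_zero, hy] at h2
  exact (congrFun h2 ⟨0, Nat.pos_of_ne_zero hk⟩).symm

/-- the map of Hecke algebras, as a ring homomorphism -/
def prR : R'.C.T →+* R.C.T :=
  (R'.φ : TPoly m' O →+* R'.C.T).liftOfSurjective R'.surj
    ⟨(R.φ : TPoly m O →+* R.C.T).comp (inc hmm O : TPoly m' O →+* TPoly m O),
      ker_le hmm R R' hk π hπ hs⟩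

theorem prR_φ (P : TPoly m' O) : prR hmm R R' hk π hπ hs (R'.φ P) = R.φ (inc hmm O P) :=
  RingHom.liftOfRightInverse_comp_apply (R'.φ : TPoly m' O →+* R'.C.T) _ _ ⟨_, _⟩ P

/-- **The map of Hecke algebras** -/
def prT : R'.C.T →ₐ[O] R.C.T :=
  { prR hmm R R' hk π hπ hs with
    commutes' := fun a => by
      change prR hmm R R' hk π hπ hs (algebraMap O R'.C.T a) = _
      rw [← R'.φ.commutes a, prR_φ, AlgHom.commutes, AlgHom.commutes] }

theorem prT_φ (P : TPoly m' O) : prT hmm R R' hk π hπ hs (R'.φ P) = R.φ (inc hmm O P) :=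
  prR_φ hmm R R' hk π hπ hs P

theorem prT_smul (t : R'.C.T) (x : M') :
    π (R'.act t x) = (letI := R.modPow k; prT hmm R R' hk π hπ hs t • π x) := by
  obtain ⟨P, rfl⟩ := R'.surj t
  rw [R'.act_φ, hπ, prT_φ]
  funext i
  rw [R.modPow_smul, R.act_φ]
  rfl

include hmm in
/-- compatibility of the Galois representations -/
theorem prT_r (hspan : Submodule.span (ResidueField O) (Set.range rbar) = ⊤) (hm' : m' ≠ 0) :
    mapRep (prT hmm R R' hk π hπ hs : R'.C.T →+* R.C.T) R'.C.r = R.C.r := by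
  have hloc := isLocalHom_of_algHom (prT hmm R R' hk π hπ hs)
  refine norm_unique sd hspan (mapRep_cont _ hloc _ R'.C.cont) R.C.cont
    (red_mapRep _ R'.C.red) R.C.red (R'.C.norm.map _) R.C.norm m'.divisors ?_
  intro l hl hlS B hB τ hτ
  have hlm : ¬ l ∣ m' := fun h => hlS (Nat.mem_divisors.mpr ⟨h, hm'⟩)
  rw [trace_mapRep]
  have h1 := (R'.tr ⟨l, hl, hlm⟩ B hB τ hτ).1
  have h2 := (R.tr (incP hmm ⟨l, hl, hlm⟩) B hB τ hτ).1
  rw [h1, h2]
  change prT hmm R R' hk π hπ hs _ = _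
  rw [prT_φ, inc_X]

end

end Fermat.Agent.TW

end
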