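import Fermat.Agent.TW.ExtH

/-!
Eigenvectors in the cohomology of Taylor-Wiles sets.
-/

set_option autoImplicit false
set_option linter.unusedSectionVars false

noncomputable section

namespace Fermat.Agent.TW

open scoped MatrixGroups
open CongruenceSubgroup

/-- polynomials in the Hecke operators and the diamond operators -/
abbrev BP (m : ℕ) (Δ R : Type) [CommRing R] : Type := MvPolynomial (Pr m ⊕ Δ) R

section Fam

variable {m M : ℕ} (hM : M ∣ m) (R : Type) [CommRing R]
  (Y : Type) [MulAction (GL (Fin 2) (ZMod M)) Y] {Δ : Type} [CommGroup Δ] [MulAction Δ Y]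
  [SMulCommClass (GL (Fin 2) (ZMod M)) Δ Y]

/-- diamond operators as linear maps -/
def actH (δ : Δ) : Module.End R ((XF hM).H (funRep (M := M) R R Y)) :=
  H1.map ((XF hM).L.ι M) (actC M R R Y δ)

theorem actH_apply (δ : Δ) (x : (XF hM).H (funRep (M := M) R R Y)) :
    actH hM R Y δ x = (XF hM).map (actC M R R Y δ) x := rfl

theorem actH_comm (δ δ' : Δ) : actH hM R Y δ * actH hM R Y δ' = actH hM R Y δ' * actH hM R Y δ := by
  refine LinearMap.ext fun x => ?_
  obtain ⟨f, rfl⟩ := (XF hM).cl_surj _ x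
  change (XF hM).cl _ (Z1.map _ _ (Z1.map _ _ f)) = (XF hM).cl _ (Z1.map _ _ (Z1.map _ _ f))
  congr 1
  apply Subtype.ext
  funext g y
  change f.1 g (δ'⁻¹ • δ⁻¹ • y) = f.1 g (δ⁻¹ • δ'⁻¹ • y)
  rw [smul_smul, smul_smul, mul_comm]

theorem actH_T (δ : Δ) (l : Pr m) (x : (XF hM).H (funRep (M := M) R R Y)) :
    actH hM R Y δ ((XF hM).T _ l x) = (XF hM).T _ l (actH hM R Y δ x) :=
  ((XF hM).corrT l).map_natural (actC M R R Y δ) x

theorem actH_smul (δ : Δ) (P : TPoly m R) (x : (XF hM).H (funRep (M := M) R R Y)) :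
    actH hM R Y δ (P • x) = P • actH hM R Y δ x := by
  rw [actH_apply, map_smul]
  rfl

/-- all the operators -/
def opH : Pr m ⊕ Δ → Module.End R ((XF hM).H (funRep (M := M) R R Y)) :=
  Sum.elim (fun l => (XF hM).T _ l) (fun δ => actH hM R Y δ)

theorem opH_comm (i j : Pr m ⊕ Δ) :
    opH hM R Y i * opH hM R Y j = opH hM R Y j * opH hM R Y i := by
  rcases i with l | δ <;> rcases j with l' | δ'
  · exact (XF hM).T_comm _ l l'
  · exact LinearMap.ext fun x => (actH_T hM R Y δ' l x).symm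
  · exact LinearMap.ext fun x => actH_T hM R Y δ l' x
  · exact actH_comm hM R Y δ δ'

/-- the action of polynomials -/
abbrev evH : BP m Δ R →ₐ[R] Module.End R ((XF hM).H (funRep (M := M) R R Y)) :=
  polyEnd (opH hM R Y) (opH_comm hM R Y)

theorem evH_smul (b : BP m Δ R) (P : TPoly m R) (x : (XF hM).H (funRep (M := M) R R Y)) :
    evH hM R Y b (P • x) = P • evH hM R Y b x := by
  induction b using MvPolynomial.induction_on generalizing x with
  | C a =>
    rw [polyEnd_C, Module.algebraMap_end_apply, Module.algebraMap_end_apply, smul_comm]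
  | add b c hb hc =>
    rw [map_add, LinearMap.add_apply, LinearMap.add_apply, smul_add, hb, hc]
  | mul_X b i hb =>
    rw [map_mul, Module.End.mul_apply, Module.End.mul_apply, polyEnd_X, ← hb]
    congr 1
    rcases i with l | δ
    · change (XF hM).T _ l (P • x) = P • (XF hM).T _ l x
      rw [← Stg.X_smul, smul_comm, Stg.X_smul]
    · exact actH_smul hM R Y δ P x

end Fam

section Loc

variable {m M : ℕ} (hM : M ∣ m) (O : Type) [CommRing O]
  (Y : Type) [MulAction (GL (Fin 2) (ZMod M)) Y] {Δ : Type} [CommGroup Δ] [MulAction Δ Y]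
  [SMulCommClass (GL (Fin 2) (ZMod M)) Δ Y] (𝔪 : Ideal (TPoly m O)) [𝔪.IsPrime]

/-- all the operators on the localisation -/
def opL : Pr m ⊕ Δ → Module.End O (Loc 𝔪 ((XF hM).H (funRep (M := M) O O Y))) :=
  Sum.elim (fun l => Algebra.lsmul O O _ (MvPolynomial.X l : TPoly m O))
    (fun δ => repΔ hM O O Y Δ 𝔪 δ)

theorem repΔ_smul (δ : Δ) (P : TPoly m O) (x : Loc 𝔪 ((XF hM).H (funRep (M := M) O O Y))) :
    repΔ hM O O Y Δ 𝔪 δ (P • x) = P • repΔ hM O O Y Δ 𝔪 δ x := by
  rw [repΔ_apply, repΔ_apply, map_smul]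

theorem opL_comm (i j : Pr m ⊕ Δ) :
    opL hM O Y 𝔪 i * opL hM O Y 𝔪 j = opL hM O Y 𝔪 j * opL hM O Y 𝔪 i := by
  rcases i with l | δ <;> rcases j with l' | δ'
  · refine LinearMap.ext fun x => ?_
    change (MvPolynomial.X l : TPoly m O) • (MvPolynomial.X l' : TPoly m O) • x =
      (MvPolynomial.X l' : TPoly m O) • (MvPolynomial.X l : TPoly m O) • x
    rw [smul_comm]
  · exact LinearMap.ext fun x => (repΔ_smul hM O Y 𝔪 δ' (MvPolynomial.X l) x).symm
  · exact LinearMap.ext fun x => repΔ_smul hM O Y 𝔪 δ (MvPolynomial.X l') x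
  · change repΔ hM O O Y Δ 𝔪 δ * repΔ hM O O Y Δ 𝔪 δ' = repΔ hM O O Y Δ 𝔪 δ' * repΔ hM O O Y Δ 𝔪 δ
    rw [← map_mul, mul_comm, map_mul]

instance instModuleBP : Module (BP m Δ O) (Loc 𝔪 ((XF hM).H (funRep (M := M) O O Y))) :=
  Module.compHom _ (polyEnd (opL hM O Y 𝔪) (opL_comm hM O Y 𝔪)).toRingHom

theorem BP_smul_def (b : BP m Δ O) (x : Loc 𝔪 ((XF hM).H (funRep (M := M) O O Y))) :
    b • x = polyEnd (opL hM O Y 𝔪) (opL_comm hM O Y 𝔪) b x := rfl

theorem BP_X_smul (i : Pr m ⊕ Δ) (x : Loc 𝔪 ((XF hM).H (funRep (M := M) O O Y))) :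
    (MvPolynomial.X i : BP m Δ O) • x = opL hM O Y 𝔪 i x := by
  rw [BP_smul_def, polyEnd_X]

theorem BP_C_smul (a : O) (x : Loc 𝔪 ((XF hM).H (funRep (M := M) O O Y))) :
    (MvPolynomial.C a : BP m Δ O) • x = a • x := by
  rw [BP_smul_def, polyEnd_C]
  rfl

instance instTowerBP :
    IsScalarTower O (BP m Δ O) (Loc 𝔪 ((XF hM).H (funRep (M := M) O O Y))) where
  smul_assoc a b x := by
    rw [BP_smul_def, BP_smul_def, map_smul]
    rfl

/-- polynomials in the Hecke operators -/
theorem BP_rename_smul (P : TPoly m O) (x : Loc 𝔪 ((XF hM).H (funRep (M := M) O O Y))) :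
    (MvPolynomial.rename Sum.inl P : BP m Δ O) • x = P • x := by
  induction P using MvPolynomial.induction_on generalizing x with
  | C a => rw [MvPolynomial.rename_C, BP_C_smul, Loc.C_smul]
  | add P Q hP hQ => rw [map_add, add_smul, add_smul, hP, hQ]
  | mul_X P l hP =>
    rw [map_mul, mul_smul, hP, MvPolynomial.rename_X, BP_X_smul, mul_smul]
    rfl

theorem BP_act_smul (δ : Δ) (x : Loc 𝔪 ((XF hM).H (funRep (M := M) O O Y))) :
    (MvPolynomial.X (Sum.inr δ) : BP m Δ O) • x = repΔ hM O O Y Δ 𝔪 δ x := by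
  rw [BP_X_smul]
  rfl

theorem BP_mk (b : BP m Δ O) (x : (XF hM).H (funRep (M := M) O O Y)) :
    b • Loc.mk 𝔪 _ x = Loc.mk 𝔪 _ (evH hM O Y b x) := by
  induction b using MvPolynomial.induction_on generalizing x with
  | C a =>
    rw [BP_C_smul, polyEnd_C, Module.algebraMap_end_apply, Loc.mk_smul]
  | add b c hb hc => rw [add_smul, hb, hc, map_add, LinearMap.add_apply, map_add]
  | mul_X b i hb =>
    rw [mul_smul, map_mul, Module.End.mul_apply, polyEnd_X, ← hb, BP_X_smul]
    congr 1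
    rcases i with l | δ
    · change (MvPolynomial.X l : TPoly m O) • Loc.mk 𝔪 _ x = Loc.mk 𝔪 _ ((XF hM).T _ l x)
      rw [← map_smul, Stg.X_smul]
    · change Loc.map 𝔪 ((XF hM).map (actC M O O Y δ)) (Loc.mk 𝔪 _ x) = _
      rw [Loc.map_mk]
      rfl

instance instCommBP : SMulCommClass (BP m Δ O) (TPoly m O)
    (Loc 𝔪 ((XF hM).H (funRep (M := M) O O Y))) where
  smul_comm b P x := by
    rw [← BP_rename_smul (Δ := Δ) hM O Y 𝔪 P, ← BP_rename_smul (Δ := Δ) hM O Y 𝔪 P, smul_comm]

end Loc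

section Eigen

variable {m M : ℕ} (hM : M ∣ m) {O K E : Type} [CommRing O] [IsDomain O]
  [IsDiscreteValuationRing O] [IsAdicComplete (IsLocalRing.maximalIdeal O) O]
  [Field K] [Algebra O K] [Field E]
  [Algebra O E] [Algebra K E] [IsScalarTower O K E] [IsAlgClosed E]
  (hOK : Function.Injective (algebraMap O K))
  {Y : Type} [Fintype Y] [MulAction (GL (Fin 2) (ZMod M)) Y] {Δ : Type} [CommGroup Δ]
  [MulAction Δ Y] [SMulCommClass (GL (Fin 2) (ZMod M)) Δ Y]
  (𝔪 : Ideal (TPoly m O)) [𝔪.IsMaximal]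

theorem extH_op (i : Pr m ⊕ Δ) (x : (XF hM).H (funRep (M := M) O O Y)) :
    extH hM O E Y (opH hM O Y i x) = opH hM E Y i (extH hM O E Y x) := by
  rcases i with l | δ
  · exact extH_T hM O E Y l x
  · exact extH_act hM O E Y δ x

theorem extH_ev (b : BP m Δ O) (x : (XF hM).H (funRep (M := M) O O Y)) :
    extH hM O E Y (evH hM O Y b x) =
      evH hM E Y (MvPolynomial.map (algebraMap O E) b) (extH hM O E Y x) := by
  induction b using MvPolynomial.induction_on generalizing x with
  | C a =>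
    rw [polyEnd_C, Module.algebraMap_end_apply, extH_smul, MvPolynomial.map_C, polyEnd_C,
      Module.algebraMap_end_apply]
  | add b c hb hc => rw [map_add, LinearMap.add_apply, map_add, hb, hc, map_add, map_add,
      LinearMap.add_apply]
  | mul_X b i hb =>
    rw [map_mul, Module.End.mul_apply, polyEnd_X, hb, extH_op, map_mul, MvPolynomial.map_X,
      map_mul, Module.End.mul_apply, polyEnd_X]

/-- an element killing the kernel of the localisation -/
theorem exists_kill_ker : ∃ s : TPoly m O, s ∉ 𝔪 ∧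
    ∀ x : (XF hM).H (funRep (M := M) O O Y), Loc.mk 𝔪 _ x = 0 → s • x = 0 := by
  classical
  have hfin := finite_H hM (Y := Y) O (O := O)
  let N : Submodule O ((XF hM).H (funRep (M := M) O O Y)) :=
    { carrier := {x | Loc.mk 𝔪 _ x = 0}
      add_mem' := fun {x y} hx hy => by
        change Loc.mk 𝔪 _ (x + y) = 0
        rw [map_add, show Loc.mk 𝔪 _ x = 0 from hx, show Loc.mk 𝔪 _ y = 0 from hy, add_zero]
      zero_mem' := map_zero _
      smul_mem' := fun a x hx => by
        change Loc.mk 𝔪 _ (a • x) = 0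
        rw [Loc.mk_smul, show Loc.mk 𝔪 _ x = 0 from hx, smul_zero] }
  have hN : N.FG := IsNoetherian.noetherian N
  obtain ⟨G, hG⟩ := hN
  have h1 : ∀ x ∈ G, ∃ s ∉ 𝔪, s • x = 0 := fun x hx => by
    have h2 : x ∈ N := by rw [← hG]; exact Submodule.subset_span hx
    exact Loc.mk_eq_zero.mp h2
  choose! s hs hs' using h1
  refine ⟨∏ x ∈ G, s x, fun h => ?_, fun x hx => ?_⟩
  · obtain ⟨x, hx, h2⟩ := (Ideal.IsPrime.prod_mem_iff (p := 𝔪)).mp h
    exact hs x hx h2
  · have h2 : x ∈ Submodule.span O (G : Set ((XF hM).H (funRep (M := M) O O Y))) := by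
      rw [hG]; exact hx
    induction h2 using Submodule.span_induction with
    | mem y hy =>
      obtain ⟨c, hc⟩ := Finset.dvd_prod_of_mem s hy
      rw [hc, mul_comm, mul_smul, hs' y hy, smul_zero]
    | zero => rw [smul_zero]
    | add y z hy hz hy' hz' =>
      rw [smul_add, hy' (by
        have : y ∈ N := by rw [← hG]; exact hy
        exact this), hz' (by
        have : z ∈ N := by rw [← hG]; exact hz
        exact this), add_zero]
    | smul a y hy hy' =>
      rw [smul_comm, hy' (by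
        have : y ∈ N := by rw [← hG]; exact hy
        exact this), smul_zero]

include hOK in
/-- **Eigenvectors**: if `β` is not nilpotent on the localised module then there is an eigenvector
over `E` on which `β` does not vanish. -/
theorem exists_eigen (h𝔪 : NonEis M 𝔪) (β : BP m Δ O)
    (hβ : ∀ k : ℕ, ∃ x : Loc 𝔪 ((XF hM).H (funRep (M := M) O O Y)), β ^ k • x ≠ 0) :
    ∃ (v : (XF hM).H (funRep (M := M) E E Y)) (χ : BP m Δ O →ₐ[O] E), v ≠ 0 ∧
      (∀ i, opH hM E Y i v = χ (MvPolynomial.X i) • v) ∧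
      (∀ b, (∀ x : Loc 𝔪 ((XF hM).H (funRep (M := M) O O Y)), b • x = 0) → χ b = 0) ∧
      χ β ≠ 0 := by
  classical
  obtain ⟨s, hs, hs'⟩ := exists_kill_ker hM (Y := Y) 𝔪
  have hfin := finite_H hM (Y := Y) O (O := O)
  have hfinE : FiniteDimensional E ((XF hM).H (funRep (M := M) E E Y)) :=
    finite_H hM (Y := Y) E (O := E)
  let V : Submodule E ((XF hM).H (funRep (M := M) E E Y)) :=
    Submodule.span E (Set.range fun y => extH hM O E Y (s • y))
  have hstab : ∀ i : Pr m ⊕ Δ, ∀ v ∈ V, opH hM E Y i v ∈ V := by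
    intro i v hv
    induction hv using Submodule.span_induction with
    | mem v hv =>
      obtain ⟨y, rfl⟩ := hv
      refine Submodule.subset_span ⟨opH hM O Y i y, ?_⟩
      change extH hM O E Y (s • opH hM O Y i y) = opH hM E Y i (extH hM O E Y (s • y))
      rw [← extH_op]
      congr 1
      have h1 := evH_smul hM O Y (MvPolynomial.X i : BP m Δ O) s y
      rw [polyEnd_X] at h1
      exact h1.symm
    | zero => rw [map_zero]; exact zero_mem _
    | add v w _ _ hv hw => rw [map_add]; exact add_mem hv hw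
    | smul a v _ hv => rw [map_smul]; exact Submodule.smul_mem _ _ hv
  let opV : Pr m ⊕ Δ → Module.End E V := fun i => (opH hM E Y i).restrict (hstab i)
  have opV_comm : ∀ i j, opV i * opV j = opV j * opV i := fun i j =>
    LinearMap.ext fun v => Subtype.ext (LinearMap.congr_fun (opH_comm hM E Y i j) v.1)
  let ρ : BP m Δ O →+* Module.End E V :=
    (polyEnd opV opV_comm).toRingHom.comp (MvPolynomial.map (algebraMap O E))
  have hρX : ∀ i, ρ (MvPolynomial.X i) = opV i := fun i => by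
    change polyEnd opV opV_comm (MvPolynomial.map (algebraMap O E) (MvPolynomial.X i)) = _
    rw [MvPolynomial.map_X, polyEnd_X]
  have hρC : ∀ (a : O) (v : V), ρ (MvPolynomial.C a) v = algebraMap O E a • v := fun a v => by
    change polyEnd opV opV_comm (MvPolynomial.map (algebraMap O E) (MvPolynomial.C a)) v = _
    rw [MvPolynomial.map_C, polyEnd_C, Module.algebraMap_end_apply]
  have hρ : ∀ (b : BP m Δ O) (v : V),
      (ρ b v : (XF hM).H (funRep (M := M) E E Y)) =
        evH hM E Y (MvPolynomial.map (algebraMap O E) b) v := fun b v =>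
    polyEnd_map opV opV_comm (opH hM E Y) (opH_comm hM E Y) V.subtype (fun _ _ => rfl) _ v
  have hgen : ∀ y, extH hM O E Y (s • y) ∈ V := fun y => Submodule.subset_span ⟨y, rfl⟩
  have hρ' : ∀ (b : BP m Δ O) (y : (XF hM).H (funRep (M := M) O O Y)),
      (ρ b ⟨extH hM O E Y (s • y), hgen y⟩ : (XF hM).H (funRep (M := M) E E Y)) =
        extH hM O E Y (s • evH hM O Y b y) := by
    intro b y
    rw [hρ, ← extH_ev, evH_smul]
  obtain ⟨l, hl, hl𝔪⟩ := h𝔪
  -- the kernel of `ρ` is the annihilator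
  have hker1 : ∀ b, ρ b = 0 → ∀ x : Loc 𝔪 ((XF hM).H (funRep (M := M) O O Y)), b • x = 0 := by
    intro b hb x
    obtain ⟨y, rfl⟩ := Loc.mk_surjective 𝔪 (N := (XF hM).H (funRep (M := M) O O Y)) x
    have h1 : extH hM O E Y (s • evH hM O Y b y) = 0 := by
      rw [← hρ', hb]
      rfl
    have h2 := eis_smul_of_sum hM (K := K) (E := E) hOK (ι := Unit) (fun _ => 1)
      (linearIndependent_unique_iff.mpr one_ne_zero) (fun _ => s • evH hM O Y b y) (by
        rw [Finset.univ_unique, Finset.sum_singleton, one_smul, h1]) l hl ()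
    have h3 : (eis O l * s) • Loc.mk 𝔪 _ (evH hM O Y b y) = 0 := by
      rw [← map_smul, mul_smul, h2, map_zero]
    rw [BP_mk]
    refine Loc.eq_zero_of_smul (fun h => ?_) h3
    exact ((inferInstance : 𝔪.IsPrime).mem_or_mem h).elim hl𝔪 hs
  have hker2 : ∀ b, (∀ x : Loc 𝔪 ((XF hM).H (funRep (M := M) O O Y)), b • x = 0) → ρ b = 0 := by
    intro b hb
    refine LinearMap.ext fun v => Subtype.ext ?_
    rw [hρ]
    obtain ⟨v, hv⟩ := v
    change evH hM E Y (MvPolynomial.map (algebraMap O E) b) v = 0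
    induction hv using Submodule.span_induction with
    | mem v hv =>
      obtain ⟨y, rfl⟩ := hv
      change evH hM E Y (MvPolynomial.map (algebraMap O E) b) (extH hM O E Y (s • y)) = 0
      rw [← extH_ev, evH_smul]
      have h1 := hb (Loc.mk 𝔪 _ y)
      rw [BP_mk] at h1
      rw [hs' _ h1, map_zero]
    | zero => rw [map_zero]
    | add v w _ _ hv hw => rw [map_add, hv, hw, add_zero]
    | smul a v _ hv => rw [map_smul, hv, smul_zero]
  -- the prime ideal
  let I : Ideal (BP m Δ O) := RingHom.ker ρ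
  have hdisj : Disjoint (I : Set (BP m Δ O)) (Submonoid.powers β) := by
    rw [Set.disjoint_left]
    rintro _ hb ⟨k, rfl⟩
    obtain ⟨x, hx⟩ := hβ k
    exact hx (hker1 _ hb x)
  obtain ⟨𝔭, h𝔭, hI𝔭, hd⟩ := Ideal.exists_le_prime_disjoint I (Submonoid.powers β) hdisj
  rw [Set.disjoint_left] at hd
  obtain ⟨v, χ, hv0, hv, hχ⟩ := Fermat.Agent.DS.exists_common_eigenvector ρ 𝔭 h𝔭 hI𝔭
  have hχC : ∀ a : O, χ (algebraMap O (BP m Δ O) a) = algebraMap O E a := by
    intro a
    have h1 := hv (MvPolynomial.C a)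
    rw [hρC] at h1
    have h2 : (algebraMap O E a - χ (MvPolynomial.C a)) • v = 0 := by
      rw [sub_smul, h1, sub_self]
    rcases smul_eq_zero.mp h2 with h3 | h3
    · exact (sub_eq_zero.mp h3).symm
    · exact absurd h3 hv0
  refine ⟨v, { χ with commutes' := hχC }, fun h => hv0 (Subtype.ext h), fun i => ?_,
    fun b hb => ?_, fun h => ?_⟩
  · have h1 := congrArg (fun w : V => (w : (XF hM).H (funRep (M := M) E E Y)))
      (hv (MvPolynomial.X i))
    rw [hρX] at h1
    exact h1
  · have h1 := hv b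
    rw [hker2 b hb] at h1
    have h2 : χ b • v = 0 := h1.symm
    exact (smul_eq_zero.mp h2).resolve_right hv0
  · exact hd (hχ _ h) ⟨1, pow_one β⟩

end Eigen

end Fermat.Agent.TW

end
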