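import Fermat.Agent.TW.TWD

/-!
Shapiro isomorphisms for the sets attached to Taylor-Wiles data.
-/

set_option autoImplicit false
set_option linter.unusedSectionVars false

noncomputable section

namespace Fermat.Agent.TW

open scoped MatrixGroups
open CongruenceSubgroup

section ConjD

variable {n d : ℕ} (hd : d ∣ n)

theorem conjD_00 (γ : Gamma0 n) : (conjD n d hd γ : M2Z) 0 0 = ((γ : SL(2, ℤ)) : M2Z) 0 0 := rfl
theorem conjD_01 (γ : Gamma0 n) : (conjD n d hd γ : M2Z) 0 1 = d * ((γ : SL(2, ℤ)) : M2Z) 0 1 := rfl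
theorem conjD_10 (γ : Gamma0 n) : (conjD n d hd γ : M2Z) 1 0 = ((γ : SL(2, ℤ)) : M2Z) 1 0 / d := rfl
theorem conjD_11 (γ : Gamma0 n) : (conjD n d hd γ : M2Z) 1 1 = ((γ : SL(2, ℤ)) : M2Z) 1 1 := rfl

theorem dvd_10 (γ : Gamma0 n) : (n : ℤ) ∣ ((γ : SL(2, ℤ)) : M2Z) 1 0 :=
  (ZMod.intCast_zmod_eq_zero_iff_dvd _ _).mp (Gamma0_mem.mp γ.2)

theorem conjD_injective (hd0 : d ≠ 0) : Function.Injective (conjD n d hd) := by
  intro γ γ' h
  have hd0' : (d : ℤ) ≠ 0 := by exact_mod_cast hd0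
  have key : ∀ i j, (conjD n d hd γ : M2Z) i j = (conjD n d hd γ' : M2Z) i j := by
    intro i j
    rw [h]
  apply Subtype.ext
  apply Subtype.ext
  ext i j
  fin_cases i <;> fin_cases j
  · exact key 0 0
  · have := key 0 1
    rw [conjD_01, conjD_01] at this
    exact mul_left_cancel₀ hd0' this
  · have h1 := key 1 0
    rw [conjD_10, conjD_10] at h1
    have h2 : ((γ : SL(2, ℤ)) : M2Z) 1 0 = ((γ' : SL(2, ℤ)) : M2Z) 1 0 := by
      rw [← Int.ediv_mul_cancel ((Int.natCast_dvd_natCast.mpr hd).trans (dvd_10 γ)),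
        ← Int.ediv_mul_cancel ((Int.natCast_dvd_natCast.mpr hd).trans (dvd_10 γ')), h1]
    exact h2
  · exact key 1 1

theorem exists_conjD {e : ℕ} (hd0 : d ≠ 0) (hn : n = e * d) (g : SL(2, ℤ))
    (h0 : (e : ℤ) ∣ (g : M2Z) 1 0) (h1 : (d : ℤ) ∣ (g : M2Z) 0 1) :
    ∃ γ : Gamma0 n, conjD n d hd γ = g := by
  obtain ⟨c, hc⟩ := h0
  obtain ⟨b, hb⟩ := h1
  have hd0' : (d : ℤ) ≠ 0 := by exact_mod_cast hd0
  have hdet : (g : M2Z) 0 0 * (g : M2Z) 1 1 - (g : M2Z) 0 1 * (g : M2Z) 1 0 = 1 := by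
    rw [← Matrix.det_fin_two, g.det_coe]
  refine ⟨⟨⟨!![(g : M2Z) 0 0, b; (g : M2Z) 1 0 * d, (g : M2Z) 1 1], ?_⟩, ?_⟩, ?_⟩
  · rw [hb] at hdet
    rw [Matrix.det_fin_two_of]
    linear_combination hdet
  · refine Gamma0_mem.mpr ?_
    change (((g : M2Z) 1 0 * d : ℤ) : ZMod n) = 0
    rw [ZMod.intCast_zmod_eq_zero_iff_dvd, hc, hn, Nat.cast_mul]
    exact ⟨c, by ring⟩
  · apply Subtype.ext
    ext i j
    fin_cases i <;> fin_cases j
    · rfl
    · change (d : ℤ) * b = (g : M2Z) 0 1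
      rw [hb]
    · change ((g : M2Z) 1 0 * d) / d = (g : M2Z) 1 0
      rw [Int.mul_ediv_cancel _ hd0']
    · rfl

end ConjD

/-- Shapiro data: `K_t` is given by integral divisibility conditions. -/
structure TWD.Shap {D : Type} [CommGroup D] (W : TWD D) (t : ℕ → LT) (e : ℕ) : Prop where
  mem : ∀ {A : M2Z} (hA : IsGd W.M A), (toGp W.M A hA).2 ∈ W.K t ↔
    (e : ℤ) ∣ A 1 0 ∧ (W.dd : ℤ) ∣ A 0 1

namespace TWD

variable {D : Type} [CommGroup D] (W : TWD D)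

theorem shap_bor : W.Shap (fun _ => .bor) W.N := ⟨fun hA => W.mem_bor_iff hA⟩

theorem shap_tor : W.Shap (fun _ => .tor) (W.N * W.dd) := ⟨fun hA => W.mem_tor_iff hA⟩

namespace Shap

variable {W} {t : ℕ → LT} {e : ℕ} (S : W.Shap t e)

include S

theorem smul_iff (g : SL(2, ℤ)) : (iM W.M g).2 • W.pt t = W.pt t ↔
    (e : ℤ) ∣ (g : M2Z) 1 0 ∧ (W.dd : ℤ) ∣ (g : M2Z) 0 1 := by
  rw [W.smul_pt_iff, ← toGp_SL, S.mem]

theorem fix (γ : Gamma0 (e * W.dd)) :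
    (iM W.M (conjD (e * W.dd) W.dd (dvd_mul_left _ _) γ)).2 • W.pt t = W.pt t := by
  have hd0' : (W.dd : ℤ) ≠ 0 := by exact_mod_cast W.dd_ne_zero
  rw [S.smul_iff, conjD_10, conjD_01]
  refine ⟨?_, dvd_mul_right _ _⟩
  obtain ⟨c, hc⟩ := dvd_10 γ
  rw [hc, Nat.cast_mul, show (e : ℤ) * W.dd * c = (e * c) * W.dd by ring,
    Int.mul_ediv_cancel _ hd0']
  exact dvd_mul_right _ _

theorem range (g : SL(2, ℤ)) (h : (iM W.M g).2 • W.pt t = W.pt t) :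
    ∃ γ, conjD (e * W.dd) W.dd (dvd_mul_left _ _) γ = g := by
  rw [S.smul_iff] at h
  exact exists_conjD _ W.dd_ne_zero rfl g h.1 h.2

theorem stab {l : ℕ} (hl : l.Prime) (hlM : l.Coprime W.M) (x : OnePoint (ZMod l)) :
    (toGp W.M (aD W.dd l x) (isGd_aD W.dd hl hlM x)).2 • W.pt t = W.pt t := by
  rw [W.smul_pt_iff, S.mem]
  induction x using OnePoint.rec with
  | infty => exact ⟨dvd_zero _, dvd_zero _⟩
  | coe j => exact ⟨dvd_zero _, ⟨(j.val : ℤ), rfl⟩⟩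

variable {m : ℕ} (hM : W.M ∣ m) (R A : Type) [CommRing R] [AddCommGroup A] [Module R A]

/-- Shapiro's isomorphism -/
def equiv : (XF hM).H (funRep (M := W.M) R A (W.Yt t)) ≃ₗ[R]
    (Additive (Gamma0 (e * W.dd)) →+ A) :=
  LinearEquiv.ofBijective
    (shap (W.pt t) (conjD (e * W.dd) W.dd (dvd_mul_left _ _)) S.fix :
      H1 (Lvl.full.ι W.M) (funRep (M := W.M) R A (W.Yt t)) →ₗ[R]
        (Additive (Gamma0 (e * W.dd)) →+ A))
    ⟨shap_injective _ _ _ (W.trans t) S.range,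
      shap_surjective _ _ _ (W.trans t) S.range (conjD_injective _ W.dd_ne_zero)⟩

theorem equiv_mk (c : Z1 (Lvl.full.ι W.M) (funRep (M := W.M) R A (W.Yt t)))
    (γ : Gamma0 (e * W.dd)) :
    S.equiv hM R A (H1.mk _ _ c) (Additive.ofMul γ) =
      c.1 (conjD (e * W.dd) W.dd (dvd_mul_left _ _) γ) (W.pt t) := rfl

/-- **Hecke equivariance of Shapiro's isomorphism** -/
theorem equiv_T (l : Pr m) (hln : ¬ (l : ℕ) ∣ e * W.dd)
    (x : (XF hM).H (funRep (M := W.M) R A (W.Yt t))) :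
    S.equiv hM R A ((XF hM).T _ l x) =
      HeckeHom.heckeHom l.2.1 hln A (S.equiv hM R A x) :=
  shap_hecke (W.pt t) (dvd_mul_left _ _) W.dd_ne_zero S.fix l.2.1 hln (l.coprime hM)
    (fun x => S.stab l.2.1 (l.coprime hM) x) x

end Shap

end TWD

end Fermat.Agent.TW

end
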