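import Fermat.Agent.TW.Free
import Mathlib.NumberTheory.JacobiSum.Basic
import Mathlib.GroupTheory.FiniteAbelian.Duality
import Mathlib.RingTheory.RootsOfUnity.AlgebraicallyClosed

/-!
Twisting: functions on `G/K_χ` embed into sums of functions on `G/K_T`.
-/

set_option autoImplicit false
set_option linter.unusedSectionVars false

noncomputable section

namespace Fermat.Agent.TW

open scoped MatrixGroups

section Conv

variable {q : ℕ} [Fact q.Prime] {E : Type} [Field E]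

theorem sum_char_eq (χ : MulChar (ZMod q) E) (h1 : χ ≠ 1) (hneg : χ (-1) = 1) (j k : ZMod q) :
    ∑ m, χ (m - j) * χ⁻¹ (k - m) = (if k = j then (q : E) else 0) - 1 := by
  have hq : (q : ℕ) ≠ 0 := (Fact.out : q.Prime).ne_zero
  have hneg' : χ⁻¹ (-1) = 1 := by
    rw [MulChar.inv_apply' χ, inv_neg_one, hneg]
  by_cases h : k = j
  · subst h
    rw [if_pos rfl]
    have : ∀ m : ZMod q, χ (m - k) * χ⁻¹ (k - m) = if m = k then (0 : E) else 1 := by
      intro m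
      by_cases hm : m = k
      · subst hm
        rw [if_pos rfl, sub_self, MulChar.map_zero, zero_mul]
      · rw [if_neg hm]
        have h2 : k - m = -1 * (m - k) := by ring
        rw [h2, map_mul, hneg', one_mul, ← MulChar.mul_apply, mul_inv_cancel,
          MulChar.one_apply (isUnit_iff_ne_zero.mpr (sub_ne_zero.mpr hm))]
    rw [Finset.sum_congr rfl fun m _ => this m]
    have h3 : ∀ m : ZMod q, (if m = k then (0 : E) else 1) = 1 - if m = k then 1 else 0 := by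
      intro m
      split_ifs <;> simp
    rw [Finset.sum_congr rfl fun m _ => h3 m, Finset.sum_sub_distrib, Finset.sum_const,
      Finset.sum_ite_eq' Finset.univ k, if_pos (Finset.mem_univ _), Finset.card_univ, ZMod.card,
      nsmul_eq_mul, mul_one]
  · rw [if_neg h, zero_sub]
    have hkj : k - j ≠ 0 := sub_ne_zero.mpr h
    rw [← Equiv.sum_comp ((Equiv.mulLeft₀ (k - j) hkj).trans (Equiv.addLeft j))
      (fun m => χ (m - j) * χ⁻¹ (k - m))]
    have h4 : ∀ x : ZMod q, χ (((Equiv.mulLeft₀ (k - j) hkj).trans (Equiv.addLeft j)) x - j) *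
        χ⁻¹ (k - ((Equiv.mulLeft₀ (k - j) hkj).trans (Equiv.addLeft j)) x) =
        χ x * χ⁻¹ (1 - x) := by
      intro x
      have e1 : ((Equiv.mulLeft₀ (k - j) hkj).trans (Equiv.addLeft j)) x = j + (k - j) * x := rfl
      rw [e1, add_sub_cancel_left, show k - (j + (k - j) * x) = (k - j) * (1 - x) by ring,
        map_mul, map_mul]
      have h5 : χ (k - j) * χ⁻¹ (k - j) = 1 := by
        rw [← MulChar.mul_apply, mul_inv_cancel, MulChar.one_apply (isUnit_iff_ne_zero.mpr hkj)]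
      linear_combination (χ x * χ⁻¹ (1 - x)) * h5
    rw [Finset.sum_congr rfl fun x _ => h4 x]
    have := jacobiSum_nontrivial_inv (F := ZMod q) (R := E) h1
    rw [hneg] at this
    exact this

theorem const_of_conv (χ : MulChar (ZMod q) E) (h1 : χ ≠ 1) (hneg : χ (-1) = 1) (u : ZMod q → E)
    (h : ∀ m, ∑ i, χ⁻¹ i * u (m + i) = 0) (j : ZMod q) : (q : E) * u j = ∑ k, u k := by
  have h2 : ∑ m, χ (m - j) * ∑ i, χ⁻¹ i * u (m + i) = 0 := by
    refine Finset.sum_eq_zero fun m _ => ?_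
    rw [h, mul_zero]
  have h3 : ∀ m, ∑ i, χ⁻¹ i * u (m + i) = ∑ k, χ⁻¹ (k - m) * u k := by
    intro m
    rw [← Equiv.sum_comp (Equiv.addLeft m) (fun k => χ⁻¹ (k - m) * u k)]
    refine Finset.sum_congr rfl fun i _ => ?_
    change _ = χ⁻¹ (m + i - m) * u (m + i)
    rw [add_sub_cancel_left]
  simp only [h3, Finset.mul_sum] at h2
  rw [Finset.sum_comm] at h2
  have h4 : ∀ k, ∑ m, χ (m - j) * (χ⁻¹ (k - m) * u k) =
      ((if k = j then (q : E) else 0) - 1) * u k := by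
    intro k
    rw [← sum_char_eq χ h1 hneg, Finset.sum_mul]
    refine Finset.sum_congr rfl fun m _ => ?_
    ring
  rw [Finset.sum_congr rfl fun k _ => h4 k] at h2
  simp only [sub_mul, one_mul, ite_mul, zero_mul] at h2
  rw [Finset.sum_sub_distrib, Finset.sum_ite_eq' Finset.univ j, if_pos (Finset.mem_univ _)] at h2
  exact sub_eq_zero.mp h2

end Conv

section Orth

variable {D : Type} [CommGroup D] [Finite D] {E : Type} [Field E] [CharZero E] [IsAlgClosed E]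

instance : HasEnoughRootsOfUnity E (Monoid.exponent D) := by
  have : NeZero (Monoid.exponent D) := ⟨Monoid.exponent_ne_zero_of_finite⟩
  have : NeZero (Monoid.exponent D : E) := ⟨Nat.cast_ne_zero.mpr (NeZero.ne _)⟩
  infer_instance

instance finite_char : Finite (D →* Eˣ) :=
  let ⟨e⟩ := CommGroup.monoidHom_mulEquiv_of_hasEnoughRootsOfUnity D E
  Finite.of_equiv _ e.symm.toEquiv

theorem exists_char {δ : D} (h : δ ≠ 1) : ∃ ψ : D →* Eˣ, ψ δ ≠ 1 :=
  CommGroup.exists_apply_ne_one_of_hasEnoughRootsOfUnity D E h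

/-- Fourier inversion -/
theorem eq_zero_of_fourier [Fintype D] (u : D → E)
    (h : ∀ ψ : D →* Eˣ, ∑ δ, ((ψ δ : Eˣ) : E) * u δ = 0) (δ₀ : D) : u δ₀ = 0 := by
  classical
  have : Fintype (D →* Eˣ) := Fintype.ofFinite _
  have h1 : ∑ ψ : D →* Eˣ, (((ψ δ₀)⁻¹ : Eˣ) : E) * ∑ δ, ((ψ δ : Eˣ) : E) * u δ = 0 := by
    refine Finset.sum_eq_zero fun ψ _ => ?_
    rw [h, mul_zero]
  simp only [Finset.mul_sum] at h1
  rw [Finset.sum_comm] at h1
  have h2 : ∀ δ, ∑ ψ : D →* Eˣ, (((ψ δ₀)⁻¹ : Eˣ) : E) * (((ψ δ : Eˣ) : E) * u δ) =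
      (if δ = δ₀ then (Fintype.card (D →* Eˣ) : E) else 0) * u δ := by
    intro δ
    by_cases hδ : δ = δ₀
    · subst hδ
      rw [if_pos rfl]
      have : ∀ ψ : D →* Eˣ, (((ψ δ)⁻¹ : Eˣ) : E) * (((ψ δ : Eˣ) : E) * u δ) = u δ := by
        intro ψ
        rw [← mul_assoc, ← Units.val_mul, inv_mul_cancel, Units.val_one, one_mul]
      rw [Finset.sum_congr rfl fun ψ _ => this ψ, Finset.sum_const, Finset.card_univ, nsmul_eq_mul]
    · rw [if_neg hδ, zero_mul]
      obtain ⟨φ, hφ⟩ := exists_char (E := E) (δ := δ₀⁻¹ * δ)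
        (fun h => hδ ((inv_mul_eq_one.mp h).symm))
      have hS : ∀ ψ : D →* Eˣ, (((ψ δ₀)⁻¹ : Eˣ) : E) * (((ψ δ : Eˣ) : E) * u δ) =
          ((ψ (δ₀⁻¹ * δ) : Eˣ) : E) * u δ := by
        intro ψ
        rw [map_mul, map_inv, Units.val_mul, mul_assoc]
      rw [Finset.sum_congr rfl fun ψ _ => hS ψ, ← Finset.sum_mul]
      have h3 : ∑ ψ : D →* Eˣ, ((ψ (δ₀⁻¹ * δ) : Eˣ) : E) =
          ((φ (δ₀⁻¹ * δ) : Eˣ) : E) * ∑ ψ : D →* Eˣ, ((ψ (δ₀⁻¹ * δ) : Eˣ) : E) := by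
        rw [Finset.mul_sum]
        refine ((Equiv.sum_comp (Equiv.mulLeft φ)
          (fun ψ : D →* Eˣ => ((ψ (δ₀⁻¹ * δ) : Eˣ) : E))).symm).trans ?_
        exact Finset.sum_congr rfl fun ψ _ => rfl
      have h4 : (1 - ((φ (δ₀⁻¹ * δ) : Eˣ) : E)) * ∑ ψ : D →* Eˣ, ((ψ (δ₀⁻¹ * δ) : Eˣ) : E) = 0 := by
        rw [sub_mul, one_mul, ← h3, sub_self]
      rcases mul_eq_zero.mp h4 with h5 | h5
      · exact absurd (Units.val_eq_one.mp (sub_eq_zero.mp h5).symm) hφ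
      · rw [h5, zero_mul]
  rw [Finset.sum_congr rfl fun δ _ => h2 δ] at h1
  simp only [ite_mul, zero_mul] at h1
  rw [Finset.sum_ite_eq' Finset.univ δ₀, if_pos (Finset.mem_univ _)] at h1
  rcases mul_eq_zero.mp h1 with h5 | h5
  · exact absurd h5 (Nat.cast_ne_zero.mpr Fintype.card_ne_zero)
  · exact h5

end Orth

/-- data of a one-prime twisting step -/
structure TwistData (G : Type) [Group G] (K0 Kχ KT : Subgroup G) (D : Type) [CommGroup D]
    (q : ℕ) where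
  κ : K0 →* D
  kk : D → K0
  κ_kk : ∀ δ, κ (kk δ) = δ
  leχ : Kχ ≤ K0
  mem_χ : ∀ k : K0, (k : G) ∈ Kχ ↔ κ k = 1
  χ : (ZMod q)ˣ →* D
  n : ZMod q → G
  n_zero : n 0 = 1
  n_add : ∀ i j, n (i + j) = n i * n j
  leT : KT ≤ K0
  τ : KT → (ZMod q)ˣ
  conj : ∀ (t : KT) i, (t : G) * n i = n (τ t * i) * t
  κ_τ : ∀ t : KT, κ ⟨t, leT t.2⟩ = χ (τ t)
  gen : ∀ H : Subgroup G, (∀ i, n i ∈ H) → Kχ ≤ H → ∀ a : (ZMod q)ˣ,
    ∃ k : K0, (k : G) ∈ H ∧ κ k = χ a ^ 2

namespace TwistData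

variable {G : Type} [Group G] {K0 Kχ KT : Subgroup G} {D : Type} [CommGroup D] {q : ℕ}
  [Fact q.Prime] (W : TwistData G K0 Kχ KT D q) {E : Type} [Field E]

/-- the multiplicative character of `ZMod q` -/
def mc (ψ : D →* Eˣ) : MulChar (ZMod q) E := MulChar.ofUnitHom (ψ.comp W.χ)

theorem mc_coe (ψ : D →* Eˣ) (a : (ZMod q)ˣ) : W.mc ψ (a : ZMod q) = ((ψ (W.χ a) : Eˣ) : E) :=
  MulChar.ofUnitHom_coe _ _

theorem mc_inv_coe (ψ : D →* Eˣ) (a : (ZMod q)ˣ) :
    (W.mc ψ)⁻¹ (a : ZMod q) = (((ψ (W.χ a))⁻¹ : Eˣ) : E) := by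
  rw [MulChar.inv_apply, Ring.inverse_unit, mc_coe, map_inv, map_inv]

open scoped Classical in
/-- the kernel function -/
def f (ψ : D →* Eˣ) (i : ZMod q) : E :=
  if ψ = 1 then (if i = 0 then 1 else 0) else (W.mc ψ)⁻¹ i

theorem f_one (i : ZMod q) : W.f (1 : D →* Eˣ) i = if i = 0 then 1 else 0 := by
  classical
  rw [f, if_pos rfl]

theorem f_of_ne {ψ : D →* Eˣ} (h : ψ ≠ 1) (i : ZMod q) : W.f ψ i = (W.mc ψ)⁻¹ i := by
  classical
  rw [f, if_neg h]

theorem f_mul (ψ : D →* Eˣ) (a : (ZMod q)ˣ) (i : ZMod q) :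
    W.f ψ i = ((ψ (W.χ a) : Eˣ) : E) * W.f ψ (a * i) := by
  classical
  by_cases h : ψ = 1
  · subst h
    rw [f_one, f_one, MonoidHom.one_apply, Units.val_one, one_mul]
    simp
  · rw [f_of_ne _ h, f_of_ne _ h, map_mul, mc_inv_coe, ← mul_assoc, ← Units.val_mul,
      mul_inv_cancel, Units.val_one, one_mul]

/-- right invariance -/
def Inv (K : Subgroup G) (F : G → E) : Prop := ∀ g, ∀ k ∈ K, F (g * k) = F g

variable [Fintype D]

/-- the twisting operator -/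
def Ψ (ψ : D →* Eˣ) (F : G → E) (g : G) : E :=
  ∑ i : ZMod q, ∑ δ : D, W.f ψ i * (((ψ δ : Eˣ) : E) * F (g * W.n i * W.kk δ))

/-- the `ψ`-component -/
def Fc (ψ : D →* Eˣ) (F : G → E) (g : G) : E := ∑ δ : D, ((ψ δ : Eˣ) : E) * F (g * W.kk δ)

theorem Ψ_eq (ψ : D →* Eˣ) (F : G → E) (g : G) :
    W.Ψ ψ F g = ∑ i : ZMod q, W.f ψ i * W.Fc ψ F (g * W.n i) := by
  refine Finset.sum_congr rfl fun i _ => ?_
  rw [Fc, Finset.mul_sum]

theorem Fc_mul {F : G → E} (hF : Inv Kχ F) (ψ : D →* Eˣ) (g : G) (k : K0) :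
    W.Fc ψ F (g * k) = (((ψ (W.κ k))⁻¹ : Eˣ) : E) * W.Fc ψ F g := by
  rw [Fc, Fc, ← Equiv.sum_comp (Equiv.mulLeft (W.κ k)) (fun δ => ((ψ δ : Eˣ) : E) *
    F (g * W.kk δ)), Finset.mul_sum]
  refine Finset.sum_congr rfl fun δ _ => ?_
  change _ = _ * (((ψ (W.κ k * δ) : Eˣ) : E) * F (g * W.kk (W.κ k * δ)))
  have h1 : ((W.kk (W.κ k * δ))⁻¹ * (k * W.kk δ) : K0) = (1 : K0) * ((W.kk (W.κ k * δ))⁻¹ *
    (k * W.kk δ)) := (one_mul _).symm
  have h2 : (((W.kk (W.κ k * δ))⁻¹ * (k * W.kk δ) : K0) : G) ∈ Kχ := by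
    rw [W.mem_χ, map_mul, map_inv, map_mul, W.κ_kk, W.κ_kk, inv_mul_cancel]
  have h3 : g * k * W.kk δ = g * W.kk (W.κ k * δ) *
      (((W.kk (W.κ k * δ))⁻¹ * (k * W.kk δ) : K0) : G) := by
    push_cast
    group
  rw [h3, hF _ _ h2, map_mul, Units.val_mul, ← mul_assoc, ← mul_assoc, ← Units.val_mul,
    inv_mul_cancel, Units.val_one, one_mul]

theorem Fc_mul_χ {F : G → E} (hF : Inv Kχ F) (ψ : D →* Eˣ) (g : G) {k : G} (hk : k ∈ Kχ) :
    W.Fc ψ F (g * k) = W.Fc ψ F g := by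
  have := W.Fc_mul hF ψ g ⟨k, W.leχ hk⟩
  rw [(W.mem_χ _).mp hk] at this
  simpa using this

/-- `Ψ F` is right invariant under the torus. -/
theorem inv_Ψ {F : G → E} (hF : Inv Kχ F) (ψ : D →* Eˣ) : Inv KT (W.Ψ ψ F) := by
  intro g k hk
  rw [Ψ_eq, Ψ_eq]
  rw [← Equiv.sum_comp (Equiv.mulLeft₀ ((W.τ ⟨k, hk⟩ : (ZMod q)ˣ) : ZMod q) (Units.ne_zero _))
    (fun i => W.f ψ i * W.Fc ψ F (g * W.n i))]
  refine Finset.sum_congr rfl fun i _ => ?_
  change _ = W.f ψ ((W.τ ⟨k, hk⟩ : (ZMod q)ˣ) * i) *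
    W.Fc ψ F (g * W.n ((W.τ ⟨k, hk⟩ : (ZMod q)ˣ) * i))
  have h1 := W.conj ⟨k, hk⟩ i
  change k * W.n i = _ * k at h1
  rw [mul_assoc, h1, ← mul_assoc]
  have h2 := W.Fc_mul hF ψ (g * W.n ((W.τ ⟨k, hk⟩ : (ZMod q)ˣ) * i)) ⟨k, W.leT hk⟩
  change W.Fc ψ F (g * W.n ((W.τ ⟨k, hk⟩ : (ZMod q)ˣ) * i) * k) = _ at h2
  rw [h2, W.f_mul ψ (W.τ ⟨k, hk⟩) i, W.κ_τ ⟨k, hk⟩]
  have h3 : ((ψ (W.χ (W.τ ⟨k, hk⟩)) : Eˣ) : E) * (((ψ (W.χ (W.τ ⟨k, hk⟩)))⁻¹ : Eˣ) : E) = 1 := by
    rw [← Units.val_mul, mul_inv_cancel, Units.val_one]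
  linear_combination (W.f ψ (↑(W.τ ⟨k, hk⟩) * i) *
    W.Fc ψ F (g * W.n (↑(W.τ ⟨k, hk⟩) * i))) * h3

variable [CharZero E] [IsAlgClosed E]

/-- **The twisting operators are jointly injective.** -/
theorem injective (hodd : Odd (Nat.card D)) (hχ : Function.Surjective W.χ) {F : G → E}
    (hF : Inv Kχ F) (h : ∀ ψ : D →* Eˣ, ∀ g, W.Ψ ψ F g = 0) (g : G) : F g = 0 := by
  have hodd' : ∀ δ : D, δ ^ 2 = 1 → δ = 1 := by
    intro δ hδ
    have h1 : orderOf δ ∣ 2 := orderOf_dvd_of_pow_eq_one hδ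
    have h2 : orderOf δ ∣ Nat.card D := orderOf_dvd_natCard δ
    have h3 : orderOf δ ∣ 1 := by
      have := Nat.dvd_gcd h1 h2
      rwa [Nat.Coprime.gcd_eq_one (Nat.coprime_two_left.mpr hodd)] at this
    exact orderOf_eq_one_iff.mp (Nat.dvd_one.mp h3)
  have hχneg : W.χ (-1) = 1 := hodd' _ (by rw [← map_pow, neg_one_sq, map_one])
  have hq0 : (q : E) ≠ 0 := Nat.cast_ne_zero.mpr (Fact.out : q.Prime).ne_zero
  -- the components vanish
  have key : ∀ ψ : D →* Eˣ, ∀ g, W.Fc ψ F g = 0 := by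
    intro ψ g
    by_cases hψ : ψ = 1
    · have := h ψ g
      rw [Ψ_eq, hψ] at this
      simp only [f_one, ite_mul, one_mul, zero_mul] at this
      rw [Finset.sum_ite_eq' Finset.univ (0 : ZMod q), if_pos (Finset.mem_univ _), W.n_zero,
        mul_one] at this
      rw [hψ]
      exact this
    · have hmc : W.mc ψ ≠ 1 := by
        intro h1
        apply hψ
        refine MonoidHom.ext fun δ => ?_
        obtain ⟨a, rfl⟩ := hχ δ
        have := W.mc_coe ψ a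
        rw [h1, MulChar.one_apply_coe] at this
        exact (Units.val_eq_one.mp this.symm)
      have hmcneg : W.mc ψ (-1) = 1 := by
        have := W.mc_coe ψ (-1)
        rw [hχneg, map_one, Units.val_one, Units.val_neg, Units.val_one] at this
        exact this
      have hinv : ∀ (g : G) (j : ZMod q), W.Fc ψ F (g * W.n j) = W.Fc ψ F g := by
        intro g j
        have h1 := const_of_conv (W.mc ψ) hmc hmcneg (fun m => W.Fc ψ F (g * W.n m)) (fun m => by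
          have := h ψ (g * W.n m)
          rw [Ψ_eq] at this
          simp only [W.f_of_ne hψ] at this
          rw [← this]
          refine Finset.sum_congr rfl fun i _ => ?_
          rw [W.n_add, mul_assoc])
        have h2 := h1 j
        rw [← h1 0, W.n_zero, mul_one] at h2
        exact mul_left_cancel₀ hq0 h2
      let H : Subgroup G :=
        { carrier := {x | ∀ g, W.Fc ψ F (g * x) = W.Fc ψ F g}
          one_mem' := fun g => by rw [mul_one]
          mul_mem' := fun {a b} ha hb g => by rw [← mul_assoc, hb, ha]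
          inv_mem' := fun {a} ha g => by
            have := ha (g * a⁻¹)
            rw [inv_mul_cancel_right] at this
            exact this.symm }
      obtain ⟨δ, hδ⟩ : ∃ δ : D, ψ δ ≠ 1 := by
        by_contra hcon
        push Not at hcon
        exact hψ (MonoidHom.ext hcon)
      obtain ⟨a, rfl⟩ := hχ δ
      obtain ⟨k, hk, hk2⟩ := W.gen H (fun i g => hinv g i) (fun k hk g => W.Fc_mul_χ hF ψ g hk) a
      have h3 := W.Fc_mul hF ψ g k
      rw [hk g, hk2] at h3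
      have h4 : ψ (W.χ a ^ 2) ≠ 1 := by
        intro h5
        apply hδ
        have h6 : (orderOf (ψ (W.χ a))) ∣ 2 := orderOf_dvd_of_pow_eq_one (by rw [← map_pow, h5])
        have h7 : (orderOf (ψ (W.χ a))) ∣ Nat.card D :=
          (orderOf_map_dvd ψ (W.χ a)).trans (orderOf_dvd_natCard _)
        have h8 := Nat.dvd_gcd h6 h7
        rw [Nat.Coprime.gcd_eq_one (Nat.coprime_two_left.mpr hodd)] at h8
        exact orderOf_eq_one_iff.mp (Nat.dvd_one.mp h8)
      by_contra hne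
      apply h4
      have h5 : ((((ψ (W.χ a ^ 2))⁻¹ : Eˣ) : E) - 1) * W.Fc ψ F g = 0 := by
        rw [sub_mul, one_mul, ← h3, sub_self]
      rcases mul_eq_zero.mp h5 with h6 | h6
      · exact inv_eq_one.mp (Units.val_eq_one.mp (sub_eq_zero.mp h6))
      · exact absurd h6 hne
  have h1 := eq_zero_of_fourier (fun δ => F (g * W.kk δ)) (fun ψ => key ψ g) 1
  have h2 : ((W.kk 1 : K0) : G) ∈ Kχ := by rw [W.mem_χ, W.κ_kk]
  rw [← hF g _ h2]
  exact h1

end TwistData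

section Pi

variable {m M : ℕ} {Γ : Type} [Group Γ] {R : Type} [CommRing R] (X : Stg m M Γ)
  {V W : Type} [AddCommGroup V] [Module R V] [AddCommGroup W] [Module R W]
  {ρ : Representation R (Gp M) V} {I : Type}

theorem infl_piRep (h : Infl ρ) : Infl (piRep I ρ) := by
  intro g g' hg
  refine LinearMap.ext fun F => funext fun i => ?_
  change ρ g (F i) = ρ g' (F i)
  rw [h g g' hg]

theorem Stg.pi_ext (x : X.H (piRep I ρ)) (h : ∀ i, X.map (projC ρ i) x = 0) : x = 0 := by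
  obtain ⟨f, rfl⟩ := X.mk_surj x
  have h1 : ∀ i, ∃ v, cobLin (X.L.ι M) ρ v = Z1.map (X.L.ι M) (projC ρ i) f := fun i =>
    H1.mk_eq_zero.mp (h i)
  choose v hv using h1
  refine H1.mk_eq_zero.mpr ⟨v, ?_⟩
  apply Subtype.ext
  funext g i
  exact congrFun (congrArg Subtype.val (hv i)) g

/-- an injective map into a product transports annihilators (up to Eisenstein factors). -/
theorem Stg.kill_of_injective {σ : Representation R (Gp M) W} (hσ : Infl σ) (I : Type)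
    (φ : CHom ρ (piRep I σ)) (hφ : Function.Injective φ.toLinearMap)
    (hT : ∃ t, X.L.j t = ModularGroup.T) (p : TPoly m R) (hp : ∀ x : X.H σ, p • x = 0)
    (l : Pr m) (hl : ((l : ℕ) : ZMod M) = 1) (x : X.H ρ) :
    ((MvPolynomial.X l - MvPolynomial.C (((l : ℕ) : R) + 1)) * p) • x = 0 := by
  have h1 : X.map φ (p • x) = 0 := by
    rw [map_smul]
    refine X.pi_ext _ fun i => ?_
    rw [map_smul, hp]
  rw [mul_smul, sub_smul, X.X_smul, X.C_smul, X.eisenstein (infl_piRep hσ) φ hφ hT l hl _ h1]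
  have : (((l : ℕ) : R) + 1) • (p • x) = ((l : ℕ) + 1) • (p • x) := by
    rw [← Nat.cast_succ, Nat.cast_smul_eq_nsmul]
  rw [this, sub_self]

end Pi

section TwistC

variable {M : ℕ} {R E : Type} [CommRing R] [Field E] [Algebra R E] {D : Type} [CommGroup D]
  [Fintype D] {q : ℕ} [Fact q.Prime] {K0 Kχ KT : Subgroup (GL (Fin 2) (ZMod M))}
  (W : TwistData (GL (Fin 2) (ZMod M)) K0 Kχ KT D q)

theorem TwistData.inv_mk (F : GL (Fin 2) (ZMod M) ⧸ Kχ → E) :
    TwistData.Inv Kχ (fun g => F (g : GL (Fin 2) (ZMod M) ⧸ Kχ)) := by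
  intro g k hk
  change F _ = F _
  congr 1
  exact QuotientGroup.mk_mul_of_mem g hk

/-- the twisting operator on functions on the quotients -/
def TwistData.twF (ψ : D →* Eˣ) (F : GL (Fin 2) (ZMod M) ⧸ Kχ → E) :
    GL (Fin 2) (ZMod M) ⧸ KT → E := fun y => Quotient.liftOn' y
    (fun g => W.Ψ ψ (fun x => F (x : GL (Fin 2) (ZMod M) ⧸ Kχ)) g) (fun a b hab => by
      rw [QuotientGroup.leftRel_apply] at hab
      have := W.inv_Ψ (TwistData.inv_mk F) ψ a _ hab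
      rw [mul_inv_cancel_left] at this
      exact this.symm)

theorem TwistData.twF_mk (ψ : D →* Eˣ) (F : GL (Fin 2) (ZMod M) ⧸ Kχ → E)
    (g : GL (Fin 2) (ZMod M)) : W.twF ψ F (g : GL (Fin 2) (ZMod M) ⧸ KT) =
      W.Ψ ψ (fun x => F (x : GL (Fin 2) (ZMod M) ⧸ Kχ)) g := rfl

theorem TwistData.Ψ_add (ψ : D →* Eˣ) (F F' : GL (Fin 2) (ZMod M) → E) (g) :
    W.Ψ ψ (fun x => F x + F' x) g = W.Ψ ψ F g + W.Ψ ψ F' g := by
  rw [TwistData.Ψ, TwistData.Ψ, TwistData.Ψ, ← Finset.sum_add_distrib]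
  refine Finset.sum_congr rfl fun i _ => ?_
  rw [← Finset.sum_add_distrib]
  refine Finset.sum_congr rfl fun δ _ => ?_
  ring

theorem TwistData.Ψ_smul (ψ : D →* Eˣ) (c : R) (F : GL (Fin 2) (ZMod M) → E) (g) :
    W.Ψ ψ (fun x => c • F x) g = c • W.Ψ ψ F g := by
  rw [TwistData.Ψ, TwistData.Ψ, Finset.smul_sum]
  refine Finset.sum_congr rfl fun i _ => ?_
  rw [Finset.smul_sum]
  refine Finset.sum_congr rfl fun δ _ => ?_
  rw [mul_smul_comm, mul_smul_comm]

theorem TwistData.Ψ_trans (ψ : D →* Eˣ) (h : GL (Fin 2) (ZMod M))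
    (F : GL (Fin 2) (ZMod M) → E) (g) :
    W.Ψ ψ (fun x => F (h * x)) g = W.Ψ ψ F (h * g) := by
  rw [TwistData.Ψ, TwistData.Ψ]
  refine Finset.sum_congr rfl fun i _ => Finset.sum_congr rfl fun δ _ => ?_
  rw [mul_assoc h g, mul_assoc h]

variable (R)

/-- the twisting operator as a morphism of coefficient modules -/
def TwistData.twistC (ψ : D →* Eˣ) :
    CHom (funRep (M := M) R E (GL (Fin 2) (ZMod M) ⧸ Kχ))
      (funRep (M := M) R E (GL (Fin 2) (ZMod M) ⧸ KT)) where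
  toFun F := W.twF ψ F
  map_add' F F' := by
    funext y
    induction y using QuotientGroup.induction_on with
    | H g =>
      exact W.Ψ_add ψ (fun x => F (x : GL (Fin 2) (ZMod M) ⧸ Kχ))
        (fun x => F' (x : GL (Fin 2) (ZMod M) ⧸ Kχ)) g
  map_smul' c F := by
    funext y
    induction y using QuotientGroup.induction_on with
    | H g => exact W.Ψ_smul ψ c (fun x => F (x : GL (Fin 2) (ZMod M) ⧸ Kχ)) g
  comm' h F := by
    funext y
    induction y using QuotientGroup.induction_on with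
    | H g => exact W.Ψ_trans ψ h.2⁻¹ (fun x => F (x : GL (Fin 2) (ZMod M) ⧸ Kχ)) g

theorem TwistData.twistC_mk (ψ : D →* Eˣ) (F : GL (Fin 2) (ZMod M) ⧸ Kχ → E)
    (g : GL (Fin 2) (ZMod M)) :
    (W.twistC R ψ).toLinearMap F (g : GL (Fin 2) (ZMod M) ⧸ KT) =
      W.Ψ ψ (fun x => F (x : GL (Fin 2) (ZMod M) ⧸ Kχ)) g := rfl

/-- all twists together -/
def TwistData.allC :
    CHom (funRep (M := M) R E (GL (Fin 2) (ZMod M) ⧸ Kχ))
      (piRep (D →* Eˣ) (funRep (M := M) R E (GL (Fin 2) (ZMod M) ⧸ KT))) where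
  toFun F := fun ψ => (W.twistC R ψ).toLinearMap F
  map_add' F F' := by
    funext ψ
    exact map_add _ _ _
  map_smul' c F := by
    funext ψ
    exact map_smul _ _ _
  comm' h F := by
    funext ψ
    exact (W.twistC R ψ).comm h F

variable [CharZero E] [IsAlgClosed E]

theorem TwistData.allC_injective (hodd : Odd (Nat.card D)) (hχ : Function.Surjective W.χ) :
    Function.Injective (W.allC R (E := E)).toLinearMap := by
  rw [← LinearMap.ker_eq_bot, LinearMap.ker_eq_bot']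
  intro F hF
  funext y
  induction y using QuotientGroup.induction_on with
  | H g =>
    refine W.injective hodd hχ (TwistData.inv_mk F) (fun ψ g => ?_) g
    have h1 := congrFun (congrFun hF ψ) (g : GL (Fin 2) (ZMod M) ⧸ KT)
    exact h1

/-- **The twisting step.** -/
theorem TwistData.kill {m : ℕ} (hM : M ∣ m) (hodd : Odd (Nat.card D))
    (hχ : Function.Surjective W.χ) (p : TPoly m R)
    (hp : ∀ x : (XF hM).H (funRep (M := M) R E (GL (Fin 2) (ZMod M) ⧸ KT)), p • x = 0)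
    (l : Pr m) (hl : ((l : ℕ) : ZMod M) = 1)
    (x : (XF hM).H (funRep (M := M) R E (GL (Fin 2) (ZMod M) ⧸ Kχ))) :
    ((MvPolynomial.X l - MvPolynomial.C (((l : ℕ) : R) + 1)) * p) • x = 0 :=
  (XF hM).kill_of_injective infl_funRep (D →* Eˣ) (W.allC R) (W.allC_injective R hodd hχ)
    ⟨ModularGroup.T, rfl⟩ p hp l hl x

end TwistC

end Fermat.Agent.TW

end
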