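import Fermat.Agent.TW.TQLoc

/-!
Localisation does not depend on the excluded set of primes: the isomorphism.
-/

set_option autoImplicit false
set_option linter.unusedSectionVars false

noncomputable section

namespace Fermat.Agent.TW

open IsLocalRing Module Matrix Fermat.Agent.DefRing Polynomial

section Comap

variable {m m' : ℕ} {O : Type} [CommRing O] [IsLocalRing O] {rbar : GQ →* M2 (ResidueField O)}

/-- every polynomial is congruent to a constant -/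
theorem ResId.exists_const {𝔪 : Ideal (TPoly m O)} (h𝔪 : ResId rbar 𝔪) {T : Type} [CommRing T]
    [Algebra O T] (J : Ideal T) (f : TPoly m O →ₐ[O] T)
    (hf : ∀ (l : Pr m) (B : ValuationSubring (AlgebraicClosure ℚ)), B.LiesOverPrime l →
      ∀ τ : GQ, B.IsFrobeniusAt τ l → ∀ o : O, residue O o = (rbar τ).trace →
        f (MvPolynomial.X l) - algebraMap O T o ∈ J) (s : TPoly m O) :
    ∃ o : O, s - MvPolynomial.C o ∈ 𝔪 ∧ f s - algebraMap O T o ∈ J := by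
  induction s using MvPolynomial.induction_on with
  | C a =>
    refine ⟨a, by rw [sub_self]; exact zero_mem _, ?_⟩
    have h1 : f (MvPolynomial.C a) = algebraMap O T a := f.commutes a
    rw [h1, sub_self]
    exact zero_mem _
  | add s t hs ht =>
    obtain ⟨a, ha, ha'⟩ := hs
    obtain ⟨b, hb, hb'⟩ := ht
    refine ⟨a + b, ?_, ?_⟩
    · rw [map_add, add_sub_add_comm]
      exact add_mem ha hb
    · rw [map_add, map_add, add_sub_add_comm]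
      exact add_mem ha' hb'
  | mul_X s l hs =>
    obtain ⟨a, ha, ha'⟩ := hs
    obtain ⟨B, hB, τ, hτ⟩ := Frob.exists_liesOverPrime_isFrobeniusAt
      (L := AlgebraicClosure ℚ) l.2.1
    obtain ⟨b, hb⟩ := residue_surjective (R := O) (rbar τ).trace
    refine ⟨a * b, ?_, ?_⟩
    · rw [map_mul]
      have e : s * MvPolynomial.X l - MvPolynomial.C a * MvPolynomial.C b =
          MvPolynomial.X l * (s - MvPolynomial.C a) +
            MvPolynomial.C a * (MvPolynomial.X l - MvPolynomial.C b) := by ring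
      rw [e]
      exact add_mem (Ideal.mul_mem_left _ _ ha) (Ideal.mul_mem_left _ _ (h𝔪.tmem l B hB τ hτ b hb))
    · rw [map_mul, map_mul]
      have e : f s * f (MvPolynomial.X l) - algebraMap O T a * algebraMap O T b =
          f (MvPolynomial.X l) * (f s - algebraMap O T a) +
            algebraMap O T a * (f (MvPolynomial.X l) - algebraMap O T b) := by ring
      rw [e]
      exact add_mem (Ideal.mul_mem_left _ _ ha') (Ideal.mul_mem_left _ _ (hf l B hB τ hτ b hb))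

theorem ResId.C_mem_iff {𝔪 : Ideal (TPoly m O)} (h𝔪 : ResId rbar 𝔪) (hne : 𝔪 ≠ ⊤) (o : O) :
    (MvPolynomial.C o : TPoly m O) ∈ 𝔪 ↔ o ∈ maximalIdeal O := by
  constructor
  · intro h
    by_contra hcon
    have hu : IsUnit o := by
      by_contra h1
      exact hcon h1
    exact hne (Ideal.eq_top_of_isUnit_mem _ h (hu.map MvPolynomial.C))
  · exact h𝔪.cmem o

variable (hmm : m ∣ m') {𝔪 : Ideal (TPoly m O)} {𝔪' : Ideal (TPoly m' O)}

theorem ResId.inc_mem_iff (h𝔪 : ResId rbar 𝔪) (h𝔪' : ResId rbar 𝔪') (hne : 𝔪 ≠ ⊤)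
    (hne' : 𝔪' ≠ ⊤) (s : TPoly m' O) : inc hmm O s ∈ 𝔪 ↔ s ∈ 𝔪' := by
  obtain ⟨o, ho, ho'⟩ := h𝔪'.exists_const 𝔪 (inc hmm O) (fun l B hB τ hτ o ho => by
    rw [inc_X]
    exact h𝔪.tmem (incP hmm l) B hB τ hτ o ho) s
  have e1 : (s ∈ 𝔪' ↔ (MvPolynomial.C o : TPoly m' O) ∈ 𝔪') := by
    constructor
    · intro h
      have := sub_mem h ho
      rwa [sub_sub_cancel] at this
    · intro h
      have := add_mem ho h
      rwa [sub_add_cancel] at this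
  have e2 : (inc hmm O s ∈ 𝔪 ↔ (MvPolynomial.C o : TPoly m O) ∈ 𝔪) := by
    have hC : algebraMap O (TPoly m O) o = MvPolynomial.C o := rfl
    rw [hC] at ho'
    constructor
    · intro h
      have := sub_mem h ho'
      rwa [sub_sub_cancel] at this
    · intro h
      have := add_mem ho' h
      rwa [sub_add_cancel] at this
  rw [e1, e2, h𝔪.C_mem_iff hne, h𝔪'.C_mem_iff hne']

end Comap

section Main

variable {m m' : ℕ} (hmm : m ∣ m') {O : Type} [CommRing O] [IsDomain O]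
  [IsDiscreteValuationRing O] [IsAdicComplete (maximalIdeal O) O]
  {H : Type} [AddCommGroup H] [Module (TPoly m O) H] [Module O H]
  [IsScalarTower O (TPoly m O) H] [Module.Finite O H]
  {H' : Type} [AddCommGroup H'] [Module (TPoly m' O) H'] [Module O H']
  [IsScalarTower O (TPoly m' O) H'] [Module.Finite O H']
  (e₀ : H' ≃+ H) (he₀ : ∀ (P : TPoly m' O) (x : H'), e₀ (P • x) = inc hmm O P • e₀ x)
  (𝔪' : Ideal (TPoly m' O)) [𝔪'.IsMaximal] (𝔪 : Ideal (TPoly m O)) [𝔪.IsMaximal]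
  {rbar : GQ →* M2 (ResidueField O)} (h𝔪 : ResId rbar 𝔪) (h𝔪' : ResId rbar 𝔪')

include h𝔪 h𝔪' in
theorem inc_notMem {s : TPoly m' O} (hs : s ∉ 𝔪') : inc hmm O s ∉ 𝔪 := fun h =>
  hs ((ResId.inc_mem_iff hmm h𝔪 h𝔪' (inferInstance : 𝔪.IsMaximal).ne_top
    (inferInstance : 𝔪'.IsMaximal).ne_top s).mp h)

/-- comparison map -/
def tqHom : QLoc hmm e₀ he₀ 𝔪' →+ Loc 𝔪 H :=
  QuotientAddGroup.lift (kerLoc hmm e₀ he₀ 𝔪').toAddSubgroup (Loc.mk 𝔪 H).toAddMonoidHom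
    (fun x hx => by
      obtain ⟨s, hs, h⟩ := hx
      refine Loc.mk_eq_zero.mpr ⟨inc hmm O s, inc_notMem hmm 𝔪' 𝔪 h𝔪 h𝔪' hs, ?_⟩
      have h1 := congrArg e₀ h
      rw [he₀, AddEquiv.apply_symm_apply, map_zero] at h1
      exact h1)

theorem tqHom_mk (x : H) : tqHom hmm e₀ he₀ 𝔪' 𝔪 h𝔪 h𝔪' (Submodule.Quotient.mk x) =
    Loc.mk 𝔪 H x := rfl

theorem tqHom_bij (hinj : ∀ s : TPoly m O, s ∉ 𝔪 → ∀ x : QLoc hmm e₀ he₀ 𝔪', s • x = 0 → x = 0) :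
    Function.Bijective (tqHom hmm e₀ he₀ 𝔪' 𝔪 h𝔪 h𝔪') := by
  constructor
  · rw [injective_iff_map_eq_zero]
    intro x hx
    obtain ⟨x, rfl⟩ := Submodule.Quotient.mk_surjective _ x
    rw [tqHom_mk, Loc.mk_eq_zero] at hx
    obtain ⟨s, hs, h⟩ := hx
    refine hinj s hs _ ?_
    rw [← Submodule.Quotient.mk_smul, h, Submodule.Quotient.mk_zero]
  · intro y
    obtain ⟨x, rfl⟩ := Loc.mk_surjective 𝔪 (N := H) y
    exact ⟨Submodule.Quotient.mk x, rfl⟩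

/-- **the isomorphism of localisations** -/
def tqE (hinj : ∀ s : TPoly m O, s ∉ 𝔪 → ∀ x : QLoc hmm e₀ he₀ 𝔪', s • x = 0 → x = 0) :
    Loc 𝔪' H' ≃+ Loc 𝔪 H :=
  (qlocE hmm e₀ he₀ 𝔪').trans (AddEquiv.ofBijective _ (tqHom_bij hmm e₀ he₀ 𝔪' 𝔪 h𝔪 h𝔪' hinj))

variable (hinj : ∀ s : TPoly m O, s ∉ 𝔪 → ∀ x : QLoc hmm e₀ he₀ 𝔪', s • x = 0 → x = 0)

theorem tqE_mk (x : H') :
    tqE hmm e₀ he₀ 𝔪' 𝔪 h𝔪 h𝔪' hinj (Loc.mk 𝔪' H' x) = Loc.mk 𝔪 H (e₀ x) := by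
  change tqHom hmm e₀ he₀ 𝔪' 𝔪 h𝔪 h𝔪' (qlocE hmm e₀ he₀ 𝔪' (Loc.mk 𝔪' H' x)) = _
  rw [qlocE_mk, tqHom_mk]

theorem tqE_smul (P : TPoly m' O) (x : Loc 𝔪' H') :
    tqE hmm e₀ he₀ 𝔪' 𝔪 h𝔪 h𝔪' hinj (P • x) =
      inc hmm O P • tqE hmm e₀ he₀ 𝔪' 𝔪 h𝔪 h𝔪' hinj x := by
  obtain ⟨x, rfl⟩ := Loc.mk_surjective 𝔪' (N := H') x
  rw [← map_smul, tqE_mk, tqE_mk, he₀, map_smul]

include h𝔪 h𝔪' hinj in
/-- endomorphisms of `H'` given by elements outside `𝔪` become bijective -/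
theorem loc_map_bij (f : H' →ₗ[TPoly m' O] H') (s : TPoly m O) (hs : s ∉ 𝔪)
    (hf : ∀ x, e₀ (f x) = s • e₀ x) : Function.Bijective (Loc.map 𝔪' f) := by
  have h1 : ∀ x, tqE hmm e₀ he₀ 𝔪' 𝔪 h𝔪 h𝔪' hinj (Loc.map 𝔪' f x) =
      s • tqE hmm e₀ he₀ 𝔪' 𝔪 h𝔪 h𝔪' hinj x := by
    intro x
    obtain ⟨x, rfl⟩ := Loc.mk_surjective 𝔪' (N := H') x
    rw [Loc.map_mk, tqE_mk, tqE_mk, hf, map_smul]
  have h2 : Function.Bijective (fun x : Loc 𝔪 H => s • x) := Loc.smul_bij hs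
  have h3 : (fun x => tqE hmm e₀ he₀ 𝔪' 𝔪 h𝔪 h𝔪' hinj (Loc.map 𝔪' f x)) =
      (fun x : Loc 𝔪 H => s • x) ∘ (tqE hmm e₀ he₀ 𝔪' 𝔪 h𝔪 h𝔪' hinj) := funext h1
  have h4 : Function.Bijective
      ((tqE hmm e₀ he₀ 𝔪' 𝔪 h𝔪 h𝔪' hinj) ∘ (Loc.map 𝔪' f)) := by
    change Function.Bijective (fun x => tqE hmm e₀ he₀ 𝔪' 𝔪 h𝔪 h𝔪' hinj (Loc.map 𝔪' f x))
    rw [h3]
    exact h2.comp (tqE hmm e₀ he₀ 𝔪' 𝔪 h𝔪 h𝔪' hinj).bijective
  exact (Function.Bijective.of_comp_iff' (tqE hmm e₀ he₀ 𝔪' 𝔪 h𝔪 h𝔪' hinj).bijective _).mp h4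

end Main

end Fermat.Agent.TW

end
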