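import Fermat.Agent.TW.HTQ

/-!
Localisation does not depend on the excluded set of primes.
-/

set_option autoImplicit false
set_option linter.unusedSectionVars false

noncomputable section

namespace Fermat.Agent.TW

open IsLocalRing Module Matrix Fermat.Agent.DefRing Polynomial

section Ker

variable {m m' : ℕ} (hmm : m ∣ m') {O : Type} [CommRing O]
  {H : Type} [AddCommGroup H] [Module (TPoly m O) H]
  {H' : Type} [AddCommGroup H'] [Module (TPoly m' O) H']
  (e₀ : H' ≃+ H) (he₀ : ∀ (P : TPoly m' O) (x : H'), e₀ (P • x) = inc hmm O P • e₀ x)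
  (𝔪' : Ideal (TPoly m' O)) [𝔪'.IsPrime]

include he₀ in
theorem inc_symm (P : TPoly m' O) (x : H) : e₀.symm (inc hmm O P • x) = P • e₀.symm x := by
  apply e₀.injective
  rw [he₀, AddEquiv.apply_symm_apply, AddEquiv.apply_symm_apply]

/-- the kernel of the localisation -/
def kerLoc : Submodule (TPoly m O) H where
  carrier := {x | ∃ s ∉ 𝔪', s • e₀.symm x = 0}
  add_mem' := by
    rintro x y ⟨s, hs, hx⟩ ⟨t, ht, hy⟩
    refine ⟨s * t, fun h => ((inferInstance : 𝔪'.IsPrime).mem_or_mem h).elim hs ht, ?_⟩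
    rw [map_add, smul_add, mul_smul, mul_smul, hy, smul_zero, add_zero, smul_comm, hx, smul_zero]
  zero_mem' := ⟨1, fun h => (inferInstance : 𝔪'.IsPrime).ne_top
    ((Ideal.eq_top_iff_one _).mpr h), by rw [map_zero, smul_zero]⟩
  smul_mem' := by
    rintro P x ⟨s, hs, hx⟩
    refine ⟨s, hs, ?_⟩
    rw [← inc_symm hmm e₀ he₀]
    have h1 : inc hmm O s • x = 0 := by
      have h2 := congrArg e₀ hx
      rw [he₀, AddEquiv.apply_symm_apply, map_zero] at h2
      exact h2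
    rw [smul_comm, h1, smul_zero, map_zero]

theorem mem_kerLoc {x : H} : x ∈ kerLoc hmm e₀ he₀ 𝔪' ↔ ∃ s ∉ 𝔪', s • e₀.symm x = 0 := Iff.rfl

/-- the quotient, as a module over the bigger polynomial ring -/
abbrev QLoc : Type := H ⧸ kerLoc hmm e₀ he₀ 𝔪'

/-- comparison map -/
def qlocHom : QLoc hmm e₀ he₀ 𝔪' →+ Loc 𝔪' H' :=
  QuotientAddGroup.lift (kerLoc hmm e₀ he₀ 𝔪').toAddSubgroup
    (((Loc.mk 𝔪' H').toAddMonoidHom).comp e₀.symm.toAddMonoidHom) (fun _ hx =>
      Loc.mk_eq_zero.mpr hx)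

theorem qlocHom_mk (x : H) : qlocHom hmm e₀ he₀ 𝔪' (Submodule.Quotient.mk x) =
    Loc.mk 𝔪' H' (e₀.symm x) := rfl

theorem qlocHom_injective : Function.Injective (qlocHom hmm e₀ he₀ 𝔪') := by
  rw [injective_iff_map_eq_zero]
  intro x hx
  obtain ⟨x, rfl⟩ := Submodule.Quotient.mk_surjective _ x
  rw [qlocHom_mk, Loc.mk_eq_zero] at hx
  exact (Submodule.Quotient.mk_eq_zero _).mpr hx

end Ker

section Main

variable {m m' : ℕ} (hmm : m ∣ m') {O : Type} [CommRing O] [IsDomain O]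
  [IsDiscreteValuationRing O] [IsAdicComplete (maximalIdeal O) O]
  {H : Type} [AddCommGroup H] [Module (TPoly m O) H]
  {H' : Type} [AddCommGroup H'] [Module (TPoly m' O) H'] [Module O H']
  [IsScalarTower O (TPoly m' O) H'] [Module.Finite O H']
  (e₀ : H' ≃+ H) (he₀ : ∀ (P : TPoly m' O) (x : H'), e₀ (P • x) = inc hmm O P • e₀ x)
  (𝔪' : Ideal (TPoly m' O)) [𝔪'.IsMaximal]

theorem qlocHom_surjective : Function.Surjective (qlocHom hmm e₀ he₀ 𝔪') := by
  intro y
  obtain ⟨x, rfl⟩ := Loc.mk_surjective 𝔪' (N := H') y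
  exact ⟨Submodule.Quotient.mk (e₀ x), by rw [qlocHom_mk, AddEquiv.symm_apply_apply]⟩

/-- the quotient is the localisation -/
def qlocE : Loc 𝔪' H' ≃+ QLoc hmm e₀ he₀ 𝔪' :=
  (AddEquiv.ofBijective _ ⟨qlocHom_injective hmm e₀ he₀ 𝔪',
    qlocHom_surjective hmm e₀ he₀ 𝔪'⟩).symm

theorem qlocE_mk (x : H') : qlocE hmm e₀ he₀ 𝔪' (Loc.mk 𝔪' H' x) =
    Submodule.Quotient.mk (e₀ x) := by
  rw [qlocE, AddEquiv.symm_apply_eq]
  change _ = qlocHom hmm e₀ he₀ 𝔪' (Submodule.Quotient.mk (e₀ x))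
  rw [qlocHom_mk, AddEquiv.symm_apply_apply]

theorem qlocE_smul (P : TPoly m' O) (x : Loc 𝔪' H') :
    qlocE hmm e₀ he₀ 𝔪' (P • x) = inc hmm O P • qlocE hmm e₀ he₀ 𝔪' x := by
  obtain ⟨x, rfl⟩ := Loc.mk_surjective 𝔪' (N := H') x
  rw [← map_smul, qlocE_mk, qlocE_mk, he₀, Submodule.Quotient.mk_smul]

variable (h30 : HeckeGal.S30Statement) {p n n' : ℕ} [Fact p.Prime] [NeZero n] (hm : m ≠ 0)
  (hpm : p ∣ m) (hnm : ∀ q : ℕ, q.Prime → q ∣ n → q ∣ m) (hm' : m' ≠ 0)
  [Finite (ResidueField O)] [CharZero O]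
  (hpO : (p : O) ∈ maximalIdeal O) {rbar : GQ →* M2 (ResidueField O)} {sd : SliceData rbar}
  (𝔪 : Ideal (TPoly m O)) [𝔪.IsMaximal]

/-- the residual representation determines the ideal -/
theorem ResId.mem_of_eval {𝔪 : Ideal (TPoly m O)} (h𝔪 : ResId rbar 𝔪)
    {T : Type} [CommRing T] [IsLocalRing T] [Algebra O T] [IsLocalHom (algebraMap O T)]
    (f : TPoly m O →ₐ[O] T)
    (hf : ∀ (l : Pr m) (B : ValuationSubring (AlgebraicClosure ℚ)), B.LiesOverPrime l →
      ∀ τ : GQ, B.IsFrobeniusAt τ l → ∀ o : O, residue O o = (rbar τ).trace →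
        f (MvPolynomial.X l) - algebraMap O T o ∈ maximalIdeal T)
    (s : TPoly m O) (hs : f s ∈ maximalIdeal T) : s ∈ 𝔪 := by
  -- every polynomial is congruent to a constant
  have key : ∀ s : TPoly m O, ∃ o : O, s - MvPolynomial.C o ∈ 𝔪 ∧
      f s - algebraMap O T o ∈ maximalIdeal T := by
    intro s
    induction s using MvPolynomial.induction_on with
    | C a =>
      refine ⟨a, by rw [sub_self]; exact zero_mem _, ?_⟩
      have h1 : f (MvPolynomial.C a) = algebraMap O T a := f.commutes a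
      rw [h1, sub_self]
      exact zero_mem _
    | add s t hs ht =>
      obtain ⟨a, ha, ha'⟩ := hs
      obtain ⟨b, hb, hb'⟩ := ht
      refine ⟨a + b, ?_, ?_⟩
      · rw [map_add, add_sub_add_comm]
        exact add_mem ha hb
      · rw [map_add, map_add, add_sub_add_comm]
        exact add_mem ha' hb'
    | mul_X s l hs =>
      obtain ⟨a, ha, ha'⟩ := hs
      obtain ⟨B, hB, τ, hτ⟩ := Frob.exists_liesOverPrime_isFrobeniusAt
        (L := AlgebraicClosure ℚ) l.2.1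
      obtain ⟨b, hb⟩ := residue_surjective (R := O) (rbar τ).trace
      refine ⟨a * b, ?_, ?_⟩
      · rw [map_mul]
        have e : s * MvPolynomial.X l - MvPolynomial.C a * MvPolynomial.C b =
            MvPolynomial.X l * (s - MvPolynomial.C a) +
              MvPolynomial.C a * (MvPolynomial.X l - MvPolynomial.C b) := by ring
        rw [e]
        exact add_mem (Ideal.mul_mem_left _ _ ha) (Ideal.mul_mem_left _ _ (h𝔪.tmem l B hB τ hτ b hb))
      · rw [map_mul, map_mul]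
        have e : f s * f (MvPolynomial.X l) - algebraMap O T a * algebraMap O T b =
            f (MvPolynomial.X l) * (f s - algebraMap O T a) +
              algebraMap O T a * (f (MvPolynomial.X l) - algebraMap O T b) := by ring
        rw [e]
        exact add_mem (Ideal.mul_mem_left _ _ ha') (Ideal.mul_mem_left _ _ (hf l B hB τ hτ b hb))
  obtain ⟨o, ho, ho'⟩ := key s
  have h1 : algebraMap O T o ∈ maximalIdeal T := by
    have h2 := Ideal.sub_mem _ hs ho'
    rwa [sub_sub_cancel] at h2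
  have h2 : o ∈ maximalIdeal O := by
    rw [mem_maximalIdeal, mem_nonunits_iff] at h1 ⊢
    exact fun hu => h1 (hu.map (algebraMap O T))
  have h3 := add_mem ho (h𝔪.cmem o h2)
  rwa [sub_add_cancel] at h3

/-- traces of a representation reducing to `rbar` -/
theorem trace_sub_mem_of_red {T : Type} [CommRing T] [IsLocalRing T] [Algebra O T]
    [IsLocalHom (algebraMap O T)] {r : GQ →* M2 T} (hr : Red rbar r) (τ : GQ) (o : O)
    (ho : residue O o = (rbar τ).trace) : (r τ).trace - algebraMap O T o ∈ maximalIdeal T := by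
  choose c hc using fun i j => residue_surjective (R := O) (rbar τ i j)
  have h1 : ∀ i j, r τ i j - algebraMap O T (c i j) ∈ maximalIdeal T := fun i j =>
    hr τ i j _ (hc i j)
  have h2 : algebraMap O T (c 0 0 + c 1 1 - o) ∈ maximalIdeal T := by
    have h3 : c 0 0 + c 1 1 - o ∈ maximalIdeal O := by
      rw [← residue_eq_zero_iff, map_sub, map_add, hc, hc, ho, Matrix.trace_fin_two, sub_self]
    rw [mem_maximalIdeal, mem_nonunits_iff] at h3 ⊢
    exact fun hu => h3 (isUnit_of_map_unit (algebraMap O T) _ hu)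
  have e : (r τ).trace - algebraMap O T o = (r τ 0 0 - algebraMap O T (c 0 0)) +
      (r τ 1 1 - algebraMap O T (c 1 1)) + algebraMap O T (c 0 0 + c 1 1 - o) := by
    rw [Matrix.trace_fin_two, map_sub, map_add]; ring
  rw [e]
  exact add_mem (add_mem (h1 0 0) (h1 1 1)) h2

include h30 hm hpm hnm hm' hpO in
/-- **Localisation does not depend on the excluded primes**: elements outside `𝔪` act
injectively on the localisation at `𝔪'`. -/
theorem qloc_inj (h𝔪 : ResId rbar 𝔪)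
    (htf : ∀ (a : O) (x : Loc 𝔪' H'), a ≠ 0 → a • x = 0 → x = 0)
    (hrel : ∀ P : TPoly m ℤ, polyHecke (n := n) hnm P = 0 →
      ∀ x : QLoc hmm e₀ he₀ 𝔪', TWD.Shap.pz m O P • x = 0)
    (R' : HRep (m := m') p n' sd (Loc 𝔪' H')) (s : TPoly m O) (hs : s ∉ 𝔪)
    (x : QLoc hmm e₀ he₀ 𝔪') (hx : s • x = 0) : x = 0 := by
  let _ : Module O (QLoc hmm e₀ he₀ 𝔪') := Module.compHom _ (MvPolynomial.C : O →+* TPoly m O)
  have hC : ∀ (a : O) (x : QLoc hmm e₀ he₀ 𝔪'), a • x = (MvPolynomial.C a : TPoly m O) • x :=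
    fun _ _ => rfl
  have htow : IsScalarTower O (TPoly m O) (QLoc hmm e₀ he₀ 𝔪') := ⟨fun a P x => by
    rw [hC, MvPolynomial.smul_eq_C_mul, mul_smul]⟩
  set e := qlocE hmm e₀ he₀ 𝔪' with he_def
  have he : ∀ (P : TPoly m' O) (x : Loc 𝔪' H'), e (P • x) = inc hmm O P • e x :=
    qlocE_smul hmm e₀ he₀ 𝔪'
  have heO : ∀ (a : O) (x : Loc 𝔪' H'), e (a • x) = a • e x := by
    intro a x
    rw [← Loc.C_smul, he, inc_C, hC]
  let eL : Loc 𝔪' H' ≃ₗ[O] QLoc hmm e₀ he₀ 𝔪' := { e with map_smul' := heO }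
  have hfL : Module.Finite O (Loc 𝔪' H') := Loc.finite 𝔪'
  have hfin : Module.Finite O (QLoc hmm e₀ he₀ 𝔪') := Module.Finite.equiv eL
  have htfQ : ∀ (a : O) (x : QLoc hmm e₀ he₀ 𝔪'), a ≠ 0 → a • x = 0 → x = 0 := by
    intro a x ha hx
    obtain ⟨y, rfl⟩ := eL.surjective x
    rw [← map_smul] at hx
    have h1 : a • y = 0 := eL.injective (hx.trans (map_zero _).symm)
    rw [htf a y ha h1, map_zero]
  -- the action of `TPoly m O` factors through `T'`
  have hX : ∀ l : Pr m, ∃ t : R'.C.T, (∀ P, R'.φ P = t → ∀ x : QLoc hmm e₀ he₀ 𝔪',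
      (MvPolynomial.X l : TPoly m O) • x = inc hmm O P • x) ∧
      (∀ (B : ValuationSubring (AlgebraicClosure ℚ)), B.LiesOverPrime l →
      ∀ τ : GQ, B.IsFrobeniusAt τ l → ∀ o : O, residue O o = (rbar τ).trace →
        t - algebraMap O R'.C.T o ∈ maximalIdeal R'.C.T) := by
    intro l
    obtain ⟨B₀, hB₀, τ₀, hτ₀⟩ := Frob.exists_liesOverPrime_isFrobeniusAt
      (L := AlgebraicClosure ℚ) l.2.1
    have key : ∀ (B : ValuationSubring (AlgebraicClosure ℚ)), B.LiesOverPrime l →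
      ∀ τ : GQ, B.IsFrobeniusAt τ l → ∀ P, R'.φ P = (R'.C.r τ).trace →
        ∀ x : QLoc hmm e₀ he₀ 𝔪', (MvPolynomial.X l : TPoly m O) • x = inc hmm O P • x :=
      fun B hB τ hτ P hP x =>
        X_smul_eq h30 hm hpm hnm hmm hm' hpO htfQ hrel e he R' l B hB τ hτ P hP x
    have hinj : ∀ P P' : TPoly m' O, (∀ x : QLoc hmm e₀ he₀ 𝔪',
        inc hmm O P • x = inc hmm O P' • x) → R'.φ P = R'.φ P' := by
      intro P P' h
      rw [← sub_eq_zero, ← map_sub, R'.ker]
      intro y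
      apply e.injective
      rw [he, map_zero, map_sub, sub_smul, h, sub_self]
    refine ⟨(R'.C.r τ₀).trace, fun P hP => key B₀ hB₀ τ₀ hτ₀ P hP, fun B hB τ hτ o ho => ?_⟩
    obtain ⟨P₀, hP₀⟩ := R'.surj (R'.C.r τ₀).trace
    obtain ⟨P, hP⟩ := R'.surj (R'.C.r τ).trace
    have h1 : R'.φ P₀ = R'.φ P := hinj _ _ fun x => by
      rw [← key B₀ hB₀ τ₀ hτ₀ P₀ hP₀, ← key B hB τ hτ P hP]
    rw [← hP₀, h1, hP]
    exact trace_sub_mem_of_red R'.C.red τ o ho
  choose t ht ht' using hX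
  let f : TPoly m O →ₐ[O] R'.C.T := MvPolynomial.aeval t
  have hf : ∀ (P : TPoly m O) (P' : TPoly m' O), R'.φ P' = f P →
      ∀ x : QLoc hmm e₀ he₀ 𝔪', P • x = inc hmm O P' • x := by
    have hwd : ∀ (P₁ P₂ : TPoly m' O), R'.φ P₁ = R'.φ P₂ → ∀ x : QLoc hmm e₀ he₀ 𝔪',
        inc hmm O P₁ • x = inc hmm O P₂ • x := by
      intro P₁ P₂ h x
      rw [← sub_eq_zero, ← map_sub, R'.ker] at h
      obtain ⟨y, rfl⟩ := e.surjective x
      have h1 := congrArg e (h y)
      rw [he, map_zero, map_sub, sub_smul, sub_eq_zero] at h1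
      exact h1
    intro P
    induction P using MvPolynomial.induction_on with
    | C a =>
      intro P' hP' x
      have h1 : f (MvPolynomial.C a) = R'.φ (MvPolynomial.C a) := by
        rw [MvPolynomial.algHom_C]
        exact (R'.φ.commutes a).symm
      rw [h1] at hP'
      rw [hwd _ _ hP', inc_C]
    | add P Q hP hQ =>
      intro P' hP' x
      obtain ⟨P₁, hP₁⟩ := R'.surj (f P)
      obtain ⟨Q₁, hQ₁⟩ := R'.surj (f Q)
      rw [map_add, ← hP₁, ← hQ₁, ← map_add] at hP'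
      rw [hwd _ _ hP', map_add, add_smul, add_smul, hP _ hP₁, hQ _ hQ₁]
    | mul_X P l hP =>
      intro P' hP' x
      obtain ⟨P₁, hP₁⟩ := R'.surj (f P)
      obtain ⟨Q₁, hQ₁⟩ := R'.surj (t l)
      have hl : f (MvPolynomial.X l) = t l := MvPolynomial.aeval_X _ _
      rw [map_mul, ← hP₁, hl, ← hQ₁, ← map_mul] at hP'
      rw [hwd _ _ hP', map_mul, mul_smul, mul_smul, ht l _ hQ₁, hP _ hP₁]
  -- `f s` is a unit
  have hfs : IsUnit (f s) := by
    by_contra hcon
    refine hs (ResId.mem_of_eval h𝔪 f (fun l B hB τ hτ o ho => ?_) s hcon)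
    have hl : f (MvPolynomial.X l) = t l := MvPolynomial.aeval_X _ _
    rw [hl]
    exact ht' l B hB τ hτ o ho
  obtain ⟨u, hu⟩ := hfs.exists_left_inv
  obtain ⟨P, hP⟩ := R'.surj (f s)
  obtain ⟨U, hU⟩ := R'.surj u
  have h1 : inc hmm O P • x = 0 := by rw [← hf s P hP x, hx]
  have h2 : inc hmm O (U * P) • x = 0 := by rw [map_mul, mul_smul, h1, smul_zero]
  have h3 : (1 : TPoly m O) • x = inc hmm O (U * P) • x := hf 1 (U * P) (by
    rw [map_mul, hP, hU, hu, map_one]) x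
  rw [h2, one_smul] at h3
  exact h3

end Main

end Fermat.Agent.TW

end
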