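import Mathlib
set_option autoImplicit false
noncomputable section
namespace Fermat.Agent.TW.TC
open IsLocalRing

section Pow

variable {T : Type*} [CommRing T] (I : Ideal T)

/-- entries in an ideal -/
def Ent (I : Ideal T) (X : Matrix (Fin 2) (Fin 2) T) : Prop := ∀ i j, X i j ∈ I

variable {I}

theorem Ent.add {X Y : Matrix (Fin 2) (Fin 2) T} (hX : Ent I X) (hY : Ent I Y) : Ent I (X + Y) :=
  fun i j => I.add_mem (hX i j) (hY i j)

theorem Ent.mul_right {X : Matrix (Fin 2) (Fin 2) T} (hX : Ent I X)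
    (Y : Matrix (Fin 2) (Fin 2) T) : Ent I (X * Y) := by
  intro i j
  rw [Matrix.mul_apply, Fin.sum_univ_two]
  exact I.add_mem (I.mul_mem_right _ (hX i 0)) (I.mul_mem_right _ (hX i 1))

theorem Ent.mul {J : Ideal T} {X Y : Matrix (Fin 2) (Fin 2) T} (hX : Ent I X) (hY : Ent J Y) :
    Ent (I * J) (X * Y) := by
  intro i j
  rw [Matrix.mul_apply, Fin.sum_univ_two]
  exact (I * J).add_mem (Ideal.mul_mem_mul (hX i 0) (hY 0 j)) (Ideal.mul_mem_mul (hX i 1) (hY 1 j))

theorem Ent.zero : Ent I (0 : Matrix (Fin 2) (Fin 2) T) := fun _ _ => I.zero_mem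

theorem Ent.sum {ι : Type*} (s : Finset ι) (f : ι → Matrix (Fin 2) (Fin 2) T)
    (h : ∀ i ∈ s, Ent I (f i)) : Ent I (∑ i ∈ s, f i) := by
  classical
  induction s using Finset.induction_on with
  | empty => rw [Finset.sum_empty]; exact Ent.zero
  | insert a s ha ih =>
    rw [Finset.sum_insert ha]
    exact (h a (Finset.mem_insert_self a s)).add
      (ih fun i hi => h i (Finset.mem_insert_of_mem hi))

theorem Ent.pow_sub_one {X : Matrix (Fin 2) (Fin 2) T} (h : Ent I (X - 1)) (n : ℕ) :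
    Ent I (X ^ n - 1) := by
  rw [← mul_geom_sum]
  exact h.mul_right _

theorem ent_pow_p {p : ℕ} (hpI : (p : T) ∈ I) {X : Matrix (Fin 2) (Fin 2) T}
    (h : Ent I (X - 1)) {n : ℕ} (hn : Ent (I ^ n) (X - 1)) : Ent (I ^ (n + 1)) (X ^ p - 1) := by
  rw [← mul_geom_sum, pow_succ]
  refine hn.mul ?_
  have h1 : ∑ i ∈ Finset.range p, X ^ i =
      ∑ i ∈ Finset.range p, (X ^ i - 1) + (p : T) • (1 : Matrix (Fin 2) (Fin 2) T) := by
    rw [Finset.sum_sub_distrib, Finset.sum_const, Finset.card_range, Nat.cast_smul_eq_nsmul]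
    abel
  rw [h1]
  refine (Ent.sum _ _ fun i _ => h.pow_sub_one i).add fun i j => ?_
  rw [Matrix.smul_apply, smul_eq_mul]
  exact I.mul_mem_right _ hpI

theorem ent_pow_pow {p : ℕ} (hpI : (p : T) ∈ I) {X : Matrix (Fin 2) (Fin 2) T}
    (h : Ent I (X - 1)) (n : ℕ) : Ent (I ^ n) (X ^ p ^ n - 1) := by
  induction n with
  | zero => rw [pow_zero]; intro i j; simp
  | succ n ih =>
    rw [pow_succ p, pow_mul]
    exact ent_pow_p hpI (h.pow_sub_one _) ih

end Pow

section Loc

variable {R : Type*} [CommRing R] [IsLocalRing R]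

theorem exists_pow_eq {X : Matrix (Fin 2) (Fin 2) R} (hX : Ent (maximalIdeal R) (X - 1)) (j : ℕ) :
    ∃ a b : R, X ^ j = a • X + b • 1 ∧ a - (j : R) ∈ maximalIdeal R ∧
      b - (1 - (j : R)) ∈ maximalIdeal R := by
  have hCH : X * X = X.trace • X - X.det • 1 := by
    ext i j
    fin_cases i <;> fin_cases j <;>
      simp [Matrix.mul_apply, Fin.sum_univ_two, Matrix.trace_fin_two, Matrix.det_fin_two] <;> ring
  have h00 : X 0 0 - 1 ∈ maximalIdeal R := by simpa using hX 0 0
  have h11 : X 1 1 - 1 ∈ maximalIdeal R := by simpa using hX 1 1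
  have h01 : X 0 1 ∈ maximalIdeal R := by simpa using hX 0 1
  have ht : X.trace - 2 ∈ maximalIdeal R := by
    rw [Matrix.trace_fin_two]
    have : X 0 0 + X 1 1 - 2 = (X 0 0 - 1) + (X 1 1 - 1) := by ring
    rw [this]
    exact Ideal.add_mem _ h00 h11
  have hd : X.det - 1 ∈ maximalIdeal R := by
    rw [Matrix.det_fin_two]
    have : X 0 0 * X 1 1 - X 0 1 * X 1 0 - 1 = (X 0 0 - 1) * X 1 1 + (X 1 1 - 1) - X 0 1 * X 1 0 := by
      ring
    rw [this]
    exact Ideal.sub_mem _ (Ideal.add_mem _ (Ideal.mul_mem_right _ _ h00) h11)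
      (Ideal.mul_mem_right _ _ h01)
  induction j with
  | zero => exact ⟨0, 1, by simp, by simp, by simp⟩
  | succ j ih =>
    obtain ⟨a, b, h1, h2, h3⟩ := ih
    refine ⟨a * X.trace + b, -(X.det * a), ?_, ?_, ?_⟩
    · rw [pow_succ, h1, add_mul, smul_mul_assoc, smul_mul_assoc, one_mul, hCH]
      simp only [smul_sub, smul_smul, add_smul, neg_smul]
      rw [mul_comm X.det a]
      abel
    · have : a * X.trace + b - ((j + 1 : ℕ) : R) =
          a * (X.trace - 2) + 2 * (a - j) + (b - (1 - (j : R))) := by push_cast; ring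
      rw [this]
      exact Ideal.add_mem _ (Ideal.add_mem _ (Ideal.mul_mem_left _ _ ht)
        (Ideal.mul_mem_left _ _ h2)) h3
    · have : -(X.det * a) - (1 - ((j + 1 : ℕ) : R)) = -(a * (X.det - 1)) - (a - j) := by
        push_cast; ring
      rw [this]
      exact Ideal.sub_mem _ (Ideal.neg_mem_iff _ |>.2 (Ideal.mul_mem_left _ _ hd)) h2

theorem commute_of_pow {F X : Matrix (Fin 2) (Fin 2) R} (h2 : IsUnit (2 : R)) (hF : IsUnit F.det)
    (hreg : IsUnit (F.trace ^ 2 - 4 * F.det)) (hX : Ent (maximalIdeal R) (X - 1)) {j : ℕ}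
    (hj : (j : R) - 1 ∈ maximalIdeal R) (h : F * X = X ^ j * F) : F * X = X * F := by
  obtain ⟨a, b, h1, ha, -⟩ := exists_pow_eq hX j
  have ha1 : a - 1 ∈ maximalIdeal R := by
    have : a - 1 = (a - j) + ((j : R) - 1) := by ring
    rw [this]
    exact Ideal.add_mem _ ha hj
  obtain ⟨w, hw⟩ := h2
  have hw1 : (↑w⁻¹ : R) * 2 = 1 := by rw [← hw]; exact w.inv_mul
  obtain ⟨F', hF', hF''⟩ : ∃ F', F * F' = 1 ∧ F' * F = 1 := by
    refine ⟨F⁻¹, Matrix.mul_nonsing_inv F hF, Matrix.nonsing_inv_mul F hF⟩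
  have htr : X.trace = a * X.trace + 2 * b := by
    have e1 : (F * X * F').trace = X.trace := by
      rw [mul_assoc, Matrix.trace_mul_comm, mul_assoc, hF'', mul_one]
    rw [h, mul_assoc, hF', mul_one, h1, Matrix.trace_add, Matrix.trace_smul, Matrix.trace_smul,
      Matrix.trace_one, smul_eq_mul, smul_eq_mul] at e1
    rw [Fintype.card_fin, Nat.cast_two] at e1
    linear_combination -e1
  set s : R := ↑w⁻¹ * X.trace with hs
  have hb : b = s * (1 - a) := by
    rw [hs]
    linear_combination (-(↑w⁻¹ : R)) * htr - b * hw1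
  set Y : Matrix (Fin 2) (Fin 2) R := X - s • 1 with hY
  have hFY : F * Y = a • (Y * F) := by
    have e1 : X ^ j = a • Y + s • 1 := by
      rw [h1, hb, hY, smul_sub, smul_smul]
      module
    rw [hY, mul_sub, h, e1, add_mul, smul_mul_assoc, smul_mul_assoc, one_mul, mul_smul_comm,
      mul_one, add_sub_cancel_right]
  have hCH : F * F = F.trace • F - F.det • 1 := by
    ext i j
    fin_cases i <;> fin_cases j <;>
      simp [Matrix.mul_apply, Fin.sum_univ_two, Matrix.trace_fin_two, Matrix.det_fin_two] <;> ring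
  set M : Matrix (Fin 2) (Fin 2) R := (a * F.trace) • F - ((1 + a) * F.det) • 1 with hM
  have hYM : (1 - a) • (Y * M) = 0 := by
    have e1 : F * (F * Y) = (a * a) • (Y * (F * F)) := by
      rw [hFY, mul_smul_comm, ← mul_assoc, hFY, smul_mul_assoc, smul_smul, mul_assoc]
    have e2 : F * (F * Y) = (F.trace * a) • (Y * F) - F.det • Y := by
      rw [← mul_assoc, hCH, sub_mul, smul_mul_assoc, hFY, smul_smul, smul_mul_assoc, one_mul]
    rw [e2, hCH, mul_sub, mul_smul_comm, mul_smul_comm, mul_one] at e1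
    rw [hM, mul_sub, mul_smul_comm, mul_smul_comm, mul_one]
    have e3 := sub_eq_zero.2 e1
    rw [← e3]
    module
  have hMdet : IsUnit M.det := by
    have e1 : M.det = F.det * ((1 + a) ^ 2 * F.det - a * F.trace ^ 2) := by
      rw [hM]
      simp only [Matrix.det_fin_two, Matrix.trace_fin_two, Matrix.sub_apply, Matrix.smul_apply,
        smul_eq_mul, Matrix.one_apply_eq, Matrix.one_apply_ne (show (0 : Fin 2) ≠ 1 by decide),
        Matrix.one_apply_ne (show (1 : Fin 2) ≠ 0 by decide)]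
      ring
    rw [e1]
    refine hF.mul ?_
    have e2 : (1 + a) ^ 2 * F.det - a * F.trace ^ 2 =
        -(F.trace ^ 2 - 4 * F.det) + (a - 1) * ((a + 3) * F.det - F.trace ^ 2) := by ring
    rw [e2]
    by_contra hnu
    have e3 := (mem_maximalIdeal _).2 hnu
    have e4 : F.trace ^ 2 - 4 * F.det ∈ maximalIdeal R := by
      have e5 : F.trace ^ 2 - 4 * F.det =
          (a - 1) * ((a + 3) * F.det - F.trace ^ 2) -
          (-(F.trace ^ 2 - 4 * F.det) + (a - 1) * ((a + 3) * F.det - F.trace ^ 2)) := by ring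
      rw [e5]
      exact Ideal.sub_mem _ (Ideal.mul_mem_right _ _ ha1) e3
    exact (mem_maximalIdeal _).1 e4 hreg
  have hY0 : (1 - a) • Y = 0 := by
    have e1 : (1 - a) • (Y * M) * M⁻¹ = 0 := by rw [hYM, zero_mul]
    rwa [smul_mul_assoc, mul_assoc, Matrix.mul_nonsing_inv M hMdet, mul_one] at e1
  have hYF : F * Y = Y * F := by
    rw [hFY, ← smul_mul_assoc]
    have : a • Y = Y := by
      have e1 : (1 - a) • Y = Y - a • Y := by module
      rw [e1] at hY0
      exact (sub_eq_zero.1 hY0).symm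
    rw [this]
  have hXY : X = Y + s • 1 := by rw [hY]; abel
  rw [hXY, mul_add, add_mul, hYF, mul_smul_comm, smul_mul_assoc, mul_one, one_mul]

end Loc

end Fermat.Agent.TW.TC
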