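import Fermat.Agent.TWP.Tame2
import Fermat.Agent.ORD.Ram

/-!
Commutation of a Frobenius element with tame inertia, for a lift of a residually unramified
representation with distinct Frobenius eigenvalues at a prime `q ≡ 1 (mod p)`.
-/

set_option autoImplicit false

namespace Fermat.Agent.TW

open scoped Pointwise
open IsLocalRing
open Fermat.Agent.DefRing (GQ M2 MatCont)
open Fermat.Agent.TWP hiding GQ M2

section mat

variable {R : Type} [CommRing R]

/-- Cayley–Hamilton for `2 × 2` matrices. -/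
lemma m2_sq (X : M2 R) : X * X = X.trace • X - X.det • (1 : M2 R) := by
  ext i j
  fin_cases i <;> fin_cases j <;>
  · simp [Matrix.mul_apply, Fin.sum_univ_two, Matrix.trace_fin_two, Matrix.det_fin_two]
    ring

lemma m2_pow_one_add {I : Ideal R} {N : M2 R} (hN : ∀ i j, N i j ∈ I) (m : ℕ) :
    ∃ X : M2 R, (∀ i j, X i j ∈ I ^ 2) ∧ (1 + N) ^ m = 1 + m • N + X := by
  have hmul : ∀ A B : M2 R, (∀ i j, A i j ∈ I) → (∀ i j, B i j ∈ I) →
      ∀ i j, (A * B) i j ∈ I ^ 2 := by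
    intro A B hA hB i j
    rw [Matrix.mul_apply, pow_two]
    exact Ideal.sum_mem _ fun l _ => Ideal.mul_mem_mul (hA i l) (hB l j)
  induction m with
  | zero => exact ⟨0, fun i j => by simp, by simp⟩
  | succ m ih =>
    obtain ⟨X, hX, hX'⟩ := ih
    refine ⟨(m • N) * N + X * (1 + N), fun i j => ?_, ?_⟩
    · rw [Matrix.add_apply]
      refine Ideal.add_mem _ (hmul _ _ (fun i j => ?_) hN i j) ?_
      · rw [Matrix.smul_apply]
        exact nsmul_mem (hN i j) m
      · rw [Matrix.mul_apply]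
        exact Ideal.sum_mem _ fun l _ => Ideal.mul_mem_right _ _ (hX i l)
    · rw [pow_succ, hX', succ_nsmul]
      noncomm_ring

lemma m2_pow_step {p : ℕ} {m : Ideal R} (hp : (p : R) ∈ m) {n : ℕ} {M : M2 R}
    (hM : ∀ i j, (M - 1) i j ∈ m ^ (n + 1)) (i j : Fin 2) : (M ^ p - 1) i j ∈ m ^ (n + 2) := by
  obtain ⟨X, hX, hX'⟩ := m2_pow_one_add hM p
  rw [add_sub_cancel] at hX'
  rw [hX', add_sub_right_comm, add_sub_cancel_left, Matrix.add_apply, Matrix.smul_apply]
  refine Ideal.add_mem _ ?_ ?_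
  · rw [nsmul_eq_mul, pow_succ']
    exact Ideal.mul_mem_mul hp (hM i j)
  · refine Ideal.pow_le_pow_right (show n + 2 ≤ (n + 1) * 2 by omega) ?_
    rw [pow_mul]
    exact hX i j

lemma m2_pow_pow {p : ℕ} {m : Ideal R} (hp : (p : R) ∈ m) {M : M2 R}
    (hM : ∀ i j, (M - 1) i j ∈ m) (n : ℕ) : ∀ i j, (M ^ p ^ n - 1) i j ∈ m ^ (n + 1) := by
  induction n with
  | zero => simpa using hM
  | succ n ih =>
    rw [pow_succ p n, pow_mul]
    exact m2_pow_step hp ih

lemma m2_pow_eq {m : Ideal R} {X : M2 R} (hX : ∀ i j, (X - 1) i j ∈ m) (n : ℕ) :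
    ∃ a b : R, X ^ n = a • X + b • (1 : M2 R) ∧ a - n ∈ m ∧ b - (1 - n) ∈ m := by
  have hs : X.trace - 2 ∈ m := by
    have h0 := hX 0 0
    have h1 := hX 1 1
    rw [Matrix.sub_apply, Matrix.one_apply_eq] at h0 h1
    rw [Matrix.trace_fin_two]
    have := Ideal.add_mem _ h0 h1
    convert this using 1
    ring
  have he : X.det - 1 ∈ m := by
    have h0 := hX 0 0
    have h1 := hX 1 1
    have h2 := hX 0 1
    rw [Matrix.sub_apply, Matrix.one_apply_eq] at h0 h1
    rw [Matrix.sub_apply, Matrix.one_apply_ne (by decide), sub_zero] at h2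
    rw [Matrix.det_fin_two]
    have := Ideal.sub_mem _ (Ideal.add_mem _ (Ideal.mul_mem_right (X 1 1) _ h0) h1)
      (Ideal.mul_mem_right (X 1 0) _ h2)
    convert this using 1
    ring
  induction n with
  | zero =>
    refine ⟨0, 1, by simp, by simp, by simp⟩
  | succ n ih =>
    obtain ⟨a, b, h, ha, hb⟩ := ih
    refine ⟨a * X.trace + b, - (a * X.det), ?_, ?_, ?_⟩
    · rw [pow_succ, h, add_mul, smul_mul_assoc, smul_mul_assoc, one_mul, m2_sq]
      rw [smul_sub, smul_smul, smul_smul, add_smul, neg_smul]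
      abel
    · have := Ideal.add_mem _ (Ideal.add_mem _ (Ideal.mul_mem_left _ a hs)
        (Ideal.mul_mem_left _ 2 ha)) hb
      convert this using 1
      push_cast
      ring
    · have := Ideal.add_mem _ (Ideal.mul_mem_left _ a he) ha
      rw [← neg_mem_iff]
      convert this using 1
      push_cast
      ring

/-- the core computation -/
lemma m2_core {F X : M2 R} {a b : R} (h2 : IsUnit (2 : R)) (hF : IsUnit F)
    (h : F * X = (a • X + b • (1 : M2 R)) * F)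
    (hu : IsUnit (F.det * (F.det * (1 + a) ^ 2 - a * F.trace ^ 2))) : F * X = X * F := by
  obtain ⟨F', hF1, hF2⟩ : ∃ F' : M2 R, F * F' = 1 ∧ F' * F = 1 := by
    obtain ⟨u, rfl⟩ := hF
    exact ⟨(u⁻¹ : (M2 R)ˣ), by simp, by simp⟩
  have hconj : F * X * F' = a • X + b • (1 : M2 R) := by
    rw [h, mul_assoc, hF1, mul_one]
  have htr : X.trace = a * X.trace + 2 * b := by
    have h1 := congrArg Matrix.trace hconj
    rw [Matrix.trace_mul_comm, ← mul_assoc, hF2, one_mul, Matrix.trace_add, Matrix.trace_smul,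
      Matrix.trace_smul, Matrix.trace_one, Fintype.card_fin] at h1
    rw [smul_eq_mul, smul_eq_mul] at h1
    push_cast at h1
    linear_combination h1
  obtain ⟨Y, hY⟩ : ∃ Y : M2 R, Y = (2 : R) • X - X.trace • (1 : M2 R) := ⟨_, rfl⟩
  have hFY : F * Y = a • (Y * F) := by
    rw [hY, mul_sub, mul_smul_comm, h, mul_smul_comm, mul_one, sub_mul, smul_mul_assoc,
      smul_mul_assoc, one_mul, add_mul, smul_mul_assoc, smul_mul_assoc, one_mul, smul_sub,
      smul_add, smul_smul, smul_smul, smul_smul, smul_smul]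
    have : X.trace • F = (a * X.trace) • F + (2 * b) • F := by rw [← add_smul, ← htr]
    rw [this, mul_comm 2 a]
    abel
  have hF2Y : F * F * Y = (a * a) • (Y * (F * F)) := by
    rw [mul_assoc, hFY, mul_smul_comm, ← mul_assoc, hFY, smul_mul_assoc, smul_smul, mul_assoc]
  obtain ⟨G, hG⟩ : ∃ G : M2 R, G = (a * F.trace) • F - (F.det * (1 + a)) • (1 : M2 R) :=
    ⟨_, rfl⟩
  have hYG : (1 - a) • (Y * G) = 0 := by
    have h3 : F.trace • (F * Y) - F.det • Y
        = (a * a) • (F.trace • (Y * F) - F.det • Y) := by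
      have h4 := hF2Y
      rw [m2_sq F, sub_mul, smul_mul_assoc, smul_mul_assoc, one_mul, mul_sub, mul_smul_comm,
        mul_smul_comm, mul_one] at h4
      exact h4
    rw [hFY] at h3
    rw [hG, mul_sub, mul_smul_comm, mul_smul_comm, mul_one]
    simp only [smul_sub, smul_smul] at h3 ⊢
    have h5 : ((1 - a) * (a * F.trace)) • (Y * F) - ((1 - a) * (F.det * (1 + a))) • Y
        = (F.trace * a) • (Y * F) - F.det • Y -
          ((a * a * F.trace) • (Y * F) - (a * a * F.det) • Y) := by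
      module
    rw [h5, h3, sub_self]
  have hGu : IsUnit G := by
    rw [Matrix.isUnit_iff_isUnit_det]
    convert hu using 1
    rw [hG, Matrix.det_fin_two]
    simp [Matrix.det_fin_two, Matrix.trace_fin_two]
    ring
  obtain ⟨G', hG1⟩ : ∃ G' : M2 R, G * G' = 1 := by
    obtain ⟨u, hu⟩ := hGu
    exact ⟨(u⁻¹ : (M2 R)ˣ), by rw [← hu]; simp⟩
  have hY0 : (1 - a) • Y = 0 := by
    have h3 := congrArg (· * G') hYG
    simp only [smul_mul_assoc, mul_assoc, hG1, mul_one, zero_mul] at h3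
    exact h3
  have hcomm : F * Y = Y * F := by
    rw [hFY]
    have h3 : ((1 - a) • Y) * F = 0 := by rw [hY0, zero_mul]
    rw [smul_mul_assoc, sub_smul, one_smul] at h3
    exact (sub_eq_zero.1 h3).symm
  rw [hY, mul_sub, sub_mul, mul_smul_comm, mul_smul_comm, smul_mul_assoc, smul_mul_assoc,
    one_mul, mul_one, sub_left_inj] at hcomm
  obtain ⟨v, hv⟩ := h2
  have h6 := congrArg (fun M : M2 R => (↑v⁻¹ : R) • M) hcomm
  simp only [smul_smul, ← hv, Units.inv_mul, one_smul] at h6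
  exact h6

end mat

section kum

variable {p : ℕ} [hp : Fact p.Prime] {q : Nat.Primes}

lemma frob_conj_mem {τ φ : GQ} (hτ : τ ∈ (Pl q).inertiaSubgroupIn ℚ)
    (hφ : (Pl q).IsFrobeniusAt φ q) : φ * τ * φ⁻¹ ∈ (Pl q).inertiaSubgroupIn ℚ := by
  have h1 : φ • Pl q = Pl q := ((isFrobeniusAt_iff _ _ _).mp hφ).1
  have h2 : φ⁻¹ • Pl q = Pl q := by rw [inv_smul_eq_iff]; exact h1.symm
  have h3 : τ ∈ (φ⁻¹ • Pl q).inertiaSubgroupIn ℚ := by rw [h2]; exact hτ
  have h4 := inertia_conj h3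
  rwa [inv_inv] at h4

lemma kumI_conj (hq : (q : ℕ) ≠ p) (hqp : p ∣ (q : ℕ) - 1) {c : Qb} (hc0 : c ≠ 0)
    (hc : c ^ p = ((q : ℕ) : Qb)) {τ φ : GQ} (hτ : τ ∈ (Pl q).inertiaSubgroupIn ℚ)
    (hφ : (Pl q).IsFrobeniusAt φ q) :
    kumI hq c hc0 hc ⟨φ * τ * φ⁻¹, frob_conj_mem hτ hφ⟩ = kumI hq c hc0 hc ⟨τ, hτ⟩ := by
  apply Units.ext
  show (φ * τ * φ⁻¹) c / c = τ c / c
  have hcop : p.Coprime (q : ℕ) := (Nat.coprime_primes hp.out q.2).mpr (Ne.symm hq)
  have hroot : ∀ σ : GQ, (σ c / c) ^ p = 1 := by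
    intro σ
    rw [div_pow, ← map_pow, hc, map_natCast, div_self]
    exact_mod_cast q.2.ne_zero
  have h1 : τ (φ⁻¹ c / c) = φ⁻¹ c / c :=
    Fermat.Agent.QuadRep.inertia_smul_root q.2 (Pl_lies q) hτ hp.out.pos hcop _ (hroot _)
  have h2 : φ (τ c / c) = τ c / c := by
    rw [Fermat.Agent.QuadRep.frobenius_smul_root q.2 (Pl_lies q) hφ hp.out.pos hcop _ (hroot _)]
    obtain ⟨m, hm⟩ := hqp
    have h3 : (q : ℕ) = p * m + 1 := by
      have := q.2.one_lt
      omega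
    rw [h3, pow_succ, pow_mul, hroot, one_pow, one_mul]
  have h3 : (φ * τ * φ⁻¹) c = φ (τ (φ⁻¹ c)) := rfl
  have h4 : φ⁻¹ c = (φ⁻¹ c / c) * c := by rw [div_mul_cancel₀ _ hc0]
  have h5 : φ (φ⁻¹ c / c) * φ c = c := by
    rw [← map_mul, div_mul_cancel₀ _ hc0]
    show (φ * φ⁻¹) c = c
    rw [mul_inv_cancel]
    rfl
  have h6 : τ c = τ c / c * c := by rw [div_mul_cancel₀ _ hc0]
  have h7 : φ (τ c) = τ c / c * φ c := by
    conv_lhs => rw [h6]
    rw [map_mul, h2]
  rw [h3, h4, map_mul, h1, map_mul, h7, mul_left_comm, h5, mul_div_assoc, div_self hc0, mul_one]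

end kum

section main

/-- **TAMEC**: Frobenius commutes with tame inertia. -/
theorem commute_inertia {T : Type} [CommRing T] [IsLocalRing T] [IsHausdorff (maximalIdeal T) T]
    {p : ℕ} [hp : Fact p.Prime] (hp2 : p ≠ 2) (hpT : (p : T) ∈ maximalIdeal T)
    (r : GQ →* M2 T) (hcont : MatCont T r)
    {q : Nat.Primes} (hq : p ∣ (q : ℕ) - 1)
    {c : Qb} (hc : c ^ p = ((q : ℕ) : Qb)) {τ φ : GQ}
    (hτ : τ ∈ (Pl q).inertiaSubgroupIn ℚ) (hτc : τ c ≠ c) (hφ : (Pl q).IsFrobeniusAt φ q)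
    (hI : ∀ σ ∈ (Pl q).inertiaSubgroupIn ℚ, ∀ i j, (r σ - 1) i j ∈ maximalIdeal T)
    (hreg : IsUnit ((r φ).trace ^ 2 - 4 * (r φ).det)) :
    r φ * r τ = r τ * r φ := by
  have hqp : (q : ℕ) ≠ p := by
    intro h
    rw [h] at hq
    have h1 := hp.out.two_le
    have h2 := Nat.le_of_dvd (by omega) hq
    omega
  have hc0 : c ≠ 0 := by
    rintro rfl
    rw [zero_pow hp.out.ne_zero] at hc
    exact q.2.ne_zero (by exact_mod_cast hc.symm)
  have hrunit : ∀ σ : GQ, IsUnit (r σ) := fun σ => (Group.isUnit σ).map r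
  have h2u : IsUnit (2 : T) := by
    by_contra h2
    have h3 : (2 : T) ∈ maximalIdeal T := h2
    obtain ⟨m, hm⟩ := hp.out.odd_of_ne_two hp2
    have h4 : (1 : T) ∈ maximalIdeal T := by
      have h5 := Ideal.sub_mem _ hpT (Ideal.mul_mem_right (m : T) _ h3)
      convert h5 using 1
      rw [hm]
      push_cast
      ring
    exact (Ideal.ne_top_iff_one _).1 (maximalIdeal.isMaximal T).ne_top h4
  -- reduction to finite level
  suffices hk : ∀ k : ℕ, ∀ i j, (r φ * r τ - r τ * r φ) i j ∈ maximalIdeal T ^ k by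
    rw [← sub_eq_zero]
    ext i j
    refine IsHausdorff.haus ‹_› _ fun k => ?_
    rw [SModEq.zero]
    have h1 := hk k i j
    rw [smul_eq_mul, Ideal.mul_top]
    exact h1
  intro k
  set π := Ideal.Quotient.mk (maximalIdeal T ^ k) with hπ
  let g : GQ →* M2 (T ⧸ maximalIdeal T ^ k) :=
    ((π.mapMatrix : M2 T →+* M2 (T ⧸ maximalIdeal T ^ k)) : M2 T →* M2 (T ⧸ maximalIdeal T ^ k)).comp r
  have hg : ∀ σ, g σ = (r σ).map π := fun σ => rfl
  let f : ↥((Pl q).inertiaSubgroupIn ℚ) →* (M2 (T ⧸ maximalIdeal T ^ k))ˣ :=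
    g.toHomUnits.comp (Subgroup.subtype _)
  have hfv : ∀ σ, ((f σ : (M2 (T ⧸ maximalIdeal T ^ k))ˣ) : M2 (T ⧸ maximalIdeal T ^ k)) = g σ.1 :=
    fun σ => rfl
  have hmem : ∀ M : M2 T, (∀ i j, (M - 1) i j ∈ maximalIdeal T ^ k) → M.map π = 1 := by
    intro M hM
    ext i j
    have h1 := Ideal.Quotient.eq_zero_iff_mem.2 (hM i j)
    rw [Matrix.sub_apply, map_sub, sub_eq_zero] at h1
    rw [Matrix.map_apply]
    refine h1.trans ?_
    by_cases hij : i = j
    · subst hij; simp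
    · rw [Matrix.one_apply_ne hij, Matrix.one_apply_ne hij, map_zero]
  have hfp : ∀ σ, f σ ^ p ^ (k + 1) = 1 := by
    intro σ
    apply Units.ext
    rw [Units.val_pow_eq_pow_val, hfv, ← map_pow, Units.val_one, hg]
    refine hmem _ fun i j => ?_
    rw [map_pow]
    exact Ideal.pow_le_pow_right (by omega) (m2_pow_pow hpT (hI σ.1 σ.2) (k + 1) i j)
  obtain ⟨L, hL, hL'⟩ := hcont k
  have hκp : ∀ σ, kumI hqp c hc0 hc σ ^ p = 1 := by
    intro σ
    apply Units.ext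
    rw [Units.val_pow_eq_pow_val, Units.val_one]
    show (σ.1 c / c) ^ p = 1
    rw [div_pow, ← map_pow, hc, map_natCast, div_self]
    exact_mod_cast q.2.ne_zero
  have hcfd : FiniteDimensional ℚ (IntermediateField.adjoin ℚ {c}) :=
    IntermediateField.adjoin.finiteDimensional (Algebra.IsAlgebraic.isAlgebraic c).isIntegral
  obtain ⟨j, hj⟩ := tame_gen hqp hc hτ hτc (f.prod (kumI hqp c hc0 hc))
    (L ⊔ IntermediateField.adjoin ℚ {c}) (by
      intro σ hσ
      rw [MonoidHom.prod_apply, Prod.mk_eq_one]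
      constructor
      · apply Units.ext
        rw [hfv, Units.val_one, hg]
        exact hmem _ (hL' σ.1 fun x hx => hσ x ((le_sup_left : L ≤ _) hx))
      · apply Units.ext
        show σ.1 c / c = 1
        rw [hσ c ((le_sup_right : IntermediateField.adjoin ℚ {c} ≤ _)
          (IntermediateField.mem_adjoin_simple_self ℚ c)), div_self hc0]) (by
      intro σ
      refine ⟨k + 1, ?_⟩
      rw [MonoidHom.prod_apply, Prod.pow_mk, Prod.mk_eq_one, hfp]
      refine ⟨rfl, ?_⟩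
      rw [pow_succ', pow_mul, hκp, one_pow]) ⟨φ * τ * φ⁻¹, frob_conj_mem hτ hφ⟩
  have hj1 : f ⟨φ * τ * φ⁻¹, frob_conj_mem hτ hφ⟩ = f ⟨τ, hτ⟩ ^ j := congrArg Prod.fst hj
  have hj2 : kumI hqp c hc0 hc ⟨φ * τ * φ⁻¹, frob_conj_mem hτ hφ⟩
      = kumI hqp c hc0 hc ⟨τ, hτ⟩ ^ j := congrArg Prod.snd hj
  rw [kumI_conj hqp hq hc0 hc hτ hφ] at hj2
  -- the exponent is `1` modulo `p`
  have hpj : (p : ℤ) ∣ j - 1 := by
    by_contra hnd
    have h1 : kumI hqp c hc0 hc ⟨τ, hτ⟩ ^ (j - 1) = 1 := by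
      rw [zpow_sub, zpow_one, ← hj2, mul_inv_cancel]
    have h2 : IsCoprime (j - 1) (p : ℤ) :=
      ((Nat.prime_iff_prime_int.mp hp.out).coprime_iff_not_dvd.mpr hnd).symm
    obtain ⟨u, v, huv⟩ := h2
    have h3 : kumI hqp c hc0 hc ⟨τ, hτ⟩ = 1 := by
      calc kumI hqp c hc0 hc ⟨τ, hτ⟩ = kumI hqp c hc0 hc ⟨τ, hτ⟩ ^ (u * (j - 1) + v * p) := by
            rw [huv, zpow_one]
        _ = 1 := by
            rw [zpow_add, mul_comm u, zpow_mul, h1, one_zpow, mul_comm v, zpow_mul, zpow_natCast,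
              hκp, one_zpow, mul_one]
    have h4 : τ c / c = 1 := congrArg Units.val h3
    exact hτc ((div_eq_one_iff_eq hc0).mp h4)
  -- a natural exponent
  obtain ⟨n, hn⟩ : ∃ n : ℕ, (n : ℤ) = j % ((p ^ (k + 1) : ℕ) : ℤ) := by
    refine ⟨(j % ((p ^ (k + 1) : ℕ) : ℤ)).toNat, Int.toNat_of_nonneg (Int.emod_nonneg _ ?_)⟩
    exact_mod_cast (pow_pos hp.out.pos _).ne'
  have hnj : ((p ^ (k + 1) : ℕ) : ℤ) ∣ n - j := by
    rw [hn]
    exact ⟨-(j / ((p ^ (k + 1) : ℕ) : ℤ)), by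
      have := Int.emod_add_mul_ediv j ((p ^ (k + 1) : ℕ) : ℤ)
      linear_combination this⟩
  have hj3 : f ⟨φ * τ * φ⁻¹, frob_conj_mem hτ hφ⟩ = f ⟨τ, hτ⟩ ^ n := by
    rw [hj1]
    obtain ⟨w, hw⟩ := hnj
    have h1 : (n : ℤ) = j + ((p ^ (k + 1) : ℕ) : ℤ) * w := by linear_combination hw
    rw [← zpow_natCast, h1, zpow_add, zpow_mul, zpow_natCast, hfp, one_zpow, mul_one]
  have hpn : (n : T) - 1 ∈ maximalIdeal T := by
    have h1 : (p : ℤ) ∣ n - 1 := by
      have h2 : (p : ℤ) ∣ n - j := by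
        refine dvd_trans ?_ hnj
        rw [pow_succ']
        push_cast
        exact dvd_mul_right _ _
      have := dvd_add h2 hpj
      rwa [sub_add_sub_cancel] at this
    obtain ⟨w, hw⟩ := h1
    have h3 : (n : T) - 1 = (p : T) * (w : T) := by
      have := congrArg (Int.cast : ℤ → T) hw
      push_cast at this
      exact this
    rw [h3]
    exact Ideal.mul_mem_right _ _ hpT
  obtain ⟨a, b, hab, ha, hb⟩ := m2_pow_eq (hI τ hτ) n
  have ha1 : a - 1 ∈ maximalIdeal T := by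
    have := Ideal.add_mem _ ha hpn
    convert this using 1
    ring
  have hmain : g φ * g τ = (π a • g τ + π b • (1 : M2 (T ⧸ maximalIdeal T ^ k))) * g φ := by
    have h1 := congrArg Units.val hj3
    rw [Units.val_pow_eq_pow_val, hfv, hfv] at h1
    have h2 : g τ ^ n = π a • g τ + π b • (1 : M2 (T ⧸ maximalIdeal T ^ k)) := by
      have h3 : (r τ ^ n).map π = (a • r τ + b • (1 : M2 T)).map π := by rw [hab]
      have h4 : (r τ ^ n).map π = g τ ^ n :=
        map_pow (π.mapMatrix : M2 T →+* M2 (T ⧸ maximalIdeal T ^ k)) (r τ) n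
      rw [← h4, h3, hg]
      ext i j
      by_cases hij : i = j
      · subst hij; simp
      · simp [Matrix.one_apply_ne hij]
    rw [← h2, ← h1, ← map_mul]
    show g (φ * τ) = g (φ * τ * φ⁻¹) * g φ
    rw [← map_mul, inv_mul_cancel_right]
  have hdu : IsUnit (r φ).det := (Matrix.isUnit_iff_isUnit_det _).1 (hrunit φ)
  have huT : IsUnit ((r φ).det * ((r φ).det * (1 + a) ^ 2 - a * (r φ).trace ^ 2)) := by
    refine hdu.mul ?_
    have h1 : (r φ).det * (1 + a) ^ 2 - a * (r φ).trace ^ 2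
        = -((r φ).trace ^ 2 - 4 * (r φ).det)
          + (a - 1) * ((r φ).det * (a + 3) - (r φ).trace ^ 2) := by ring
    rw [h1]
    by_contra hcon
    have h2 : (-((r φ).trace ^ 2 - 4 * (r φ).det)
          + (a - 1) * ((r φ).det * (a + 3) - (r φ).trace ^ 2)) ∈ maximalIdeal T := hcon
    have h3 := Ideal.sub_mem _ h2 (Ideal.mul_mem_right
      ((r φ).det * (a + 3) - (r φ).trace ^ 2) _ ha1)
    rw [add_sub_cancel_right, neg_mem_iff] at h3
    exact h3 hreg
  have hdet : (g φ).det = π (r φ).det := (RingHom.map_det π (r φ)).symm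
  have htr : (g φ).trace = π (r φ).trace := by
    rw [hg, Matrix.trace_fin_two, Matrix.trace_fin_two, Matrix.map_apply, Matrix.map_apply,
      map_add]
  have hfin := m2_core (F := g φ) (X := g τ) (a := π a) (b := π b)
    (by have h5 := h2u.map π
        rwa [map_ofNat] at h5) ((Group.isUnit φ).map g) hmain (by
      rw [hdet, htr]
      have h5 := huT.map π
      simpa only [map_mul, map_sub, map_pow, map_add, map_one] using h5)
  intro i j'
  rw [← Ideal.Quotient.eq_zero_iff_mem]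
  have h7 := congrFun (congrFun hfin i) j'
  rw [← map_mul, ← map_mul, hg, hg, Matrix.map_apply, Matrix.map_apply] at h7
  show π _ = 0
  rw [Matrix.sub_apply, map_sub, ← map_mul, ← map_mul, h7, sub_self]

/-- the tame generator generates the image of the units modulo `q`. -/
theorem exists_tame_zeta {p : ℕ} [hp : Fact p.Prime] {q : Nat.Primes} (hqp : (q : ℕ) ≠ p)
    {c : Qb} (hc : c ^ p = ((q : ℕ) : Qb)) {τ : GQ}
    (hτ : τ ∈ (Pl q).inertiaSubgroupIn ℚ) (hτc : τ c ≠ c)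
    {D : Type} [CommGroup D] (hD : ∀ x : D, ∃ k, x ^ p ^ k = 1)
    (χ : (ZMod (q : ℕ))ˣ →* D) (hχ : Function.Surjective χ)
    {ζ : Qb} (hζ : IsPrimitiveRoot ζ (q : ℕ)) (u : (ZMod (q : ℕ))ˣ)
    (hu : τ ζ = ζ ^ (u : ZMod (q : ℕ)).val) (x : D) : ∃ j : ℤ, x = χ u ^ j := by
  have : NeZero (q : ℕ) := ⟨q.2.ne_zero⟩
  let f : ↥((Pl q).inertiaSubgroupIn ℚ) →* D :=
    χ.comp ((hζ.autToPow ℚ).comp (Subgroup.subtype _))
  have hfv : ∀ σ, f σ = χ (hζ.autToPow ℚ σ.1) := fun σ => rfl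
  have hinj : ∀ (σ : GQ) (v : (ZMod (q : ℕ))ˣ), σ ζ = ζ ^ (v : ZMod (q : ℕ)).val →
      hζ.autToPow ℚ σ = v := by
    intro σ v h
    have h1 := hζ.autToPow_spec ℚ σ
    have h2 := hζ.pow_inj (ZMod.val_lt _) (ZMod.val_lt _) (h1.trans h)
    exact Units.ext (ZMod.val_injective _ h2)
  have hfd : FiniteDimensional ℚ (IntermediateField.adjoin ℚ {ζ}) :=
    IntermediateField.adjoin.finiteDimensional (Algebra.IsAlgebraic.isAlgebraic ζ).isIntegral
  obtain ⟨v, rfl⟩ := hχ x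
  have hcop : ((v : ZMod (q : ℕ)).val).Coprime (q : ℕ) := ZMod.val_coe_unit_coprime v
  obtain ⟨s, hs, hsζ⟩ := by
    have : Fact (q : ℕ).Prime := ⟨q.2⟩
    exact Fermat.Agent.ORD.exists_inertia_root (Pl_lies q) 1 (ζ := ζ)
      (ξ := ζ ^ (v : ZMod (q : ℕ)).val) (by simpa using hζ)
      (by simpa using hζ.pow_of_coprime _ hcop)
  obtain ⟨j, hj⟩ := tame_gen hqp hc hτ hτc f (IntermediateField.adjoin ℚ {ζ}) (by
    intro σ hσ
    have h1 : σ.1 ζ = ζ := hσ ζ (IntermediateField.mem_adjoin_simple_self ℚ ζ)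
    rw [hfv, hinj σ.1 1 ?_, map_one]
    rw [h1, Units.val_one]
    have : Fact (1 < (q : ℕ)) := ⟨q.2.one_lt⟩
    rw [ZMod.val_one, pow_one]) (fun σ => hD _) ⟨s, hs⟩
  refine ⟨j, ?_⟩
  rw [hfv, hfv, hinj s v hsζ, hinj τ u hu] at hj
  exact hj

end main

end Fermat.Agent.TW
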